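import Fermat.Prelude.Thm_IsAdicComplete_of_module_finite
import Mathlib.RingTheory.Henselian
import Mathlib.RingTheory.LocalRing.ResidueField.Basic
import Mathlib.RingTheory.Ideal.IdempotentFG
import Mathlib.RingTheory.Adjoin.Basic
import Mathlib.Algebra.Algebra.Subalgebra.IsSimpleOrder
import Mathlib.RingTheory.Noetherian.Basic
import Mathlib.Algebra.MvPolynomial.Eval

/-!
# The generalised eigen-part of a commuting family

For commuting endomorphisms `X i` of a finite module over a complete Noetherian local ring with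
finite residue field and scalars `a i`, there is an idempotent polynomial in the `X i` onto the part
on which every `X i - a i` is topologically nilpotent. It commutes with every intertwiner.
-/

set_option autoImplicit false

noncomputable section

namespace FLTAgent.RT

open IsLocalRing MvPolynomial

variable {O : Type*} [CommRing O] [IsLocalRing O] [IsNoetherianRing O]
  [IsAdicComplete (maximalIdeal O) O] [Finite (ResidueField O)]

section Ring

variable {S : Type*} [CommRing S] [Algebra O S] [Module.Finite O S]

omit [IsNoetherianRing O] [IsAdicComplete (maximalIdeal O) O] in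
theorem finite_quotient_map :
    Finite (S ⧸ (maximalIdeal O).map (algebraMap O S)) := by
  obtain ⟨n, g, hg⟩ := Module.Finite.exists_fin (R := O) (M := S)
  choose σ hσ using fun c : ResidueField O => residue_surjective c
  refine Finite.of_surjective
    (fun c : Fin n → ResidueField O => Ideal.Quotient.mk ((maximalIdeal O).map (algebraMap O S))
      (∑ i, σ (c i) • g i)) fun y => ?_
  obtain ⟨x, rfl⟩ := Ideal.Quotient.mk_surjective y
  obtain ⟨c, rfl⟩ := (Submodule.mem_span_range_iff_exists_fun O).mp (hg ▸ Submodule.mem_top (x := x))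
  refine ⟨fun i => residue O (c i), ?_⟩
  rw [Ideal.Quotient.eq, ← Finset.sum_sub_distrib]
  refine Ideal.sum_mem _ fun i _ => ?_
  rw [← sub_smul, Algebra.smul_def]
  refine Ideal.mul_mem_right _ _ (Ideal.mem_map_of_mem _ ?_)
  rw [← residue_eq_zero_iff, map_sub, hσ, sub_self]

/-- The idempotent of an ideal containing the maximal ideal of the base. -/
theorem exists_idempotent (I : Ideal S) (hI : (maximalIdeal O).map (algebraMap O S) ≤ I) :
    ∃ e : S, IsIdempotentElem e ∧ 1 - e ∈ I ∧
      ∀ n, ∃ k, ∀ x ∈ I ^ k, e * x ∈ (maximalIdeal O).map (algebraMap O S) ^ n := by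
  set J := (maximalIdeal O).map (algebraMap O S) with hJ
  have : Finite (S ⧸ J) := finite_quotient_map
  set Ib : Ideal (S ⧸ J) := I.map (Ideal.Quotient.mk J) with hIb
  have : Finite (Ideal (S ⧸ J)) := Finite.of_injective _ SetLike.coe_injective
  obtain ⟨i, j, hij, he⟩ := Finite.exists_ne_map_eq_of_infinite fun k : ℕ => Ib ^ k
  wlog hlt : i < j generalizing i j
  · exact this j i hij.symm he.symm (by omega)
  have hstep : Ib ^ i = Ib ^ (i + 1) :=
    le_antisymm (he.trans_le (Ideal.pow_le_pow_right (by omega)))
      (Ideal.pow_le_pow_right (Nat.le_succ i))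
  have hst : ∀ d, Ib ^ (i + d) = Ib ^ i := fun d => by
    induction d with
    | zero => rfl
    | succ d ih => rw [← add_assoc, pow_succ, ih, ← pow_succ, ← hstep]
  set k0 := i + 1 with hk0
  have hidem : IsIdempotentElem (Ib ^ k0) := by
    rw [IsIdempotentElem, ← pow_add, hk0, show i + 1 + (i + 1) = i + (i + 2) by omega, hst, hst]
  obtain ⟨eb, heb, hKeb⟩ := (Ideal.isIdempotentElem_iff_of_fg _
    (Ideal.fg_of_isNoetherianRing _)).mp hidem
  obtain ⟨e₀, he₀⟩ := Ideal.Quotient.mk_surjective (1 - eb)
  have : IsAdicComplete (maximalIdeal O) S := IsAdicComplete.of_module_finite _ S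
  have : IsAdicComplete J S := (IsAdicComplete.map_algebraMap_iff _ _).mpr this
  have hroot := (IsAdicComplete.henselianRing S J).is_henselian (Polynomial.X ^ 2 - Polynomial.X)
    (by
      apply Polynomial.monic_X_pow_sub
      exact lt_of_le_of_lt Polynomial.degree_X_le (by exact_mod_cast one_lt_two)) e₀
    (by
      rw [← Ideal.Quotient.eq_zero_iff_mem]
      simp only [Polynomial.eval_sub, Polynomial.eval_pow, Polynomial.eval_X, map_sub, map_pow, he₀]
      linear_combination heb.eq)
    (by
      refine IsUnit.of_mul_eq_one (Ideal.Quotient.mk J (2 * e₀ - 1)) ?_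
      simp only [Polynomial.derivative_X_pow, Polynomial.derivative_X,
        Polynomial.eval_sub, Polynomial.eval_mul,
        Polynomial.eval_X, Polynomial.eval_one, Polynomial.eval_ofNat, map_sub, map_mul, map_one, he₀,
        Nat.cast_ofNat, map_ofNat, Nat.add_one_sub_one, pow_one]
      linear_combination 4 * heb.eq)
  obtain ⟨e, he, hee⟩ := hroot
  simp only [Polynomial.IsRoot, Polynomial.eval_sub, Polynomial.eval_pow, Polynomial.eval_X,
    sub_eq_zero] at he
  have hem : Ideal.Quotient.mk J e = 1 - eb := by
    rw [← he₀]; exact Ideal.Quotient.eq.mpr hee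
  have hidemE : IsIdempotentElem e := by rw [IsIdempotentElem, ← pow_two, he]
  refine ⟨e, hidemE, ?_, fun n => ⟨k0 * n, ?_⟩⟩
  · have : eb ∈ Ib := Ideal.pow_le_self (n := k0) (by omega)
      (by rw [hKeb]; exact Submodule.mem_span_singleton_self eb)
    rw [hIb, Ideal.mem_map_iff_of_surjective _ Ideal.Quotient.mk_surjective] at this
    obtain ⟨y, hy, hyb⟩ := this
    rw [show 1 - e = y + (1 - e - y) by ring]
    refine I.add_mem hy (hI ?_)
    rw [← Ideal.Quotient.eq_zero_iff_mem, map_sub, map_sub, hem, hyb, map_one]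
    ring
  · have h1 : Ideal.span {e} * I ^ k0 ≤ J := Ideal.mul_le.mpr fun r hr x hx => by
      obtain ⟨c, rfl⟩ := Ideal.mem_span_singleton'.mp hr
      rw [mul_assoc]
      refine J.mul_mem_left c ?_
      have hxb : Ideal.Quotient.mk J x ∈ Ib ^ k0 := by
        rw [hIb, ← Ideal.map_pow]; exact Ideal.mem_map_of_mem _ hx
      rw [hKeb, Submodule.mem_span_singleton] at hxb
      obtain ⟨s, hs⟩ := hxb
      rw [← Ideal.Quotient.eq_zero_iff_mem, map_mul, hem, ← hs, smul_eq_mul]
      linear_combination (-s) * heb.eq
    intro x hx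
    rcases Nat.eq_zero_or_pos n with rfl | hn
    · simp
    have h2 : e * x ∈ (Ideal.span {e} * I ^ k0) ^ n := by
      rw [mul_pow, Ideal.span_singleton_pow, ← pow_mul]
      refine Ideal.mul_mem_mul (Ideal.mem_span_singleton.mpr ?_) hx
      rw [hidemE.pow_eq hn.ne']
    exact Ideal.pow_right_mono h1 n h2

end Ring

section Module

variable {M : Type*} [AddCommGroup M] [Module O M] [Module.Finite O M] {ι : Type*}
  {X : ι → Module.End O M} (hX : ∀ i j, Commute (X i) (X j)) (a : ι → O)

variable (O) in
/-- The ideal of polynomials vanishing at `a` in the residue field. -/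
def polyIdeal (a : ι → O) : Ideal (MvPolynomial ι O) :=
  (maximalIdeal O).map C ⊔ Ideal.span (Set.range fun i => MvPolynomial.X i - C (a i))

include hX in
omit [IsLocalRing O] [IsNoetherianRing O] [IsAdicComplete (maximalIdeal O) O]
  [Finite (ResidueField O)] [Module.Finite O M] in
theorem isMulCommutative_adjoin_range : IsMulCommutative (Algebra.adjoin O (Set.range X)) :=
  Algebra.isMulCommutative_adjoin O (by rintro _ ⟨i, rfl⟩ _ ⟨j, rfl⟩; exact hX i j)

/-- Polynomials in the commuting family. -/
def polyRange : MvPolynomial ι O →ₐ[O] Algebra.adjoin O (Set.range X) :=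
  haveI := isMulCommutative_adjoin_range hX
  open scoped IsMulCommutative in
  aeval fun i => (⟨X i, Algebra.subset_adjoin ⟨i, rfl⟩⟩ : Algebra.adjoin O (Set.range X))

/-- Polynomials in the commuting family, as endomorphisms. -/
def polyAct : MvPolynomial ι O →ₐ[O] Module.End O M :=
  (Algebra.adjoin O (Set.range X)).val.comp (polyRange hX)

omit [IsLocalRing O] [IsNoetherianRing O] [IsAdicComplete (maximalIdeal O) O]
  [Finite (ResidueField O)] [Module.Finite O M] in
@[simp] theorem polyAct_X (i : ι) : polyAct hX (MvPolynomial.X i) = X i := by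
  simp [polyAct, polyRange]

omit [IsLocalRing O] [IsNoetherianRing O] [IsAdicComplete (maximalIdeal O) O]
  [Finite (ResidueField O)] [Module.Finite O M] in
@[simp] theorem polyAct_C (c : O) : polyAct hX (C c) = c • 1 := by
  rw [← MvPolynomial.algebraMap_eq, AlgHom.commutes, Algebra.algebraMap_eq_smul_one]

/-- `e` projects onto the part where the `X i - a i` are topologically nilpotent. -/
structure IsPartProj (e : Module.End O M) : Prop where
  idem : IsIdempotentElem e
  compl : ∃ q ∈ polyIdeal O a, polyAct hX q = 1 - e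
  nil : ∀ n, ∃ k, ∀ q ∈ polyIdeal O a ^ k, ∀ x : M,
    polyAct hX q (e x) ∈ maximalIdeal O ^ n • (⊤ : Submodule O M)

theorem exists_isPartProj : ∃ e, IsPartProj hX a e := by
  classical
  set S := Algebra.adjoin O (Set.range X) with hS
  have := isMulCommutative_adjoin_range hX
  open scoped IsMulCommutative in
  have : IsNoetherian O M := isNoetherian_of_isNoetherianRing_of_finite O M
  have : Module.Finite O (Module.End O M) := by
    obtain ⟨n, g, hg⟩ := Module.Finite.exists_fin (R := O) (M := M)
    exact Module.Finite.of_injective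
      (LinearMap.pi fun i => LinearMap.applyₗ (g i) : Module.End O M →ₗ[O] Fin n → M)
      fun f f' h => LinearMap.ext_on_range hg fun i => congrFun h i
  have : IsNoetherian O (Module.End O M) := isNoetherian_of_isNoetherianRing_of_finite O _
  have : Module.Finite O S := Module.Finite.of_injective S.val.toLinearMap Subtype.val_injective
  have hsurj : Function.Surjective (polyRange hX) := by
    intro s
    obtain ⟨s, hs⟩ := s
    induction hs using Algebra.adjoin_induction with
    | mem x hx => obtain ⟨i, rfl⟩ := hx; exact ⟨MvPolynomial.X i, by simp [polyRange]⟩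
    | algebraMap r => exact ⟨C r, by rw [← MvPolynomial.algebraMap_eq, AlgHom.commutes]; rfl⟩
    | add x y hx hy h1 h2 =>
      obtain ⟨p, hp⟩ := h1
      obtain ⟨q, hq⟩ := h2
      exact ⟨p + q, by rw [map_add, hp, hq]; rfl⟩
    | mul x y hx hy h1 h2 =>
      obtain ⟨p, hp⟩ := h1
      obtain ⟨q, hq⟩ := h2
      exact ⟨p * q, by rw [map_mul, hp, hq]; rfl⟩
  set f : MvPolynomial ι O →+* S := (polyRange hX).toRingHom with hf
  have hle : (maximalIdeal O).map (algebraMap O S) ≤ (polyIdeal O a).map f := by
    rw [Ideal.map_le_iff_le_comap]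
    intro c hc
    rw [Ideal.mem_comap, show algebraMap O S c = f (C c) by
      rw [hf, ← MvPolynomial.algebraMap_eq]; exact ((polyRange hX).commutes c).symm]
    exact Ideal.mem_map_of_mem _ (Ideal.mem_sup_left (Ideal.mem_map_of_mem _ hc))
  obtain ⟨e, he, he1, hnil⟩ := exists_idempotent ((polyIdeal O a).map f) hle
  obtain ⟨q, hq, hq1⟩ := (Ideal.mem_map_iff_of_surjective f hsurj).mp he1
  refine ⟨(e : Module.End O M), ?_, ⟨q, hq, ?_⟩, fun n => ?_⟩
  · exact congrArg Subtype.val he.eq
  · exact congrArg Subtype.val hq1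
  obtain ⟨k, hk⟩ := hnil n
  refine ⟨k, fun r hr x => ?_⟩
  have hr' : f r ∈ (polyIdeal O a).map f ^ k := by
    rw [← Ideal.map_pow]; exact Ideal.mem_map_of_mem _ hr
  have hmem := hk _ hr'
  rw [mul_comm, ← Ideal.map_pow, Ideal.map] at hmem
  change ((f r * e : S) : Module.End O M) x ∈ _
  obtain ⟨y, hy⟩ : ∃ y, y = f r * e := ⟨_, rfl⟩
  rw [← hy] at hmem ⊢
  clear hy
  revert x
  induction hmem using Submodule.span_induction with
  | mem y hy =>
    obtain ⟨c, hc, rfl⟩ := hy
    intro x
    exact Submodule.smul_mem_smul hc (Submodule.mem_top (x := x))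
  | zero => intro x; exact Submodule.zero_mem _
  | add y z _ _ hy hz => intro x; exact Submodule.add_mem _ (hy x) (hz x)
  | smul s y _ hy =>
    intro x
    rw [smul_eq_mul, mul_comm]
    exact hy ((s : Module.End O M) x)

/-- The projection onto the part. -/
def partProj : Module.End O M := (exists_isPartProj hX a).choose

theorem isPartProj_partProj : IsPartProj hX a (partProj hX a) :=
  (exists_isPartProj hX a).choose_spec

variable {M' : Type*} [AddCommGroup M'] [Module O M'] [Module.Finite O M']
  {X' : ι → Module.End O M'} (hX' : ∀ i j, Commute (X' i) (X' j))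

omit [IsLocalRing O] [IsNoetherianRing O] [IsAdicComplete (maximalIdeal O) O]
  [Finite (ResidueField O)] [Module.Finite O M] [Module.Finite O M'] in
theorem polyAct_intertwine (f : M →ₗ[O] M') (hf : ∀ i x, f (X i x) = X' i (f x))
    (p : MvPolynomial ι O) (x : M) : f (polyAct hX p x) = polyAct hX' p (f x) := by
  induction p using MvPolynomial.induction_on generalizing x with
  | C c => simp
  | add p q hp hq => simp [map_add, hp, hq]
  | mul_X p i hp =>
    simp only [map_mul, polyAct_X, Module.End.mul_apply]
    rw [hp, hf]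

omit [Finite (ResidueField O)] in
theorem eq_zero_of_forall_mem_pow {x : M}
    (h : ∀ n, x ∈ maximalIdeal O ^ n • (⊤ : Submodule O M)) : x = 0 := by
  have := IsAdicComplete.of_module_finite (maximalIdeal O) M
  exact IsHausdorff.haus' x fun n => SModEq.zero.mpr (h n)

omit [IsLocalRing O] [IsNoetherianRing O] [IsAdicComplete (maximalIdeal O) O]
  [Finite (ResidueField O)] [Module.Finite O M] [Module.Finite O M'] in
theorem polyAct_pow_apply {e : Module.End O M} {q : MvPolynomial ι O} (he : IsIdempotentElem e)
    (hq : polyAct hX q = 1 - e) {k : ℕ} (hk : k ≠ 0) : polyAct hX (q ^ k) = 1 - e := by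
  rw [map_pow, hq, he.one_sub.pow_eq hk]

omit [IsNoetherianRing O] [IsAdicComplete (maximalIdeal O) O] [Finite (ResidueField O)]
  [Module.Finite O M] [Module.Finite O M'] in
theorem map_mem_pow_smul_top (f : M →ₗ[O] M') {n : ℕ} {y : M}
    (hy : y ∈ maximalIdeal O ^ n • (⊤ : Submodule O M)) :
    f y ∈ maximalIdeal O ^ n • (⊤ : Submodule O M') := by
  have h := Submodule.mem_map_of_mem (f := f) hy
  rw [Submodule.map_smul''] at h
  exact Submodule.smul_mono le_rfl le_top h

omit [Finite (ResidueField O)] [Module.Finite O M] in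
/-- The projection commutes with intertwiners. -/
theorem IsPartProj.intertwine {e : Module.End O M} {e' : Module.End O M'}
    (he : IsPartProj hX a e) (he' : IsPartProj hX' a e') (f : M →ₗ[O] M')
    (hf : ∀ i x, f (X i x) = X' i (f x)) (x : M) : f (e x) = e' (f x) := by
  obtain ⟨q, hq, hq1⟩ := he.compl
  obtain ⟨q', hq', hq1'⟩ := he'.compl
  have hsplit : ∀ z : M, (1 - e) z = z - e z := fun z => rfl
  have hsplit' : ∀ z : M', (1 - e') z = z - e' z := fun z => rfl
  have hcomm : ∀ r, Commute e' (polyAct hX' r) := fun r => by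
    rw [show e' = polyAct hX' (1 - q') by rw [map_sub, map_one, hq1', sub_sub_cancel]]
    exact (Commute.all (1 - q') r).map (polyAct hX')
  have h1 : e' (f (e x)) = f (e x) := by
    refine (sub_eq_zero.mp ?_).symm
    refine eq_zero_of_forall_mem_pow (O := O) fun n => ?_
    obtain ⟨k, hk⟩ := he.nil n
    rw [← hsplit', ← polyAct_pow_apply hX' he'.idem hq1' (Nat.succ_ne_zero k),
      ← polyAct_intertwine hX hX' f hf]
    refine (map_mem_pow_smul_top f (hk _ ?_ _))
    rw [pow_succ]; exact Ideal.mul_mem_right _ _ (Ideal.pow_mem_pow hq' k)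
  have h2 : e' (f (x - e x)) = 0 := by
    refine eq_zero_of_forall_mem_pow (O := O) fun n => ?_
    obtain ⟨k, hk⟩ := he'.nil n
    rw [← hsplit, ← polyAct_pow_apply hX he.idem hq1 (Nat.succ_ne_zero k),
      polyAct_intertwine hX hX' f hf, ← Module.End.mul_apply, (hcomm _).eq, Module.End.mul_apply]
    exact hk _ (by rw [pow_succ]; exact Ideal.mul_mem_right _ _ (Ideal.pow_mem_pow hq k)) _
  rw [map_sub, map_sub, sub_eq_zero] at h2
  rw [h2, h1]

theorem partProj_intertwine (f : M →ₗ[O] M') (hf : ∀ i x, f (X i x) = X' i (f x)) (x : M) :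
    f (partProj hX a x) = partProj hX' a (f x) :=
  (isPartProj_partProj hX a).intertwine (hX' := hX') (he' := isPartProj_partProj hX' a) (f := f) (hf := hf) (x := x)

theorem partProj_idem (x : M) : partProj hX a (partProj hX a x) = partProj hX a x :=
  LinearMap.congr_fun (isPartProj_partProj hX a).idem.eq x

theorem partProj_comm {g : Module.End O M} (hg : ∀ i, Commute g (X i)) :
    Commute g (partProj hX a) :=
  LinearMap.ext fun x => partProj_intertwine hX a hX g (fun i y => LinearMap.congr_fun (hg i).eq y) x

theorem exists_pow_sub_mem (i : ι) (n : ℕ) : ∃ k, ∀ x : M,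
    ((X i - a i • (1 : Module.End O M)) ^ k) (partProj hX a x) ∈ maximalIdeal O ^ n • (⊤ : Submodule O M) := by
  obtain ⟨k, hk⟩ := (isPartProj_partProj hX a).nil n
  refine ⟨k, fun x => ?_⟩
  have := hk ((MvPolynomial.X i - C (a i)) ^ k)
    (Ideal.pow_mem_pow (Ideal.mem_sup_right
      (Ideal.subset_span (s := Set.range fun j => MvPolynomial.X j - C (a j)) ⟨i, rfl⟩)) k) x
  simpa [Algebra.algebraMap_eq_smul_one] using this

/-- A functional on which one operator acts by a scalar far from `a i` kills the part. -/
theorem apply_partProj_eq_zero (f : M →ₗ[O] M') {i : ι} {c : O} (hf : ∀ x, f (X i x) = c • f x)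
    (hc : IsUnit (c - a i)) (x : M) : f (partProj hX a x) = 0 := by
  have hk' : ∀ k y, f (((X i - a i • (1 : Module.End O M)) ^ k) y) = (c - a i) ^ k • f y := fun k => by
    induction k with
    | zero => simp
    | succ k ih =>
      intro y
      rw [pow_succ, Module.End.mul_apply, ih, pow_succ, mul_smul]
      simp [hf, sub_smul]
  refine eq_zero_of_forall_mem_pow (O := O) fun n => ?_
  obtain ⟨k, hk⟩ := exists_pow_sub_mem hX a i n
  have h := map_mem_pow_smul_top f (hk x)
  rw [hk'] at h
  obtain ⟨u, hu⟩ := hc.pow k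
  rw [← hu] at h
  have h' := Submodule.smul_mem _ (↑u⁻¹ : O) h
  rwa [smul_smul, Units.inv_mul, one_smul] at h'

/-- Common eigenvectors with eigenvalues congruent to `a` lie in the part. -/
theorem partProj_apply_of_eigen {x : M} {c : ι → O} (hx : ∀ i, X i x = c i • x)
    (hc : ∀ i, c i - a i ∈ maximalIdeal O) : partProj hX a x = x := by
  obtain ⟨q, hq, hq1⟩ := (isPartProj_partProj hX a).compl
  have hact : ∀ p, polyAct hX p x = MvPolynomial.eval c p • x := fun p => by
    induction p using MvPolynomial.induction_on with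
    | C r => simp
    | add p q hp hq => simp [map_add, hp, hq, add_smul]
    | mul_X p i hp => simp [map_mul, hx, hp, smul_smul, mul_comm]
  have hev : MvPolynomial.eval c q ∈ maximalIdeal O := by
    refine (show polyIdeal O a ≤ (maximalIdeal O).comap (MvPolynomial.eval c) from ?_) hq
    refine sup_le (Ideal.map_le_iff_le_comap.mpr fun r hr => by simpa using hr) ?_
    rw [Ideal.span_le]
    rintro _ ⟨i, rfl⟩
    simpa using hc i
  have h1 : MvPolynomial.eval c q • x = x - partProj hX a x := by
    rw [← hact, hq1]; rfl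
  have h2 : (1 - MvPolynomial.eval c q) • (MvPolynomial.eval c q • x) = 0 := by
    rw [sub_smul, one_smul, sub_eq_zero, smul_smul, ← map_mul, ← pow_two, ← hact, ← hact,
      polyAct_pow_apply hX (isPartProj_partProj hX a).idem hq1 two_ne_zero, hq1]
  have hu : IsUnit (1 - MvPolynomial.eval c q) := by
    by_contra hnu
    have := Ideal.add_mem _ (show (1 - MvPolynomial.eval c q) ∈ maximalIdeal O from hnu) hev
    simp at this
  rw [hu.smul_eq_zero, h1, sub_eq_zero] at h2
  exact h2.symm

/-- A vector on which each `X i - a i` is nilpotent modulo `m ^ n` is fixed by the projection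
modulo `m ^ n`. -/
theorem sub_partProj_mem {v : M} {n : ℕ}
    (h : ∀ i, ∃ k, ((X i - a i • (1 : Module.End O M)) ^ k) v ∈
      maximalIdeal O ^ n • (⊤ : Submodule O M)) :
    v - partProj hX a v ∈ maximalIdeal O ^ n • (⊤ : Submodule O M) := by
  set J : Ideal (MvPolynomial ι O) :=
    { carrier := {q | polyAct hX q v ∈ maximalIdeal O ^ n • (⊤ : Submodule O M)}
      add_mem' := fun {x y} hx hy => by
        show polyAct hX (x + y) v ∈ maximalIdeal O ^ n • (⊤ : Submodule O M)
        rw [map_add, LinearMap.add_apply]; exact add_mem hx hy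
      zero_mem' := by
        show polyAct hX 0 v ∈ maximalIdeal O ^ n • (⊤ : Submodule O M)
        rw [map_zero]; exact Submodule.zero_mem _
      smul_mem' := fun c x hx => by
        show polyAct hX (c * x) v ∈ maximalIdeal O ^ n • (⊤ : Submodule O M)
        rw [map_mul, Module.End.mul_apply]
        exact map_mem_pow_smul_top _ hx }
  have hle : polyIdeal O a ≤ J.radical := by
    refine sup_le (Ideal.map_le_iff_le_comap.mpr fun r hr => ?_) (Ideal.span_le.mpr ?_)
    · refine ⟨n, ?_⟩
      show polyAct hX (C r ^ n) v ∈ maximalIdeal O ^ n • (⊤ : Submodule O M)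
      rw [← map_pow, polyAct_C, LinearMap.smul_apply, Module.End.one_apply]
      exact Submodule.smul_mem_smul (Ideal.pow_mem_pow hr n) (Submodule.mem_top (x := v))
    · rintro _ ⟨i, rfl⟩
      obtain ⟨k, hk⟩ := h i
      refine ⟨k, ?_⟩
      show polyAct hX ((MvPolynomial.X i - C (a i)) ^ k) v ∈ maximalIdeal O ^ n • (⊤ : Submodule O M)
      simpa [Algebra.algebraMap_eq_smul_one] using hk
  obtain ⟨q, hq, hq1⟩ := (isPartProj_partProj hX a).compl
  obtain ⟨k, hk⟩ := hle hq
  have hk' : q ^ (k + 1) ∈ J := by rw [pow_succ']; exact J.mul_mem_left _ hk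
  have hk'' : polyAct hX (q ^ (k + 1)) v ∈ maximalIdeal O ^ n • (⊤ : Submodule O M) := hk'
  rwa [polyAct_pow_apply hX (isPartProj_partProj hX a).idem hq1 (Nat.succ_ne_zero k)] at hk''

/-- The part consists of the vectors on which each `X i - a i` is topologically nilpotent. -/
theorem partProj_apply_of_nil {v : M}
    (h : ∀ n i, ∃ k, ((X i - a i • (1 : Module.End O M)) ^ k) v ∈
      maximalIdeal O ^ n • (⊤ : Submodule O M)) : partProj hX a v = v :=
  (sub_eq_zero.mp (eq_zero_of_forall_mem_pow (O := O) fun n => sub_partProj_mem hX a (h n))).symm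

/-- Submodules stable under the family are stable under the projection. -/
theorem partProj_mem_of_stable {P : Submodule O M} (hP : ∀ i, ∀ x ∈ P, X i x ∈ P) {x : M}
    (hx : x ∈ P) : partProj hX a x ∈ P := by
  have hall : ∀ (q : MvPolynomial ι O), ∀ y ∈ P, polyAct hX q y ∈ P := fun q => by
    induction q using MvPolynomial.induction_on with
    | C c => intro y hy; simpa using P.smul_mem c hy
    | add p q hp hq => intro y hy; rw [map_add, LinearMap.add_apply]; exact add_mem (hp y hy) (hq y hy)
    | mul_X p i hp =>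
      intro y hy
      rw [map_mul, Module.End.mul_apply, polyAct_X]
      exact hp _ (hP i y hy)
  obtain ⟨q, -, hq1⟩ := (isPartProj_partProj hX a).compl
  rw [show partProj hX a x = x - polyAct hX q x by
    rw [hq1, LinearMap.sub_apply, Module.End.one_apply, sub_sub_cancel]]
  exact P.sub_mem hx (hall q x hx)

end Module

end FLTAgent.RT
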