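import Fermat.Agent.RT.Coh.OpP
import Fermat.Agent.RT.Coh.Part
import Mathlib.GroupTheory.Schreier
import Mathlib.LinearAlgebra.Matrix.FixedDetMatrices

/-!
# The generalised eigen part of the homomorphisms of `gammaH N χ`

For a family of primes `l` and scalars `a` which is not Eisenstein, the part kills all parabolic
and elliptic elements, and on `Γ₀(N)` it is detected modulo the maximal ideal on `gammaH N χ`.
-/

set_option autoImplicit false

noncomputable section

namespace FLTAgent.RT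

open LevelRaise CongruenceSubgroup IsLocalRing
open scoped MatrixGroups
open ModularGroup

variable {M N : ℕ} {D : Type*} [CommGroup D] {χ : (ZMod M)ˣ →* D} [Fact (Odd (Nat.card D))]
  [NeZero N]

/-- The group `gammaH N χ` is finitely generated. -/
theorem fg_gammaH (hMN : M ∣ N) : Group.FG (gammaH N χ) := by
  have := finiteIndex_gammaH (χ := χ) hMN
  have hSL : (⊤ : Subgroup SL(2, ℤ)).FG := by
    rw [← SpecialLinearGroup.SL2Z_generators]
    exact ⟨{S, T}, by simp⟩
  have : Group.FG SL(2, ℤ) := ⟨hSL⟩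
  exact Subgroup.fg_of_index_ne_zero _

/-- `Coh N χ A` is finite over a Noetherian ring if `A` is. -/
theorem moduleFinite_coh (R A : Type*) [CommRing R] [IsNoetherianRing R] [AddCommGroup A]
    [Module R A] [Module.Finite R A] (hMN : M ∣ N) : Module.Finite R (Coh N χ A) := by
  classical
  obtain ⟨s, hs⟩ := (fg_gammaH (χ := χ) hMN).out
  let f : Coh N χ A →ₗ[R] (s → A) :=
    { toFun := fun φ x => φ (Additive.ofMul (x : gammaH N χ))
      map_add' := fun _ _ => rfl
      map_smul' := fun _ _ => rfl }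
  have := isNoetherian_of_isNoetherianRing_of_finite R (s → A)
  refine Module.Finite.of_injective f fun φ ψ h => ?_
  have : AddMonoidHom.toMultiplicativeRight φ = AddMonoidHom.toMultiplicativeRight ψ :=
    MonoidHom.eq_of_eqOn_dense hs fun x hx =>
      congrArg Multiplicative.ofAdd (congrFun h ⟨x, hx⟩)
  exact AddMonoidHom.toMultiplicativeRight.injective this

variable {O : Type*} [CommRing O] [IsLocalRing O] [IsNoetherianRing O]
  [IsAdicComplete (maximalIdeal O) O] [Finite (ResidueField O)] {ι : Type*} {l : ι → ℕ}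

/-- The projection onto the part. -/
def cohProj (χ : (ZMod M)ˣ →* D) (hMN : M ∣ N) (hl : ∀ i, (l i).Prime) (a : ι → O) :
    Module.End O (Coh N χ O) :=
  haveI := moduleFinite_coh (χ := χ) O O hMN
  partProj (X := fun i => opP O O χ hMN (hl i))
    (fun i j => opP_comm (χ := χ) O O hMN (hl i) (hl j)) a

/-- The part of `Coh N χ O` where every `opP (l i) - a i` is topologically nilpotent. -/
def cohPart (χ : (ZMod M)ˣ →* D) (hMN : M ∣ N) (hl : ∀ i, (l i).Prime) (a : ι → O) :
    Submodule O (Coh N χ O) :=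
  LinearMap.range (cohProj χ hMN hl a)

variable (hMN : M ∣ N) (hl : ∀ i, (l i).Prime) (a : ι → O)

theorem cohProj_idem (φ : Coh N χ O) :
    cohProj χ hMN hl a (cohProj χ hMN hl a φ) = cohProj χ hMN hl a φ := by
  have := moduleFinite_coh (χ := χ) O O hMN
  exact partProj_idem _ _ φ

theorem mem_cohPart_iff {φ : Coh N χ O} : φ ∈ cohPart χ hMN hl a ↔ cohProj χ hMN hl a φ = φ :=
  ⟨by rintro ⟨ψ, rfl⟩; exact cohProj_idem hMN hl a ψ, fun h => ⟨φ, h⟩⟩

theorem cohProj_mem (φ : Coh N χ O) : cohProj χ hMN hl a φ ∈ cohPart χ hMN hl a := ⟨φ, rfl⟩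

theorem commute_cohProj {g : Module.End O (Coh N χ O)}
    (hg : ∀ i, Commute g (opP O O χ hMN (hl i))) : Commute g (cohProj χ hMN hl a) := by
  have := moduleFinite_coh (χ := χ) O O hMN
  exact partProj_comm _ _ hg

theorem mem_cohPart_of_commute {g : Module.End O (Coh N χ O)}
    (hg : ∀ i, Commute g (opP O O χ hMN (hl i))) {φ : Coh N χ O}
    (hφ : φ ∈ cohPart χ hMN hl a) : g φ ∈ cohPart χ hMN hl a := by
  rw [mem_cohPart_iff] at hφ ⊢
  conv_rhs => rw [← hφ]
  exact (LinearMap.congr_fun (commute_cohProj hMN hl a hg).eq φ).symm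

variable {M' N' : ℕ} {D' : Type*} [CommGroup D'] {χ' : (ZMod M')ˣ →* D'}
  [Fact (Odd (Nat.card D'))] [NeZero N']

/-- The projections commute with every map between levels intertwining the operators. -/
theorem cohProj_map (hMN' : M' ∣ N') (f : Coh N χ O →ₗ[O] Coh N' χ' O)
    (hf : ∀ i φ, f (opP O O χ hMN (hl i) φ) = opP O O χ' hMN' (hl i) (f φ)) (φ : Coh N χ O) :
    f (cohProj χ hMN hl a φ) = cohProj χ' hMN' hl a (f φ) := by
  have := moduleFinite_coh (χ := χ) O O hMN
  have := moduleFinite_coh (χ := χ') O O hMN'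
  exact partProj_intertwine _ _ _ f hf φ

theorem map_mem_cohPart (hMN' : M' ∣ N') (f : Coh N χ O →ₗ[O] Coh N' χ' O)
    (hf : ∀ i φ, f (opP O O χ hMN (hl i) φ) = opP O O χ' hMN' (hl i) (f φ)) {φ : Coh N χ O}
    (hφ : φ ∈ cohPart χ hMN hl a) : f φ ∈ cohPart χ' hMN' hl a := by
  rw [mem_cohPart_iff] at hφ ⊢
  rw [← cohProj_map hMN hl a hMN' f hf, hφ]

/-- On the part, each operator minus its scalar is topologically nilpotent. -/
theorem exists_pow_sub_mem_cohPart (i : ι) (n : ℕ) : ∃ k, ∀ φ ∈ cohPart χ hMN hl a,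
    ((opP O O χ hMN (hl i) - a i • (1 : Module.End O (Coh N χ O))) ^ k) φ ∈
      maximalIdeal O ^ n • (⊤ : Submodule O (Coh N χ O)) := by
  have := moduleFinite_coh (χ := χ) O O hMN
  obtain ⟨k, hk⟩ := exists_pow_sub_mem (X := fun i => opP O O χ hMN (hl i))
    (fun i j => opP_comm (χ := χ) O O hMN (hl i) (hl j)) a i n
  exact ⟨k, fun φ hφ => (mem_cohPart_iff hMN hl a).mp hφ ▸ hk φ⟩

/-- The system `a` is not Eisenstein. -/
def NonEis (l : ι → ℕ) (a : ι → O) : Prop :=
  ∀ m : ℕ, m ≠ 0 → ∃ i, (l i : ZMod m) = 1 ∧ IsUnit (a i - ((l i : O) + 1))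

variable {a}

omit [IsLocalRing O] [IsNoetherianRing O] [IsAdicComplete (maximalIdeal O) O]
  [Finite (ResidueField O)] [Fact (Odd (Nat.card D))] in
theorem NonEis.exists_index (h : NonEis l a) (hl : ∀ i, (l i).Prime) :
    ∃ i, ¬ l i ∣ N ∧ (l i : ZMod N) = 1 ∧ IsUnit ((l i : O) + 1 - a i) := by
  obtain ⟨i, h1, hu⟩ := h N (NeZero.ne N)
  refine ⟨i, fun hd => ?_, h1, by rw [← neg_sub]; exact hu.neg⟩
  have := congrArg (ZMod.castHom hd (ZMod (l i))) h1
  rw [map_natCast, map_one, ZMod.natCast_self] at this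
  have : Fact (1 < l i) := ⟨(hl i).one_lt⟩
  exact zero_ne_one ‹(0 : ZMod (l i)) = 1›

/-- Evaluation at a homomorphism's argument, as a linear map. -/
def cohEval (γ : gammaH N χ) : Coh N χ O →ₗ[O] O where
  toFun φ := φ (Additive.ofMul γ)
  map_add' _ _ := rfl
  map_smul' _ _ := rfl

/-- The part kills parabolic and elliptic elements. -/
theorem apply_eq_zero_of_mem_cohPart [IsAddTorsionFree O] (hne : NonEis l a) {φ : Coh N χ O}
    (hφ : φ ∈ cohPart χ hMN hl a) {γ : gammaH N χ}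
    (hγ : ((γ : SL(2, ℤ)) : Matrix (Fin 2) (Fin 2) ℤ).trace ^ 2 ≤ 4) :
    φ (Additive.ofMul γ) = 0 := by
  rcases eq_or_lt_of_le hγ with h | h
  swap
  · have h12 : γ ^ 12 = 1 := Subtype.ext (by
      simpa using Periods.pow_twelve_eq_one_of_trace_sq_lt h)
    have h0 : (12 : ℕ) • φ (Additive.ofMul γ) = 0 := by
      rw [← map_nsmul, ← ofMul_pow, h12, ofMul_one, map_zero]
    exact (smul_eq_zero_iff_right (by norm_num)).mp h0
  -- the square has trace two
  have h2 : ((γ ^ 2 : gammaH N χ) : SL(2, ℤ)).1.trace = 2 := by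
    have hdet := det_matSL (γ : SL(2, ℤ))
    rw [Matrix.trace_fin_two] at h
    rw [SubgroupClass.coe_pow, pow_two, Matrix.SpecialLinearGroup.coe_mul, Matrix.trace_fin_two,
      Matrix.mul_apply, Matrix.mul_apply, Fin.sum_univ_two, Fin.sum_univ_two]
    linear_combination h - 2 * hdet
  obtain ⟨x, k, hx⟩ := exists_conj_T_zpow h2
  have hpow : ((γ ^ (2 * N) : gammaH N χ) : SL(2, ℤ)) = x * T ^ ((N : ℤ) * k) * x⁻¹ := by
    rw [pow_mul, SubgroupClass.coe_pow, hx, conj_pow, mul_comm, zpow_mul, zpow_natCast]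
  obtain ⟨i, hiN, hi1, hu⟩ := hne.exists_index (N := N) hl
  have hf : ∀ ψ : Coh N χ O, cohEval (γ ^ (2 * N)) (opP O O χ hMN (hl i) ψ) =
      ((l i : O) + 1) • cohEval (γ ^ (2 * N)) ψ := fun ψ => by
    have hmk : γ ^ (2 * N) = ⟨_, conj_T_zpow_mem_gammaH hMN x k⟩ := Subtype.ext hpow
    rw [opP_of_not_dvd (χ := χ) O O hMN (hl i) hiN, hmk]
    show opT O O χ hMN (hl i) hiN ψ _ = _
    rw [opT_apply_conj_T hMN (hl i) hiN hi1 x k ψ, nsmul_eq_mul, Nat.cast_add, Nat.cast_one]
    rfl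
  have := moduleFinite_coh (χ := χ) O O hMN
  have h0 : cohEval (γ ^ (2 * N)) φ = 0 := by
    rw [← (mem_cohPart_iff hMN hl a).mp hφ]
    exact apply_partProj_eq_zero (X := fun i => opP O O χ hMN (hl i))
      (fun i j => opP_comm (χ := χ) O O hMN (hl i) (hl j)) a (cohEval (γ ^ (2 * N))) hf hu φ
  change φ (Additive.ofMul (γ ^ (2 * N))) = 0 at h0
  rw [ofMul_pow, map_nsmul] at h0
  exact (smul_eq_zero_iff_right (mul_ne_zero two_ne_zero (NeZero.ne N))).mp h0

include hMN in
/-- On `Γ₀(N)` the part is detected modulo the maximal ideal on `gammaH N χ`. -/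
theorem mem_maximalIdeal_of_restrict (hχ : Function.Surjective χ) (hne : NonEis l a)
    {φ : Coh N trivChar O} (hφ : φ ∈ cohPart trivChar (one_dvd N) hl a)
    (h : ∀ γ : gammaH N trivChar, (γ : SL(2, ℤ)) ∈ gammaH N χ →
      φ (Additive.ofMul γ) ∈ maximalIdeal O) (γ : gammaH N trivChar) :
    φ (Additive.ofMul γ) ∈ maximalIdeal O := by
  obtain ⟨i, hiN, -, hu⟩ := hne.exists_index (N := N) hl
  set T₁ := opP O O trivChar (one_dvd N) (hl i) - a i • (1 : Module.End O (Coh N trivChar O))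
  set c : O := (l i : O) + 1 - a i
  have key : ∀ ψ : Coh N trivChar O, (∀ δ : gammaH N trivChar, (δ : SL(2, ℤ)) ∈ gammaH N χ →
      ψ (Additive.ofMul δ) ∈ maximalIdeal O) → ∀ δ : gammaH N trivChar,
      T₁ ψ (Additive.ofMul δ) - c * ψ (Additive.ofMul δ) ∈ maximalIdeal O := fun ψ hψ δ => by
    have : NeZero (l i) := ⟨(hl i).ne_zero⟩
    have := (opFam_T (χ := trivChar) (one_dvd N) (hl i) hiN).transfer_sub_mem (hl i) hMN hχ
      (fun hd => hiN (hd.trans hMN)) (maximalIdeal O).toAddSubgroup ψ hψ δ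
    rw [Fintype.card_option, ZMod.card, nsmul_eq_mul, ← opT_apply (R := O) (one_dvd N) (hl i) hiN,
      ← opP_of_not_dvd O O (one_dvd N) (hl i) hiN] at this
    push_cast at this
    show opP O O trivChar (one_dvd N) (hl i) ψ (Additive.ofMul δ) - a i • ψ (Additive.ofMul δ) -
      c * ψ (Additive.ofMul δ) ∈ maximalIdeal O
    rw [smul_eq_mul, sub_sub, ← add_mul, show a i + c = (l i : O) + 1 by simp [c]]
    exact this
  have hk : ∀ k, ∀ δ : gammaH N trivChar,
      (T₁ ^ k) φ (Additive.ofMul δ) - c ^ k * φ (Additive.ofMul δ) ∈ maximalIdeal O := by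
    intro k
    induction k with
    | zero => intro δ; simp
    | succ k ih =>
      intro δ
      have hin : ∀ ε : gammaH N trivChar, (ε : SL(2, ℤ)) ∈ gammaH N χ →
          (T₁ ^ k) φ (Additive.ofMul ε) ∈ maximalIdeal O := fun ε hε => by
        have := (maximalIdeal O).add_mem (ih ε) ((maximalIdeal O).mul_mem_left (c ^ k) (h ε hε))
        rwa [sub_add_cancel] at this
      rw [pow_succ', Module.End.mul_apply,
        show T₁ ((T₁ ^ k) φ) (Additive.ofMul δ) - c ^ (k + 1) * φ (Additive.ofMul δ) =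
          (T₁ ((T₁ ^ k) φ) (Additive.ofMul δ) - c * (T₁ ^ k) φ (Additive.ofMul δ)) +
            c * ((T₁ ^ k) φ (Additive.ofMul δ) - c ^ k * φ (Additive.ofMul δ)) by ring]
      exact add_mem (key _ hin δ) ((maximalIdeal O).mul_mem_left c (ih δ))
  obtain ⟨k, hk'⟩ := exists_pow_sub_mem_cohPart (χ := trivChar) (O := O) (one_dvd N) hl a i 1
  have h1 := map_mem_pow_smul_top (cohEval (O := O) (χ := trivChar) γ) (hk' φ hφ)
  rw [pow_one, smul_eq_mul, Ideal.mul_top] at h1
  have h2 : c ^ k * φ (Additive.ofMul γ) ∈ maximalIdeal O := by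
    have := (maximalIdeal O).sub_mem h1 (hk k γ)
    rwa [show cohEval γ ((T₁ ^ k) φ) = (T₁ ^ k) φ (Additive.ofMul γ) from rfl,
      sub_sub_cancel] at this
  exact ((maximalIdeal O).unit_mul_mem_iff_mem (hu.pow k)).mp h2

end FLTAgent.RT
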