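import Fermat.Agent.RT.Coh.CohPart
import Fermat.Agent.RT.Irr.Monomial
import Fermat.Agent.TW.MuLevel
import Fermat.Agent.GalRep.Dense
import Fermat.Agent.Deformation.MatRep
import Fermat.Prelude.Def_GaloisRep_Residual
import Mathlib.RingTheory.TensorProduct.Free

/-!
# A residually absolutely irreducible system is not Eisenstein

An irreducible two-dimensional representation cannot have trace two on a normal subgroup containing
all commutators.
-/

set_option autoImplicit false

noncomputable section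

namespace FLTAgent.RT

open IsLocalRing FLTAgent.RTIrr
open scoped TensorProduct

section Group

variable {Γ : Type*} [Group Γ] {K : Type*} [Field K]

/-- The kernel of a nonzero singular matrix of size two is a line. -/
theorem exists_smul_of_mulVec_zero {B : Matrix (Fin 2) (Fin 2) K} (hB : B ≠ 0) {v w : Fin 2 → K}
    (hv : B.mulVec v = 0) (hw : B.mulVec w = 0) (hv0 : v ≠ 0) : ∃ a : K, w = a • v := by
  by_contra hc
  push Not at hc
  have hli : LinearIndependent K ![v, w] := by
    refine LinearIndependent.pair_iff.mpr fun s t hst => ?_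
    by_cases ht : t = 0
    · rw [ht, zero_smul, add_zero, smul_eq_zero] at hst
      exact ⟨hst.resolve_right hv0, ht⟩
    · refine absurd ?_ (hc (-(t⁻¹ * s)))
      have := congrArg (fun x => t⁻¹ • x) hst
      simp only [smul_add, smul_smul, inv_mul_cancel₀ ht, one_smul, smul_zero] at this
      rw [eq_neg_of_add_eq_zero_right this, neg_smul]
  have hspan := hli.span_eq_top_of_card_eq_finrank (by simp)
  refine hB (Matrix.toLin'.injective ?_)
  rw [map_zero]
  refine LinearMap.ext_on_range hspan fun i => ?_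
  fin_cases i
  · simpa [Matrix.toLin'_apply] using hv
  · simpa [Matrix.toLin'_apply] using hw

/-- Two nilpotent matrices of size two with orthogonal traces have product zero. -/
theorem mul_eq_zero_of_trace_mul {A B : Matrix (Fin 2) (Fin 2) K} (hA0 : A.trace = 0)
    (hA : A.det = 0) (hB0 : B.trace = 0) (hB : B.det = 0) (hAB : (A * B).trace = 0) :
    A * B = 0 := by
  rw [Matrix.trace_fin_two] at hA0 hB0 hAB
  rw [Matrix.det_fin_two] at hA hB
  simp only [Matrix.mul_apply, Fin.sum_univ_two] at hAB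
  have eA : A 1 1 = -A 0 0 := by linear_combination hA0
  have eB : B 1 1 = -B 0 0 := by linear_combination hB0
  rw [eA] at hA hAB
  rw [eB] at hB hAB
  ext i j
  fin_cases i <;> fin_cases j <;> simp [Matrix.mul_apply, Fin.sum_univ_two, eA, eB] <;>
    refine mul_self_eq_zero.mp ?_
  · linear_combination (-B 0 0 * B 0 0) * hA + (A 0 1 * A 1 0) * hB +
      (A 0 1 * B 1 0) * hAB
  · linear_combination (-B 0 1 * B 0 1) * hA + (-A 0 1 * A 0 1) * hB -
      (A 0 1 * B 0 1) * hAB
  · linear_combination (-B 1 0 * B 1 0) * hA + (-A 1 0 * A 1 0) * hB -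
      (A 1 0 * B 1 0) * hAB
  · linear_combination (-B 0 0 * B 0 0) * hA + (A 0 1 * A 1 0) * hB +
      (A 1 0 * B 0 1) * hAB

/-- A representation without a stable line cannot have trace two on a set stable under products
and conjugation which contains the commutators. -/
theorem false_of_trace_two [IsAlgClosed K] (r : Γ →* Matrix (Fin 2) (Fin 2) K) (H : Set Γ)
    (hmul : ∀ g ∈ H, ∀ h ∈ H, g * h ∈ H) (hconj : ∀ g, ∀ h ∈ H, g * h * g⁻¹ ∈ H)
    (hcomm : ∀ g h : Γ, g * h * g⁻¹ * h⁻¹ ∈ H) (h2 : (2 : K) ≠ 0)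
    (htr : ∀ h ∈ H, (r h).trace = 2) (hirr : ¬ HasStableLine r Set.univ) : False := by
  have hdet : ∀ h ∈ H, (r h).det = 1 := fun h hh => by
    have h1 := htr _ (hmul h hh h hh)
    have ht := htr h hh
    rw [map_mul, Matrix.trace_fin_two] at h1
    simp only [Matrix.mul_apply, Fin.sum_univ_two] at h1
    rw [Matrix.trace_fin_two] at ht
    rw [Matrix.det_fin_two]
    refine mul_left_cancel₀ h2 ?_
    linear_combination (r h 0 0 + r h 1 1 + 2) * ht - h1
  have hnil : ∀ h ∈ H, (r h - 1).trace = 0 ∧ (r h - 1).det = 0 := fun h hh => by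
    have ht := htr h hh
    have hd := hdet h hh
    rw [Matrix.trace_fin_two] at ht
    rw [Matrix.det_fin_two] at hd
    refine ⟨?_, ?_⟩
    · rw [Matrix.trace_sub, Matrix.trace_fin_two, ht, Matrix.trace_one, Fintype.card_fin]
      simp
    · simp [Matrix.det_fin_two]
      linear_combination hd - ht
  by_cases hall : ∃ h₀ ∈ H, r h₀ ≠ 1
  · obtain ⟨h₀, hh₀, hne⟩ := hall
    have hA : r h₀ - 1 ≠ 0 := sub_ne_zero.mpr hne
    obtain ⟨j, hj⟩ : ∃ j, (r h₀ - 1).col j ≠ 0 := by
      by_contra hc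
      push Not at hc
      exact hA (Matrix.ext fun i j => congrFun (hc j) i)
    have hfix : ∀ h ∈ H, (r h - 1).mulVec ((r h₀ - 1).col j) = 0 := fun h hh => by
      obtain ⟨hN0, hN⟩ := hnil h hh
      obtain ⟨hA0, hA'⟩ := hnil h₀ hh₀
      have hz := mul_eq_zero_of_trace_mul hN0 hN hA0 hA' ?_
      · funext i
        exact congrFun (congrFun hz i) j
      have e := htr _ (hmul h hh h₀ hh₀)
      rw [map_mul] at e
      rw [sub_mul, mul_sub, mul_one, one_mul, Matrix.trace_sub, Matrix.trace_sub, Matrix.trace_sub,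
        e, htr h hh, htr h₀ hh₀, Matrix.trace_one, Fintype.card_fin]
      simp
    refine hirr ⟨_, hj, fun g _ => exists_smul_of_mulVec_zero hA (hfix h₀ hh₀) ?_ hj⟩
    have e1 := hfix (g⁻¹ * h₀ * g⁻¹⁻¹) (hconj _ _ hh₀)
    set v := (r h₀ - 1).col j
    have e2 : (r h₀ - 1) * r g = r g * (r (g⁻¹ * h₀ * g⁻¹⁻¹) - 1) := by
      rw [sub_mul, mul_sub, one_mul, mul_one, ← map_mul, ← map_mul]
      congr 2
      group
    rw [Matrix.mulVec_mulVec, e2, ← Matrix.mulVec_mulVec, e1, Matrix.mulVec_zero]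
  · push Not at hall
    have hab : ∀ g h, r g * r h = r h * r g := fun g h => by
      rw [← map_mul, ← map_mul, show g * h = g * h * g⁻¹ * h⁻¹ * (h * g) by group, map_mul,
        hall _ (hcomm g h), one_mul]
    by_cases hsc : ∀ g, ∃ c : K, r g = c • (1 : Matrix (Fin 2) (Fin 2) K)
    · refine hirr ⟨![1, 0], fun h => one_ne_zero (congrFun h 0), fun g _ => ?_⟩
      obtain ⟨c, hc⟩ := hsc g
      exact ⟨c, by rw [hc, Matrix.smul_mulVec, Matrix.one_mulVec]⟩
    push Not at hsc
    obtain ⟨g₀, hg₀⟩ := hsc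
    obtain ⟨μ, hμ⟩ : ∃ μ : K, ((r g₀) - μ • (1 : Matrix (Fin 2) (Fin 2) K)).det = 0 := by
      obtain ⟨μ, hμ⟩ := IsAlgClosed.exists_root
        (Polynomial.C 1 * Polynomial.X ^ 2 + Polynomial.C (-(r g₀).trace) * Polynomial.X +
          Polynomial.C (r g₀).det) (by rw [Polynomial.degree_quadratic one_ne_zero]; norm_num)
      refine ⟨μ, ?_⟩
      simp [Matrix.trace_fin_two, Matrix.det_fin_two] at hμ
      simp [Matrix.det_fin_two]
      linear_combination hμ
    obtain ⟨v, hv, hv0⟩ := Matrix.exists_mulVec_eq_zero_iff.mpr hμ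
    refine hirr ⟨v, hv, fun g _ => exists_smul_of_mulVec_zero
      (sub_ne_zero.mpr (hg₀ μ)) hv0 ?_ hv⟩
    rw [Matrix.mulVec_mulVec, show (r g₀ - μ • (1 : Matrix (Fin 2) (Fin 2) K)) * r g =
      r g * (r g₀ - μ • (1 : Matrix (Fin 2) (Fin 2) K)) by
        rw [sub_mul, mul_sub, hab g₀ g, Matrix.smul_mul, Matrix.mul_smul, one_mul, mul_one],
      ← Matrix.mulVec_mulVec, hv0, Matrix.mulVec_zero]

end Group

open FLTAgent.Deformation FLTAgent.TW

local notation "Γℚ" => AlgebraicClosure ℚ ≃ₐ[ℚ] AlgebraicClosure ℚ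

theorem not_hasStableLine_of_irreducible {k : Type} [Field k] (ρbar : ResidualGaloisRep k)
    (hirr : ρbar.IsIrreducible) (b : Module.Basis (Fin 2) k ρbar.V) :
    ¬ HasStableLine (repMatrix ρbar.ρ b) Set.univ := by
  rintro ⟨v, hv, hst⟩
  have hne : b.equivFun.symm v ≠ 0 := fun h => hv (b.equivFun.symm.map_eq_zero_iff.mp h)
  rcases hirr (Submodule.span k {b.equivFun.symm v}) (fun σ x hx => by
    obtain ⟨t, rfl⟩ := Submodule.mem_span_singleton.mp hx
    obtain ⟨a, ha⟩ := hst σ trivial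
    refine Submodule.mem_span_singleton.mpr ⟨t * a, b.equivFun.injective ?_⟩
    rw [← repMatrix_mulVec ρbar.ρ b σ, map_smul, map_smul, LinearEquiv.apply_symm_apply,
      Matrix.mulVec_smul]
    show (t * a) • v = t • ((repMatrix ρbar.ρ b σ).mulVec v)
    rw [ha, smul_smul]) with h | h
  · exact hne (Submodule.span_singleton_eq_bot.mp h)
  · have h1 := finrank_span_singleton (K := k) hne
    rw [h, finrank_top, ρbar.finrank_eq] at h1
    omega

/-- A prime whose Frobenius fixes the `m`th roots of unity is one modulo `m`. -/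
theorem natCast_eq_one_of_frobenius {m ℓ : ℕ} (hm : m ≠ 0) (hℓ : ℓ.Prime) (hℓm : ¬ ℓ ∣ m)
    {A : ValuationSubring (AlgebraicClosure ℚ)} (hA : A.LiesOverPrime ℓ) {σ : Γℚ}
    (hσ : A.IsFrobeniusAt σ ℓ) (hfix : σ ∈ (muField m).fixingSubgroup) : (ℓ : ZMod m) = 1 := by
  rw [← Nat.cast_one, eq_comm, ZMod.natCast_eq_natCast_iff, Nat.modEq_iff_dvd' hℓ.one_le,
    Nat.dvd_iff_prime_pow_dvd_dvd]
  intro r e hr hre
  rcases Nat.eq_zero_or_pos e with rfl | he
  · simp
  have : Fact r.Prime := ⟨hr⟩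
  have hne : ℓ ≠ r := fun h => hℓm (h ▸ (dvd_pow_self r he.ne').trans hre)
  refine dvd_sub_one_of_frobenius hℓ hne hA hσ ?_
  rw [mem_fixing_muField] at hfix ⊢
  intro x hx
  obtain ⟨c, rfl⟩ := hre
  exact hfix x (by rw [pow_mul, hx, one_pow])

/-- **A residually absolutely irreducible system is not Eisenstein.** -/
theorem nonEis_of_residual {O : Type} [CommRing O] [IsLocalRing O] {p : ℕ} [Fact p.Prime]
    (hp2 : p ≠ 2) (hp : (p : O) ∈ maximalIdeal O)
    (ρbar : ResidualGaloisRep (ResidueField O)) (habs : ρbar.IsAbsolutelyIrreducible)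
    {ι : Type*} {l : ι → ℕ} (a : ι → O) (S₁ : Finset ℕ)
    (hcov : ∀ ℓ : ℕ, ℓ.Prime → ℓ ∉ S₁ → ∃ i, l i = ℓ)
    (hres : ∀ i, (l i).Prime → l i ∉ S₁ →
      ∀ A : ValuationSubring (AlgebraicClosure ℚ), A.LiesOverPrime (l i) →
        ∀ σ : Γℚ, A.IsFrobeniusAt σ (l i) →
          LinearMap.trace (ResidueField O) ρbar.V (ρbar.ρ σ) = residue O (a i)) :
    NonEis l a := by
  classical
  intro m hm
  by_contra hc
  push Not at hc
  have hpk : (p : ResidueField O) = 0 := by
    rw [← map_natCast (residue O), residue_eq_zero_iff]; exact hp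
  have h2k : (2 : ResidueField O) ≠ 0 := fun h => by
    obtain ⟨c, hc⟩ := (Fact.out : p.Prime).odd_of_ne_two hp2
    have : (1 : ResidueField O) = 0 := by
      rw [← hpk, hc]; push_cast; rw [h]; ring
    exact one_ne_zero this
  have hmp : m * p ≠ 0 := mul_ne_zero hm (Fact.out : p.Prime).ne_zero
  set K := AlgebraicClosure (ResidueField O)
  set b := Module.finBasisOfFinrankEq (ResidueField O) ρbar.V ρbar.finrank_eq
  set B : Module.Basis (Fin 2) K (ρbar.baseChange K).V := Algebra.TensorProduct.basis K b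
  have e : ∀ g, repMatrix (ρbar.baseChange K).ρ B g =
      (repMatrix ρbar.ρ b g).map (algebraMap (ResidueField O) K) := fun g =>
    LinearMap.toMatrix_baseChange K (ρbar.ρ g) b b
  refine false_of_trace_two (repMatrix (ρbar.baseChange K).ρ B)
    ((muField (m * p)).fixingSubgroup : Set Γℚ) (fun g hg h hh => mul_mem hg hh)
    (fun g h hh => fixing_muField_conj g hh) (fun g h => commutator_mem_muField hmp g h)
    (fun h => h2k ((algebraMap (ResidueField O) K).injective (by simpa [map_ofNat] using h))) ?_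
    (not_hasStableLine_of_irreducible _ habs B)
  intro h hh
  obtain ⟨L, hL, hker⟩ := ρbar.factorsThroughFiniteLevel
  have := finiteDimensional_muField hmp
  obtain ⟨ℓ, hℓ, hℓS, A, hA, σ, hσ, hag⟩ := GalRep.frobeniusDense (L ⊔ muField (m * p))
    inferInstance h (S₁ ∪ (m * p).divisors)
  simp only [Finset.mem_union, Nat.mem_divisors, not_or] at hℓS
  obtain ⟨hℓS₁, hℓm⟩ := hℓS
  obtain ⟨ha, -⟩ := GalRep.fixing_of_agree hag
  have hℓ1 : (ℓ : ZMod (m * p)) = 1 := by
    refine natCast_eq_one_of_frobenius hmp hℓ (fun hd => hℓm ⟨hd, hmp⟩) hA hσ ?_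
    have hh' : h ∈ (muField (m * p)).fixingSubgroup := hh
    rw [mem_fixing_muField] at hh' ⊢
    intro x hx
    rw [hag x (le_sup_right (a := L)
      (IntermediateField.subset_adjoin ℚ _ hx : x ∈ muField (m * p)))]
    exact hh' x hx
  obtain ⟨i, rfl⟩ := hcov ℓ hℓ hℓS₁
  have hi : (l i : ZMod m) = 1 := by
    have := congrArg (ZMod.castHom (dvd_mul_right m p) (ZMod m)) hℓ1
    rwa [map_natCast, map_one] at this
  have hlk : (l i : ResidueField O) = 1 := by
    have hmodp := congrArg (ZMod.castHom (dvd_mul_left p m) (ZMod p)) hℓ1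
    rw [map_natCast, map_one, ← Nat.cast_one, eq_comm, ZMod.natCast_eq_natCast_iff,
      Nat.modEq_iff_dvd' hℓ.one_le] at hmodp
    obtain ⟨c, hc⟩ := hmodp
    rw [show l i = p * c + 1 by have := hℓ.one_le; omega]
    push_cast
    rw [hpk, zero_mul, zero_add]
  have hra : residue O (a i) = 2 := by
    have := hc i hi
    rw [← mem_nonunits_iff, ← mem_maximalIdeal, ← residue_eq_zero_iff, map_sub, map_add,
      map_natCast, map_one, hlk, sub_eq_zero] at this
    rw [this]; norm_num
  have htr : LinearMap.trace (ResidueField O) ρbar.V (ρbar.ρ h) = 2 := by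
    have hρ : ρbar.ρ σ = ρbar.ρ h := by
      rw [show σ = h * (h⁻¹ * σ) by group, map_mul,
        hker _ fun x hx => ha x (le_sup_left (b := muField (m * p)) hx), mul_one]
    rw [← hρ, hres i hℓ hℓS₁ A hA σ hσ, hra]
  rw [e, ← AddMonoidHom.map_trace, repMatrix_apply, ← LinearMap.trace_eq_matrix_trace, htr,
    map_ofNat]

end FLTAgent.RT
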