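import Fermat.Agent.RT.Coh.Transfer
import Fermat.Agent.LevelRaise.Nondegenerate

/-!
# Corestriction from a normal subgroup with abelian quotient

`Γ'` is the kernel of `ρ : Γ →* D`. If the fixed cosets of `S` and `S T` lift to fixed cosets,
corestriction is surjective on homomorphisms killing `-1` and its kernel consists of the sums of
`ψ (g · g⁻¹) - ψ`.
-/

set_option autoImplicit false

noncomputable section

namespace FLTAgent.RT

open LevelRaise
open scoped MatrixGroups
open ModularGroup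

section Values

variable {X : Type*} [MulAction SL(2, ℤ) X] {A : Type*} [AddCommGroup A]

/-- A cocycle with prescribed values at `S` and `S T`. -/
theorem exists_cocycle_of_values (hneg : ∀ x : X, (-1 : SL(2, ℤ)) • x = x) (e e' : X → A)
    (he : ∀ x, e (S • x) + e x = 0)
    (he' : ∀ x, e' ((S * T) • (S * T) • x) + e' ((S * T) • x) + e' x = 0) :
    ∃ a : SL(2, ℤ) → X → A, IsCocycle a ∧ a S = e ∧ a (S * T) = e' ∧ ∀ x, a (-1) x = 0 := by
  have hS2 : ∀ x : X, S • S • x = x := fun x => by rw [← mul_smul, ← pow_two, S_sq_eq, hneg]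
  have hU3 : ∀ x : X, (S * T) • (S * T) • (S * T) • x = x := fun x => by
    rw [← mul_smul, ← mul_smul, mul_assoc (S * T), ← pow_two, ← pow_succ', ST_cube_eq, hneg]
  let sFun : X × A → X × A := fun z => (S • z.1, e z.1 + z.2)
  let uFun : X × A → X × A := fun z => ((S * T) • z.1, e' z.1 + z.2)
  have hs : Function.Involutive sFun := fun z => by
    simp only [sFun, hS2, ← add_assoc, he, zero_add]
  have hu : ∀ z, uFun (uFun (uFun z)) = z := fun z => by
    simp only [uFun, hU3, ← add_assoc, he', zero_add]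
  let uPerm : Equiv.Perm (X × A) :=
    ⟨uFun, fun z => uFun (uFun z), fun z => hu z, fun z => hu z⟩
  obtain ⟨Φ, hΦS, hΦU, hΦneg⟩ := exists_hom_of_relations hs.toPerm uPerm
    (Equiv.ext fun z => hs z) (Equiv.ext fun z => hu z)
  let good : SL(2, ℤ) → Prop := fun g => ∀ x, ∃ p, ∀ t : A, Φ g (x, t) = (g • x, p + t)
  have hmul : ∀ g h, good g → good h → good (g * h) := fun g h hg hh x => by
    obtain ⟨p, hx⟩ := hh x
    obtain ⟨p', hgx⟩ := hg (h • x)
    exact ⟨p' + p, fun t => by rw [map_mul, Equiv.Perm.mul_apply, hx, hgx, mul_smul, add_assoc]⟩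
  have hinv : ∀ g, good g → good g⁻¹ := fun g hg x => by
    obtain ⟨p, hx⟩ := hg (g⁻¹ • x)
    refine ⟨-p, fun t => ?_⟩
    rw [_root_.map_inv, Equiv.Perm.inv_eq_iff_eq, hx, smul_inv_smul, add_neg_cancel_left]
  have hgoodS : good S := fun x => ⟨e x, fun t => by rw [hΦS]; rfl⟩
  have hgoodU : good (S * T) := fun x => ⟨e' x, fun t => by rw [hΦU]; rfl⟩
  have hgood : ∀ g, good g := fun g => by
    have hg : g ∈ Subgroup.closure ({S, T} : Set SL(2, ℤ)) := by
      rw [SpecialLinearGroup.SL2Z_generators]; trivial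
    induction hg using Subgroup.closure_induction with
    | mem y hy =>
      rcases hy with rfl | rfl
      · exact hgoodS
      · have h := hmul _ _ (hinv _ hgoodS) hgoodU
        rwa [inv_mul_cancel_left] at h
    | one => exact fun x => ⟨0, fun t => by simp⟩
    | mul a b _ _ ha hb => exact hmul _ _ ha hb
    | inv a _ ha => exact hinv _ ha
  have hspec : ∀ g x t, Φ g (x, t) = (g • x, (Φ g (x, 0)).2 + t) := fun g x t => by
    obtain ⟨p, hp⟩ := hgood g x
    rw [hp, hp, add_zero]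
  refine ⟨fun g x => (Φ g (x, 0)).2, fun g h x => ?_, ?_, ?_, fun x => by simp [hΦneg]⟩
  · show (Φ (g * h) (x, 0)).2 = _
    rw [map_mul, Equiv.Perm.mul_apply, hspec h x 0, hspec g, add_zero]
  · funext x; simp [hΦS, sFun]
  · funext x; simp [hΦU, uPerm, uFun]

theorem cocycle_S_rel {a : SL(2, ℤ) → X → A} (ha : IsCocycle a) (h : ∀ x, a (-1) x = 0) (x : X) :
    a S (S • x) + a S x = 0 := by
  rw [← ha, ← pow_two, S_sq_eq, h]

theorem cocycle_ST_rel {a : SL(2, ℤ) → X → A} (ha : IsCocycle a) (h : ∀ x, a (-1) x = 0) (x : X) :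
    a (S * T) ((S * T) • (S * T) • x) + a (S * T) ((S * T) • x) + a (S * T) x = 0 := by
  rw [← mul_smul, add_assoc, ← ha, ← ha, ← pow_two, ← pow_succ', ST_cube_eq, h]

theorem cocycle_eq_of_values {a b : SL(2, ℤ) → X → A} (ha : IsCocycle a) (hb : IsCocycle b)
    (hS : a S = b S) (hU : a (S * T) = b (S * T)) : a = b := by
  have h : IsCocycle (a - b) := fun g h x => by
    simp only [Pi.sub_apply, ha g h x, hb g h x]; abel
  funext g x
  exact sub_eq_zero.mp (h.eq_zero (fun y => by simp [hS]) (fun y => by simp [hU]) g x)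

/-- An element with fixed points lifting to fixed points has an equivariant section. -/
theorem exists_equivariant_section {Y : Type*} [MulAction SL(2, ℤ) Y] [Fintype X] [Fintype Y]
    {π : Y → X} (hπ : ∀ (g : SL(2, ℤ)) y, π (g • y) = g • π y) (hsurj : Function.Surjective π)
    {g : SL(2, ℤ)} {n : ℕ} (hn : n.Prime) (hgn : ∀ y : Y, g ^ n • y = y)
    (hfix : ∀ y : Y, g • π y = π y → g • y = y) :
    ∃ s : X → Y, (∀ x, π (s x) = x) ∧ ∀ x, s (g • x) = g • s x := by
  classical
  choose l hl using hsurj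
  choose j _ hj using fun x : X => exists_pow_smul_out g x
  have hXn : ∀ x : X, g ^ n • x = x := fun x => by rw [← hl x, ← hπ, hgn]
  have hind : ∀ (i k : ℕ) (r : X), g ^ i • r = g ^ k • r → g ^ i • l r = g ^ k • l r := by
    intro i k r hik
    wlog hle : i ≤ k generalizing i k
    · exact (this k i hik.symm (le_of_not_ge hle)).symm
    obtain ⟨d, rfl⟩ := Nat.exists_eq_add_of_le hle
    have hfd : g ^ d • r = r := by
      apply MulAction.injective (g ^ i)
      show g ^ i • g ^ d • r = g ^ i • r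
      rw [← mul_smul, ← pow_add, hik]
    suffices g ^ d • l r = l r by rw [pow_add, mul_smul, this]
    rcases (Nat.dvd_prime hn).mp (MulAction.pow_smul_eq_iff_period_dvd.mp (hXn r)) with h1 | h1
    · have hr : g • r = r := by
        have := MulAction.pow_period_smul g r
        rwa [h1, pow_one] at this
      have hl1 : g • l r = l r := hfix _ (by rw [hl]; exact hr)
      clear hfd hle hik
      induction d with
      | zero => simp
      | succ d ih => rw [pow_succ, mul_smul, hl1, ih]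
    · obtain ⟨c, rfl⟩ := h1 ▸ MulAction.pow_smul_eq_iff_period_dvd.mp hfd
      clear hfd hle hik
      induction c with
      | zero => simp
      | succ c ih => rw [Nat.mul_succ, pow_add, mul_smul, hgn, ih]
  refine ⟨fun x => g ^ j x • l (Quotient.mk'' x : PowOrbits g X).out, fun x => ?_, fun x => ?_⟩
  · rw [hπ, hl, hj]
  · have h1 := hj (g • x)
    rw [mk_smul_self] at h1
    show g ^ j (g • x) • l (Quotient.mk'' (g • x) : PowOrbits g X).out = g • g ^ j x • l _
    rw [mk_smul_self, ← mul_smul, ← pow_succ']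
    exact hind _ _ _ (by rw [h1, pow_succ', mul_smul, hj x])

end Values

section Kernel

variable {Γ' Γ : Subgroup SL(2, ℤ)} {D : Type*} [CommGroup D] (ρ : Γ →* D)
  (hker : ∀ γ : Γ, (γ : SL(2, ℤ)) ∈ Γ' ↔ ρ γ = 1)

include hker in
theorem conj_mem_of_ker (hle : Γ' ≤ Γ) (g : Γ) {γ : SL(2, ℤ)} (hγ : γ ∈ Γ') :
    (g : SL(2, ℤ)) * γ * (g : SL(2, ℤ))⁻¹ ∈ Γ' := by
  have : ((g * ⟨γ, hle hγ⟩ * g⁻¹ : Γ) : SL(2, ℤ)) ∈ Γ' := by
    rw [hker, map_mul, map_mul, (hker ⟨γ, hle hγ⟩).mp hγ, map_inv, mul_one, mul_inv_cancel]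
  exact this

/-- Right multiplication by `g⁻¹` on cosets. -/
def rightShift (hle : Γ' ≤ Γ) (g : Γ) : Cos Γ' → Cos Γ' :=
  Quotient.lift (fun a : SL(2, ℤ) => ((a * (g : SL(2, ℤ))⁻¹ : SL(2, ℤ)) : Cos Γ')) fun a b hab => by
    refine QuotientGroup.eq.mpr ?_
    have h : a⁻¹ * b ∈ Γ' := QuotientGroup.leftRel_apply.mp hab
    simpa [mul_assoc] using conj_mem_of_ker ρ hker hle g h

variable (hle : Γ' ≤ Γ)

@[simp] theorem rightShift_mk (g : Γ) (a : SL(2, ℤ)) :
    rightShift ρ hker hle g (a : Cos Γ') = ((a * (g : SL(2, ℤ))⁻¹ : SL(2, ℤ)) : Cos Γ') := rfl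

theorem rightShift_smul (g : Γ) (h : SL(2, ℤ)) (x : Cos Γ') :
    rightShift ρ hker hle g (h • x) = h • rightShift ρ hker hle g x := by
  induction x using QuotientGroup.induction_on with
  | H a => simp [MulAction.Quotient.smul_mk, mul_assoc]

theorem cosMap_rightShift (g : Γ) (x : Cos Γ') :
    cosMap hle (rightShift ρ hker hle g x) = cosMap hle x := by
  induction x using QuotientGroup.induction_on with
  | H a =>
    show ((a * (g : SL(2, ℤ))⁻¹ : SL(2, ℤ)) : Cos Γ) = (a : Cos Γ)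
    exact QuotientGroup.eq.mpr (by simp)

theorem rightShift_rightShift (g h : Γ) (x : Cos Γ') :
    rightShift ρ hker hle g (rightShift ρ hker hle h x) = rightShift ρ hker hle (g * h) x := by
  induction x using QuotientGroup.induction_on with
  | H a => simp [mul_assoc]

theorem rightShift_one (x : Cos Γ') : rightShift ρ hker hle 1 x = x := by
  induction x using QuotientGroup.induction_on with
  | H a => simp

theorem rightShift_eq {g h : Γ} (hgh : ρ g = ρ h) (x : Cos Γ') :
    rightShift ρ hker hle g x = rightShift ρ hker hle h x := by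
  induction x using QuotientGroup.induction_on with
  | H a =>
    refine QuotientGroup.eq.mpr ?_
    have : ((g * h⁻¹ : Γ) : SL(2, ℤ)) ∈ Γ' := by rw [hker, map_mul, map_inv, hgh, mul_inv_cancel]
    simpa [mul_assoc] using this

theorem eq_of_rightShift_eq {g h : Γ} {x : Cos Γ'}
    (he : rightShift ρ hker hle g x = rightShift ρ hker hle h x) : ρ g = ρ h := by
  induction x using QuotientGroup.induction_on with
  | H a =>
    have := QuotientGroup.eq.mp he
    simp only [mul_inv_rev, inv_inv, ← mul_assoc, inv_mul_cancel_right] at this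
    have := (hker (g * h⁻¹)).mp this
    rwa [map_mul, map_inv, mul_inv_eq_one] at this

variable (hρ : Function.Surjective ρ)

theorem rightShift_surjOn {x y : Cos Γ'} (h : cosMap hle x = cosMap hle y) :
    ∃ g : Γ, rightShift ρ hker hle g x = y := by
  induction x using QuotientGroup.induction_on with
  | H a =>
    induction y using QuotientGroup.induction_on with
    | H b =>
      have hab : a⁻¹ * b ∈ Γ := QuotientGroup.eq.mp h
      exact ⟨⟨_, hab⟩⁻¹, by simp⟩

/-- A chosen preimage of an element of `D`. -/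
def liftD (δ : D) : Γ := (hρ δ).choose

theorem ρ_liftD (δ : D) : ρ (liftD ρ hρ δ) = δ := (hρ δ).choose_spec

variable [Fintype D] [Γ'.FiniteIndex] {A : Type*} [AddCommGroup A]

omit [Γ'.FiniteIndex] in
theorem sum_fibre_eq_sum_D [Fintype (Cos Γ')] [DecidableEq (Cos Γ)] {B : Type*} [AddCommMonoid B]
    (f : Cos Γ' → B) (x : Cos Γ') :
    ∑ y ∈ Finset.univ.filter (fun y => cosMap hle y = cosMap hle x), f y =
      ∑ δ : D, f (rightShift ρ hker hle (liftD ρ hρ δ) x) := by
  refine (Finset.sum_bij (fun δ _ => rightShift ρ hker hle (liftD ρ hρ δ) x) (fun δ _ => ?_)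
    (fun δ _ ε _ h => ?_) (fun y hy => ?_) (fun _ _ => rfl)).symm
  · simp [cosMap_rightShift]
  · have := eq_of_rightShift_eq ρ hker hle h
    rwa [ρ_liftD, ρ_liftD] at this
  · simp only [Finset.mem_filter, Finset.mem_univ, true_and] at hy
    obtain ⟨g, rfl⟩ := rightShift_surjOn ρ hker hle hy.symm
    exact ⟨ρ g, Finset.mem_univ _, rightShift_eq ρ hker hle (ρ_liftD ρ hρ _) x⟩

omit [Fintype D] [Γ'.FiniteIndex] in
theorem baseHom_rightShift {b : SL(2, ℤ) → Cos Γ' → A} (hb : IsCocycle b) (g : Γ)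
    (h : IsCocycle fun h x => b h (rightShift ρ hker hle g x)) (γ : Γ')
    {δ : Γ'} (hδ : (δ : SL(2, ℤ)) = g * γ * (g : SL(2, ℤ))⁻¹) :
    baseHom _ h (Additive.ofMul γ) = baseHom b hb (Additive.ofMul δ) := by
  rw [baseHom_apply, baseHom_apply, rightShift_mk, one_mul]
  have hc : ((g : SL(2, ℤ))⁻¹ • cosBase Γ' : Cos Γ') = (((g : SL(2, ℤ))⁻¹ : SL(2, ℤ)) : Cos Γ') := by
    rw [MulAction.Quotient.smul_mk, smul_eq_mul, mul_one]
  rw [← hc]
  have e1 := hb (γ : SL(2, ℤ)) (g : SL(2, ℤ))⁻¹ (cosBase Γ')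
  have e2 := hb (g : SL(2, ℤ))⁻¹ (δ : SL(2, ℤ)) (cosBase Γ')
  rw [show (γ : SL(2, ℤ)) * (g : SL(2, ℤ))⁻¹ = (g : SL(2, ℤ))⁻¹ * δ by rw [hδ]; group] at e1
  rw [smul_base_of_mem δ.2] at e2
  rw [e2, add_comm] at e1
  exact (add_right_cancel e1).symm

/-- `ψ ↦ ψ (g · g⁻¹)`. -/
def conjHom (g : Γ) (ψ : Additive Γ' →+ A) : Additive Γ' →+ A :=
  ψ.comp (MonoidHom.toAdditive (MonoidHom.mk'
    (fun γ : Γ' => (⟨(g : SL(2, ℤ)) * γ * (g : SL(2, ℤ))⁻¹, conj_mem_of_ker ρ hker hle g γ.2⟩ : Γ'))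
    fun γ γ' => Subtype.ext (by simp only [Subgroup.coe_mul]; group)))

omit [Fintype D] [Γ'.FiniteIndex] in
theorem homCocycle_neg_one {Δ : Subgroup SL(2, ℤ)} (hneg : (-1 : SL(2, ℤ)) ∈ Δ)
    {φ : Additive Δ →+ A} (hφ : φ (Additive.ofMul ⟨-1, hneg⟩) = 0) (x : Cos Δ) :
    homCocycle φ (-1) x = 0 := by
  rw [homCocycle, show cellG (-1 : SL(2, ℤ)) x = ⟨-1, hneg⟩ from Subtype.ext (by
    rw [cellG_of_fixed (neg_one_smul_cos hneg x), inv_inv, mul_assoc, neg_one_central,
      ← mul_assoc, inv_mul_cancel, one_mul]), hφ]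

include hker hρ in
/-- The kernel of corestriction. -/
theorem exists_eq_sum_conj_sub (hneg : (-1 : SL(2, ℤ)) ∈ Γ')
    (hS : ∀ x : Cos Γ', S • cosMap hle x = cosMap hle x → S • x = x)
    (hU : ∀ x : Cos Γ', (S * T) • cosMap hle x = cosMap hle x → (S * T) • x = x)
    {φ : Additive Γ' →+ A} (hφ1 : φ (Additive.ofMul ⟨-1, hneg⟩) = 0) (hφ : cores hle φ = 0) :
    ∃ ψ : D → Additive Γ' →+ A,
      φ = ∑ δ, (conjHom ρ hker hle (liftD ρ hρ δ) (ψ δ) - ψ δ) := by
  classical
  let := Fintype.ofFinite (Cos Γ')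
  have : Fintype (Cos Γ) := Fintype.ofSurjective (cosMap hle) (fun x => by
    induction x using QuotientGroup.induction_on with
    | H a => exact ⟨(a : Cos Γ'), rfl⟩)
  have hn := fun x : Cos Γ' => neg_one_smul_cos hneg x
  have hsurj : Function.Surjective (cosMap hle) := fun x => by
    induction x using QuotientGroup.induction_on with
    | H a => exact ⟨(a : Cos Γ'), rfl⟩
  have hπ := cosMap_smul (Γ := Γ) hle
  obtain ⟨sS, hsS, hsS'⟩ := exists_equivariant_section hπ hsurj Nat.prime_two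
    (g := S) (fun y => by rw [S_sq_eq, hn]) hS
  obtain ⟨sU, hsU, hsU'⟩ := exists_equivariant_section hπ hsurj Nat.prime_three
    (g := S * T) (fun y => by rw [ST_cube_eq, hn]) hU
  set a := homCocycle φ with ha
  have hac : IsCocycle a := isCocycle_homCocycle φ
  have hpush : baseHom (push (cosMap hle) a) (hac.push hπ) = 0 := by
    rw [← hφ, LevelRaise.cores]
  obtain ⟨u, hu⟩ := exists_cobound_of_base (hac.push hπ)
    (fun γ => DFunLike.congr_fun hpush (Additive.ofMul γ))
  set v : Cos Γ' → A := fun x => if x = sS (cosMap hle x) then u (cosMap hle x) else 0 with hv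
  set a' := a - cobound v with ha'
  have ha'c : IsCocycle a' := fun g h x => by
    simp only [ha', Pi.sub_apply, hac g h x, (isParCocycle_cobound v).1 g h x]; abel
  have ha'neg : ∀ x, a' (-1) x = 0 := fun x => by
    simp [ha', ha, homCocycle_neg_one hneg hφ1, cobound, hn]
  have hfib : ∀ (g : SL(2, ℤ)) (x : Cos Γ'),
      ∑ δ, a' g (rightShift ρ hker hle (liftD ρ hρ δ) x) = 0 := fun g x => by
    rw [← sum_fibre_eq_sum_D ρ hker hle hρ (a' g) x]
    have h1 := congrFun (congrFun hu g) (cosMap hle x)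
    have h2 := congrFun (congrFun (push_cobound hπ v) g) (cosMap hle x)
    have h3 : (fun y => ∑ z ∈ Finset.univ.filter (fun z => cosMap hle z = y), v z) = u := by
      funext y
      rw [Finset.sum_eq_single (sS y)]
      · simp [hv, hsS]
      · intro z hz hne
        simp only [Finset.mem_filter, Finset.mem_univ, true_and] at hz
        simp only [hv, hz]
        rw [if_neg hne]
      · simp [hsS]
    rw [h3] at h2
    simp only [ha', Pi.sub_apply, Finset.sum_sub_distrib]
    simp only [LevelRaise.push] at h1 h2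
    rw [h1, h2, sub_self]
  set e : D → Cos Γ' → A := fun δ x =>
    if x = sS (cosMap hle x) then a' S (rightShift ρ hker hle (liftD ρ hρ δ) x) else 0 with he
  set e' : D → Cos Γ' → A := fun δ x =>
    if x = sU (cosMap hle x) then a' (S * T) (rightShift ρ hker hle (liftD ρ hρ δ) x) else 0 with he'
  have hiS : ∀ x : Cos Γ', (S • x = sS (cosMap hle (S • x))) ↔ x = sS (cosMap hle x) := fun x => by
    rw [hπ, hsS', (MulAction.injective (S : SL(2, ℤ))).eq_iff]
  have hiU : ∀ x : Cos Γ',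
      ((S * T) • x = sU (cosMap hle ((S * T) • x))) ↔ x = sU (cosMap hle x) := fun x => by
    rw [hπ, hsU', (MulAction.injective (S * T : SL(2, ℤ))).eq_iff]
  have hb : ∀ δ, ∃ b : SL(2, ℤ) → Cos Γ' → A,
      IsCocycle b ∧ b S = e δ ∧ b (S * T) = e' δ ∧ ∀ x, b (-1) x = 0 := fun δ => by
    refine exists_cocycle_of_values hn _ _ (fun x => ?_) fun x => ?_
    · simp only [he, hiS]
      split_ifs
      · rw [rightShift_smul]; exact cocycle_S_rel ha'c ha'neg _
      · simp
    · simp only [he', hiU]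
      split_ifs
      · rw [rightShift_smul, rightShift_smul]; exact cocycle_ST_rel ha'c ha'neg _
      · simp
  choose b hbc hbS hbU _ using hb
  set c : SL(2, ℤ) → Cos Γ' → A := fun g x =>
    ∑ δ, (b δ g (rightShift ρ hker hle (liftD ρ hρ δ)⁻¹ x) - b δ g x) with hc
  have hshift : ∀ g : Γ, ∀ δ, IsCocycle fun h x => b δ h (rightShift ρ hker hle g x) :=
    fun g δ h k x => by
      show b δ (h * k) _ = b δ h (rightShift ρ hker hle g (k • x)) + _
      rw [hbc δ, rightShift_smul]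
  have hcc : IsCocycle c := fun g h x => by
    simp only [hc, ← Finset.sum_add_distrib]
    refine Finset.sum_congr rfl fun δ _ => ?_
    rw [hbc δ g h x, hbc δ g h _, rightShift_smul]; abel
  have hval : ∀ (s : Cos Γ → Cos Γ') (f : Cos Γ' → A), (∀ y, cosMap hle (s y) = y) →
      (∀ x, ∑ δ, f (rightShift ρ hker hle (liftD ρ hρ δ) x) = 0) → ∀ x,
      ∑ δ, ((if rightShift ρ hker hle (liftD ρ hρ δ)⁻¹ x
          = s (cosMap hle (rightShift ρ hker hle (liftD ρ hρ δ)⁻¹ x)) then
          f (rightShift ρ hker hle (liftD ρ hρ δ) (rightShift ρ hker hle (liftD ρ hρ δ)⁻¹ x)) else 0) -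
        (if x = s (cosMap hle x) then f (rightShift ρ hker hle (liftD ρ hρ δ) x) else 0)) = f x := by
    intro s f hs hf x
    rw [Finset.sum_sub_distrib]
    have h2 : ∑ δ, (if x = s (cosMap hle x) then
        f (rightShift ρ hker hle (liftD ρ hρ δ) x) else 0) = 0 := by
      split_ifs
      · exact hf x
      · simp
    simp only [cosMap_rightShift, rightShift_rightShift, mul_inv_cancel, rightShift_one]
    rw [h2, sub_zero]
    obtain ⟨g, hg⟩ := rightShift_surjOn ρ hker hle
      (show cosMap hle x = cosMap hle (s (cosMap hle x)) by rw [hs])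
    rw [Finset.sum_eq_single (ρ g)⁻¹]
    · rw [rightShift_eq ρ hker hle (g := (liftD ρ hρ (ρ g)⁻¹)⁻¹) (h := g)
        (by rw [map_inv, ρ_liftD, inv_inv]), if_pos hg]
    · intro δ _ hne
      rw [if_neg]
      intro h
      refine hne ?_
      have h2 := eq_of_rightShift_eq ρ hker hle (h.trans hg.symm)
      rwa [map_inv, ρ_liftD, inv_eq_iff_eq_inv] at h2
    · simp
  have hca : c = a' := by
    refine cocycle_eq_of_values hcc ha'c (funext fun x => ?_) (funext fun x => ?_)
    · simp only [hc, hbS, he]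
      exact hval sS (a' S) hsS (hfib S) x
    · simp only [hc, hbU, he']
      exact hval sU (a' (S * T)) hsU (hfib _) x
  refine ⟨fun δ => baseHom (b δ⁻¹) (hbc δ⁻¹), AddMonoidHom.ext fun γ => ?_⟩
  obtain ⟨γ, rfl⟩ := Additive.ofMul.surjective γ
  have hbase : φ (Additive.ofMul γ) = a' (γ : SL(2, ℤ)) (cosBase Γ') := by
    rw [ha', Pi.sub_apply, Pi.sub_apply, ha, homCocycle_base, cobound, smul_base_of_mem γ.2, sub_self,
      sub_zero]
  rw [hbase, ← hca, hc, AddMonoidHom.finsetSum_apply]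
  refine Fintype.sum_equiv (Equiv.inv D) _ _ fun δ => ?_
  simp only [Equiv.inv_apply, AddMonoidHom.sub_apply, inv_inv, baseHom_apply]
  refine congrArg₂ (· - ·) ?_ rfl
  have h1 := baseHom_rightShift ρ hker hle (hbc δ) (liftD ρ hρ δ⁻¹) (hshift _ δ) γ
    (δ := ⟨_, conj_mem_of_ker ρ hker hle (liftD ρ hρ δ⁻¹) γ.2⟩) rfl
  rw [baseHom_apply] at h1
  refine Eq.trans ?_ h1
  rw [rightShift_eq ρ hker hle (g := (liftD ρ hρ δ)⁻¹) (h := liftD ρ hρ δ⁻¹)
    (by rw [map_inv, ρ_liftD, ρ_liftD])]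

/-- Corestriction is surjective. -/
theorem exists_cores_eq (hneg : (-1 : SL(2, ℤ)) ∈ Γ')
    (hS : ∀ x : Cos Γ', S • cosMap hle x = cosMap hle x → S • x = x)
    (hU : ∀ x : Cos Γ', (S * T) • cosMap hle x = cosMap hle x → (S * T) • x = x)
    {ψ : Additive Γ →+ A} (hψ1 : ψ (Additive.ofMul ⟨-1, hle hneg⟩) = 0) :
    ∃ φ : Additive Γ' →+ A, cores hle φ = ψ ∧ φ (Additive.ofMul ⟨-1, hneg⟩) = 0 := by
  classical
  let := Fintype.ofFinite (Cos Γ')
  have : Fintype (Cos Γ) := Fintype.ofSurjective (cosMap hle) (fun x => by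
    induction x using QuotientGroup.induction_on with
    | H a => exact ⟨(a : Cos Γ'), rfl⟩)
  have hn := fun x : Cos Γ' => neg_one_smul_cos hneg x
  have hsurj : Function.Surjective (cosMap hle) := fun x => by
    induction x using QuotientGroup.induction_on with
    | H a => exact ⟨(a : Cos Γ'), rfl⟩
  have hπ := cosMap_smul (Γ := Γ) hle
  obtain ⟨sS, hsS, hsS'⟩ := exists_equivariant_section hπ hsurj Nat.prime_two
    (g := S) (fun y => by rw [S_sq_eq, hn]) hS
  obtain ⟨sU, hsU, hsU'⟩ := exists_equivariant_section hπ hsurj Nat.prime_three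
    (g := S * T) (fun y => by rw [ST_cube_eq, hn]) hU
  have hac : IsCocycle (homCocycle ψ) := isCocycle_homCocycle ψ
  have haneg := homCocycle_neg_one (hle hneg) hψ1
  have hiS : ∀ x : Cos Γ', (S • x = sS (cosMap hle (S • x))) ↔ x = sS (cosMap hle x) := fun x => by
    rw [hπ, hsS', (MulAction.injective (S : SL(2, ℤ))).eq_iff]
  have hiU : ∀ x : Cos Γ',
      ((S * T) • x = sU (cosMap hle ((S * T) • x))) ↔ x = sU (cosMap hle x) := fun x => by
    rw [hπ, hsU', (MulAction.injective (S * T : SL(2, ℤ))).eq_iff]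
  obtain ⟨b, hb, hbS, hbU, hb1⟩ := exists_cocycle_of_values hn
    (fun x : Cos Γ' => if x = sS (cosMap hle x) then homCocycle ψ S (cosMap hle x) else 0)
    (fun x : Cos Γ' => if x = sU (cosMap hle x) then homCocycle ψ (S * T) (cosMap hle x) else 0)
    (fun x => by
      simp only [hiS]
      split_ifs
      · rw [hπ]; exact cocycle_S_rel hac haneg _
      · simp)
    (fun x => by
      simp only [hiU]
      split_ifs
      · rw [hπ, hπ]; exact cocycle_ST_rel hac haneg _
      · simp)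
  have hval : ∀ (s : Cos Γ → Cos Γ') (f : Cos Γ → A), (∀ y, cosMap hle (s y) = y) → ∀ y,
      ∑ x ∈ Finset.univ.filter (fun x => cosMap hle x = y),
        (if x = s (cosMap hle x) then f (cosMap hle x) else 0) = f y := by
    intro s f hs y
    rw [Finset.sum_eq_single (s y)]
    · simp [hs]
    · intro z hz hne
      simp only [Finset.mem_filter, Finset.mem_univ, true_and] at hz
      rw [hz, if_neg hne]
    · simp [hs]
  have hpush : push (cosMap hle) b = homCocycle ψ := by
    refine cocycle_eq_of_values (hb.push hπ) hac (funext fun y => ?_) (funext fun y => ?_)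
    · rw [LevelRaise.push, hbS]; exact hval sS _ hsS y
    · rw [LevelRaise.push, hbU]; exact hval sU _ hsU y
  refine ⟨baseHom b hb, AddMonoidHom.ext fun γ => ?_, hb1 _⟩
  obtain ⟨γ, rfl⟩ := Additive.ofMul.surjective γ
  obtain ⟨u, hu⟩ := exists_cobound_of_baseHom_eq (isCocycle_homCocycle (baseHom b hb)) hb
    (baseHom_homCocycle _)
  rw [LevelRaise.cores, baseHom_apply, ← homCocycle_base ψ γ, ← hpush, hu]
  simp only [LevelRaise.push, Pi.add_apply, cobound, Finset.sum_add_distrib, Finset.sum_sub_distrib,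
    sum_fibre_smul hπ u, smul_base_of_mem γ.2, sub_self, add_zero]

include hker in
omit [Fintype D] [Γ'.FiniteIndex] in
theorem liftD_mul_mem (δ : D) (γ : Γ) :
    ((liftD ρ hρ δ * γ * (liftD ρ hρ (δ * ρ γ))⁻¹ : Γ) : SL(2, ℤ)) ∈ Γ' := by
  rw [hker, map_mul, map_mul, map_inv, ρ_liftD, ρ_liftD, mul_inv_cancel]

include hker in
omit [Fintype D] [Γ'.FiniteIndex] in
/-- Representatives of `Γ'` in `Γ`. -/
theorem isFam_liftD : IsFam Γ' Γ (fun δ => matSL (liftD ρ hρ δ : SL(2, ℤ))) := by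
  refine ⟨fun δ => by rw [(liftD ρ hρ δ : SL(2, ℤ)).det_coe]; exact one_ne_zero, fun γ hγ =>
    ⟨Equiv.mulRight (ρ ⟨γ, hγ⟩), fun δ => ⟨_, liftD_mul_mem ρ hker hρ δ ⟨γ, hγ⟩⟩, fun δ => ?_⟩⟩
  simp only [Equiv.coe_mulRight, Subgroup.coe_mul, Subgroup.coe_inv]
  rw [← matSL_mul, ← matSL_mul, inv_mul_cancel_right]

theorem cores_eq_famTransfer (φ : Additive Γ' →+ A) :
    cores hle φ = famTransfer (isFam_liftD ρ hker hρ) φ := by
  classical
  let := Fintype.ofFinite (Cos Γ')
  obtain ⟨x, c, hx, hfib, hc⟩ := exists_fibre_param hle (fun δ => liftD ρ hρ δ)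
    (fun i j hij => by
      have h2 : ((liftD ρ hρ i * (liftD ρ hρ j)⁻¹ : Γ) : SL(2, ℤ)) ∈ Γ' := hij
      rwa [hker, map_mul, map_inv, ρ_liftD, ρ_liftD, mul_inv_eq_one] at h2)
    (fun γ => ⟨ρ γ, (hker (γ * (liftD ρ hρ (ρ γ))⁻¹)).mpr (by
      rw [map_mul, map_inv, ρ_liftD, mul_inv_cancel])⟩)
  refine AddMonoidHom.ext fun γ => ?_
  obtain ⟨γ, rfl⟩ := Additive.ofMul.surjective γ
  rw [cores_apply_param hle x hx hfib, famTransfer_apply _ φ γ
    (σ := Equiv.mulRight (ρ γ)) (δ := fun δ => ⟨_, liftD_mul_mem ρ hker hρ δ γ⟩) (fun δ => by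
      simp only [Equiv.coe_mulRight, Subgroup.coe_mul, Subgroup.coe_inv]
      rw [← matSL_mul, ← matSL_mul, inv_mul_cancel_right]),
    ← Equiv.sum_comp (Equiv.mulRight (ρ γ))
      (fun δ => φ (Additive.ofMul (cellG (γ : SL(2, ℤ)) (x δ))))]
  have key : ∀ δ, φ (Additive.ofMul (cellG (γ : SL(2, ℤ)) (x (δ * ρ γ)))) =
      φ (Additive.ofMul (⟨_, liftD_mul_mem ρ hker hρ δ γ⟩ : Γ')) +
        (φ (Additive.ofMul (c δ)) - φ (Additive.ofMul (c (δ * ρ γ)))) := by
    intro δ
    have hout : ∀ ε, (x ε).out = (liftD ρ hρ ε : SL(2, ℤ))⁻¹ * (c ε : SL(2, ℤ))⁻¹ := fun ε => by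
      rw [← mul_inv_rev, ← hc, inv_inv]
    have hsm : (γ : SL(2, ℤ)) • x (δ * ρ γ) = x δ := by
      conv_lhs => rw [← QuotientGroup.out_eq' (x (δ * ρ γ))]
      conv_rhs => rw [← QuotientGroup.out_eq' (x δ)]
      rw [MulAction.Quotient.smul_mk, smul_eq_mul]
      refine (QuotientGroup.eq.mpr ?_).symm
      have h := Γ'.mul_mem (Γ'.mul_mem (c δ).2 (liftD_mul_mem ρ hker hρ δ γ))
        (Γ'.inv_mem (c (δ * ρ γ)).2)
      rw [hout, hout]
      simpa [mul_assoc] using h
    have e : cellG (γ : SL(2, ℤ)) (x (δ * ρ γ)) =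
        c δ * ⟨_, liftD_mul_mem ρ hker hρ δ γ⟩ * (c (δ * ρ γ))⁻¹ := by
      apply Subtype.ext
      simp only [cellG, hsm, hout, Subgroup.coe_mul, Subgroup.coe_inv]
      group
    rw [e, ofMul_mul, ofMul_mul, map_add, map_add, ofMul_inv, map_neg]
    abel
  simp only [Equiv.coe_mulRight, key, Finset.sum_add_distrib, Finset.sum_sub_distrib]
  rw [show ∑ δ, φ (Additive.ofMul (c (δ * ρ γ))) = ∑ δ, φ (Additive.ofMul (c δ)) from
    Equiv.sum_comp (Equiv.mulRight (ρ γ)) (fun δ => φ (Additive.ofMul (c δ))), sub_self, add_zero]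

end Kernel

end FLTAgent.RT
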