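import Fermat.Agent.RT.Coh.Degeneracy
import Fermat.Agent.RT.Coh.Cocycles
import Fermat.Agent.Dim.Gamma0Cosets

/-!
# Changing the character: `Γ₀(N)` and `gammaH N χ`
-/

set_option autoImplicit false

noncomputable section

namespace FLTAgent.RT

open LevelRaise CongruenceSubgroup
open scoped MatrixGroups
open ModularGroup

/-- The trivial character. -/
def trivChar : (ZMod 1)ˣ →* Unit := 1

instance instFactOddCardUnit : Fact (Odd (Nat.card Unit)) := ⟨by simp⟩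

theorem bal_trivChar (X : Matrix (Fin 2) (Fin 2) ℤ) (h : X.det ≠ 0) : Bal trivChar X :=
  ⟨by simp, h, 1, Subsingleton.elim _ _, rfl⟩

theorem Bal.toTriv {M : ℕ} {D : Type*} [CommGroup D] {χ : (ZMod M)ˣ →* D}
    {X : Matrix (Fin 2) (Fin 2) ℤ} (h : Bal χ X) : Bal trivChar X :=
  bal_trivChar X h.2.1

theorem gammaH_trivChar (N : ℕ) : gammaH N trivChar = Gamma0 N :=
  le_antisymm gammaH_le fun γ hγ => ⟨hγ, bal_trivChar _ (by rw [γ.det_coe]; exact one_ne_zero)⟩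

variable {M M' : ℕ} {D D' : Type*} [CommGroup D] [CommGroup D'] {χ : (ZMod M)ˣ →* D}
  {χ' : (ZMod M')ˣ →* D'}

/-- If `X * Y` and `X` are balanced and `Y` is upper triangular modulo `M`, so is `Y`. -/
theorem Bal.of_mul_left {X Y : Matrix (Fin 2) (Fin 2) ℤ} (hXY : Bal χ (X * Y)) (hX : Bal χ X)
    (hY0 : (M : ℤ) ∣ Y 1 0) : Bal χ Y := by
  obtain ⟨-, hd, u, hu, hu2⟩ := hXY
  obtain ⟨-, hXd, u', hu', hu2'⟩ := hX
  rw [Matrix.det_mul] at hd hu2
  have hYd : Y.det ≠ 0 := right_ne_zero_of_mul hd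
  refine ⟨hY0, hYd, u'⁻¹ * u, ?_, ?_⟩
  · rw [Units.val_mul, hu, cast_mul_apply_zero_zero hY0, ← hu', Units.inv_mul_cancel_left]
  · rw [detChar_mul hXd hYd, ← hu2'] at hu2
    rw [map_mul, map_inv, mul_mul_mul_comm, hu2, ← mul_inv, inv_mul_cancel_left]

variable {N N' : ℕ} {A : Type*} [AddCommGroup A] (R : Type*) [CommRing R] [Module R A]

theorem gammaH_le_of (hN : N ∣ N') (hb : ∀ X, Bal χ X → Bal χ' X) :
    gammaH N' χ ≤ gammaH N χ' :=
  fun _ hγ => ⟨gamma0_le hN hγ.1, hb _ hγ.2⟩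

/-- Restriction to a smaller group given by a finer character. -/
def resC (hN : N ∣ N') (hb : ∀ X, Bal χ X → Bal χ' X) : Coh N χ' A →ₗ[R] Coh N' χ A :=
  famTransferL R (isFam_one (ι := Unit) (gammaH_le_of hN hb))

theorem resC_apply_apply (hN : N ∣ N') (hb : ∀ X, Bal χ X → Bal χ' X) (φ : Coh N χ' A)
    (γ : gammaH N' χ) :
    resC R hN hb φ (Additive.ofMul γ) = φ (Additive.ofMul ⟨γ, gammaH_le_of hN hb γ.2⟩) := by
  show famTransfer (isFam_one (ι := Unit) (gammaH_le_of hN hb)) φ (Additive.ofMul γ) = _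
  rw [famTransfer_one (gammaH_le_of hN hb) φ]
  simp

/-- An operator given by matching families commutes with such a restriction. -/
theorem OpFam.comm_resC {ι ι' : Type*} [Fintype ι] [Fintype ι'] {m : ℕ}
    {η : ι → Matrix (Fin 2) (Fin 2) ℤ} {η' : ι' → Matrix (Fin 2) (Fin 2) ℤ} (h : OpFam N χ' m η)
    (h' : OpFam N' χ m η') (hm : m.Prime) (hN : N ∣ N') (hb : ∀ X, Bal χ X → Bal χ' X)
    (hcard : Fintype.card ι' = Fintype.card ι) (φ : Coh N χ' A) :
    famTransfer (h'.isFam hm) (famTransfer (isFam_one (ι := Unit) (gammaH_le_of hN hb)) φ) =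
      famTransfer (isFam_one (ι := Unit) (gammaH_le_of hN hb)) (famTransfer (h.isFam hm) φ) := by
  refine famTransfer_comm_of_cover _ _ _ _ ?_ (by simp [hcard]) (fun _ i => ?_) φ
  · rintro ⟨_, i⟩ ⟨_, j⟩ δ e
    simp only [famMul, Matrix.one_mul] at e
    exact Prod.ext rfl (h'.distinct hm i j δ e)
  · have hdvd := Int.natCast_dvd_natCast.mpr hN
    obtain ⟨j, δ, hj⟩ := h.cover (η' i) (h'.det_eq i) (hdvd.trans (h'.dvd i))
      ((h'.coprime i).of_isCoprime_of_dvd_right hdvd) (hb _ (h'.bal i))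
    exact ⟨j, (), δ, by rw [Matrix.one_mul, hj, Matrix.mul_one]⟩

variable [Fact (Odd (Nat.card D))]

/-- The character on `Γ₀(N)`. -/
def dChar (χ : (ZMod M)ˣ →* D) (hMN : M ∣ N) : gammaH N trivChar →* D :=
  χ.comp ((dUnit hMN).comp (Subgroup.inclusion gammaH_le))

theorem mem_gammaH_iff_dChar (hMN : M ∣ N) (γ : gammaH N trivChar) :
    (γ : SL(2, ℤ)) ∈ gammaH N χ ↔ dChar χ hMN γ = 1 :=
  mem_gammaH_iff_dUnit hMN ⟨γ, gammaH_le γ.2⟩

omit [Fact (Odd (Nat.card D))] in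
theorem gammaH_le_triv : gammaH N χ ≤ gammaH N trivChar :=
  gammaH_le_of (dvd_refl N) fun _ h => h.toTriv

variable [NeZero N]

/-- `gammaH N χ` has finite index. -/
theorem finiteIndex_gammaH (hMN : M ∣ N) : (gammaH N χ).FiniteIndex := by
  have hle : CongruenceSubgroup.Gamma N ≤ gammaH N χ := fun γ hγ => by
    obtain ⟨-, -, h10, h11⟩ := Gamma_mem.mp hγ
    rw [mem_gammaH_iff hMN (Gamma0_mem.mpr h10)]
    intro v hv
    have h : ((matSL γ 1 1 : ℤ) : ZMod M) = 1 := by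
      rw [← ZMod.cast_intCast (R := ZMod M) hMN, h11, ZMod.cast_one hMN]
    rw [show v = 1 from Units.ext (by rw [hv, h, Units.val_one]), map_one]
  exact Subgroup.finiteIndex_of_le hle

omit [Fact (Odd (Nat.card D))] in
theorem dChar_surjective (hMN : M ∣ N) (hχ : Function.Surjective χ) :
    Function.Surjective (dChar χ hMN) := fun δ => by
  obtain ⟨g, hg⟩ := exists_dUnit_eq hMN hχ δ
  exact ⟨⟨g, g.2, bal_trivChar _ (by rw [(g : SL(2, ℤ)).det_coe]; exact one_ne_zero)⟩, hg⟩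

variable [Fintype D]

/-- Corestriction to `Γ₀(N)`. -/
def coresC (χ : (ZMod M)ˣ →* D) (hMN : M ∣ N) (hχ : Function.Surjective χ) :
    Coh N χ A →ₗ[R] Coh N trivChar A :=
  famTransferL R
    (isFam_liftD (dChar χ hMN) (mem_gammaH_iff_dChar hMN) (dChar_surjective hMN hχ))

variable {R}

theorem coresC_apply (hMN : M ∣ N) (hχ : Function.Surjective χ) (φ : Coh N χ A) :
    coresC R χ hMN hχ φ = famTransfer
      (isFam_liftD (dChar χ hMN) (mem_gammaH_iff_dChar hMN) (dChar_surjective hMN hχ)) φ := rfl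

omit [Fintype D] in
theorem diamond_apply_apply (hMN : M ∣ N) (hχ : Function.Surjective χ) {g : gammaH N trivChar}
    {δ : D} (hg : dChar χ hMN g = δ) (φ : Coh N χ A) (γ : gammaH N χ) {γ' : gammaH N χ}
    (hγ' : (γ' : SL(2, ℤ)) = g * γ * (g : SL(2, ℤ))⁻¹) :
    diamond R A χ hMN hχ δ φ (Additive.ofMul γ) = φ (Additive.ofMul γ') := by
  rw [diamond_apply hMN hχ (g := ⟨g, gammaH_le g.2⟩) hg]
  exact diamondAt_apply_apply hMN _ φ γ hγ'

omit [Fintype D] in
theorem conjHom_eq_diamond (hMN : M ∣ N) (hχ : Function.Surjective χ) (δ : D) (φ : Coh N χ A) :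
    conjHom (dChar χ hMN) (mem_gammaH_iff_dChar hMN) gammaH_le_triv
      (liftD (dChar χ hMN) (dChar_surjective hMN hχ) δ) φ = diamond R A χ hMN hχ δ φ := by
  refine AddMonoidHom.ext fun γ => ?_
  obtain ⟨γ, rfl⟩ := Additive.ofMul.surjective γ
  rw [diamond_apply_apply hMN hχ (ρ_liftD (dChar χ hMN) (dChar_surjective hMN hχ) δ) φ γ
    (γ' := ⟨_, conj_mem_of_ker (dChar χ hMN) (mem_gammaH_iff_dChar hMN) gammaH_le_triv
      (liftD (dChar χ hMN) (dChar_surjective hMN hχ) δ) γ.2⟩) rfl]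
  rfl

theorem resC_coresC (hMN : M ∣ N) (hχ : Function.Surjective χ) (φ : Coh N χ A) :
    resC R (dvd_refl N) (fun _ h => h.toTriv) (coresC R χ hMN hχ φ) =
      ∑ δ, diamond R A χ hMN hχ δ φ := by
  refine AddMonoidHom.ext fun γ => ?_
  obtain ⟨γ, rfl⟩ := Additive.ofMul.surjective γ
  rw [resC_apply_apply, coresC_apply, AddMonoidHom.finsetSum_apply]
  set ρ := dChar χ hMN
  set hρ := dChar_surjective hMN hχ
  set g : gammaH N trivChar := ⟨γ, gammaH_le_triv γ.2⟩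
  have hg : ρ g = 1 := (mem_gammaH_iff_dChar hMN g).mp γ.2
  rw [famTransfer_apply _ φ g (σ := 1)
    (δ := fun δ => ⟨_, conj_mem_of_ker ρ (mem_gammaH_iff_dChar hMN) gammaH_le_triv
      (liftD ρ hρ δ) γ.2⟩) (fun δ => by
        rw [Equiv.Perm.one_apply, ← matSL_mul, ← matSL_mul, inv_mul_cancel_right])]
  exact Finset.sum_congr rfl fun δ _ =>
    (diamond_apply_apply hMN hχ (ρ_liftD ρ hρ δ) φ γ rfl).symm

omit [Fintype D] in
theorem diamond_resC (hMN : M ∣ N) (hχ : Function.Surjective χ) (δ : D)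
    (ψ : Coh N trivChar A) :
    diamond R A χ hMN hχ δ (resC R (dvd_refl N) (fun _ h => h.toTriv) ψ) =
      resC R (dvd_refl N) (fun _ h => h.toTriv) ψ := by
  obtain ⟨g, hg⟩ := exists_dUnit_eq hMN hχ δ
  refine AddMonoidHom.ext fun γ => ?_
  obtain ⟨γ, rfl⟩ := Additive.ofMul.surjective γ
  rw [diamond_apply_apply hMN hχ (g := ⟨g, g.2, bal_trivChar _ (by rw [(g : SL(2, ℤ)).det_coe]; exact one_ne_zero)⟩) hg _ γ
    (γ' := ⟨_, conj_mem_gammaH hMN g γ.2⟩) rfl, resC_apply_apply, resC_apply_apply]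
  rw [show (⟨(g : SL(2, ℤ)) * γ * (g : SL(2, ℤ))⁻¹,
      gammaH_le_of (dvd_refl N) (fun _ h => h.toTriv) (conj_mem_gammaH hMN g γ.2)⟩ :
        gammaH N trivChar) = ⟨g, g.2, bal_trivChar _ (by rw [(g : SL(2, ℤ)).det_coe]; exact one_ne_zero)⟩ * ⟨γ, gammaH_le_triv γ.2⟩ *
          (⟨g, g.2, bal_trivChar _ (by rw [(g : SL(2, ℤ)).det_coe]; exact one_ne_zero)⟩ : gammaH N trivChar)⁻¹ from Subtype.ext rfl,
    ofMul_mul, ofMul_mul, ofMul_inv, map_add, map_add, map_neg, add_neg_cancel_comm]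

theorem coresC_diamond (hMN : M ∣ N) (hχ : Function.Surjective χ) (δ : D) (φ : Coh N χ A) :
    coresC R χ hMN hχ (diamond R A χ hMN hχ δ φ) = coresC R χ hMN hχ φ := by
  obtain ⟨g, hg⟩ := exists_dUnit_eq hMN hχ δ
  rw [diamond_apply hMN hχ hg, diamondAt, famTransferL_apply, coresC_apply, coresC_apply,
    famTransfer_comp]
  set ρ := dChar χ hMN
  set hρ := dChar_surjective hMN hχ
  set g' : gammaH N trivChar := ⟨g, g.2, bal_trivChar _ (by rw [(g : SL(2, ℤ)).det_coe]; exact one_ne_zero)⟩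
  have hmem : ∀ ε : D,
      ((liftD ρ hρ (δ * ε) * (g' * liftD ρ hρ ε)⁻¹ : gammaH N trivChar) : SL(2, ℤ)) ∈ gammaH N χ :=
    fun ε => by
      rw [mem_gammaH_iff_dChar hMN, map_mul, map_inv, map_mul, ρ_liftD, ρ_liftD,
        show ρ g' = δ from hg, mul_inv_cancel]
  refine (famTransfer_congr ((isFam_gamma0 hMN g).mul
    (isFam_liftD ρ (mem_gammaH_iff_dChar hMN) hρ)) (isFam_liftD ρ (mem_gammaH_iff_dChar hMN) hρ)
    ((Equiv.punitProd D).trans (Equiv.mulLeft δ)) (fun x => ⟨_, hmem x.2⟩) (fun x => ?_) φ).symm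
  obtain ⟨u, ε⟩ := x
  simp only [famMul, Equiv.trans_apply, Equiv.punitProd_apply, Equiv.coe_mulLeft, Subgroup.coe_mul,
    Subgroup.coe_inv, g']
  rw [← matSL_mul, ← matSL_mul]
  congr 1
  group

/-- An operator given by matching families commutes with corestriction to `Γ₀(N)`. -/
theorem OpFam.comm_coresC {ι ι' : Type*} [Fintype ι] [Fintype ι'] {m : ℕ}
    {η : ι → Matrix (Fin 2) (Fin 2) ℤ} {η' : ι' → Matrix (Fin 2) (Fin 2) ℤ}
    (h : OpFam N trivChar m η) (h' : OpFam N χ m η') (hm : m.Prime) (hMN : M ∣ N)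
    (hχ : Function.Surjective χ) (hcard : Fintype.card ι' = Fintype.card ι) (φ : Coh N χ A) :
    famTransfer (h.isFam hm) (coresC R χ hMN hχ φ) =
      coresC R χ hMN hχ (famTransfer (h'.isFam hm) φ) := by
  set ρ := dChar χ hMN
  set hρ := dChar_surjective hMN hχ
  rw [coresC_apply, coresC_apply]
  refine (famTransfer_comm_of_cover _ _ _ _ ?_ ?_ (fun i k => ?_) φ).symm
  · rintro ⟨i, k⟩ ⟨i', k'⟩ δ e
    set τ : gammaH N trivChar := liftD ρ hρ k * (liftD ρ hρ k')⁻¹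
    have e2 : η' i * matSL (τ : SL(2, ℤ)) = matSL (δ : SL(2, ℤ)) * η' i' := by
      simp only [famMul] at e
      simp only [τ, Subgroup.coe_mul, Subgroup.coe_inv]
      rw [matSL_mul, ← Matrix.mul_assoc, e, ← Matrix.mul_assoc, matSL_mul_inv_cancel]
    have hτ : (τ : SL(2, ℤ)) ∈ gammaH N χ := by
      refine ⟨gammaH_le τ.2, Bal.of_mul_left ?_ (h'.bal i)
        ((Int.natCast_dvd_natCast.mpr hMN).trans (mem_gamma0_iff.mp (gammaH_le τ.2)))⟩
      rw [e2]; exact δ.2.2.mul (h'.bal i')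
    obtain rfl : k = k' := by
      rw [mem_gammaH_iff_dChar hMN, map_mul, map_inv, ρ_liftD, ρ_liftD, mul_inv_eq_one] at hτ
      exact hτ
    refine Prod.ext (h'.distinct hm i i' (δ : SL(2, ℤ)) ?_) rfl
    simp only [famMul, ← Matrix.mul_assoc] at e
    exact mul_right_cancel_of_det_ne_zero
      (by rw [(liftD ρ hρ k : SL(2, ℤ)).det_coe]; exact one_ne_zero) e
  · simp [hcard, mul_comm]
  · have hr0 : (N : ℤ) ∣ matSL (liftD ρ hρ k : SL(2, ℤ)) 1 0 :=
      mem_gamma0_iff.mp (gammaH_le (liftD ρ hρ k).2)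
    obtain ⟨j, ε, hj⟩ := h.cover (η' i * matSL (liftD ρ hρ k : SL(2, ℤ)))
      (by rw [Matrix.det_mul, (liftD ρ hρ k : SL(2, ℤ)).det_coe, mul_one, h'.det_eq])
      (dvd_mul_apply_one_zero (h'.dvd i) hr0)
      ((isCoprime_mul_apply_zero_zero hr0).mpr
        ⟨h'.coprime i, isCoprime_gamma0_zero_zero (gammaH_le (liftD ρ hρ k).2)⟩)
      (bal_trivChar _ (by rw [Matrix.det_mul, (liftD ρ hρ k : SL(2, ℤ)).det_coe, mul_one, h'.det_eq]
                          exact_mod_cast hm.ne_zero))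
    have hmem : ((ε * (liftD ρ hρ (ρ ε))⁻¹ : gammaH N trivChar) : SL(2, ℤ)) ∈ gammaH N χ := by
      rw [mem_gammaH_iff_dChar hMN, map_mul, map_inv, ρ_liftD, mul_inv_cancel]
    refine ⟨ρ ε, j, ⟨_, hmem⟩, ?_⟩
    rw [hj, Subgroup.coe_mul, Subgroup.coe_inv, matSL_mul,
      Matrix.mul_assoc _ (matSL ((liftD ρ hρ (ρ ε) : SL(2, ℤ))⁻¹)), matSL_inv_mul_cancel]

omit [NeZero N] [Fintype D] in
/-- Fixed cosets of an elliptic element lift to fixed cosets. -/
theorem smul_eq_of_cosMap (hMN : M ∣ N) {g : SL(2, ℤ)} {n : ℕ} (hg : g ^ n = -1)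
    (hn : Nat.Coprime n (Nat.card D) ∨ ∀ x : SL(2, ℤ) ⧸ Gamma0 N, g • x ≠ x)
    (x : Cos (gammaH N χ))
    (hx : g • cosMap gammaH_le_triv x = cosMap gammaH_le_triv x) : g • x = x := by
  induction x using QuotientGroup.induction_on with
  | H a =>
    have hmem : (g * a)⁻¹ * a ∈ gammaH N trivChar := QuotientGroup.eq.mp hx
    rcases hn with hn | hn
    · refine QuotientGroup.eq.mpr ((mem_gammaH_iff_dChar hMN ⟨_, hmem⟩).mpr ?_)
      set γ : gammaH N trivChar := ⟨(g * a)⁻¹ * a, hmem⟩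
      have hpow : (dChar χ hMN γ) ^ n = 1 := by
        rw [← map_pow, ← mem_gammaH_iff_dChar hMN, SubgroupClass.coe_pow,
          show ((γ : gammaH N trivChar) : SL(2, ℤ)) = a⁻¹ * g⁻¹ * a⁻¹⁻¹ by simp [γ], conj_pow,
          inv_pow, hg, inv_inv, show (-1 : SL(2, ℤ))⁻¹ = -1 by rw [inv_eq_iff_mul_eq_one]; simp,
          mul_assoc, neg_one_central, ← mul_assoc, inv_mul_cancel, one_mul]
        exact neg_one_mem_gammaH hMN
      rw [← orderOf_eq_one_iff]
      exact Nat.eq_one_of_dvd_coprimes hn (orderOf_dvd_of_pow_eq_one hpow) (orderOf_dvd_natCard _)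
    · exfalso
      refine hn (a : SL(2, ℤ) ⧸ Gamma0 N) (QuotientGroup.eq.mpr (gammaH_le hmem))

/-- The hypothesis making `gammaH N χ` free over `Γ₀(N)` at the elliptic points of order three. -/
def EllCond (_χ : (ZMod M)ˣ →* D) (N : ℕ) : Prop :=
  Nat.Coprime 3 (Nat.card D) ∨ ModularCurve.nuThree N = 0

omit [NeZero N] [Fintype D] in
theorem smul_S_of_cosMap (hMN : M ∣ N) (x : Cos (gammaH N χ))
    (hx : S • cosMap gammaH_le_triv x = cosMap gammaH_le_triv x) : S • x = x :=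
  smul_eq_of_cosMap hMN S_sq_eq
    (Or.inl ((Nat.Prime.coprime_iff_not_dvd Nat.prime_two).mpr
      (Nat.two_dvd_ne_zero.mpr (Nat.odd_iff.mp (Fact.out : Odd (Nat.card D)))))) x hx

omit [Fintype D] in
theorem smul_ST_of_cosMap (hMN : M ∣ N) (he : EllCond χ N) (x : Cos (gammaH N χ))
    (hx : (S * T) • cosMap gammaH_le_triv x = cosMap gammaH_le_triv x) : (S * T) • x = x := by
  refine smul_eq_of_cosMap hMN ST_cube_eq (he.imp id fun h y hy => ?_) x hx
  have := Dim.card_fixed_ST N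
  rw [h, Nat.card_eq_zero] at this
  rcases this with h' | h'
  · exact h'.false ⟨y, hy⟩
  · exact not_finite {q : Dim.Cosets0 N // (S * T) • q = q}

theorem coresC_surjective (hMN : M ∣ N) (hχ : Function.Surjective χ) (he : EllCond χ N)
    [IsAddTorsionFree A] (ψ : Coh N trivChar A) : ∃ φ : Coh N χ A, coresC R χ hMN hχ φ = ψ := by
  have := finiteIndex_gammaH (χ := χ) hMN
  obtain ⟨φ, hφ, -⟩ := exists_cores_eq gammaH_le_triv (neg_one_mem_gammaH hMN)
    (smul_S_of_cosMap hMN) (smul_ST_of_cosMap hMN he) (ψ := ψ) (by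
      set n : gammaH N trivChar := ⟨-1, gammaH_le_triv (neg_one_mem_gammaH (χ := χ) hMN)⟩
      have h2 : 2 • ψ (Additive.ofMul n) = 0 := by
        rw [← map_nsmul, ← ofMul_pow, show n ^ 2 = 1 from Subtype.ext (by simp [n]), ofMul_one, map_zero]
      exact (smul_eq_zero_iff_right two_ne_zero).mp h2)
  exact ⟨φ, by rw [coresC_apply, ← cores_eq_famTransfer _ (mem_gammaH_iff_dChar hMN) gammaH_le_triv
    (dChar_surjective hMN hχ), hφ]⟩

theorem exists_eq_sum_diamond_sub (hMN : M ∣ N) (hχ : Function.Surjective χ) (he : EllCond χ N)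
    [IsAddTorsionFree A] {φ : Coh N χ A} (hφ : coresC R χ hMN hχ φ = 0) :
    ∃ ψ : D → Coh N χ A, φ = ∑ δ, (diamond R A χ hMN hχ δ (ψ δ) - ψ δ) := by
  have := finiteIndex_gammaH (χ := χ) hMN
  rw [coresC_apply, ← cores_eq_famTransfer _ (mem_gammaH_iff_dChar hMN) gammaH_le_triv
    (dChar_surjective hMN hχ)] at hφ
  have h1 : φ (Additive.ofMul ⟨-1, neg_one_mem_gammaH hMN⟩) = 0 := by
    set n : gammaH N χ := ⟨-1, neg_one_mem_gammaH hMN⟩
    have h2 : 2 • φ (Additive.ofMul n) = 0 := by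
      rw [← map_nsmul, ← ofMul_pow, show n ^ 2 = 1 from Subtype.ext (by simp [n]), ofMul_one, map_zero]
    exact (smul_eq_zero_iff_right two_ne_zero).mp h2
  obtain ⟨ψ, hψ⟩ := exists_eq_sum_conj_sub (dChar χ hMN) (mem_gammaH_iff_dChar hMN) gammaH_le_triv
    (dChar_surjective hMN hχ) (neg_one_mem_gammaH hMN) (smul_S_of_cosMap hMN)
    (smul_ST_of_cosMap hMN he) h1 hφ
  exact ⟨ψ, hψ.trans (Finset.sum_congr rfl fun δ _ => by rw [conjHom_eq_diamond (R := R) hMN hχ])⟩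

end FLTAgent.RT
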