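import Fermat.Agent.LevelRaise.TransferSum

/-!
# Transfer along a family of integral matrices

A family `η` of integral matrices permuted by right multiplication by `Γ₂`, with cofactors in `Γ₁`,
gives a map from homomorphisms on `Γ₁` to homomorphisms on `Γ₂`. Composition of maps corresponds
to the product family, and families with the same left classes give the same map.
-/

set_option autoImplicit false

noncomputable section

namespace FLTAgent.RT

open LevelRaise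
open scoped MatrixGroups

variable {ι κ : Type*} {Γ₀ Γ₁ Γ₂ : Subgroup SL(2, ℤ)}

theorem mul_right_cancel_of_det_ne_zero {g : Matrix (Fin 2) (Fin 2) ℤ} (hg : g.det ≠ 0)
    {M M' : Matrix (Fin 2) (Fin 2) ℤ} (h : M * g = M' * g) : M = M' := by
  have h' := congrArg (· * g.adjugate) h
  simp only [Matrix.mul_assoc, Matrix.mul_adjugate, Matrix.mul_smul, Matrix.mul_one] at h'
  exact smul_right_injective _ hg h'

theorem eq_of_matSL_mul {g : Matrix (Fin 2) (Fin 2) ℤ} (hg : g.det ≠ 0) {a b : SL(2, ℤ)}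
    (h : matSL a * g = matSL b * g) : a = b :=
  Subtype.ext (mul_right_cancel_of_det_ne_zero hg h)

/-- `η` is a family along which homomorphisms on `Γ₁` can be transferred to `Γ₂`. -/
structure IsFam (Γ₁ Γ₂ : Subgroup SL(2, ℤ)) (η : ι → Matrix (Fin 2) (Fin 2) ℤ) : Prop where
  det_ne : ∀ i, (η i).det ≠ 0
  exists_eq : ∀ γ ∈ Γ₂, ∃ (σ : Equiv.Perm ι) (δ : ι → Γ₁), IsTransferZ η γ σ δ

variable {η : ι → Matrix (Fin 2) (Fin 2) ℤ} {A : Type*} [AddCommGroup A]

/-- Cofactors of a permutation of the left classes have sum zero. -/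
theorem sum_cofactor_eq_zero [Fintype ι] (hdet : ∀ i, (η i).det ≠ 0) (π : Equiv.Perm ι)
    (ε : ι → Γ₁) (h : ∀ j, η j = matSL (ε j : SL(2, ℤ)) * η (π j)) (φ : Additive Γ₁ →+ A) :
    ∑ j, φ (Additive.ofMul (ε j)) = 0 := by
  let s : Setoid ι :=
    { r := fun j k => ∃ e : Γ₁, η j = matSL (e : SL(2, ℤ)) * η k
      iseqv :=
        { refl := fun j => ⟨1, by simp [matSL]⟩
          symm := fun ⟨e, he⟩ => ⟨e⁻¹, by rw [Subgroup.coe_inv, he, matSL_inv_mul_cancel]⟩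
          trans := fun ⟨e, he⟩ ⟨e', he'⟩ =>
            ⟨e * e', by rw [he, he', Subgroup.coe_mul, matSL_mul, Matrix.mul_assoc]⟩ } }
  have hr : ∀ j, ∃ e : Γ₁, η j = matSL (e : SL(2, ℤ)) * η (Quotient.mk s j).out := fun j =>
    s.symm' (Quotient.mk_out (s := s) j)
  choose e he using hr
  have key : ∀ j, φ (Additive.ofMul (ε j)) =
      φ (Additive.ofMul (e j)) - φ (Additive.ofMul (e (π j))) := by
    intro j
    have hcls : Quotient.mk s (π j) = Quotient.mk s j :=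
      Quotient.sound (s.symm' ⟨ε j, h j⟩)
    have h1 : matSL (e j : SL(2, ℤ)) * η (Quotient.mk s j).out
        = matSL ((ε j * e (π j) : Γ₁) : SL(2, ℤ)) * η (Quotient.mk s j).out := by
      rw [← he j, Subgroup.coe_mul, matSL_mul, Matrix.mul_assoc, ← hcls, ← he (π j)]
      exact h j
    rw [show e j = ε j * e (π j) from Subtype.ext (eq_of_matSL_mul (hdet _) h1), ofMul_mul, map_add,
      add_sub_cancel_right]
  simp only [key, Finset.sum_sub_distrib]
  rw [Equiv.sum_comp π (fun i => φ (Additive.ofMul (e i))), sub_self]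

/-- The transfer sum does not depend on the permutation and cofactors. -/
theorem sum_transfer_eq [Fintype ι] (hdet : ∀ i, (η i).det ≠ 0) {γ : SL(2, ℤ)}
    {σ σ' : Equiv.Perm ι} {δ δ' : ι → Γ₁} (h : IsTransferZ η γ σ δ) (h' : IsTransferZ η γ σ' δ')
    (φ : Additive Γ₁ →+ A) :
    ∑ i, φ (Additive.ofMul (δ i)) = ∑ i, φ (Additive.ofMul (δ' i)) := by
  have key : ∀ j, η j = matSL (((δ (σ.symm j))⁻¹ * δ' (σ.symm j) : Γ₁) : SL(2, ℤ))
      * η ((σ.symm.trans σ') j) := by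
    intro j
    have e1 := h (σ.symm j)
    rw [h' (σ.symm j), Equiv.apply_symm_apply] at e1
    rw [Subgroup.coe_mul, Subgroup.coe_inv, matSL_mul, Matrix.mul_assoc, Equiv.trans_apply, e1,
      matSL_inv_mul_cancel]
  have h0 := sum_cofactor_eq_zero hdet _ _ key φ
  rw [Equiv.sum_comp σ.symm (fun i => φ (Additive.ofMul ((δ i)⁻¹ * δ' i)))] at h0
  simp only [ofMul_mul, ofMul_inv, map_add, map_neg, Finset.sum_add_distrib,
    Finset.sum_neg_distrib] at h0
  rw [neg_add_eq_zero] at h0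
  exact h0

variable [Fintype ι] [Fintype κ]

omit [Fintype ι] [Fintype κ] in
theorem isTransferZ_mul (γ γ' : Γ₂) {σ σ' : Equiv.Perm ι}
    {δ δ' : ι → Γ₁} (h : IsTransferZ η (γ : SL(2, ℤ)) σ δ)
    (h' : IsTransferZ η (γ' : SL(2, ℤ)) σ' δ') :
    IsTransferZ η ((γ * γ' : Γ₂) : SL(2, ℤ)) (σ.trans σ') (fun i => δ i * δ' (σ i)) := by
  intro i
  rw [Subgroup.coe_mul, matSL_mul, ← Matrix.mul_assoc, h i, Matrix.mul_assoc, h' (σ i),
    ← Matrix.mul_assoc, ← matSL_mul]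
  rfl

/-- The transfer along a family. -/
def famTransfer (hη : IsFam Γ₁ Γ₂ η) (φ : Additive Γ₁ →+ A) : Additive Γ₂ →+ A :=
  AddMonoidHom.mk'
    (fun γ => ∑ i, φ (Additive.ofMul
      ((hη.exists_eq _ (Additive.toMul γ).2).choose_spec.choose i)))
    fun γ γ' => by
      have h := (hη.exists_eq _ (Additive.toMul γ).2).choose_spec.choose_spec
      have h' := (hη.exists_eq _ (Additive.toMul γ').2).choose_spec.choose_spec
      have h'' := (hη.exists_eq _ (Additive.toMul (γ + γ')).2).choose_spec.choose_spec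
      rw [sum_transfer_eq hη.det_ne h'' (isTransferZ_mul _ _ h h') φ]
      simp only [ofMul_mul, map_add, Finset.sum_add_distrib]
      exact congrArg₂ (· + ·) rfl (Equiv.sum_comp _ (fun i => φ (Additive.ofMul
        ((hη.exists_eq _ (Additive.toMul γ').2).choose_spec.choose i))))

theorem famTransfer_apply (hη : IsFam Γ₁ Γ₂ η) (φ : Additive Γ₁ →+ A) (γ : Γ₂)
    {σ : Equiv.Perm ι} {δ : ι → Γ₁} (h : IsTransferZ η (γ : SL(2, ℤ)) σ δ) :
    famTransfer hη φ (Additive.ofMul γ) = ∑ i, φ (Additive.ofMul (δ i)) :=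
  sum_transfer_eq hη.det_ne (hη.exists_eq _ γ.2).choose_spec.choose_spec h φ

theorem famTransfer_add (hη : IsFam Γ₁ Γ₂ η) (φ ψ : Additive Γ₁ →+ A) :
    famTransfer hη (φ + ψ) = famTransfer hη φ + famTransfer hη ψ := by
  refine AddMonoidHom.ext fun γ => ?_
  simp [famTransfer, Finset.sum_add_distrib]

theorem map_famTransfer {B : Type*} [AddCommGroup B] (hη : IsFam Γ₁ Γ₂ η) (f : A →+ B)
    (φ : Additive Γ₁ →+ A) : famTransfer hη (f.comp φ) = f.comp (famTransfer hη φ) := by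
  refine AddMonoidHom.ext fun γ => ?_
  simp [famTransfer, map_sum]

variable (R : Type*) [CommRing R] [Module R A]

/-- The transfer as a linear map. -/
def famTransferL (hη : IsFam Γ₁ Γ₂ η) :
    (Additive Γ₁ →+ A) →ₗ[R] (Additive Γ₂ →+ A) where
  toFun := famTransfer hη
  map_add' := famTransfer_add hη
  map_smul' c φ := by
    refine AddMonoidHom.ext fun γ => ?_
    simp [famTransfer, Finset.smul_sum]

@[simp] theorem famTransferL_apply (hη : IsFam Γ₁ Γ₂ η) (φ : Additive Γ₁ →+ A) :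
    famTransferL R hη φ = famTransfer hη φ := rfl

variable {R}

omit [Fintype ι] [Fintype κ] in
/-- Families with the same left classes. -/
theorem IsFam.congr (hη : IsFam Γ₁ Γ₂ η) {η' : κ → Matrix (Fin 2) (Fin 2) ℤ} (e : ι ≃ κ)
    (ε : ι → Γ₁) (h : ∀ i, η' (e i) = matSL (ε i : SL(2, ℤ)) * η i) : IsFam Γ₁ Γ₂ η' := by
  refine ⟨fun k => ?_, fun γ hγ => ?_⟩
  · obtain ⟨i, rfl⟩ := e.surjective k
    rw [h, Matrix.det_mul, Matrix.SpecialLinearGroup.det_coe, one_mul]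
    exact hη.det_ne i
  · obtain ⟨σ, δ, hδ⟩ := hη.exists_eq γ hγ
    refine ⟨(e.symm.trans σ).trans e,
      fun k => ε (e.symm k) * δ (e.symm k) * (ε (σ (e.symm k)))⁻¹, fun k => ?_⟩
    obtain ⟨i, rfl⟩ := e.surjective k
    simp only [Equiv.trans_apply, Equiv.symm_apply_apply, h, Subgroup.coe_mul, Subgroup.coe_inv,
      matSL_mul, Matrix.mul_assoc, matSL_inv_mul_cancel]
    rw [hδ i]

theorem famTransfer_congr (hη : IsFam Γ₁ Γ₂ η) {η' : κ → Matrix (Fin 2) (Fin 2) ℤ}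
    (hη' : IsFam Γ₁ Γ₂ η') (e : ι ≃ κ) (ε : ι → Γ₁)
    (h : ∀ i, η' (e i) = matSL (ε i : SL(2, ℤ)) * η i) (φ : Additive Γ₁ →+ A) :
    famTransfer hη' φ = famTransfer hη φ := by
  refine AddMonoidHom.ext fun γ => ?_
  obtain ⟨γ, rfl⟩ := Additive.ofMul.surjective γ
  obtain ⟨σ, δ, hδ⟩ := hη.exists_eq _ γ.2
  have hδ' : IsTransferZ η' (γ : SL(2, ℤ)) ((e.symm.trans σ).trans e)
      (fun k => ε (e.symm k) * δ (e.symm k) * (ε (σ (e.symm k)))⁻¹) := fun k => by
    obtain ⟨i, rfl⟩ := e.surjective k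
    simp only [Equiv.trans_apply, Equiv.symm_apply_apply, h, Subgroup.coe_mul, Subgroup.coe_inv,
      matSL_mul, Matrix.mul_assoc, matSL_inv_mul_cancel]
    rw [hδ i]
  rw [famTransfer_apply hη φ γ hδ, famTransfer_apply hη' φ γ hδ',
    ← Equiv.sum_comp e (fun k => φ (Additive.ofMul
      (ε (e.symm k) * δ (e.symm k) * (ε (σ (e.symm k)))⁻¹)))]
  simp only [Equiv.symm_apply_apply, ofMul_mul, ofMul_inv, map_add, map_neg,
    Finset.sum_add_distrib, Finset.sum_neg_distrib]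
  rw [Equiv.sum_comp σ (fun i => φ (Additive.ofMul (ε i)))]
  abel

/-- The product of two families. -/
def famMul (η' : κ → Matrix (Fin 2) (Fin 2) ℤ) (η : ι → Matrix (Fin 2) (Fin 2) ℤ) :
    κ × ι → Matrix (Fin 2) (Fin 2) ℤ := fun x => η' x.1 * η x.2

/-- The permutation of the product family. -/
def famMulPerm (σ : Equiv.Perm ι) (σ' : ι → Equiv.Perm κ) : Equiv.Perm (κ × ι) where
  toFun x := (σ' x.2 x.1, σ x.2)
  invFun y := ((σ' (σ.symm y.2)).symm y.1, σ.symm y.2)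
  left_inv x := by simp
  right_inv y := by simp

omit [Fintype ι] [Fintype κ] in
theorem isTransferZ_famMul {η' : κ → Matrix (Fin 2) (Fin 2) ℤ} {γ : SL(2, ℤ)}
    {σ : Equiv.Perm ι} {δ : ι → Γ₁} (h : IsTransferZ η γ σ δ) {σ' : ι → Equiv.Perm κ}
    {δ' : ι → κ → Γ₀} (h' : ∀ i, IsTransferZ η' (δ i : SL(2, ℤ)) (σ' i) (δ' i)) :
    IsTransferZ (famMul η' η) γ (famMulPerm σ σ') (fun x => δ' x.2 x.1) := fun x => by
  show η' x.1 * η x.2 * _ = _
  rw [Matrix.mul_assoc, h x.2, ← Matrix.mul_assoc, h' x.2 x.1, Matrix.mul_assoc]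
  rfl

omit [Fintype ι] [Fintype κ] in
theorem IsFam.mul {η' : κ → Matrix (Fin 2) (Fin 2) ℤ} (hη' : IsFam Γ₀ Γ₁ η')
    (hη : IsFam Γ₁ Γ₂ η) : IsFam Γ₀ Γ₂ (famMul η' η) := by
  refine ⟨fun x => by rw [famMul, Matrix.det_mul]; exact mul_ne_zero (hη'.det_ne _) (hη.det_ne _),
    fun γ hγ => ?_⟩
  obtain ⟨σ, δ, h⟩ := hη.exists_eq γ hγ
  choose σ' δ' h' using fun i => hη'.exists_eq _ (δ i).2
  exact ⟨_, _, isTransferZ_famMul h h'⟩

theorem famTransfer_comp {η' : κ → Matrix (Fin 2) (Fin 2) ℤ} (hη' : IsFam Γ₀ Γ₁ η')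
    (hη : IsFam Γ₁ Γ₂ η) (φ : Additive Γ₀ →+ A) :
    famTransfer hη (famTransfer hη' φ) = famTransfer (hη'.mul hη) φ := by
  refine AddMonoidHom.ext fun γ => ?_
  obtain ⟨γ, rfl⟩ := Additive.ofMul.surjective γ
  obtain ⟨σ, δ, h⟩ := hη.exists_eq _ γ.2
  choose σ' δ' h' using fun i => hη'.exists_eq _ (δ i).2
  rw [famTransfer_apply hη _ γ h, famTransfer_apply (hη'.mul hη) φ γ (isTransferZ_famMul h h'),
    Fintype.sum_prod_type_right]
  exact Finset.sum_congr rfl fun i _ => famTransfer_apply hη' φ (δ i) (h' i)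

/-- Two composites agree as soon as their product families have the same left classes. -/
theorem famTransfer_comm {ι' κ' : Type*} [Fintype ι'] [Fintype κ'] {Γ₁' : Subgroup SL(2, ℤ)}
    {η' : κ → Matrix (Fin 2) (Fin 2) ℤ} {θ : ι' → Matrix (Fin 2) (Fin 2) ℤ}
    {θ' : κ' → Matrix (Fin 2) (Fin 2) ℤ} (hη' : IsFam Γ₀ Γ₁ η') (hη : IsFam Γ₁ Γ₂ η)
    (hθ' : IsFam Γ₀ Γ₁' θ') (hθ : IsFam Γ₁' Γ₂ θ) (e : κ × ι ≃ κ' × ι')
    (ε : κ × ι → Γ₀) (h : ∀ x, famMul θ' θ (e x) = matSL (ε x : SL(2, ℤ)) * famMul η' η x)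
    (φ : Additive Γ₀ →+ A) :
    famTransfer hθ (famTransfer hθ' φ) = famTransfer hη (famTransfer hη' φ) := by
  rw [famTransfer_comp, famTransfer_comp]
  exact famTransfer_congr _ _ e ε h φ

omit [Fintype ι] [Fintype κ] in
theorem isFam_one (h : Γ₂ ≤ Γ₁) :
    IsFam Γ₁ Γ₂ (fun _ : ι => (1 : Matrix (Fin 2) (Fin 2) ℤ)) :=
  ⟨fun _ => by simp, fun γ hγ => ⟨1, fun _ => ⟨γ, h hγ⟩, fun _ => by simp⟩⟩

theorem famTransfer_one (h : Γ₂ ≤ Γ₁) (φ : Additive Γ₁ →+ A) :
    famTransfer (isFam_one (ι := ι) h) φ = Fintype.card ι • resHom h φ := by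
  refine AddMonoidHom.ext fun γ => ?_
  obtain ⟨γ, rfl⟩ := Additive.ofMul.surjective γ
  rw [famTransfer_apply (isFam_one h) φ γ (σ := 1) (δ := fun _ => ⟨γ, h γ.2⟩) (fun _ => by simp)]
  simp [resHom_apply]

end FLTAgent.RT
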