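import Fermat.Agent.RT.Coh.Eisenstein
import Fermat.Agent.RT.Coh.Transfer

/-!
# Transfers preserve vanishing on parabolic and elliptic elements
-/

set_option autoImplicit false

noncomputable section

namespace FLTAgent.RT

open LevelRaise
open scoped MatrixGroups
open ModularGroup

variable {ι : Type*} [Fintype ι] {Γ₁ Γ₂ : Subgroup SL(2, ℤ)} {η : ι → Matrix (Fin 2) (Fin 2) ℤ}
  {A : Type*} [AddCommGroup A]

/-- Vanishing on the elements of trace squared at most four. -/
def KillsEllPar (φ : Additive Γ₁ →+ A) : Prop :=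
  ∀ γ : Γ₁, ((γ : SL(2, ℤ)) : Matrix (Fin 2) (Fin 2) ℤ).trace ^ 2 ≤ 4 →
    φ (Additive.ofMul γ) = 0

omit [Fintype ι] in
theorem exists_isTransferZ_pow (γ : Γ₂) {σ : Equiv.Perm ι} {δ : ι → Γ₁}
    (h : IsTransferZ η (γ : SL(2, ℤ)) σ δ) (n : ℕ) :
    ∃ δ' : ι → Γ₁, IsTransferZ η ((γ ^ n : Γ₂) : SL(2, ℤ)) (σ ^ n : Equiv.Perm ι) δ' := by
  induction n with
  | zero => exact ⟨fun _ => 1, fun i => by simp⟩
  | succ n ih =>
    obtain ⟨δ', h'⟩ := ih
    refine ⟨fun i => δ' i * δ ((σ ^ n : Equiv.Perm ι) i), fun i => ?_⟩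
    rw [pow_succ γ, Subgroup.coe_mul, matSL_mul, ← Matrix.mul_assoc, h' i, Matrix.mul_assoc, h,
      ← Matrix.mul_assoc, Subgroup.coe_mul, matSL_mul, pow_succ' σ, Equiv.Perm.mul_apply]

/-- The trace of a power of an element of trace squared at most four is two, for suitable
exponents. -/
theorem trace_pow_eq_two {γ : SL(2, ℤ)}
    (h : (γ : Matrix (Fin 2) (Fin 2) ℤ).trace ^ 2 ≤ 4) (n : ℕ) :
    ((γ ^ (24 * n) : SL(2, ℤ)) : Matrix (Fin 2) (Fin 2) ℤ).trace = 2 := by
  rcases eq_or_lt_of_le h with h | h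
  · have h2 : ((γ ^ 2 : SL(2, ℤ)) : Matrix (Fin 2) (Fin 2) ℤ).trace = 2 := by
      have hdet := det_matSL γ
      rw [Matrix.trace_fin_two] at h
      rw [pow_two, Matrix.SpecialLinearGroup.coe_mul, Matrix.trace_fin_two,
        Matrix.mul_apply, Matrix.mul_apply, Fin.sum_univ_two, Fin.sum_univ_two]
      linear_combination h - 2 * hdet
    obtain ⟨x, k, hx⟩ := exists_conj_T_zpow h2
    rw [show 24 * n = 2 * (12 * n) by ring, pow_mul, hx, conj_pow, ← zpow_natCast (T ^ k), ← zpow_mul,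
      Matrix.SpecialLinearGroup.coe_mul, Matrix.trace_mul_comm, ← Matrix.SpecialLinearGroup.coe_mul,
      inv_mul_cancel_left, coe_T_zpow, Matrix.trace_fin_two]
    simp
  · rw [show 24 * n = 12 * (2 * n) by ring, pow_mul,
      Periods.pow_twelve_eq_one_of_trace_sq_lt h, one_pow, Matrix.SpecialLinearGroup.coe_one,
      Matrix.trace_fin_two]
    simp

/-- Transfers preserve vanishing on parabolic and elliptic elements. -/
theorem killsEllPar_famTransfer [IsAddTorsionFree A] (hη : IsFam Γ₁ Γ₂ η)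
    {φ : Additive Γ₁ →+ A} (hφ : KillsEllPar φ) : KillsEllPar (famTransfer hη φ) := by
  classical
  intro γ hγ
  obtain ⟨σ, δ, h⟩ := hη.exists_eq _ γ.2
  set n := 24 * orderOf σ
  obtain ⟨δ', h'⟩ := exists_isTransferZ_pow γ h n
  have h0 : famTransfer hη φ (Additive.ofMul (γ ^ n)) = 0 := by
    rw [famTransfer_apply hη φ (γ ^ n) h']
    refine Finset.sum_eq_zero fun i _ => hφ _ (le_of_eq ?_)
    have e := h' i
    rw [show σ ^ n = 1 by rw [pow_mul', pow_orderOf_eq_one, one_pow], Equiv.Perm.one_apply] at e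
    have e2 := congrArg (fun X => (X * (η i).adjugate).trace) e
    simp only [Matrix.mul_assoc, Matrix.mul_adjugate, Matrix.mul_smul, Matrix.mul_one,
      Matrix.trace_smul] at e2
    rw [Matrix.trace_mul_comm, Matrix.mul_assoc, Matrix.adjugate_mul, Matrix.mul_smul,
      Matrix.mul_one, Matrix.trace_smul] at e2
    rw [← smul_right_injective ℤ (hη.det_ne i) e2, SubgroupClass.coe_pow, trace_pow_eq_two hγ]
    norm_num
  rw [ofMul_pow, map_nsmul] at h0
  exact (smul_eq_zero_iff_right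
    (mul_ne_zero (by norm_num) (orderOf_pos σ).ne')).mp h0

end FLTAgent.RT
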