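import Fermat.Agent.Periods.Main
import Fermat.Agent.Periods.HeckeLattice
import Fermat.Agent.GalRep.Model
import Fermat.Agent.RT.Coh.CharChange
import Fermat.Agent.RT.Coh.EllPar

/-!
# The Hecke algebra acting on parabolic homomorphisms with values in a ring

The action of the Hecke algebra on the integral homomorphisms of `ParQuot N` is extended to
homomorphisms with values in any commutative ring, and is compared with the operators `opT`.
-/

set_option autoImplicit false

noncomputable section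

namespace FLTAgent.RT

open LevelRaise CongruenceSubgroup
open scoped MatrixGroups
open Periods GalRep

variable {N : ℕ} [NeZero N] {S : Set ℕ} (O : Type*) [CommRing O]

/-- A basis of `ParQuot N`. -/
def parBasis (N : ℕ) [NeZero N] :
    Module.Basis (Fin (2 * Module.finrank ℂ (CuspForm (Gamma0 N) 2))) ℤ (ParQuot N) :=
  Module.Basis.ofEquivFun (parQuot_equiv N).some.toIntLinearEquiv

/-- The coordinate homomorphisms of the basis. -/
def parCoord (N : ℕ) [NeZero N] (j : Fin (2 * Module.finrank ℂ (CuspForm (Gamma0 N) 2))) :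
    ParQuot N →+ ℤ :=
  ((parBasis N).coord j).toAddMonoidHom

/-- An integral homomorphism read in the ring. -/
def castPar (φ : ParQuot N →+ ℤ) : ParQuot N →+ O := (Int.castAddHom O).comp φ

theorem castPar_apply (φ : ParQuot N →+ ℤ) (x : ParQuot N) : castPar O φ x = (φ x : O) := rfl

theorem eq_sum_parCoord (ψ : ParQuot N →+ O) :
    ψ = ∑ j, ψ (parBasis N j) • castPar O (parCoord N j) := by
  refine DFunLike.ext _ _ fun x => ?_
  conv_lhs => rw [← (parBasis N).sum_repr x, map_sum]
  rw [AddMonoidHom.finsetSum_apply]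
  refine Finset.sum_congr rfl fun j _ => ?_
  rw [map_zsmul, zsmul_eq_mul, AddMonoidHom.smul_apply, castPar_apply, smul_eq_mul, mul_comm]
  rfl

theorem linearMap_ext_castPar {E : Type*} [AddCommGroup E] [Module O E]
    {f g : (ParQuot N →+ O) →ₗ[O] E}
    (h : ∀ φ : ParQuot N →+ ℤ, f (castPar O φ) = g (castPar O φ)) : f = g := by
  refine LinearMap.ext fun ψ => ?_
  rw [eq_sum_parCoord O ψ, map_sum, map_sum]
  exact Finset.sum_congr rfl fun j _ => by rw [map_smul, map_smul, h]

/-- The action with values in the ring of an endomorphism of the integral homomorphisms. -/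
def parExtend (f : Module.End ℤ (ParQuot N →+ ℤ)) : Module.End O (ParQuot N →+ O) where
  toFun ψ := ∑ j, ψ (parBasis N j) • castPar O (f (parCoord N j))
  map_add' ψ ψ' := by simp [add_smul, Finset.sum_add_distrib]
  map_smul' c ψ := by simp [Finset.smul_sum, mul_smul]

theorem parExtend_castPar (f : Module.End ℤ (ParQuot N →+ ℤ)) (φ : ParQuot N →+ ℤ) :
    parExtend O f (castPar O φ) = castPar O (f φ) := by
  have e : φ = ∑ j, φ (parBasis N j) • parCoord N j := by
    refine DFunLike.ext _ _ fun x => ?_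
    conv_lhs => rw [← (parBasis N).sum_repr x, map_sum]
    rw [AddMonoidHom.finsetSum_apply]
    refine Finset.sum_congr rfl fun j _ => ?_
    rw [map_zsmul, smul_eq_mul, AddMonoidHom.smul_apply, smul_eq_mul, mul_comm]
    rfl
  refine DFunLike.ext _ _ fun x => ?_
  conv_rhs => rw [e]
  simp [parExtend, castPar_apply, AddMonoidHom.finsetSum_apply]

/-- The Hecke algebra acting on homomorphisms with values in the ring. -/
def heckeActR (S : Set ℕ) (N : ℕ) [NeZero N] :
    CuspForm.heckeAlgebra N 2 S →+* Module.End O (ParQuot N →+ O) where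
  toFun t := parExtend O (heckeAct S (hdim N) t)
  map_one' := linearMap_ext_castPar O fun φ => by
    rw [parExtend_castPar, map_one]; rfl
  map_mul' s t := linearMap_ext_castPar O fun φ => by
    rw [parExtend_castPar, map_mul, Module.End.mul_apply, Module.End.mul_apply, parExtend_castPar,
      parExtend_castPar]
  map_zero' := linearMap_ext_castPar O fun φ => by
    rw [parExtend_castPar, map_zero, LinearMap.zero_apply, LinearMap.zero_apply]
    exact DFunLike.ext _ _ fun x => by simp [castPar_apply]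
  map_add' s t := linearMap_ext_castPar O fun φ => by
    rw [parExtend_castPar, map_add, LinearMap.add_apply, LinearMap.add_apply, parExtend_castPar,
      parExtend_castPar]
    exact DFunLike.ext _ _ fun x => by simp [castPar_apply]

variable {O}

/-- The transfer formula for `T ℓ` on homomorphisms with values in the ring. -/
theorem heckeActR_T_apply {ℓ : ℕ} (hℓ : ℓ.Prime) (hℓN : ¬ ℓ ∣ N) (hℓS : ℓ ∉ S) [NeZero ℓ]
    (ψ : ParQuot N →+ O) (γ : Gamma0 N) (σ : Equiv.Perm (Option (ZMod ℓ)))
    (δ : Option (ZMod ℓ) → Gamma0 N) (h : IsTransfer (tRep ℓ) γ σ δ) :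
    heckeActR O S N (CuspForm.heckeAlgebra.T hℓ hℓN hℓS) ψ (parProj N (Additive.ofMul γ)) =
      ∑ x, ψ (parProj N (Additive.ofMul (δ x))) := by
  let ev : ParQuot N → ((ParQuot N →+ O) →ₗ[O] O) := fun z =>
    { toFun := fun ψ => ψ z, map_add' := fun _ _ => rfl, map_smul' := fun _ _ => rfl }
  have e := linearMap_ext_castPar O
    (f := (ev (parProj N (Additive.ofMul γ))).comp
      (heckeActR O S N (CuspForm.heckeAlgebra.T hℓ hℓN hℓS)))
    (g := ∑ x, ev (parProj N (Additive.ofMul (δ x)))) fun φ => by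
      show parExtend O (heckeAct S (hdim N) _) (castPar O φ) _ = _
      rw [parExtend_castPar, castPar_apply, heckeAct_T_apply (hdim N) hℓ hℓN hℓS φ γ σ δ h,
        Int.cast_sum, LinearMap.sum_apply]
      rfl
  have := LinearMap.congr_fun e ψ
  rw [LinearMap.sum_apply] at this
  exact this

variable (O)

/-- The homomorphism of `Γ₀(N)` under a class in `Coh N trivChar O`. -/
def toGamma0 (N : ℕ) : Coh N trivChar O →ₗ[O] (Additive (Gamma0 N) →+ O) where
  toFun φ := φ.comp (MonoidHom.toAdditive (Subgroup.inclusion (gammaH_trivChar N).ge))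
  map_add' _ _ := rfl
  map_smul' _ _ := rfl

variable {O}

theorem coe_tRep_eq {ℓ : ℕ} (hℓ : ℓ ≠ 0) (i : Option (ZMod ℓ)) :
    (tRep ℓ i : Matrix (Fin 2) (Fin 2) ℝ) = (tRepZ ℓ i).map (Int.cast : ℤ → ℝ) := by
  rcases i with _ | j
  · simp only [tRep, tRepZ, ModularForm.val_heckeDiagMatrix hℓ]
    ext r s
    fin_cases r <;> fin_cases s <;> simp
  · simp only [tRep, tRepZ, ModularForm.val_heckeMatrix hℓ]
    ext r s
    fin_cases r <;> fin_cases s <;> simp [-ZMod.natCast_val]

/-- The operator `opT` is the Hecke operator. -/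
theorem heckeActR_parLift {ℓ : ℕ} (hℓ : ℓ.Prime) (hℓN : ¬ ℓ ∣ N) (hℓS : ℓ ∉ S)
    (φ : Coh N trivChar O)
    (hφ : ∀ γ : Gamma0 N, IsEllPar γ → toGamma0 O N φ (Additive.ofMul γ) = 0)
    (hT : ∀ γ : Gamma0 N, IsEllPar γ →
      toGamma0 O N (opT O O trivChar (one_dvd N) hℓ hℓN φ) (Additive.ofMul γ) = 0) :
    heckeActR O S N (CuspForm.heckeAlgebra.T hℓ hℓN hℓS) (parLift _ hφ) = parLift _ hT := by
  have : NeZero ℓ := ⟨hℓ.ne_zero⟩
  have : Fact ℓ.Prime := ⟨hℓ⟩
  refine parQuot_hom_ext (AddMonoidHom.ext fun x => ?_)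
  obtain ⟨γ, rfl⟩ := Additive.ofMul.surjective x
  -- the standard representatives
  have hT' := (opFam_T (χ := trivChar) (one_dvd N) hℓ hℓN)
  choose g hg using fun i => exists_balRep (χ := trivChar) (one_dvd N) hℓ i
    (fun _ hd => hℓ.ne_one (Nat.dvd_one.mp hd))
  let g' : Option (ZMod ℓ) → gammaH N trivChar := fun i =>
    ⟨((g i : Gamma0 N) : SL(2, ℤ))⁻¹, by rw [gammaH_trivChar]; exact (g i)⁻¹.2⟩
  have he : ∀ i, tRepZ ℓ (Equiv.refl _ i) = matSL (g' i : SL(2, ℤ)) * balRep N trivChar ℓ i :=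
    fun i => by rw [(hg i).1, matSL_inv_mul_cancel]; rfl
  have hfam := (hT'.isFam hℓ).congr (Equiv.refl _) g' he
  obtain ⟨σ, δ, hδ⟩ := hfam.exists_eq (γ : SL(2, ℤ))
    (by rw [gammaH_trivChar]; exact γ.2)
  let δ₀ : Option (ZMod ℓ) → Gamma0 N := fun i => ⟨δ i, gammaH_le (δ i).2⟩
  have htr : IsTransfer (tRep ℓ) γ σ δ₀ := fun i => by
    refine Units.ext ?_
    have e := congrArg (fun X : Matrix (Fin 2) (Fin 2) ℤ => X.map (Int.castRingHom ℝ)) (hδ i)
    simp only [Matrix.map_mul] at e
    rw [Units.val_mul, Units.val_mul, coe_tRep_eq hℓ.ne_zero, coe_tRep_eq hℓ.ne_zero]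
    exact e
  rw [AddMonoidHom.comp_apply, AddMonoidHom.comp_apply, heckeActR_T_apply hℓ hℓN hℓS _ γ σ δ₀ htr,
    parLift_parProj]
  show _ = opT O O trivChar (one_dvd N) hℓ hℓN φ
    (Additive.ofMul ⟨(γ : SL(2, ℤ)), (gammaH_trivChar N).ge γ.2⟩)
  rw [opT_apply, ← famTransfer_congr (hT'.isFam hℓ) hfam (Equiv.refl _) g' he φ,
    famTransfer_apply hfam φ _ hδ]
  exact Finset.sum_congr rfl fun i _ => parLift_parProj _ hφ _

end FLTAgent.RT
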