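import Fermat.Agent.RT.Coh.Twist
import Fermat.Agent.RT.Coh.EllPar
import Mathlib.Algebra.Squarefree.Basic

/-!
# From `gammaH N χ` to `Γ₀(N M)`

By twisting away the character one prime at a time, homomorphisms on `gammaH N χ` embed in
homomorphisms on `Γ₀(N M)`, compatibly with the `T ℓ`.
-/

set_option autoImplicit false

noncomputable section

namespace FLTAgent.RT

open LevelRaise CongruenceSubgroup
open scoped MatrixGroups

variable {D : Type*} [CommGroup D]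

/-- Every character modulo a product of coprime numbers is a product of characters. -/
theorem exists_eq_prodChar {q M₂ : ℕ} (h : q.Coprime M₂) (χ : (ZMod (q * M₂))ˣ →* D) :
    ∃ (ψ : (ZMod q)ˣ →* D) (χ' : (ZMod M₂)ˣ →* D), χ = prodChar ψ χ' := by
  let e : (ZMod (q * M₂))ˣ ≃* (ZMod q)ˣ × (ZMod M₂)ˣ :=
    (Units.mapEquiv (ZMod.chineseRemainder h).toMulEquiv).trans MulEquiv.prodUnits
  refine ⟨χ.comp (e.symm.toMonoidHom.comp (MonoidHom.inl _ _)),
    χ.comp (e.symm.toMonoidHom.comp (MonoidHom.inr _ _)), MonoidHom.ext fun v => ?_⟩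
  have he : e v = (ZMod.unitsMap (dvd_mul_right q M₂) v, ZMod.unitsMap (dvd_mul_left M₂ q) v) := by
    refine Prod.ext (Units.ext ?_) (Units.ext ?_)
    · rw [ZMod.unitsMap_val]; exact Prod.fst_zmod_cast _
    · rw [ZMod.unitsMap_val]; exact Prod.snd_zmod_cast _
  rw [prodChar_apply]
  simp only [MonoidHom.comp_apply, MulEquiv.coe_toMonoidHom, MonoidHom.inl_apply,
    MonoidHom.inr_apply]
  rw [← map_mul, ← map_mul, Prod.mk_mul_mk, mul_one, one_mul, ← he, MulEquiv.symm_apply_apply]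

variable [Fact (Odd (Nat.card D))] (R : Type*) [CommRing R] {A : Type*} [AddCommGroup A]
  [Module R A] [IsAddTorsionFree A]

omit [Fact (Odd (Nat.card D))] in
theorem bal_of_level_one (χ : (ZMod 1)ˣ →* D) {X : Matrix (Fin 2) (Fin 2) ℤ} (h : X.det ≠ 0) :
    Bal χ X := by
  obtain ⟨v, hv⟩ := exists_detChar_eq (χ := χ) X.det
  refine ⟨by simp, h, 1, Subsingleton.elim _ _, ?_⟩
  rw [← hv, Subsingleton.elim v 1, map_one, one_mul]

/-- A homomorphism on `gammaH N χ` is determined by a family of homomorphisms on `Γ₀(N M)`,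
compatibly with the `T ℓ`, `ℓ ∤ N M`, and with vanishing on parabolic and elliptic elements. -/
theorem exists_untwist : ∀ (M : ℕ), Squarefree M → ∀ (N N' : ℕ) [NeZero N] [NeZero N'], N' = N * M →
    ∀ (χ : (ZMod M)ˣ →* D) (hMN : M ∣ N), (∀ q : ℕ, q.Prime → q ∣ M → ¬ q ^ 2 ∣ N) →
      ∃ (ι : Type) (J : Coh N χ A →ₗ[R] (ι → Coh N' trivChar A)),
        Function.Injective J ∧
        (∀ φ, KillsEllPar φ → ∀ i, KillsEllPar (J φ i)) ∧
        ∀ (ℓ : ℕ) (hℓ : ℓ.Prime) (hℓN : ¬ ℓ ∣ N) (hℓN' : ¬ ℓ ∣ N') (φ : Coh N χ A) (i : ι),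
          J (opT R A χ hMN hℓ hℓN φ) i =
            opT R A trivChar (one_dvd N') hℓ hℓN' (J φ i) := by
  intro M
  induction M using Nat.strong_induction_on with
  | _ M ih =>
  intro hsq N N' _ _ hN' χ hMN hprime
  by_cases hM : M = 1
  · subst hM
    rw [mul_one] at hN'
    subst hN'
    have hb : ∀ X, Bal trivChar X → Bal χ X := fun X hX => bal_of_level_one χ hX.2.1
    refine ⟨Unit, LinearMap.pi fun _ => resC R (dvd_refl N') hb, ?_, ?_, ?_⟩
    · intro φ ψ e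
      refine AddMonoidHom.ext fun x => ?_
      obtain ⟨γ, rfl⟩ := Additive.ofMul.surjective x
      have hγ : (γ : SL(2, ℤ)) ∈ gammaH N' trivChar := ⟨γ.2.1, γ.2.2.toTriv⟩
      have := DFunLike.congr_fun (congrFun e ()) (Additive.ofMul ⟨(γ : SL(2, ℤ)), hγ⟩)
      rwa [LinearMap.pi_apply, LinearMap.pi_apply, resC_apply_apply, resC_apply_apply] at this
    · exact fun φ hφ _ => killsEllPar_famTransfer (isFam_one (gammaH_le_of (dvd_refl N') hb)) hφ
    · intro ℓ hℓ hℓN hℓN' φ i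
      have : NeZero ℓ := ⟨hℓ.ne_zero⟩
      exact ((opFam_T hMN hℓ hℓN).comm_resC (opFam_T (one_dvd N') hℓ hℓN') hℓ (dvd_refl N') hb
        rfl φ).symm
  obtain ⟨q, hq, M₂, rfl⟩ : ∃ q : ℕ, q.Prime ∧ ∃ M₂, M = q * M₂ :=
    ⟨M.minFac, Nat.minFac_prime hM, M.minFac_dvd⟩
  obtain ⟨L, rfl⟩ : ∃ L, N = L * q := ⟨N / q, (Nat.div_mul_cancel
    ((dvd_mul_right q M₂).trans hMN)).symm⟩
  have hqL : ¬ q ∣ L := fun hd => hprime q hq (dvd_mul_right q M₂)
    (by rw [pow_two]; exact mul_dvd_mul_right hd q)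
  have hcop : q.Coprime M₂ := Nat.coprime_of_squarefree_mul hsq
  have hML : M₂ ∣ L := hcop.symm.dvd_of_dvd_mul_right ((dvd_mul_left M₂ q).trans hMN)
  have h : TwistHyp q M₂ L := ⟨hq, hqL, hML⟩
  have hqne : NeZero q := ⟨hq.ne_zero⟩
  have : NeZero (L * q ^ 2) := ⟨by
    rw [pow_two, ← mul_assoc]; exact mul_ne_zero (NeZero.ne (L * q)) hq.ne_zero⟩
  have hM₂lt : M₂ < q * M₂ :=
    lt_mul_of_one_lt_left (Nat.pos_of_ne_zero (right_ne_zero_of_mul hsq.ne_zero)) hq.one_lt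
  obtain ⟨ψ, χ', rfl⟩ := exists_eq_prodChar hcop χ
  obtain ⟨ι, J, hJinj, hJpar, hJT⟩ := ih M₂ hM₂lt hsq.of_mul_right (L * q ^ 2) N'
    (by rw [hN']; ring) χ' h.dvd_level' (fun r hr hrM hd => by
      have hrq : ¬ r ∣ q := fun hd' =>
        hq.ne_one (Nat.dvd_one.mp (hcop ▸ Nat.dvd_gcd dvd_rfl
          (((Nat.prime_dvd_prime_iff_eq hr hq).mp hd') ▸ hrM)))
      have hr2 : r ^ 2 ∣ L :=
        (Nat.Coprime.pow 2 2 ((hr.coprime_iff_not_dvd).mpr hrq)).dvd_of_dvd_mul_right hd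
      exact hprime r hr (hrM.trans (dvd_mul_left M₂ q)) (hr2.trans (dvd_mul_right L q)))
  let W : Option (ZMod q)ˣ → Coh (L * q) (prodChar ψ χ') A →ₗ[R] Coh (L * q ^ 2) χ' A
    | none => twMap R h ψ χ' 0
    | some t => (twMap R h ψ χ' 1).comp
        (diamondAt R A (prodChar ψ χ') h.dvd_level (twGamma h ψ t)⁻¹)
  refine ⟨Option (ZMod q)ˣ × ι, LinearMap.pi fun x =>
    (LinearMap.proj x.2).comp (J.comp (W x.1)), ?_, ?_, ?_⟩
  · refine LinearMap.ker_eq_bot.mp (LinearMap.ker_eq_bot'.mpr fun φ hφ => ?_)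
    have hW : ∀ o, W o φ = 0 := fun o => hJinj (by
      rw [map_zero]; exact funext fun i => congrFun hφ (o, i))
    exact eq_zero_of_twMap h φ (hW none) fun t => hW (some t)
  · rintro φ hφ ⟨o, i⟩
    refine hJpar _ ?_ i
    rcases o with _ | t
    · exact killsEllPar_famTransfer (isFam_tw h 0) hφ
    · exact killsEllPar_famTransfer (isFam_tw h 1)
        (killsEllPar_famTransfer (isFam_gamma0 h.dvd_level (twGamma h ψ t)⁻¹) hφ)
  · rintro ℓ hℓ hℓN hℓN' φ ⟨o, i⟩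
    have hℓL : ¬ ℓ ∣ L * q ^ 2 := fun hd => by
      refine hℓN ?_
      rcases hℓ.dvd_mul.mp hd with h1 | h1
      · exact h1.trans (dvd_mul_right L q)
      · exact (hℓ.dvd_of_dvd_pow h1).trans (dvd_mul_left q L)
    have hW : W o (opT R A (prodChar ψ χ') hMN hℓ hℓN φ) =
        opT R A χ' h.dvd_level' hℓ hℓL (W o φ) := by
      rcases o with _ | t
      · exact (twMap_opT h 0 hℓ hℓL φ).symm
      · have : NeZero ℓ := ⟨hℓ.ne_zero⟩
        show twMap R h ψ χ' 1 (diamondAt R A (prodChar ψ χ') h.dvd_level (twGamma h ψ t)⁻¹ _) = _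
        rw [show diamondAt R A (prodChar ψ χ') h.dvd_level (twGamma h ψ t)⁻¹
            (opT R A (prodChar ψ χ') hMN hℓ hℓN φ) = opT R A (prodChar ψ χ') h.dvd_level hℓ hℓN
              (diamondAt R A (prodChar ψ χ') h.dvd_level (twGamma h ψ t)⁻¹ φ) from
          ((opFam_T h.dvd_level hℓ hℓN).comm_diamondAt hℓ h.dvd_level _ φ).symm]
        exact (twMap_opT h 1 hℓ hℓL _).symm
    show J (W o _) i = opT R A trivChar _ hℓ hℓN' (J (W o φ) i)
    rw [hW, hJT ℓ hℓ hℓL hℓN']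

end FLTAgent.RT
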