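import Fermat.Agent.RT.Coh.CohPart
import Fermat.Agent.RT.Coh.HeckeParQuot
import Fermat.Agent.RT.Coh.Untwist

/-!
# The Hecke algebra of `Γ₀(N M)` acting on the part of `Coh N χ O`

The part kills parabolic and elliptic elements, so through the untwisting maps the good operators
on it come from the Hecke algebra of weight two and level `N M`.
-/

set_option autoImplicit false

noncomputable section

namespace FLTAgent.RT

open LevelRaise CongruenceSubgroup IsLocalRing
open scoped MatrixGroups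
open Periods GalRep

variable {M N N' : ℕ} [NeZero N] [NeZero N'] {D : Type*} [CommGroup D] {χ : (ZMod M)ˣ →* D}
  [Fact (Odd (Nat.card D))] {O : Type*} [CommRing O]

omit [NeZero N] [NeZero N'] in
theorem killsEllPar_toGamma0 {φ : Coh N' trivChar O} (hφ : KillsEllPar φ)
    (γ : Gamma0 N') (hγ : IsEllPar γ) : toGamma0 O N' φ (Additive.ofMul γ) = 0 :=
  hφ (Subgroup.inclusion (gammaH_trivChar N').ge γ) hγ

variable [IsLocalRing O] [IsNoetherianRing O] [IsAdicComplete (maximalIdeal O) O]
  [Finite (ResidueField O)] [IsAddTorsionFree O] {ι : Type*} {l : ι → ℕ}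

/-- The good operators on the part come from the Hecke algebra of level `N M`. -/
theorem exists_theta (hMN : M ∣ N) (hl : ∀ i, (l i).Prime) (a : ι → O) (hne : NonEis l a)
    (hsq : Squarefree M) (hex : ∀ q : ℕ, q.Prime → q ∣ M → ¬ q ^ 2 ∣ N) (hN' : N' = N * M) :
    ∃ Θ : awayHecke N' →+* Module.End O (cohPart χ hMN hl a),
      ∀ (ℓ : ℕ) (hℓ : ℓ.Prime) (hℓN : ¬ ℓ ∣ N') (v : cohPart χ hMN hl a),
        (Θ (awayT N' hℓ hℓN) v : Coh N χ O) = opP O O χ hMN hℓ v := by
  classical
  obtain ⟨κ, J, hJinj, hJpar, hJT⟩ := exists_untwist (D := D) O (A := O) M hsq N N' hN' χ hMN hex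
  have hkill : ∀ (v : cohPart χ hMN hl a) (k : κ), ∀ γ : Gamma0 N', IsEllPar γ →
      toGamma0 O N' (J v k) (Additive.ofMul γ) = 0 := fun v k =>
    killsEllPar_toGamma0 (hJpar (v : Coh N χ O)
      (fun γ hγ => apply_eq_zero_of_mem_cohPart hMN hl hne v.2 hγ) k)
  let K : cohPart χ hMN hl a →ₗ[O] (κ → (ParQuot N' →+ O)) :=
    { toFun := fun v k => parLift _ (hkill v k)
      map_add' := fun v w => funext fun k => parQuot_hom_ext (AddMonoidHom.ext fun x => by
        simp [parLift_parProj])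
      map_smul' := fun c v => funext fun k => parQuot_hom_ext (AddMonoidHom.ext fun x => by
        simp [parLift_parProj]) }
  have hK : Function.Injective K := fun v w h => Subtype.ext <| hJinj <| funext fun k => by
    refine AddMonoidHom.ext fun x => ?_
    obtain ⟨γ, rfl⟩ := Additive.ofMul.surjective x
    have := DFunLike.congr_fun (congrFun h k)
      (parProj N' (Additive.ofMul (⟨γ, gammaH_le γ.2⟩ : Gamma0 N')))
    exact this
  have hmem : ∀ (ℓ : ℕ) (hℓ : ℓ.Prime), ∀ v ∈ cohPart χ hMN hl a,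
      opP O O χ hMN hℓ v ∈ cohPart χ hMN hl a := fun ℓ hℓ v hv =>
    mem_cohPart_of_commute hMN hl a (fun i => opP_comm (χ := χ) O O hMN hℓ (hl i)) hv
  have hgen : ∀ (ℓ : ℕ) (hℓ : ℓ.Prime) (hℓN : ¬ ℓ ∣ N') (v : cohPart χ hMN hl a) (k : κ),
      K ((opP O O χ hMN hℓ).restrict (hmem ℓ hℓ) v) k =
        heckeActR O (levelPrimes N') N' (awayT N' hℓ hℓN) (K v k) := fun ℓ hℓ hℓN v k => by
    have hℓ' : ¬ ℓ ∣ N := fun hd => hℓN (hN' ▸ hd.trans (dvd_mul_right N M))
    have hJ : J (opP O O χ hMN hℓ (v : Coh N χ O)) k =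
        opT O O trivChar (one_dvd N') hℓ hℓN (J v k) := by
      rw [opP_of_not_dvd O O hMN hℓ hℓ']
      exact hJT ℓ hℓ hℓ' hℓN v k
    have hT : ∀ γ : Gamma0 N', IsEllPar γ →
        toGamma0 O N' (opT O O trivChar (one_dvd N') hℓ hℓN (J v k)) (Additive.ofMul γ) = 0 :=
      fun γ hγ => by rw [← hJ]; exact hkill ⟨_, hmem ℓ hℓ v v.2⟩ k γ hγ
    refine Eq.trans ?_ (heckeActR_parLift hℓ hℓN (notMem_levelPrimes hℓN) (J v k) (hkill v k)
      hT).symm
    refine parQuot_hom_ext (AddMonoidHom.ext fun x => ?_)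
    show toGamma0 O N' (J (opP O O χ hMN hℓ (v : Coh N χ O)) k) x = _
    rw [hJ]
    rfl
  have hex' : ∀ t : awayHecke N', ∃ f : Module.End O (cohPart χ hMN hl a),
      ∀ v k, K (f v) k = heckeActR O (levelPrimes N') N' t (K v k) := by
    rintro ⟨t, ht⟩
    induction ht using Algebra.adjoin_induction with
    | mem x hx =>
      rcases hx with ⟨ℓ, hℓ, hℓN, hℓS, rfl⟩ | ⟨q, hqN, hq, hqS, rfl⟩
      · exact ⟨(opP O O χ hMN hℓ).restrict (hmem ℓ hℓ), hgen ℓ hℓ hℓN⟩
      · exact absurd ⟨hq, hqN⟩ hqS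
    | algebraMap z =>
      refine ⟨(z : Module.End O (cohPart χ hMN hl a)), fun v k => ?_⟩
      refine Eq.trans ?_ (congrArg (fun t => heckeActR O (levelPrimes N') N' t (K v k))
        (Subtype.ext (by simp) : (z : awayHecke N') = _))
      rw [map_intCast, Module.End.intCast_apply, Module.End.intCast_apply, map_zsmul,
        Pi.smul_apply]
    | add x y hx hy ihx ihy =>
      obtain ⟨f, hf⟩ := ihx
      obtain ⟨g, hg⟩ := ihy
      refine ⟨f + g, fun v k => ?_⟩
      refine Eq.trans ?_ (congrArg (fun t => heckeActR O (levelPrimes N') N' t (K v k))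
        (rfl : (⟨x, hx⟩ : awayHecke N') + ⟨y, hy⟩ = _))
      rw [map_add, LinearMap.add_apply, LinearMap.add_apply, map_add, Pi.add_apply, hf, hg]
    | mul x y hx hy ihx ihy =>
      obtain ⟨f, hf⟩ := ihx
      obtain ⟨g, hg⟩ := ihy
      refine ⟨f * g, fun v k => ?_⟩
      refine Eq.trans ?_ (congrArg (fun t => heckeActR O (levelPrimes N') N' t (K v k))
        (rfl : (⟨x, hx⟩ : awayHecke N') * ⟨y, hy⟩ = _))
      rw [map_mul, Module.End.mul_apply, Module.End.mul_apply, hf, hg]
  choose Θ hΘ using hex'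
  have huniq : ∀ (t : awayHecke N') (f : Module.End O (cohPart χ hMN hl a)),
      (∀ v k, K (f v) k = heckeActR O (levelPrimes N') N' t (K v k)) → Θ t = f := fun t f hf =>
    LinearMap.ext fun v => hK (funext fun k => by rw [hΘ t v k, hf v k])
  refine ⟨{ toFun := Θ
            map_one' := huniq 1 1 fun v k => by rw [map_one]; rfl
            map_mul' := fun s t => huniq _ _ fun v k => by
              rw [map_mul, Module.End.mul_apply, Module.End.mul_apply, hΘ, hΘ]
            map_zero' := huniq 0 0 fun v k => by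
              rw [map_zero, LinearMap.zero_apply, LinearMap.zero_apply, map_zero, Pi.zero_apply]
            map_add' := fun s t => huniq _ _ fun v k => by
              rw [map_add, LinearMap.add_apply, LinearMap.add_apply, map_add, Pi.add_apply, hΘ,
                hΘ] }, fun ℓ hℓ hℓN v => ?_⟩
  have hf := huniq _ _ (hgen ℓ hℓ hℓN)
  show (Θ (awayT N' hℓ hℓN) v : Coh N χ O) = _
  rw [hf]
  rfl

end FLTAgent.RT
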