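import Fermat.Agent.RT.Coh.Transfer
import Fermat.Agent.LevelRaise.HeckeOp

/-!
# Families of left classes

A family with distinct left classes which right multiplication does not move out of these classes
gives a transfer, and two such families covering one another give the same transfer.
-/

set_option autoImplicit false

noncomputable section

namespace FLTAgent.RT

open LevelRaise
open scoped MatrixGroups

variable {ι κ : Type*} {Γ₀ Γ₁ Γ₂ : Subgroup SL(2, ℤ)} {η : ι → Matrix (Fin 2) (Fin 2) ℤ}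
  {A : Type*} [AddCommGroup A]

/-- The members of a family lie in distinct left classes of `Γ`. -/
def DistinctIn (Γ : Subgroup SL(2, ℤ)) (η : ι → Matrix (Fin 2) (Fin 2) ℤ) : Prop :=
  ∀ (i j : ι) (δ : Γ), η i = matSL (δ : SL(2, ℤ)) * η j → i = j

theorem distinctIn_of_distinctFam (h : DistinctFam η) : DistinctIn Γ₁ η :=
  fun i j δ e => h i j δ e

theorem isFam_of_complete [Finite ι] (hdet : ∀ i, (η i).det ≠ 0) (hdist : DistinctIn Γ₁ η)
    (hc : ∀ i, ∀ γ ∈ Γ₂, ∃ (j : ι) (δ : Γ₁), η i * matSL γ = matSL (δ : SL(2, ℤ)) * η j) :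
    IsFam Γ₁ Γ₂ η := by
  refine ⟨hdet, fun γ hγ => ?_⟩
  choose σ δ h using fun i => hc i γ hγ
  have hinj : Function.Injective σ := fun i j hij => by
    refine hdist i j (δ i * (δ j)⁻¹) ?_
    have hj : matSL ((δ j : SL(2, ℤ))⁻¹) * η j * matSL γ = η (σ j) := by
      rw [Matrix.mul_assoc, h j, matSL_inv_mul_cancel]
    have e : η i * matSL γ = matSL ((δ i * (δ j)⁻¹ : Γ₁) : SL(2, ℤ)) * η j * matSL γ := by
      rw [h i, hij, ← hj, Subgroup.coe_mul, Subgroup.coe_inv, matSL_mul]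
      simp only [Matrix.mul_assoc]
    rw [← matSL_mul_inv_cancel γ (η i), e, matSL_mul_inv_cancel]
  exact ⟨Equiv.ofBijective σ (Finite.injective_iff_bijective.mp hinj), δ, h⟩

variable [Fintype ι] [Fintype κ]

/-- A family with distinct classes covered by another one of the same size has the same transfer. -/
theorem famTransfer_eq_of_cover {η' : κ → Matrix (Fin 2) (Fin 2) ℤ} (hη : IsFam Γ₁ Γ₂ η)
    (hη' : IsFam Γ₁ Γ₂ η') (hdist : DistinctIn Γ₁ η) (hcard : Fintype.card ι = Fintype.card κ)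
    (h : ∀ i, ∃ (k : κ) (δ : Γ₁), η i = matSL (δ : SL(2, ℤ)) * η' k)
    (φ : Additive Γ₁ →+ A) : famTransfer hη φ = famTransfer hη' φ := by
  choose k δ hk using h
  have hinj : Function.Injective k := fun i j hij => by
    refine hdist i j (δ i * (δ j)⁻¹) ?_
    rw [Subgroup.coe_mul, Subgroup.coe_inv, matSL_mul, Matrix.mul_assoc, hk j, matSL_inv_mul_cancel,
      hk i, hij]
  refine (famTransfer_congr hη hη' (Equiv.ofBijective k
    ((Fintype.bijective_iff_injective_and_card k).mpr ⟨hinj, hcard⟩)) (fun i => (δ i)⁻¹)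
    (fun i => ?_) φ).symm
  rw [Subgroup.coe_inv, hk i, matSL_inv_mul_cancel]
  rfl

/-- Composites commute as soon as one product family covers the other. -/
theorem famTransfer_comm_of_cover {ι' κ' : Type*} [Fintype ι'] [Fintype κ']
    {Γ₁' : Subgroup SL(2, ℤ)} {η' : κ → Matrix (Fin 2) (Fin 2) ℤ}
    {θ : ι' → Matrix (Fin 2) (Fin 2) ℤ} {θ' : κ' → Matrix (Fin 2) (Fin 2) ℤ}
    (hη' : IsFam Γ₀ Γ₁ η') (hη : IsFam Γ₁ Γ₂ η) (hθ' : IsFam Γ₀ Γ₁' θ') (hθ : IsFam Γ₁' Γ₂ θ)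
    (hdist : DistinctIn Γ₀ (famMul η' η)) (hcard : Fintype.card (κ × ι) = Fintype.card (κ' × ι'))
    (h : ∀ k i, ∃ (k' : κ') (i' : ι') (δ : Γ₀),
      η' k * η i = matSL (δ : SL(2, ℤ)) * (θ' k' * θ i'))
    (φ : Additive Γ₀ →+ A) :
    famTransfer hη (famTransfer hη' φ) = famTransfer hθ (famTransfer hθ' φ) := by
  rw [famTransfer_comp, famTransfer_comp]
  refine famTransfer_eq_of_cover _ _ hdist hcard (fun x => ?_) φ
  obtain ⟨k', i', δ, e⟩ := h x.1 x.2
  exact ⟨(k', i'), δ, e⟩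

omit [Fintype ι] [Fintype κ] in
theorem distinctFam_unique [Subsingleton ι] : DistinctFam η := fun i j _ _ => Subsingleton.elim i j

omit [Fintype ι] [Fintype κ] in
theorem DistinctFam.mul_singleton {w : Matrix (Fin 2) (Fin 2) ℤ} (hw : w.det ≠ 0)
    (hη : DistinctFam η) : DistinctFam (famMul η (fun _ : Unit => w)) := by
  rintro ⟨i, u⟩ ⟨j, v⟩ δ h
  have h' : η i * w = matSL δ * η j * w := by
    rw [Matrix.mul_assoc]; exact h
  exact Prod.ext (hη i j δ (mul_right_cancel_of_det_ne_zero hw h')) rfl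

/-- A member of the standard family can be split off on the right. -/
theorem exists_eq_mul_tRepZ_right {ℓ : ℕ} [Fact ℓ.Prime] (X : Matrix (Fin 2) (Fin 2) ℤ)
    (hdet : (ℓ : ℤ) ∣ X.det) :
    ∃ (k : Option (ZMod ℓ)) (Y : Matrix (Fin 2) (Fin 2) ℤ), X = Y * tRepZ ℓ k ∧
      (k = none → (ℓ : ℤ) ∣ X 0 0) := by
  by_cases h : ((X 0 0 : ℤ) : ZMod ℓ) = 0 ∧ ((X 1 0 : ℤ) : ZMod ℓ) = 0
  · obtain ⟨a, ha⟩ := (ZMod.intCast_zmod_eq_zero_iff_dvd _ _).mp h.1
    obtain ⟨c, hc⟩ := (ZMod.intCast_zmod_eq_zero_iff_dvd _ _).mp h.2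
    refine ⟨none, !![a, X 0 1; c, X 1 1], ?_, fun _ => ⟨a, ha⟩⟩
    ext r s
    fin_cases r <;> fin_cases s <;>
      simp [tRepZ, Matrix.mul_apply, Fin.sum_univ_two, ha, hc, mul_comm]
  · have hd0 : ((X 0 0 : ℤ) : ZMod ℓ) * X 1 1 - X 0 1 * X 1 0 = 0 := by
      rw [Matrix.det_fin_two, ← ZMod.intCast_zmod_eq_zero_iff_dvd] at hdet
      push_cast at hdet
      exact hdet
    obtain ⟨j, hj1, hj2⟩ : ∃ j : ZMod ℓ, ((X 0 1 : ℤ) : ZMod ℓ) = X 0 0 * j ∧
        ((X 1 1 : ℤ) : ZMod ℓ) = X 1 0 * j := by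
      by_cases ha : ((X 0 0 : ℤ) : ZMod ℓ) = 0
      · have hc : ((X 1 0 : ℤ) : ZMod ℓ) ≠ 0 := fun hc => h ⟨ha, hc⟩
        refine ⟨X 1 1 / X 1 0, ?_, (mul_div_cancel₀ _ hc).symm⟩
        rw [ha, zero_mul] at hd0 ⊢
        rw [zero_sub, neg_eq_zero] at hd0
        exact (mul_eq_zero.mp hd0).resolve_right hc
      · refine ⟨X 0 1 / X 0 0, (mul_div_cancel₀ _ ha).symm, ?_⟩
        rw [← mul_div_assoc, eq_div_iff ha]
        linear_combination hd0
    have e : ((j.val : ℤ) : ZMod ℓ) = j := by simp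
    obtain ⟨b, hb⟩ := (ZMod.intCast_zmod_eq_zero_iff_dvd (X 0 1 - X 0 0 * j.val) ℓ).mp (by
      push_cast at e ⊢; rw [e, hj1, sub_self])
    obtain ⟨d, hd⟩ := (ZMod.intCast_zmod_eq_zero_iff_dvd (X 1 1 - X 1 0 * j.val) ℓ).mp (by
      push_cast at e ⊢; rw [e, hj2, sub_self])
    refine ⟨some j, !![X 0 0, b; X 1 0, d], ?_, nofun⟩
    ext r s
    fin_cases r <;> fin_cases s <;>
      simp [tRepZ, Matrix.mul_apply, Fin.sum_univ_two, -ZMod.natCast_val] <;>
      first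
        | linear_combination hb
        | linear_combination hd

/-- The standard classes stay distinct after a multiplication prime to `ℓ`. -/
theorem tRepZ_eq_of_smul {ℓ : ℕ} [Fact ℓ.Prime] {c : ℤ} (hc : ¬ (ℓ : ℤ) ∣ c)
    {k k' : Option (ZMod ℓ)} {Z : Matrix (Fin 2) (Fin 2) ℤ}
    (h : c • tRepZ ℓ k = Z * tRepZ ℓ k') : k = k' := by
  have h00 := congrArg (fun M => M 0 0) h
  have h01 := congrArg (fun M => M 0 1) h
  have h10 := congrArg (fun M => M 1 0) h
  have h11 := congrArg (fun M => M 1 1) h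
  rcases k with _ | i <;> rcases k' with _ | j <;>
    simp [tRepZ, Matrix.mul_apply, Fin.sum_univ_two, -ZMod.natCast_val] at h00 h01 h10 h11 ⊢
  · exact hc ⟨Z 1 1, by rw [← h10] at h11; linear_combination h11⟩
  · exact hc ⟨Z 0 0, by linear_combination h00⟩
  · have h1 : (c : ZMod ℓ) * (i.val : ℤ) = c * (j.val : ℤ) := by
      have := congrArg (fun z : ℤ => (z : ZMod ℓ)) h01
      rw [← h00] at this
      push_cast at this ⊢
      simpa using this
    rw [← ZMod.intCast_zmod_eq_zero_iff_dvd] at hc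
    simpa using mul_left_cancel₀ hc h1

end FLTAgent.RT
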