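import Fermat.Agent.RT.Coh.Ops
import Fermat.Agent.LevelRaise.Degeneracy

/-!
# The two degeneracy maps between the levels `L` and `L q`

With the balanced involution `W` one has `W² = 1`, `cores ∘ res = q + 1`, `cores ∘ W ∘ res = T q`
and `res ∘ cores ∘ W = W + U q`, exactly.
-/

set_option autoImplicit false

noncomputable section

namespace FLTAgent.RT

open LevelRaise CongruenceSubgroup
open scoped MatrixGroups

variable {M L q : ℕ} {D : Type*} [CommGroup D] {χ : (ZMod M)ˣ →* D} {A : Type*} [AddCommGroup A]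
  (R : Type*) [CommRing R] [Module R A]

theorem isFam_res (χ : (ZMod M)ˣ →* D) {N' : ℕ} (h : L ∣ N') :
    IsFam (gammaH L χ) (gammaH N' χ) (fun _ : Unit => (1 : Matrix (Fin 2) (Fin 2) ℤ)) :=
  isFam_one (gammaH_mono h)

/-- Restriction to a higher level. -/
def resB (χ : (ZMod M)ˣ →* D) {N' : ℕ} (h : L ∣ N') : Coh L χ A →ₗ[R] Coh N' χ A :=
  famTransferL R (isFam_res χ h)

theorem resB_apply_apply {N' : ℕ} (h : L ∣ N') (φ : Coh L χ A) (γ : gammaH N' χ) :
    resB R χ h φ (Additive.ofMul γ) = φ (Additive.ofMul ⟨γ, gammaH_mono h γ.2⟩) := by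
  show famTransfer (isFam_one (ι := Unit) (gammaH_mono h)) φ (Additive.ofMul γ) = _
  rw [famTransfer_one (gammaH_mono h) φ]
  simp

/-- An operator given by matching families at two levels commutes with restriction. -/
theorem OpFam.comm_res {ι ι' : Type*} [Fintype ι] [Fintype ι'] {N' m : ℕ}
    {η : ι → Matrix (Fin 2) (Fin 2) ℤ} {η' : ι' → Matrix (Fin 2) (Fin 2) ℤ} (h : OpFam L χ m η)
    (h' : OpFam N' χ m η') (hm : m.Prime) (hN : L ∣ N')
    (hcard : Fintype.card ι' = Fintype.card ι) (φ : Coh L χ A) :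
    famTransfer (h'.isFam hm) (famTransfer (isFam_res χ hN) φ) =
      famTransfer (isFam_res χ hN) (famTransfer (h.isFam hm) φ) := by
  refine famTransfer_comm_of_cover _ _ _ _ ?_ (by simp [hcard]) (fun _ i => ?_) φ
  · rintro ⟨_, i⟩ ⟨_, j⟩ δ e
    simp only [famMul, Matrix.one_mul] at e
    exact Prod.ext rfl (h'.distinct hm i j δ e)
  · have hdvd := Int.natCast_dvd_natCast.mpr hN
    obtain ⟨j, δ, hj⟩ := h.cover (η' i) (h'.det_eq i) (hdvd.trans (h'.dvd i))
      ((h'.coprime i).of_isCoprime_of_dvd_right hdvd) (h'.bal i)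
    exact ⟨j, (), δ, by rw [Matrix.one_mul, hj, Matrix.mul_one]⟩

variable [Fact (Odd (Nat.card D))] [NeZero L] [NeZero q] (W : WData L q)

open Classical in
/-- Balanced representatives of `Γ₀(L q)` in `gammaH L χ`. -/
def balCos (χ : (ZMod M)ˣ →* D) (i : Option (ZMod q)) : Matrix (Fin 2) (Fin 2) ℤ :=
  if h : ∃ g : Gamma0 (L * q), Bal χ (matSL (g : SL(2, ℤ)) * matSL (W.rep i : SL(2, ℤ))) then
    matSL (h.choose : SL(2, ℤ)) * matSL (W.rep i : SL(2, ℤ))
  else matSL (W.rep i : SL(2, ℤ))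

open Classical in
/-- The balanced involution. -/
def balW (χ : (ZMod M)ˣ →* D) : Matrix (Fin 2) (Fin 2) ℤ :=
  if h : ∃ g : Gamma0 (L * q), Bal χ (matSL (g : SL(2, ℤ)) * W.mat) then
    matSL (h.choose : SL(2, ℤ)) * W.mat
  else W.mat

variable (hML : M ∣ L)

theorem exists_balCos (i : Option (ZMod q)) (hML : M ∣ L) :
    ∃ (g : Gamma0 (L * q)) (r : gammaH L χ), (r : SL(2, ℤ)) = g * W.rep i ∧
      balCos W χ i = matSL (r : SL(2, ℤ)) := by
  have hc : (M : ℤ) ∣ matSL (W.rep i : SL(2, ℤ)) 1 0 :=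
    (Int.natCast_dvd_natCast.mpr hML).trans (mem_gamma0_iff.mp (W.rep i).2)
  have h : ∃ g : Gamma0 (L * q), Bal χ (matSL (g : SL(2, ℤ)) * matSL (W.rep i : SL(2, ℤ))) :=
    exists_balance (hML.trans (dvd_mul_right _ _)) hc
      (by rw [(W.rep i : SL(2, ℤ)).det_coe]; exact one_ne_zero) (coe_dUnit_inv hML (W.rep i))
  rw [balCos, dif_pos h]
  exact ⟨h.choose, ⟨_, (Gamma0 L).mul_mem (gamma0_mul_le L q h.choose.2) (W.rep i).2,
    by rw [matSL_mul]; exact h.choose_spec⟩, rfl, (matSL_mul _ _).symm⟩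

omit [NeZero q] in
theorem exists_balW (hML : M ∣ L) :
    ∃ g : Gamma0 (L * q), balW W χ = matSL (g : SL(2, ℤ)) * W.mat ∧ Bal χ (balW W χ) := by
  have hqM : ¬ q ∣ M := fun h => W.not_dvd (h.trans hML)
  have hd : (M : ℤ) ∣ (L : ℤ) := Int.natCast_dvd_natCast.mpr hML
  let u : (ZMod M)ˣ := ZMod.unitOfCoprime q ((W.prime.coprime_iff_not_dvd).mpr hqM)
  have h : ∃ g : Gamma0 (L * q), Bal χ (matSL (g : SL(2, ℤ)) * W.mat) := by
    have : NeZero q := ⟨W.prime.ne_zero⟩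
    refine exists_balance (hML.trans (dvd_mul_right _ _)) (X := W.mat) (u := u) ?_ ?_ ?_
    · rw [show W.mat 1 0 = (L : ℤ) * q by simp [WData.mat]]
      exact dvd_mul_of_dvd_left hd _
    · rw [show W.mat.det = (q : ℤ) by
        simp [WData.mat, Matrix.det_fin_two_of]; linear_combination (q : ℤ) * W.rel]
      exact_mod_cast W.prime.ne_zero
    · simp [u, WData.mat, ZMod.coe_unitOfCoprime]
  rw [balW, dif_pos h]
  exact ⟨_, rfl, h.choose_spec⟩

omit [NeZero q] in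
theorem balW_det (hML : M ∣ L) : (balW W χ).det = q := by
  obtain ⟨g, hg, -⟩ := exists_balW (χ := χ) W hML
  rw [hg, Matrix.det_mul, (g : SL(2, ℤ)).det_coe, one_mul]
  simp [WData.mat, Matrix.det_fin_two_of]; linear_combination (q : ℤ) * W.rel

theorem distinctIn_balCos (hML : M ∣ L) :
    DistinctIn (gammaH (L * q) χ) (balCos W χ) := by
  intro i j δ h
  obtain ⟨g, r, hr, hi⟩ := exists_balCos (χ := χ) W i hML
  obtain ⟨g', r', hr', hj⟩ := exists_balCos (χ := χ) W j hML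
  refine W.rep_injective i j ?_
  have e : (r : SL(2, ℤ)) = δ * r' := Subtype.ext (by
    show matSL (r : SL(2, ℤ)) = matSL ((δ : SL(2, ℤ)) * r')
    rw [← hi, h, hj, matSL_mul])
  have e' : (W.rep i : SL(2, ℤ)) * (W.rep j : SL(2, ℤ))⁻¹ = (g : SL(2, ℤ))⁻¹ * δ * g' := by
    rw [hr, hr', ← mul_assoc] at e
    rw [mul_inv_eq_iff_eq_mul, mul_assoc, mul_assoc, eq_inv_mul_iff_mul_eq, ← mul_assoc]
    exact e
  rw [e']
  exact (Gamma0 _).mul_mem ((Gamma0 _).mul_mem ((Gamma0 _).inv_mem g.2) δ.2.1) g'.2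

theorem exists_balCos_cover (hML : M ∣ L) (γ : gammaH L χ) :
    ∃ (i : Option (ZMod q)) (δ : gammaH (L * q) χ),
      matSL (γ : SL(2, ℤ)) = matSL (δ : SL(2, ℤ)) * balCos W χ i := by
  obtain ⟨i, hi⟩ := W.rep_surjective ⟨γ, γ.2.1⟩
  obtain ⟨g, r, hr, hb⟩ := exists_balCos (χ := χ) W i hML
  have hmem : (γ : SL(2, ℤ)) * (r : SL(2, ℤ))⁻¹ ∈ Gamma0 (L * q) := by
    rw [hr, mul_inv_rev, ← mul_assoc]
    exact (Gamma0 _).mul_mem hi ((Gamma0 _).inv_mem g.2)
  refine ⟨i, ⟨_, hmem, ((gammaH L χ).mul_mem γ.2 ((gammaH L χ).inv_mem r.2)).2⟩, ?_⟩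
  rw [hb, ← matSL_mul, inv_mul_cancel_right]

theorem isFam_cores (hML : M ∣ L) : IsFam (gammaH (L * q) χ) (gammaH L χ) (balCos W χ) := by
  refine isFam_of_complete (fun i => ?_) (distinctIn_balCos W hML) fun i γ hγ => ?_
  · obtain ⟨g, r, -, hb⟩ := exists_balCos (χ := χ) W i hML
    rw [hb, (r : SL(2, ℤ)).det_coe]; exact one_ne_zero
  · obtain ⟨g, r, -, hb⟩ := exists_balCos (χ := χ) W i hML
    rw [hb, ← matSL_mul]
    exact exists_balCos_cover W hML (r * ⟨γ, hγ⟩)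

omit [NeZero q] in
theorem isFam_W (hML : M ∣ L) :
    IsFam (gammaH (L * q) χ) (gammaH (L * q) χ) (fun _ : Unit => balW W χ) := by
  obtain ⟨g, hg, hbal⟩ := exists_balW (χ := χ) W hML
  refine isFam_of_complete (fun _ => by rw [balW_det W hML]; exact_mod_cast W.prime.ne_zero)
    (fun _ _ _ _ => rfl) fun _ γ hγ => ?_
  have e : balW W χ * matSL γ =
      matSL ((g * W.conjLE.hom ⟨γ, hγ.1⟩ * g⁻¹ : Gamma0 (L * q)) : SL(2, ℤ)) * balW W χ := by
    conv_lhs => rw [hg, Matrix.mul_assoc, show matSL γ = matSL ((⟨γ, hγ.1⟩ : Gamma0 (L * q)) :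
      SL(2, ℤ)) from rfl, W.conjLE.spec]
    rw [Subgroup.coe_mul, Subgroup.coe_mul, Subgroup.coe_inv, matSL_mul, matSL_mul, hg,
      Matrix.mul_assoc, Matrix.mul_assoc, matSL_inv_mul_cancel]
  exact ⟨(), exists_gammaH_eq (hbal.mul hγ.2) hbal e⟩

/-- Corestriction. -/
def coresB (χ : (ZMod M)ˣ →* D) (hML : M ∣ L) : Coh (L * q) χ A →ₗ[R] Coh L χ A :=
  famTransferL R (isFam_cores W hML)

/-- The involution at `q`. -/
def opW (χ : (ZMod M)ˣ →* D) (hML : M ∣ L) : Module.End R (Coh (L * q) χ A) :=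
  famTransferL R (isFam_W W hML)

theorem coresB_resB (hML : M ∣ L) (φ : Coh L χ A) :
    coresB R W χ hML (resB R χ (dvd_mul_right L q) φ) = (q + 1) • φ := by
  have hr : ∀ i, ∃ r : gammaH L χ, balCos W χ i = matSL (r : SL(2, ℤ)) := fun i =>
    let ⟨_, r, _, hr⟩ := exists_balCos (χ := χ) W i hML; ⟨r, hr⟩
  choose r hr using hr
  simp only [coresB, resB, famTransferL_apply, famTransfer_comp]
  rw [famTransfer_congr (isFam_one (ι := Option (ZMod q)) (le_refl (gammaH L χ)))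
    ((isFam_res χ (dvd_mul_right L q)).mul (isFam_cores W hML))
    (Equiv.punitProd (Option (ZMod q))).symm r (fun i => by
      rw [Matrix.mul_one, ← hr]
      exact Matrix.one_mul _), famTransfer_one, Fintype.card_option, ZMod.card]
  · congr 1
  · exact le_rfl

omit [NeZero q] in
theorem opW_opW (hML : M ∣ L) (φ : Coh (L * q) χ A) : opW R W χ hML (opW R W χ hML φ) = φ := by
  obtain ⟨g, hg, hbal⟩ := exists_balW (χ := χ) W hML
  have hqM : ¬ q ∣ M := fun h => W.not_dvd (h.trans hML)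
  set δ : Gamma0 (L * q) := g * W.conjLE.hom g * W.sq with hδ
  have e : balW W χ * balW W χ = (q : ℤ) • matSL (δ : SL(2, ℤ)) := by
    rw [hδ, hg, Matrix.mul_assoc, ← Matrix.mul_assoc W.mat, W.conjLE.spec, Matrix.mul_assoc,
      W.mat_mul_mat, Matrix.mul_smul, Matrix.mul_smul, Subgroup.coe_mul, Subgroup.coe_mul,
      matSL_mul, matSL_mul, Matrix.mul_assoc]
  have hqu : IsUnit ((q : ℤ) : ZMod M) := by
    rw [Int.cast_natCast]
    exact (ZMod.unitOfCoprime q ((W.prime.coprime_iff_not_dvd).mpr hqM)).isUnit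
  have hδmem : (δ : SL(2, ℤ)) ∈ gammaH (L * q) χ := by
    obtain ⟨-, -, u, hu, hu2⟩ := hbal.mul hbal
    rw [e] at hu hu2
    simp only [Matrix.smul_apply, smul_eq_mul, Int.cast_mul] at hu
    refine ⟨δ.2, ?_, by rw [(δ : SL(2, ℤ)).det_coe]; exact one_ne_zero, u * hqu.unit⁻¹, ?_, ?_⟩
    · exact (Int.natCast_dvd_natCast.mpr (hML.trans (dvd_mul_right _ _))).trans
        (mem_gamma0_iff.mp δ.2)
    · rw [Units.val_mul, hu, mul_comm, ← mul_assoc, IsUnit.val_inv_mul, one_mul]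
    · rw [Matrix.det_smul, (δ : SL(2, ℤ)).det_coe, mul_one, Fintype.card_fin,
        detChar_eq (v := hqu.unit * hqu.unit) (by
          rw [Units.val_mul, IsUnit.unit_spec, pow_two, Int.cast_mul]), map_mul] at hu2
      rw [(δ : SL(2, ℤ)).det_coe, detChar_one, map_mul, map_inv, mul_mul_mul_comm, hu2,
        ← mul_inv, mul_inv_cancel]
  refine AddMonoidHom.ext fun γ => ?_
  obtain ⟨γ, rfl⟩ := Additive.ofMul.surjective γ
  simp only [opW, famTransferL_apply, famTransfer_comp]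
  set ρ : gammaH (L * q) χ := ⟨δ, hδmem⟩ with hρ
  rw [famTransfer_apply _ φ γ (σ := 1) (δ := fun _ => ρ * γ * ρ⁻¹) (fun _ => by
    simp only [famMul, e, Subgroup.coe_mul, Subgroup.coe_inv, matSL_mul,
      Matrix.mul_smul, Matrix.smul_mul, hρ, Matrix.mul_assoc]
    rw [← matSL_mul (δ : SL(2, ℤ))⁻¹, inv_mul_cancel, matSL_one, Matrix.mul_one])]
  simp only [ofMul_mul, ofMul_inv, map_add, map_neg, add_neg_cancel_comm]
  simp

theorem coresB_opW_resB (hML : M ∣ L) (φ : Coh L χ A) :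
    coresB R W χ hML (opW R W χ hML (resB R χ (dvd_mul_right L q) φ)) =
      opT R A χ hML W.prime W.not_dvd φ := by
  obtain ⟨g, hg, hbal⟩ := exists_balW (χ := χ) W hML
  simp only [coresB, opW, resB, opT_apply, famTransferL_apply, famTransfer_comp]
  refine (famTransfer_eq_of_cover _ _
    (distinctIn_of_distinctFam ((opFam_T hML W.prime W.not_dvd).distinct W.prime))
    (by simp) (fun i => ?_) φ).symm
  obtain ⟨h, r, hr, hri⟩ := exists_balCos (χ := χ) W i hML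
  obtain ⟨ε, hε⟩ := W.exists_etaU_eq i
  set ζ : Gamma0 L := ⟨((g * W.conjLE.hom h : Gamma0 (L * q)) : SL(2, ℤ)),
    gamma0_mul_le L q (g * W.conjLE.hom h : Gamma0 (L * q)).2⟩ * ε with hζ
  have e : balW W χ * balCos W χ i = matSL (ζ : SL(2, ℤ)) * tRepZ q i := by
    rw [hri, hr, hg, hζ, Subgroup.coe_mul, matSL_mul, matSL_mul, Matrix.mul_assoc,
      ← Matrix.mul_assoc W.mat, W.conjLE.spec, Matrix.mul_assoc, W.mat_mul_rep, hε,
      Subgroup.coe_mul, matSL_mul]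
    simp only [Matrix.mul_assoc]
  obtain ⟨δ, hδ⟩ := balRep_cover hML W.prime (hbal.mul (hri ▸ r.2.2))
    (fun _ hd => W.not_dvd (hd.trans hML)) e
  refine ⟨(((), ()), i), δ⁻¹, ?_⟩
  simp only [famMul, Matrix.one_mul]
  rw [hδ, Subgroup.coe_inv, matSL_inv_mul_cancel]

theorem resB_coresB_opW (hML : M ∣ L) (φ : Coh (L * q) χ A) :
    resB R χ (dvd_mul_right L q) (coresB R W χ hML (opW R W χ hML φ)) =
      opW R W χ hML φ + opU R A χ (hML.trans (dvd_mul_right L q)) W.prime (dvd_mul_left q L) φ := by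
  have hqM : ¬ q ∣ M := fun hd => W.not_dvd (hd.trans hML)
  have hMN : M ∣ L * q := hML.trans (dvd_mul_right L q)
  have hU := opFam_U (χ := χ) hMN W.prime (dvd_mul_left q L)
  obtain ⟨g, hg, hbal⟩ := exists_balW (χ := χ) W hML
  refine AddMonoidHom.ext fun γ => ?_
  obtain ⟨γ, rfl⟩ := Additive.ofMul.surjective γ
  obtain ⟨σU, δU, hUγ⟩ := (hU.isFam W.prime).exists_eq _ γ.2
  obtain ⟨σW, δW, hWγ⟩ := (isFam_W (χ := χ) W hML).exists_eq _ γ.2
  rw [AddMonoidHom.add_apply, opU_apply, opW, famTransferL_apply, famTransfer_apply _ φ γ hWγ,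
    famTransfer_apply _ φ γ hUγ, resB_apply_apply, coresB, famTransferL_apply,
    famTransfer_comp]
  let η : Option (ZMod q) → Matrix (Fin 2) (Fin 2) ℤ := fun i =>
    i.elim (balW W χ) fun j => balRep (L * q) χ q (some j)
  have hc : ∀ i, ∃ δ : gammaH (L * q) χ,
      balW W χ * balCos W χ i = matSL (δ : SL(2, ℤ)) * η i := by
    intro i
    obtain ⟨h, r, hr, hri⟩ := exists_balCos (χ := χ) W i hML
    have hb : Bal χ (balW W χ * balCos W χ i) := hbal.mul (hri ▸ r.2.2)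
    have e : balW W χ * balCos W χ i =
        matSL ((g * W.conjLE.hom h : Gamma0 (L * q)) : SL(2, ℤ)) * W.etaU i := by
      rw [hri, hr, hg, matSL_mul, Matrix.mul_assoc, ← Matrix.mul_assoc W.mat, W.conjLE.spec,
        Matrix.mul_assoc, W.mat_mul_rep, Subgroup.coe_mul, matSL_mul, Matrix.mul_assoc]
    rcases i with _ | j
    · refine exists_gammaH_eq hb hbal (δ := g * W.conjLE.hom h * g⁻¹) ?_
      simp only [η, Option.elim_none]
      rw [e, hg, Subgroup.coe_mul (H := Gamma0 (L * q)) (g * W.conjLE.hom h) g⁻¹, Subgroup.coe_inv,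
        matSL_mul, Matrix.mul_assoc, matSL_inv_mul_cancel]
      rfl
    · exact balRep_cover hMN W.prime hb (fun _ => hqM) e
  choose ε hε using hc
  have hηfam : IsFam (gammaH (L * q) χ) (gammaH L χ) η :=
    ((isFam_W (χ := χ) W hML).mul (isFam_cores W hML)).congr (Equiv.punitProd _)
      (fun x => (ε x.2)⁻¹) fun x => by
      obtain ⟨u, i⟩ := x
      show η i = matSL (((ε i)⁻¹ : gammaH (L * q) χ) : SL(2, ℤ)) * (balW W χ * balCos W χ i)
      rw [hε, Subgroup.coe_inv, matSL_inv_mul_cancel]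
  rw [← famTransfer_congr ((isFam_W (χ := χ) W hML).mul (isFam_cores W hML)) hηfam
      (Equiv.punitProd _) (fun x => (ε x.2)⁻¹) (fun x => by
      obtain ⟨u, i⟩ := x
      show η i = matSL (((ε i)⁻¹ : gammaH (L * q) χ) : SL(2, ℤ)) * (balW W χ * balCos W χ i)
      rw [hε, Subgroup.coe_inv, matSL_inv_mul_cancel]),
    famTransfer_apply hηfam φ _ (σ := σU.optionCongr)
      (δ := fun i => i.elim (δW ()) δU) (fun i => ?_), Fintype.sum_option]
  · simp
  · rcases i with _ | j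
    · exact hWγ ()
    · exact hUγ j

/-- Operators prime to `q` commute with corestriction. -/
theorem OpFam.comm_cores {ι ι' : Type*} [Fintype ι] [Fintype ι'] {m : ℕ}
    {η : ι → Matrix (Fin 2) (Fin 2) ℤ} {η' : ι' → Matrix (Fin 2) (Fin 2) ℤ} (h : OpFam L χ m η)
    (h' : OpFam (L * q) χ m η') (hm : m.Prime) (hmq : m ≠ q) (hML : M ∣ L)
    (hcard : Fintype.card ι' = Fintype.card ι) (φ : Coh (L * q) χ A) :
    famTransfer (h.isFam hm) (famTransfer (isFam_cores W hML) φ) =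
      famTransfer (isFam_cores W hML) (famTransfer (h'.isFam hm) φ) := by
  have : Fact q.Prime := ⟨W.prime⟩
  have hLq : (L : ℤ) ∣ ((L * q : ℕ) : ℤ) := Int.natCast_dvd_natCast.mpr (dvd_mul_right L q)
  have hqLq : (q : ℤ) ∣ ((L * q : ℕ) : ℤ) := Int.natCast_dvd_natCast.mpr (dvd_mul_left q L)
  refine (famTransfer_comm_of_cover _ _ _ _ ?_ ?_ (fun i k => ?_) φ).symm
  · rintro ⟨i, k⟩ ⟨i', k'⟩ δ e
    obtain ⟨g, r, -, hk⟩ := exists_balCos (χ := χ) W k hML
    obtain ⟨g', r', -, hk'⟩ := exists_balCos (χ := χ) W k' hML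
    have e2 : η' i * matSL ((r * r'⁻¹ : gammaH L χ) : SL(2, ℤ)) =
        matSL (δ : SL(2, ℤ)) * η' i' := by
      simp only [famMul, hk, hk'] at e
      rw [Subgroup.coe_mul, Subgroup.coe_inv, matSL_mul, ← Matrix.mul_assoc, e, ← Matrix.mul_assoc,
        matSL_mul_inv_cancel]
    have hρ : ((r * r'⁻¹ : gammaH L χ) : SL(2, ℤ)) ∈ gammaH (L * q) χ := by
      refine ⟨mem_gamma0_iff.mpr ?_, (r * r'⁻¹ : gammaH L χ).2.2⟩
      have hcop : IsCoprime (L : ℤ) (q : ℤ) :=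
        Nat.isCoprime_iff_coprime.mpr ((W.prime.coprime_iff_not_dvd).mpr W.not_dvd).symm
      push_cast
      refine hcop.mul_dvd (mem_gamma0_iff.mp (r * r'⁻¹ : gammaH L χ).2.1) ?_
      have e3 := congrArg (fun X => ((X 1 0 : ℤ) : ZMod q)) e2
      have hη : ∀ x, ((η' x 1 0 : ℤ) : ZMod q) = 0 := fun x =>
        (ZMod.intCast_zmod_eq_zero_iff_dvd _ _).mpr (hqLq.trans (h'.dvd x))
      have hδ0 : ((matSL (δ : SL(2, ℤ)) 1 0 : ℤ) : ZMod q) = 0 :=
        (ZMod.intCast_zmod_eq_zero_iff_dvd _ _).mpr (hqLq.trans (mem_gamma0_iff.mp δ.2.1))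
      simp only [Matrix.mul_apply, Fin.sum_univ_two, Int.cast_add, Int.cast_mul, hη, hδ0,
        zero_mul, mul_zero, add_zero, zero_add] at e3
      have hne : ((η' i 1 1 : ℤ) : ZMod q) ≠ 0 := fun h0 => by
        have hd := congrArg (fun z : ℤ => (z : ZMod q)) (h'.det_eq i)
        rw [Matrix.det_fin_two] at hd
        push_cast at hd
        rw [hη, h0, mul_zero, mul_zero, sub_zero, eq_comm, ZMod.natCast_eq_zero_iff,
          Nat.prime_dvd_prime_iff_eq W.prime hm] at hd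
        exact hmq hd.symm
      rw [← ZMod.intCast_zmod_eq_zero_iff_dvd]
      exact (mul_eq_zero.mp e3).resolve_left hne
    obtain rfl : k = k' := distinctIn_balCos W hML k k' ⟨_, hρ⟩ (by
      rw [hk, hk', ← matSL_mul, Subgroup.coe_mul, Subgroup.coe_inv, inv_mul_cancel_right])
    refine Prod.ext (h'.distinct hm i i' (δ : SL(2, ℤ)) ?_) rfl
    simp only [famMul, hk, ← Matrix.mul_assoc] at e
    exact mul_right_cancel_of_det_ne_zero (by rw [(r : SL(2, ℤ)).det_coe]; exact one_ne_zero) e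
  · simp [hcard, mul_comm]
  · obtain ⟨g, r, -, hk⟩ := exists_balCos (χ := χ) W k hML
    have hr0 : (L : ℤ) ∣ matSL (r : SL(2, ℤ)) 1 0 := mem_gamma0_iff.mp r.2.1
    obtain ⟨j, ε, hj⟩ := h.cover (η' i * balCos W χ k)
      (by rw [hk, Matrix.det_mul, (r : SL(2, ℤ)).det_coe, mul_one, h'.det_eq])
      (by rw [hk]; exact dvd_mul_apply_one_zero (hLq.trans (h'.dvd i)) hr0)
      (by
        rw [hk]
        exact (isCoprime_mul_apply_zero_zero hr0).mpr
          ⟨(h'.coprime i).of_isCoprime_of_dvd_right hLq, isCoprime_gamma0_zero_zero r.2.1⟩)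
      (by rw [hk]; exact (h'.bal i).mul r.2.2)
    obtain ⟨k', δ, hk'⟩ := exists_balCos_cover W hML ε
    exact ⟨k', j, δ, by rw [hj, hk', Matrix.mul_assoc]⟩

omit [NeZero q] in
/-- Operators prime to `q` commute with the involution. -/
theorem OpFam.comm_W {ι : Type*} [Fintype ι] {m : ℕ} {η : ι → Matrix (Fin 2) (Fin 2) ℤ}
    (h : OpFam (L * q) χ m η) (hm : m.Prime) (hmq : m ≠ q) (hML : M ∣ L)
    (φ : Coh (L * q) χ A) :
    famTransfer (h.isFam hm) (famTransfer (isFam_W W hML) φ) =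
      famTransfer (isFam_W W hML) (famTransfer (h.isFam hm) φ) := by
  obtain ⟨g, hg, hbal⟩ := exists_balW (χ := χ) W hML
  have : Fact q.Prime := ⟨W.prime⟩
  refine famTransfer_comm_of_cover _ _ _ _ ?_ (by simp) (fun _ i => ?_) φ
  · rintro ⟨_, i⟩ ⟨_, j⟩ δ e
    have e2 := congrArg ((balW W χ).adjugate * ·) e
    simp only [famMul, ← Matrix.mul_assoc, Matrix.adjugate_mul, Matrix.smul_mul, Matrix.one_mul,
      balW_det W hML] at e2
    exact Prod.ext rfl (h.eq_of_smul _ i j _ (fun hd => hmq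
      ((Nat.prime_dvd_prime_iff_eq hm W.prime).mp (Int.natCast_dvd_natCast.mp hd))) e2)
  · obtain ⟨c, hc⟩ := h.dvd i
    push_cast at hc
    set C := W.conjMat (η i 0 0) (η i 0 1) c (η i 1 1) with hC
    have hηe : η i = !![η i 0 0, η i 0 1; (L : ℤ) * q * c, η i 1 1] := by
      ext r s; fin_cases r <;> fin_cases s <;> simp [hc]
    have hmat : W.mat * η i = C * W.mat := by
      conv_lhs => rw [hηe, W.mat_mul_eq_conjMat]
    set X := matSL (g : SL(2, ℤ)) * C * matSL ((g : SL(2, ℤ))⁻¹) with hX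
    have e : balW W χ * η i = X * balW W χ := by
      rw [hX, hg, Matrix.mul_assoc, hmat, Matrix.mul_assoc (matSL _ * C), matSL_inv_mul_cancel,
        Matrix.mul_assoc]
    have hdet : X.det = m := by
      have := congrArg Matrix.det e
      rw [Matrix.det_mul, Matrix.det_mul, h.det_eq, mul_comm] at this
      exact (mul_right_cancel₀ (by rw [balW_det W hML]; exact_mod_cast W.prime.ne_zero) this).symm
    have hbX : Bal χ X := (e ▸ hbal.mul (h.bal i)).of_mul_right hbal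
    have hC0 : ((L * q : ℕ) : ℤ) ∣ C 1 0 := W.conjMat_one_zero _ _ _ _
    have hgi : ((L * q : ℕ) : ℤ) ∣ matSL ((g : SL(2, ℤ))⁻¹) 1 0 := mem_gamma0_iff.mp (g⁻¹).2
    have hgC : ((L * q : ℕ) : ℤ) ∣ (matSL (g : SL(2, ℤ)) * C) 1 0 :=
      dvd_mul_apply_one_zero (mem_gamma0_iff.mp g.2) hC0
    have hC1 : IsCoprime (C 0 0) ((L * q : ℕ) : ℤ) := by
      obtain ⟨⟨u1, u2, hu⟩, -⟩ := IsCoprime.mul_right_iff.mp
        (show IsCoprime (η i 0 0) ((L : ℤ) * q) by exact_mod_cast h.coprime i)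
      push_cast
      refine IsCoprime.mul_right_iff.mpr ⟨?_, ?_⟩
      · have : C 0 0 = η i 0 0 + (L : ℤ) * (W.y * η i 0 0 + W.y * q * c * W.t
            - ((q : ℤ) * η i 0 1 + W.y * η i 1 1)) := by
          rw [hC]; simp [WData.conjMat]; linear_combination η i 0 0 * W.rel
        rw [this, IsCoprime.add_mul_left_left_iff]
        exact ⟨u1, u2, hu⟩
      · have : C 0 0 = η i 1 1 + (q : ℤ) * ((η i 0 0 + W.y * L * c) * W.t - η i 0 1 * L
            - η i 1 1 * W.t) := by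
          rw [hC]; simp [WData.conjMat]; linear_combination η i 1 1 * W.rel
        rw [this, IsCoprime.add_mul_left_left_iff]
        refine IsCoprime.symm ?_
        rw [(Nat.prime_iff_prime_int.mp W.prime).coprime_iff_not_dvd]
        intro hd
        have hdm : (q : ℤ) ∣ (m : ℤ) := by
          rw [← h.det_eq i, Matrix.det_fin_two, hc]
          exact dvd_sub (dvd_mul_of_dvd_right hd _)
            (dvd_mul_of_dvd_right (dvd_mul_of_dvd_left (dvd_mul_left _ _) _) _)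
        exact hmq ((Nat.prime_dvd_prime_iff_eq W.prime hm).mp
          (Int.natCast_dvd_natCast.mp hdm)).symm
    obtain ⟨j, δ, hj⟩ := h.cover X hdet (dvd_mul_apply_one_zero hgC hgi)
      ((isCoprime_mul_apply_zero_zero hgi).mpr
        ⟨(isCoprime_mul_apply_zero_zero hC0).mpr ⟨isCoprime_gamma0_zero_zero g.2, hC1⟩,
          isCoprime_gamma0_zero_zero (g⁻¹).2⟩) hbX
    exact ⟨j, (), δ, by rw [e, hj, Matrix.mul_assoc]⟩

section Wrappers

theorem resB_opT (hML : M ∣ L) {N' : ℕ} [NeZero N'] (hN : L ∣ N') {ℓ : ℕ} (hℓ : ℓ.Prime)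
    (hℓN : ¬ ℓ ∣ N') (φ : Coh L χ A) :
    opT R A χ (hML.trans hN) hℓ hℓN (resB R χ hN φ) =
      resB R χ hN (opT R A χ hML hℓ (fun h => hℓN (h.trans hN)) φ) := by
  have : NeZero ℓ := ⟨hℓ.ne_zero⟩
  exact (opFam_T hML hℓ (fun h => hℓN (h.trans hN))).comm_res (opFam_T (hML.trans hN) hℓ hℓN) hℓ hN rfl φ

theorem resB_opU (hML : M ∣ L) {N' : ℕ} [NeZero N'] (hN : L ∣ N') {r : ℕ} (hr : r.Prime)
    (hrL : r ∣ L) (φ : Coh L χ A) :
    opU R A χ (hML.trans hN) hr (hrL.trans hN) (resB R χ hN φ) =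
      resB R χ hN (opU R A χ hML hr hrL φ) := by
  have : NeZero r := ⟨hr.ne_zero⟩
  exact (opFam_U hML hr hrL).comm_res (opFam_U (hML.trans hN) hr (hrL.trans hN)) hr hN rfl φ

theorem coresB_opT (hML : M ∣ L) {ℓ : ℕ} (hℓ : ℓ.Prime) (hℓN : ¬ ℓ ∣ L * q)
    (φ : Coh (L * q) χ A) :
    coresB R W χ hML (opT R A χ (hML.trans (dvd_mul_right L q)) hℓ hℓN φ) =
      opT R A χ hML hℓ (fun h => hℓN (h.trans (dvd_mul_right L q))) (coresB R W χ hML φ) := by
  have : NeZero ℓ := ⟨hℓ.ne_zero⟩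
  exact ((opFam_T hML hℓ (fun h => hℓN (h.trans (dvd_mul_right L q)))).comm_cores W (opFam_T (hML.trans (dvd_mul_right L q)) hℓ hℓN) hℓ
    (fun h => hℓN (h ▸ dvd_mul_left q L)) hML rfl φ).symm

theorem coresB_opU (hML : M ∣ L) {r : ℕ} (hr : r.Prime) (hrL : r ∣ L)
    (φ : Coh (L * q) χ A) :
    coresB R W χ hML
        (opU R A χ (hML.trans (dvd_mul_right L q)) hr (hrL.trans (dvd_mul_right L q)) φ) =
      opU R A χ hML hr hrL (coresB R W χ hML φ) := by
  have : NeZero r := ⟨hr.ne_zero⟩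
  exact ((opFam_U hML hr hrL).comm_cores W (opFam_U (hML.trans (dvd_mul_right L q)) hr (hrL.trans (dvd_mul_right L q)))
    hr (fun h => W.not_dvd (h ▸ hrL)) hML rfl φ).symm

omit [NeZero L] [NeZero q] in
theorem opW_opT [NeZero (L * q)] (hML : M ∣ L) {ℓ : ℕ} (hℓ : ℓ.Prime) (hℓN : ¬ ℓ ∣ L * q) :
    haveI : NeZero L := ⟨(mul_ne_zero_iff.mp (NeZero.ne (L * q))).1⟩
    Commute (opW R W χ hML) (opT R A χ (hML.trans (dvd_mul_right L q)) hℓ hℓN) := by
  have : NeZero L := ⟨(mul_ne_zero_iff.mp (NeZero.ne (L * q))).1⟩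
  have : NeZero ℓ := ⟨hℓ.ne_zero⟩
  exact LinearMap.ext fun φ => ((opFam_T (hML.trans (dvd_mul_right L q)) hℓ hℓN).comm_W W hℓ
    (fun h => hℓN (h ▸ dvd_mul_left q L)) hML φ).symm

theorem opW_opU (hML : M ∣ L) {r : ℕ} (hr : r.Prime) (hrL : r ∣ L) :
    Commute (opW R W χ hML)
      (opU R A χ (hML.trans (dvd_mul_right L q)) hr (hrL.trans (dvd_mul_right L q))) := by
  have : NeZero r := ⟨hr.ne_zero⟩
  exact LinearMap.ext fun φ => ((opFam_U (hML.trans (dvd_mul_right L q)) hr (hrL.trans (dvd_mul_right L q))).comm_W W hr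
    (fun h => W.not_dvd (h ▸ hrL)) hML φ).symm

omit [Fact (Odd (Nat.card D))] [NeZero L] [NeZero q] in
theorem dUnit_of_le (hML : M ∣ L) {N' : ℕ} (hN : L ∣ N') (g : Gamma0 N') :
    dUnit hML ⟨g, gamma0_le hN g.2⟩ = dUnit (hML.trans hN) g := Units.ext rfl

theorem resB_diamond (hML : M ∣ L) {N' : ℕ} [NeZero N'] (hN : L ∣ N')
    (hχ : Function.Surjective χ) (δ : D) (φ : Coh L χ A) :
    diamond R A χ (hML.trans hN) hχ δ (resB R χ hN φ) =
      resB R χ hN (diamond R A χ hML hχ δ φ) := by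
  obtain ⟨g, hg⟩ := exists_dUnit_eq (hML.trans hN) hχ δ
  rw [diamond_apply (hML.trans hN) hχ hg,
    diamond_apply hML hχ (g := ⟨g, gamma0_le hN g.2⟩) (by rw [dUnit_of_le hML hN, hg])]
  refine AddMonoidHom.ext fun γ => ?_
  obtain ⟨γ, rfl⟩ := Additive.ofMul.surjective γ
  have hmem : (g : SL(2, ℤ)) * γ * (g : SL(2, ℤ))⁻¹ ∈ gammaH N' χ :=
    conj_mem_gammaH (hML.trans hN) g γ.2
  have e1 := diamondAt_apply_apply (R := R) (χ := χ) (hML.trans hN) g (resB R χ hN φ) γ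
    (δ := ⟨_, hmem⟩) rfl
  have e2 := diamondAt_apply_apply (R := R) (χ := χ) hML ⟨(g : SL(2, ℤ)), gamma0_le hN g.2⟩ φ
    ⟨(γ : SL(2, ℤ)), gammaH_mono hN γ.2⟩ (δ := ⟨_, gammaH_mono hN hmem⟩) rfl
  rw [e1, resB_apply_apply, resB_apply_apply, e2]

theorem coresB_diamond (hML : M ∣ L) (hχ : Function.Surjective χ) (δ : D)
    (φ : Coh (L * q) χ A) :
    coresB R W χ hML (diamond R A χ (hML.trans (dvd_mul_right L q)) hχ δ φ) =
      diamond R A χ hML hχ δ (coresB R W χ hML φ) := by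
  have hMN := hML.trans (dvd_mul_right L q)
  obtain ⟨g, hg⟩ := exists_dUnit_eq hMN hχ δ
  set g' : Gamma0 L := ⟨g, gamma0_mul_le L q g.2⟩ with hg'
  rw [diamond_apply hMN hχ hg,
    diamond_apply hML hχ (g := g') (by rw [hg', dUnit_of_le hML (dvd_mul_right L q), hg])]
  simp only [coresB, diamondAt, famTransferL_apply]
  symm
  refine famTransfer_comm_of_cover (isFam_cores W hML) (isFam_gamma0 hML g')
    (isFam_gamma0 hMN g) (isFam_cores W hML) ?_ (by simp) (fun k _ => ?_) φ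
  · rintro ⟨k, _⟩ ⟨k', _⟩ ε e
    refine Prod.ext (distinctIn_balCos W hML k k' ε ?_) rfl
    refine mul_right_cancel_of_det_ne_zero
      (g := matSL (g : SL(2, ℤ))) (by rw [(g : SL(2, ℤ)).det_coe]; exact one_ne_zero) ?_
    rw [Matrix.mul_assoc]
    exact e
  · obtain ⟨h, r, -, hk⟩ := exists_balCos (χ := χ) W k hML
    have hmem : (g : SL(2, ℤ))⁻¹ * r * (g : SL(2, ℤ)) ∈ gammaH L χ := by
      simpa [hg'] using conj_mem_gammaH hML g'⁻¹ r.2
    obtain ⟨k', ε, hk'⟩ := exists_balCos_cover W hML ⟨_, hmem⟩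
    have hεmem : (g : SL(2, ℤ)) * ε * (g : SL(2, ℤ))⁻¹ ∈ gammaH (L * q) χ :=
      conj_mem_gammaH hMN g ε.2
    refine ⟨(), k', ⟨_, hεmem⟩, ?_⟩
    simp only [hg'] at hk' ⊢
    rw [matSL_mul, Matrix.mul_assoc _ (matSL ((g : SL(2, ℤ))⁻¹)), matSL_inv_mul_cancel, matSL_mul,
      Matrix.mul_assoc, ← hk', hk, ← matSL_mul, ← matSL_mul, ← mul_assoc, ← mul_assoc, mul_inv_cancel,
      one_mul]

theorem opW_diamond (hML : M ∣ L) (hχ : Function.Surjective χ) (δ : D) :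
    Commute (opW R W χ hML) (diamond R A χ (hML.trans (dvd_mul_right L q)) hχ δ) := by
  have hMN := hML.trans (dvd_mul_right L q)
  obtain ⟨g, hg⟩ := exists_dUnit_eq hMN hχ δ
  obtain ⟨h, hh, hbal⟩ := exists_balW (χ := χ) W hML
  set g₂ : Gamma0 (L * q) := h * W.conjLE.hom g * h⁻¹ with hg₂
  have e : balW W χ * matSL (g : SL(2, ℤ)) = matSL (g₂ : SL(2, ℤ)) * balW W χ := by
    rw [hh, hg₂, Subgroup.coe_mul, Subgroup.coe_mul, Subgroup.coe_inv, matSL_mul, matSL_mul,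
      Matrix.mul_assoc, W.conjLE.spec, Matrix.mul_assoc _ (matSL ((h : SL(2, ℤ))⁻¹)),
      matSL_inv_mul_cancel, Matrix.mul_assoc]
  have hd : χ (dUnit hMN g₂) = χ (dUnit hMN g) := by
    congr 1
    refine inv_injective (Units.ext ?_)
    have e1 := congrArg (fun X => ((X 0 0 : ℤ) : ZMod M)) e
    have hg0 : (M : ℤ) ∣ matSL (g : SL(2, ℤ)) 1 0 :=
      (Int.natCast_dvd_natCast.mpr hMN).trans (mem_gamma0_iff.mp g.2)
    obtain ⟨hW0, -, u, hu, -⟩ := hbal
    rw [cast_mul_apply_zero_zero hg0, cast_mul_apply_zero_zero hW0, ← hu, mul_comm] at e1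
    rw [coe_dUnit_inv, coe_dUnit_inv]
    exact ((Units.mul_left_inj u).mp e1).symm
  refine LinearMap.ext fun φ => ?_
  show opW R W χ hML (diamond R A χ hMN hχ δ φ) = diamond R A χ hMN hχ δ (opW R W χ hML φ)
  conv_lhs => rw [diamond_apply hMN hχ (g := g₂) (hd.trans hg)]
  rw [diamond_apply hMN hχ hg]
  simp only [opW, diamondAt, famTransferL_apply]
  refine famTransfer_comm_of_cover _ _ _ _ (fun x y _ _ => Subsingleton.elim x y) (by simp) (fun _ _ => ?_) φ
  exact ⟨(), (), 1, by rw [Subgroup.coe_one, matSL_one, Matrix.one_mul, e]⟩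

end Wrappers

end FLTAgent.RT
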