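import Fermat.Agent.RT.Coh.CharChange
import Fermat.Agent.Periods.ParQuot

/-!
# Eisenstein classes

A homomorphism on `Γ₀(N)` killing `gammaH N χ` modulo a subgroup of values, and the values of a
homomorphism at parabolic elements, are multiplied by `ℓ + 1` by the operator `T ℓ`.
-/

set_option autoImplicit false

noncomputable section

namespace FLTAgent.RT

open LevelRaise CongruenceSubgroup
open scoped MatrixGroups
open ModularGroup

variable {M N : ℕ} {D : Type*} [CommGroup D] {χ : (ZMod M)ˣ →* D} [Fact (Odd (Nat.card D))]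
  [NeZero N] {A : Type*} [AddCommGroup A]

/-- Homomorphisms trivial on `gammaH N χ` modulo `J` are eigen for `T`, modulo `J`. -/
theorem OpFam.transfer_sub_mem {ι : Type*} [Fintype ι] {m : ℕ} {η : ι → Matrix (Fin 2) (Fin 2) ℤ}
    (h : OpFam N trivChar m η) (hm : m.Prime) (hMN : M ∣ N) (hχ : Function.Surjective χ)
    (hmM : ¬ m ∣ M) (J : AddSubgroup A) (φ : Coh N trivChar A)
    (hφ : ∀ γ : gammaH N trivChar, (γ : SL(2, ℤ)) ∈ gammaH N χ → φ (Additive.ofMul γ) ∈ J)
    (γ : gammaH N trivChar) :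
    famTransfer (h.isFam hm) φ (Additive.ofMul γ) - Fintype.card ι • φ (Additive.ofMul γ) ∈ J := by
  classical
  set ρ := dChar χ hMN
  set q : A →+ A ⧸ J := QuotientAddGroup.mk' J
  set ψ : gammaH N trivChar →* Multiplicative (A ⧸ J) := AddMonoidHom.toMultiplicativeRight
    (q.comp φ)
  have hψ : ρ.ker ≤ ψ.ker := fun x hx => by
    rw [MonoidHom.mem_ker] at hx ⊢
    exact congrArg Multiplicative.ofAdd ((QuotientAddGroup.eq_zero_iff _).mpr
      (hφ x ((mem_gammaH_iff_dChar hMN x).mpr hx)))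
  set F : D →* Multiplicative (A ⧸ J) :=
    ρ.liftOfSurjective (dChar_surjective hMN hχ) ⟨ψ, hψ⟩
  have hF : ∀ x, ψ x = F (ρ x) := fun x =>
    (MonoidHom.liftOfRightInverse_comp_apply ρ _ _ ⟨ψ, hψ⟩ x).symm
  have hd : ∀ i, IsUnit ((η i 1 1 : ℤ) : ZMod M) := fun i => by
    have hdet := congrArg (fun z : ℤ => (z : ZMod M)) (h.det_eq i)
    rw [Matrix.det_fin_two] at hdet
    push_cast at hdet
    rw [(ZMod.intCast_zmod_eq_zero_iff_dvd _ M).mpr
      ((Int.natCast_dvd_natCast.mpr hMN).trans (h.dvd i)), mul_zero, sub_zero] at hdet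
    refine isUnit_of_mul_isUnit_right (x := ((η i 0 0 : ℤ) : ZMod M)) ?_
    rw [hdet]
    exact (ZMod.unitOfCoprime m ((hm.coprime_iff_not_dvd).mpr hmM)).isUnit
  obtain ⟨σ, δ, hδ⟩ := (h.isFam hm).exists_eq _ γ.2
  have hρ : ∀ i, χ (hd i).unit * ρ γ = ρ (δ i) * χ (hd (σ i)).unit := fun i => by
    show χ _ * χ _ = χ _ * χ _
    rw [← map_mul, ← map_mul]
    congr 1
    refine Units.ext ?_
    rw [Units.val_mul, Units.val_mul, IsUnit.unit_spec, IsUnit.unit_spec]
    have e := congrArg (fun X => ((X 1 1 : ℤ) : ZMod M)) (hδ i)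
    rw [cast_mul_apply_one_one ((Int.natCast_dvd_natCast.mpr hMN).trans (h.dvd i)),
      cast_mul_apply_one_one ((Int.natCast_dvd_natCast.mpr hMN).trans
        (mem_gamma0_iff.mp (gammaH_le (δ i).2)))] at e
    exact e
  have hprod : ∏ i, ρ (δ i) = ρ γ ^ Fintype.card ι := by
    have e := Finset.prod_congr rfl (fun i (_ : i ∈ Finset.univ) => hρ i)
    rw [Finset.prod_mul_distrib, Finset.prod_mul_distrib, Finset.prod_const, Finset.card_univ,
      Equiv.prod_comp σ (fun i => χ (hd i).unit), mul_comm] at e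
    exact (mul_right_cancel e).symm
  rw [famTransfer_apply _ φ γ hδ]
  refine (QuotientAddGroup.eq_zero_iff _).mp ?_
  show q _ = 0
  rw [map_sub, map_sum, map_nsmul, sub_eq_zero]
  refine Multiplicative.ofAdd.injective ?_
  rw [ofAdd_nsmul, ofAdd_sum]
  show ∏ i, ψ (δ i) = ψ γ ^ Fintype.card ι
  simp only [hF, ← map_prod, hprod, map_pow]

section Parabolic

/-- An element of trace two is conjugate to a power of `T`. -/
theorem exists_conj_T_zpow {γ : SL(2, ℤ)}
    (h : (γ : Matrix (Fin 2) (Fin 2) ℤ).trace = 2) :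
    ∃ (x : SL(2, ℤ)) (k : ℤ), γ = x * T ^ k * x⁻¹ := by
  set a := matSL γ 0 0 with ha
  set b := matSL γ 0 1 with hb
  set c := matSL γ 1 0 with hc
  set d := matSL γ 1 1 with hd
  have hdet : a * d - b * c = 1 := det_matSL γ
  have htr : a + d = 2 := by rw [← h, Matrix.trace_fin_two]
  suffices ∃ x : SL(2, ℤ), matSL (x⁻¹ * γ * x) 0 0 = 1 ∧ matSL (x⁻¹ * γ * x) 1 0 = 0 by
    obtain ⟨x, h0, h1⟩ := this
    refine ⟨x, matSL (x⁻¹ * γ * x) 0 1, ?_⟩
    have hT : x⁻¹ * γ * x = T ^ (matSL (x⁻¹ * γ * x) 0 1) := by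
      apply Subtype.ext
      rw [coe_T_zpow]
      have h11 := det_matSL (x⁻¹ * γ * x)
      rw [h0, h1, mul_zero, sub_zero, one_mul] at h11
      ext r s
      fin_cases r <;> fin_cases s <;> simp [h0, h1, h11]
    rw [← hT]
    group
  by_cases hc0 : c = 0
  · refine ⟨1, ?_, ?_⟩
    · simp only [inv_one, one_mul, mul_one]
      rw [hc0, mul_zero, sub_zero, show d = 2 - a by linarith] at hdet
      have : (a - 1) * (a - 1) = 0 := by linear_combination -hdet
      linarith [mul_self_eq_zero.mp this]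
    · simpa using hc0
  · obtain ⟨p, r, hcop, hp, hr⟩ : ∃ p r : ℤ, IsCoprime p r ∧
        a - 1 = p * Int.gcd (a - 1) c ∧ c = r * Int.gcd (a - 1) c := by
      obtain ⟨p, r, hcop, hp, hr⟩ := Int.exists_gcd_one (m := a - 1) (n := c)
        (Int.gcd_pos_of_ne_zero_right _ hc0)
      exact ⟨p, r, Int.isCoprime_iff_gcd_eq_one.mpr hcop, hp, hr⟩
    obtain ⟨u, v, huv⟩ := hcop
    set g : ℤ := (Int.gcd (a - 1) c : ℤ)
    have hg : g ≠ 0 := by
      simpa [g] using (Int.gcd_pos_of_ne_zero_right (a - 1) hc0).ne'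
    have e1 : a * p + b * r = p := by
      apply mul_right_cancel₀ hg
      linear_combination (-(a - 1)) * hp - b * hr - hdet + a * htr
    have e2 : c * p + d * r = r := by
      apply mul_right_cancel₀ hg
      linear_combination (-c) * hp - (d - 1) * hr + c * htr
    refine ⟨slMk p (-v) r u (by linear_combination huv), ?_, ?_⟩
    · have : matSL ((slMk p (-v) r u (by linear_combination huv))⁻¹) = !![u, v; -r, p] := by
        show (matSL (slMk p (-v) r u (by linear_combination huv))).adjugate = _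
        simp [Matrix.adjugate_fin_two_of]
      rw [matSL_mul, matSL_mul, this, show matSL γ = !![a, b; c, d] from
        Matrix.eta_fin_two (matSL γ)]
      simp [Matrix.mul_apply, Fin.sum_univ_two]
      linear_combination u * e1 + v * e2 + huv
    · have : matSL ((slMk p (-v) r u (by linear_combination huv))⁻¹) = !![u, v; -r, p] := by
        show (matSL (slMk p (-v) r u (by linear_combination huv))).adjugate = _
        simp [Matrix.adjugate_fin_two_of]
      rw [matSL_mul, matSL_mul, this, show matSL γ = !![a, b; c, d] from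
        Matrix.eta_fin_two (matSL γ)]
      simp [Matrix.mul_apply, Fin.sum_univ_two]
      linear_combination (-r) * e1 + p * e2

/-- Representatives of determinant `ℓ`, congruent to `1` modulo `N`. -/
def congRep (N ℓ : ℕ) : Option (ZMod ℓ) → Matrix (Fin 2) (Fin 2) ℤ
  | none => !![(ℓ : ℤ), 0; 0, 1]
  | some j => !![1, (j.val : ℤ) * N; 0, (ℓ : ℤ)]

theorem congRep_distinct {N ℓ : ℕ} [Fact ℓ.Prime] (hℓN : ¬ ℓ ∣ N) :
    DistinctFam (congRep N ℓ) := by
  intro i j δ h
  have h00 := congrArg (fun M => M 0 0) h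
  have h01 := congrArg (fun M => M 0 1) h
  have h10 := congrArg (fun M => M 1 0) h
  have h11 := congrArg (fun M => M 1 1) h
  have hℓ : ℓ.Prime := Fact.out
  rcases i with _ | i <;> rcases j with _ | j <;>
    simp [congRep, Matrix.mul_apply, Fin.sum_univ_two, -ZMod.natCast_val] at h00 h01 h10 h11 ⊢
  · have := Int.le_of_dvd one_pos (show (ℓ : ℤ) ∣ 1 from
      ⟨matSL δ 1 1, by rw [h11, ← h10]; ring⟩)
    have := hℓ.one_lt
    omega
  · have := Int.le_of_dvd one_pos (show (ℓ : ℤ) ∣ 1 from ⟨matSL δ 0 0, by rw [mul_comm]; exact h00⟩)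
    have := hℓ.one_lt
    omega
  · have h1 := congrArg (fun z : ℤ => (z : ZMod ℓ)) h01
    rw [← h00] at h1
    push_cast at h1
    have hN : (N : ZMod ℓ) ≠ 0 := by rwa [Ne, ZMod.natCast_eq_zero_iff]
    have h2 : (i : ZMod ℓ) * N = j * N := by simpa using h1
    exact mul_right_cancel₀ hN h2

omit [NeZero N] in
theorem conj_T_zpow_mem_gammaH (hMN : M ∣ N) (x : SL(2, ℤ)) (k : ℤ) :
    x * (T : SL(2, ℤ)) ^ ((N : ℤ) * k) * x⁻¹ ∈ gammaH N χ := by
  have h : x * (T : SL(2, ℤ)) ^ ((N : ℤ) * k) * x⁻¹ ∈ CongruenceSubgroup.Gamma N := by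
    refine (CongruenceSubgroup.Gamma_normal N).conj_mem _ ?_ x
    rw [Gamma_mem]
    simp [coe_T_zpow]
  obtain ⟨-, -, h10, h11⟩ := Gamma_mem.mp h
  rw [mem_gammaH_iff hMN (Gamma0_mem.mpr h10)]
  intro v hv
  have h' : ((matSL (x * (T : SL(2, ℤ)) ^ ((N : ℤ) * k) * x⁻¹) 1 1 : ℤ) : ZMod M) = 1 := by
    rw [← ZMod.cast_intCast (R := ZMod M) hMN, h11, ZMod.cast_one hMN]
  rw [show v = 1 from Units.ext (by rw [hv, h', Units.val_one]), map_one]

variable {R : Type*} [CommRing R] [Module R A]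

/-- Evaluation at a parabolic element is an Eisenstein eigenfunctional. -/
theorem opT_apply_conj_T (hMN : M ∣ N) {ℓ : ℕ} (hℓ : ℓ.Prime) (hℓN : ¬ ℓ ∣ N)
    (hℓ1 : (ℓ : ZMod N) = 1) (x : SL(2, ℤ)) (k : ℤ) (φ : Coh N χ A) :
    opT R A χ hMN hℓ hℓN φ (Additive.ofMul ⟨_, conj_T_zpow_mem_gammaH hMN x k⟩) =
      (ℓ + 1) • φ (Additive.ofMul ⟨_, conj_T_zpow_mem_gammaH hMN x k⟩) := by
  have : NeZero ℓ := ⟨hℓ.ne_zero⟩
  have : Fact ℓ.Prime := ⟨hℓ⟩
  have hT := opFam_T (χ := χ) hMN hℓ hℓN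
  obtain ⟨c, hc⟩ : (N : ℤ) ∣ (ℓ : ℤ) - 1 := by
    rw [← ZMod.intCast_zmod_eq_zero_iff_dvd]; push_cast; rw [hℓ1, sub_self]
  set η' : Option (ZMod ℓ) → Matrix (Fin 2) (Fin 2) ℤ := fun i =>
    matSL x * congRep N ℓ i * matSL x⁻¹ with hη'
  have hxx : matSL x * matSL x⁻¹ = 1 := by rw [← matSL_mul, mul_inv_cancel, matSL_one]
  have hform : ∀ i, ∃ E : Matrix (Fin 2) (Fin 2) ℤ, η' i = 1 + (N : ℤ) • E := by
    intro i
    obtain ⟨E, hE⟩ : ∃ E : Matrix (Fin 2) (Fin 2) ℤ, congRep N ℓ i = 1 + (N : ℤ) • E := by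
      rcases i with _ | j
      · refine ⟨!![c, 0; 0, 0], ?_⟩
        ext r s
        fin_cases r <;> fin_cases s <;> simp [congRep]
        linear_combination hc
      · refine ⟨!![0, (j.val : ℤ); 0, c], ?_⟩
        ext r s
        fin_cases r <;> fin_cases s <;> simp [congRep, -ZMod.natCast_val]
        · ring
        · linear_combination hc
    exact ⟨matSL x * E * matSL x⁻¹, by
      rw [hη']; simp only [hE, Matrix.mul_add, Matrix.add_mul, Matrix.mul_one, hxx, Matrix.mul_smul,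
        Matrix.smul_mul]⟩
  have hM : (M : ℤ) ∣ (N : ℤ) := Int.natCast_dvd_natCast.mpr hMN
  have hcov : ∀ i, ∃ (k : Option (ZMod ℓ)) (δ : gammaH N χ),
      η' i = matSL (δ : SL(2, ℤ)) * balRep N χ ℓ k := fun i => by
    obtain ⟨E, hE⟩ := hform i
    have hE' : ∀ r s, η' i r s = (1 : Matrix (Fin 2) (Fin 2) ℤ) r s + (N : ℤ) * E r s := fun r s => by
      rw [hE]; rfl
    have hN0 : (N : ZMod M) = 0 := (ZMod.natCast_eq_zero_iff N M).mpr hMN
    have hdet : (η' i).det = ℓ := by
      rw [hη', Matrix.det_mul, Matrix.det_mul, x.det_coe, x⁻¹.det_coe, one_mul, mul_one]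
      rcases i with _ | j <;> simp [congRep, Matrix.det_fin_two_of]
    refine hT.cover (η' i) hdet ⟨E 1 0, by simp [hE']⟩ ⟨1, -E 0 0, by simp [hE']; ring⟩
      ⟨hM.trans ⟨E 1 0, by simp [hE']⟩, by rw [hdet]; exact_mod_cast hℓ.ne_zero, 1,
        by simp [hE', hN0], ?_⟩
    rw [hdet, detChar_eq (v := 1) ?_, map_one, one_mul]
    have h1 := congrArg (ZMod.castHom hMN (ZMod M)) hℓ1
    rw [map_natCast, map_one] at h1
    rw [Units.val_one, Int.cast_natCast, h1]
  choose e δ hδ using hcov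
  have hinj : Function.Injective e := fun i j hij => by
    refine congRep_distinct hℓN i j (x⁻¹ * ((δ i : SL(2, ℤ)) * (δ j : SL(2, ℤ))⁻¹) * x) ?_
    have h1 : η' i = matSL ((δ i : SL(2, ℤ)) * (δ j : SL(2, ℤ))⁻¹) * η' j := by
      rw [hδ j, matSL_mul, Matrix.mul_assoc, matSL_inv_mul_cancel, hδ i, hij]
    have h2 := congrArg (fun X => matSL x⁻¹ * X * matSL x) h1
    simp only [hη', Matrix.mul_assoc] at h2
    rw [show matSL x⁻¹ * matSL x = 1 by rw [← matSL_mul, inv_mul_cancel, matSL_one], Matrix.mul_one,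
      Matrix.mul_one, matSL_inv_mul_cancel] at h2
    rw [h2]
    simp only [matSL_mul, Matrix.mul_assoc]
  let e' := Equiv.ofBijective e (Finite.injective_iff_bijective.mp hinj)
  have hfam' : IsFam (gammaH N χ) (gammaH N χ) η' := (hT.isFam hℓ).congr e'.symm
    (fun k => δ (e'.symm k)) fun k => by
      have := hδ (e'.symm k)
      rwa [show e (e'.symm k) = k from e'.apply_symm_apply k] at this
  rw [opT_apply, ← famTransfer_congr (hT.isFam hℓ) hfam' e'.symm (fun k => δ (e'.symm k))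
    (fun k => by
      have := hδ (e'.symm k)
      rwa [show e (e'.symm k) = k from e'.apply_symm_apply k] at this) φ]
  -- the permutation of the congruent representatives
  have hstep : ∀ i, ∃ (i' : Option (ZMod ℓ)) (t : ℤ),
      congRep N ℓ i * matSL (T ^ ((N : ℤ) * k)) = matSL (T ^ ((N : ℤ) * t)) * congRep N ℓ i' ∧
      match i, i' with
      | none, none => t = ℓ * k
      | some j, some j' => (k + j.val : ℤ) = j'.val + ℓ * t
      | _, _ => False := by
    intro i
    rcases i with _ | j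
    · refine ⟨none, ℓ * k, ?_, rfl⟩
      ext r s
      fin_cases r <;> fin_cases s <;>
        simp [congRep, matSL, coe_T_zpow, Matrix.mul_apply, Fin.sum_univ_two] <;> ring
    · obtain ⟨r, hr⟩ : ∃ r : ZMod ℓ, r = ((k + j.val : ℤ) : ZMod ℓ) := ⟨_, rfl⟩
      obtain ⟨t, ht⟩ : (ℓ : ℤ) ∣ k + j.val - (r.val : ℤ) := by
        rw [← ZMod.intCast_zmod_eq_zero_iff_dvd]; push_cast; simp [hr]
      refine ⟨some r, t, ?_, by linarith⟩
      clear hr
      ext a b
      fin_cases a <;> fin_cases b <;>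
        simp [congRep, matSL, coe_T_zpow, Matrix.mul_apply, Fin.sum_univ_two, -ZMod.natCast_val]
      linear_combination (N : ℤ) * ht
  choose σ t ht htm using hstep
  let δ' : Option (ZMod ℓ) → gammaH N χ := fun i => ⟨_, conj_T_zpow_mem_gammaH hMN x (t i)⟩
  have htr : IsTransferZ η' (x * (T : SL(2, ℤ)) ^ ((N : ℤ) * k) * x⁻¹) σ δ' := fun i => by
    simp only [hη', δ', matSL_mul, Matrix.mul_assoc]
    rw [matSL_inv_mul_cancel x, ← Matrix.mul_assoc (congRep N ℓ i), ht i, matSL_inv_mul_cancel x]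
    simp only [Matrix.mul_assoc]
  have hσinj : Function.Injective σ := fun i j hij => by
    refine congRep_distinct hℓN i j
      (T ^ ((N : ℤ) * t i) * ((T : SL(2, ℤ)) ^ ((N : ℤ) * t j))⁻¹) ?_
    have hi := congrArg (· * matSL ((T : SL(2, ℤ)) ^ ((N : ℤ) * k))⁻¹) (ht i)
    have hj := congrArg (· * matSL ((T : SL(2, ℤ)) ^ ((N : ℤ) * k))⁻¹) (ht j)
    simp only [matSL_mul_inv_cancel] at hi hj
    rw [hi, hj, hij, matSL_mul]
    simp only [Matrix.mul_assoc, matSL_inv_mul_cancel]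
  set σ' := Equiv.ofBijective σ (Finite.injective_iff_bijective.mp hσinj)
  rw [famTransfer_apply hfam' φ _ (σ := σ') htr]
  let F : ℤ →+ A := AddMonoidHom.mk'
    (fun m => φ (Additive.ofMul ⟨_, conj_T_zpow_mem_gammaH hMN x m⟩)) fun m m' => by
      rw [← map_add, ← ofMul_mul]
      congr 2
      apply Subtype.ext
      show x * (T : SL(2, ℤ)) ^ ((N : ℤ) * (m + m')) * x⁻¹ =
        (x * (T : SL(2, ℤ)) ^ ((N : ℤ) * m) * x⁻¹) * (x * (T : SL(2, ℤ)) ^ ((N : ℤ) * m') * x⁻¹)
      rw [mul_add, zpow_add]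
      group
  show ∑ i, F (t i) = (ℓ + 1) • F k
  rw [← map_sum, ← map_nsmul]
  congr 1
  set v : Option (ZMod ℓ) → ℤ := fun i => match i with | none => 0 | some j => (j.val : ℤ) with hv
  have hsum : (∑ i, (t i * (ℓ : ℤ))) = ∑ i : Option (ZMod ℓ), (match i with
      | none => (ℓ : ℤ) * ℓ * k
      | some j => k + j.val - v (σ (some j))) := by
    refine Finset.sum_congr rfl fun i _ => ?_
    have := htm i
    rcases i with _ | j
    · revert this
      rcases σ none with _ | j'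
      · intro h; simp only at h ⊢; rw [h]; ring
      · exact False.elim
    · dsimp only at this ⊢
      generalize σ (some j) = s at this ⊢
      rcases s with _ | j'
      · exact this.elim
      · dsimp only [v] at this ⊢; linarith
  have hperm : ∑ i, v (σ i) = ∑ i, v i := Equiv.sum_comp σ' v
  have hnone : v (σ none) = 0 := by
    have := htm none
    revert this
    rcases σ none with _ | j'
    · intro _; rfl
    · exact False.elim
  rw [Fintype.sum_option, Fintype.sum_option, hnone, zero_add, show v none = 0 from rfl, zero_add]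
    at hperm
  apply mul_right_cancel₀ (show (ℓ : ℤ) ≠ 0 by exact_mod_cast hℓ.ne_zero)
  rw [Finset.sum_mul, hsum, Fintype.sum_option]
  simp only [Finset.sum_sub_distrib, Finset.sum_add_distrib, Finset.sum_const, Finset.card_univ,
    ZMod.card]
  rw [hperm]
  simp only [hv]
  ring

end Parabolic

end FLTAgent.RT
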