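import Fermat.Agent.RT.Coh.CohPart
import Mathlib.LinearAlgebra.FreeModule.PID
import Mathlib.RingTheory.Nakayama
import Mathlib.GroupTheory.PGroup
import Mathlib.Algebra.CharP.Lemmas
import Mathlib.RingTheory.DiscreteValuationRing.Basic
import Mathlib.RingTheory.Filtration

/-!
# The part is free over the group algebra of the diamonds

For a group `D` of `p`-power order and a non-Eisenstein system, the part of `Coh N χ O` is free over
`O[D]` on lifts of any basis of the part on `Γ₀(N)`, to which corestriction maps it, and the kernel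
of the corestriction is the augmentation.
-/

set_option autoImplicit false

noncomputable section

namespace FLTAgent.RT

open LevelRaise CongruenceSubgroup IsLocalRing
open scoped MatrixGroups

/-- Commuting operators, each nilpotent modulo a stable submodule, whose images together with it
span a stable submodule `P`, do not enlarge it. -/
theorem le_of_le_sup_map {R E ι : Type*} [CommRing R] [AddCommGroup E] [Module R E]
    (X : ι → Module.End R E) (hX : ∀ i j, Commute (X i) (X j)) (P : Submodule R E)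
    (hP : ∀ i, P.map (X i) ≤ P) (s : Finset ι) :
    ∀ Q : Submodule R E, Q ≤ P → (∀ i, Q.map (X i) ≤ Q) →
      (∀ i ∈ s, ∃ n : ℕ, P.map (X i ^ n) ≤ Q) → P ≤ Q ⊔ ⨆ i ∈ s, P.map (X i) → P ≤ Q := by
  classical
  induction s using Finset.induction_on with
  | empty => intro Q _ _ _ h; simpa using h
  | insert i s _ ih =>
    intro Q hQP hQ hnil h
    refine ih Q hQP hQ (fun j hj => hnil j (Finset.mem_insert_of_mem hj)) ?_
    set Q' := Q ⊔ ⨆ j ∈ s, P.map (X j) with hQ'
    have hstab : Q'.map (X i) ≤ Q' := by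
      rw [hQ', Submodule.map_sup, Submodule.map_iSup]
      refine sup_le (le_sup_of_le_left (hQ i)) (iSup_le fun j => ?_)
      rw [Submodule.map_iSup]
      refine iSup_le fun hj => le_sup_of_le_right (le_iSup₂_of_le j hj ?_)
      rw [← Submodule.map_comp]
      rw [show (X i).comp (X j) = (X j).comp (X i) from (hX i j).eq, Submodule.map_comp]
      exact Submodule.map_mono (hP i)
    have h1 : P ≤ Q' ⊔ P.map (X i) := by
      refine h.trans ?_
      rw [Finset.iSup_insert, hQ']
      exact sup_le (le_sup_of_le_left le_sup_left)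
        (sup_le le_sup_right (le_sup_of_le_left le_sup_right))
    have h2 : ∀ n, P ≤ Q' ⊔ P.map (X i ^ n) := fun n => by
      induction n with
      | zero => rw [pow_zero, show (1 : Module.End R E) = LinearMap.id from rfl, Submodule.map_id]; exact le_sup_right
      | succ n ihn =>
        refine ihn.trans (sup_le le_sup_left ?_)
        have hst : ∀ k, Q'.map (X i ^ k) ≤ Q' := fun k => by
          induction k with
          | zero => rw [pow_zero, show (1 : Module.End R E) = LinearMap.id from rfl, Submodule.map_id]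
          | succ k ihk =>
            rw [pow_succ, show X i ^ k * X i = (X i ^ k).comp (X i) from rfl, Submodule.map_comp]
            exact (Submodule.map_mono hstab).trans ihk
        refine (Submodule.map_mono h1).trans ?_
        rw [Submodule.map_sup, ← Submodule.map_comp, show (X i ^ n).comp (X i) = X i ^ (n + 1) from
          (pow_succ _ _).symm]
        exact sup_le_sup_right (hst n) _
    obtain ⟨n, hn⟩ := hnil i (Finset.mem_insert_self _ _)
    exact (h2 n).trans (sup_le le_rfl (hn.trans le_sup_left))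

variable {M N : ℕ} {D : Type*} [CommGroup D] [Fintype D] {χ : (ZMod M)ˣ →* D}
  [Fact (Odd (Nat.card D))] [NeZero N] {O : Type*} [CommRing O] [IsDomain O]
  [IsDiscreteValuationRing O] [IsAdicComplete (maximalIdeal O) O] [Finite (ResidueField O)]
  [CharZero O] {ι : Type*} {l : ι → ℕ} (hMN : M ∣ N) (hχ : Function.Surjective χ)
  (hl : ∀ i, (l i).Prime) {a : ι → O}

omit [Fintype D] [IsDiscreteValuationRing O] [IsAdicComplete (maximalIdeal O) O]
  [Finite (ResidueField O)] in
theorem isAddTorsionFree_of_charZero : IsAddTorsionFree O :=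
  ⟨fun n hn x y h => by
    simpa [nsmul_eq_mul, Nat.cast_ne_zero.mpr hn] using h⟩

omit [Fintype D] [IsAdicComplete (maximalIdeal O) O] [Finite (ResidueField O)] [CharZero O]
  [NeZero N] [Fact (Odd (Nat.card D))] in
/-- A homomorphism with values in the maximal ideal is a multiple of a uniformiser. -/
theorem exists_eq_smul_of_forall_mem {ϖ : O} (hϖ : Irreducible ϖ) {φ : Coh N χ O}
    (h : ∀ γ : gammaH N χ, φ (Additive.ofMul γ) ∈ maximalIdeal O) :
    ∃ ψ : Coh N χ O, φ = ϖ • ψ := by
  have hd : ∀ x, ∃ y, φ x = ϖ * y := fun x => by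
    obtain ⟨γ, rfl⟩ := Additive.ofMul.surjective x
    have := h γ
    rw [hϖ.maximalIdeal_eq, Ideal.mem_span_singleton] at this
    exact this
  choose f hf using hd
  refine ⟨AddMonoidHom.mk' f fun x y => mul_left_cancel₀ hϖ.ne_zero ?_, AddMonoidHom.ext hf⟩
  rw [mul_add, ← hf, ← hf, ← hf, map_add]

omit [IsDomain O] [IsDiscreteValuationRing O] [IsAdicComplete (maximalIdeal O) O]
  [Finite (ResidueField O)] [CharZero O] in
theorem diamond_sum_eq (φ : Coh N χ O) :
    ∑ δ, diamond O O χ hMN hχ δ φ =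
      resC O (dvd_refl N) (fun _ h => h.toTriv) (coresC O χ hMN hχ φ) :=
  (resC_coresC hMN hχ φ).symm

omit [Fintype D] [CharZero O] in
/-- Diamonds preserve the part. -/
theorem diamond_mem_cohPart (δ : D) {φ : Coh N χ O} (hφ : φ ∈ cohPart χ hMN hl a) :
    diamond O O χ hMN hχ δ φ ∈ cohPart χ hMN hl a :=
  mem_cohPart_of_commute hMN hl a (fun i => diamond_opP_comm O O hMN hχ δ (hl i)) hφ

omit [CharZero O] in
theorem coresC_mem_cohPart {φ : Coh N χ O} (hφ : φ ∈ cohPart χ hMN hl a) :
    coresC O χ hMN hχ φ ∈ cohPart trivChar (one_dvd N) hl a :=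
  map_mem_cohPart hMN hl a (one_dvd N) _ (fun i φ => (coresC_opP hMN hχ (hl i) φ).symm) hφ

/-- Corestriction maps the part onto the part of `Γ₀(N)`. -/
theorem exists_coresC_eq_of_mem_cohPart (he : EllCond χ N) {ψ : Coh N trivChar O}
    (hψ : ψ ∈ cohPart trivChar (one_dvd N) hl a) :
    ∃ φ ∈ cohPart χ hMN hl a, coresC O χ hMN hχ φ = ψ := by
  have := isAddTorsionFree_of_charZero (O := O)
  obtain ⟨φ, rfl⟩ := coresC_surjective (R := O) hMN hχ he ψ
  refine ⟨_, cohProj_mem hMN hl a φ, ?_⟩
  rw [cohProj_map hMN hl a (one_dvd N) _ (fun i φ => (coresC_opP hMN hχ (hl i) φ).symm) φ]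
  exact (mem_cohPart_iff _ hl a).mp hψ

/-- On the part the kernel of corestriction is the augmentation. -/
theorem coresC_eq_zero_iff (he : EllCond χ N) {φ : Coh N χ O}
    (hφ : φ ∈ cohPart χ hMN hl a) :
    coresC O χ hMN hχ φ = 0 ↔ ∃ ψ : D → Coh N χ O, (∀ δ, ψ δ ∈ cohPart χ hMN hl a) ∧
      φ = ∑ δ, (diamond O O χ hMN hχ δ (ψ δ) - ψ δ) := by
  constructor
  · intro h
    have := isAddTorsionFree_of_charZero (O := O)
    obtain ⟨ψ, hψ⟩ := exists_eq_sum_diamond_sub (R := O) hMN hχ he h
    refine ⟨fun δ => cohProj χ hMN hl a (ψ δ), fun δ => cohProj_mem hMN hl a _, ?_⟩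
    conv_lhs => rw [← (mem_cohPart_iff hMN hl a).mp hφ, hψ, map_sum]
    refine Finset.sum_congr rfl fun δ _ => ?_
    rw [map_sub, sub_left_inj]
    exact (LinearMap.congr_fun (commute_cohProj hMN hl a
      (fun i => diamond_opP_comm O O hMN hχ δ (hl i))).eq (ψ δ)).symm
  · rintro ⟨ψ, -, rfl⟩
    simp [map_sum, coresC_diamond]

/-- The span of the translates of a family by the diamonds. -/
def diamondSum {d : ℕ} (b : Fin d → Coh N χ O) : (D → Fin d → O) →ₗ[O] Coh N χ O where
  toFun f := ∑ δ, diamond O O χ hMN hχ δ (∑ j, f δ j • b j)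
  map_add' f g := by simp [add_smul, Finset.sum_add_distrib, map_add]
  map_smul' c f := by simp [Finset.smul_sum, mul_smul]

omit [IsDomain O] [IsDiscreteValuationRing O] [IsAdicComplete (maximalIdeal O) O]
  [Finite (ResidueField O)] [CharZero O] in
theorem diamondSum_apply {d : ℕ} (b : Fin d → Coh N χ O) (f : D → Fin d → O) :
    diamondSum hMN hχ b f = ∑ δ, diamond O O χ hMN hχ δ (∑ j, f δ j • b j) := rfl

omit [IsDomain O] [IsDiscreteValuationRing O] [IsAdicComplete (maximalIdeal O) O]
  [Finite (ResidueField O)] [CharZero O] in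
theorem diamond_diamondSum {d : ℕ} (b : Fin d → Coh N χ O) (ε : D) (f : D → Fin d → O) :
    diamond O O χ hMN hχ ε (diamondSum hMN hχ b f) =
      diamondSum hMN hχ b (fun δ => f (ε⁻¹ * δ)) := by
  rw [diamondSum_apply, diamondSum_apply, map_sum]
  refine Fintype.sum_equiv (Equiv.mulLeft ε) _ _ fun δ => ?_
  rw [Equiv.coe_mulLeft, inv_mul_cancel_left, map_mul, Module.End.mul_apply]

variable (p : ℕ) [Fact p.Prime] (hD : IsPGroup p D) (hp : (p : O) ∈ maximalIdeal O)

omit [CharZero O] in
include hD hp in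
/-- Translates of lifts of a basis are independent modulo the maximal ideal. -/
theorem forall_mem_of_diamondSum_vals (hne : NonEis l a) {d : ℕ} (b : Fin d → Coh N χ O)
    (b₀ : Module.Basis (Fin d) O (cohPart trivChar (one_dvd N) hl a))
    (hb : ∀ j, coresC O χ hMN hχ (b j) = (b₀ j : Coh N trivChar O)) {f : D → Fin d → O}
    (hf : ∀ γ : gammaH N χ, diamondSum hMN hχ b f (Additive.ofMul γ) ∈ maximalIdeal O) (δ : D)
    (j : Fin d) : f δ j ∈ maximalIdeal O := by
  classical
  by_contra hne0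
  obtain ⟨ϖ, hϖ⟩ := IsDiscreteValuationRing.exists_irreducible O
  -- reductions of vectors with values in the maximal ideal
  set V := D → Fin d → ResidueField O
  set Φ := diamondSum hMN hχ b
  set S : AddSubgroup V :=
    { carrier := {v | ∃ g : D → Fin d → O, (∀ δ j, residue O (g δ j) = v δ j) ∧
        ∀ γ : gammaH N χ, Φ g (Additive.ofMul γ) ∈ maximalIdeal O}
      zero_mem' := ⟨0, fun _ _ => map_zero _, fun γ => by simp⟩
      add_mem' := by
        rintro v w ⟨g, hg, hg'⟩ ⟨g₂, hg₂, hg₂'⟩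
        exact ⟨g + g₂, fun δ j => by simp [hg, hg₂]; rfl, fun γ => by
          rw [map_add]; exact add_mem (hg' γ) (hg₂' γ)⟩
      neg_mem' := by
        rintro v ⟨g, hg, hg'⟩
        exact ⟨-g, fun δ j => by simp [hg]; rfl, fun γ => by rw [map_neg]; exact neg_mem (hg' γ)⟩ }
  have hSmem : ∀ v, v ∈ S ↔ ∃ g : D → Fin d → O, (∀ δ j, residue O (g δ j) = v δ j) ∧
      ∀ γ : gammaH N χ, Φ g (Additive.ofMul γ) ∈ maximalIdeal O := fun _ => Iff.rfl
  have hshift : ∀ (ε : D) (v : V), v ∈ S → (fun δ => v (ε⁻¹ * δ)) ∈ S := by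
    rintro ε v ⟨g, hg, hg'⟩
    refine ⟨fun δ => g (ε⁻¹ * δ), fun δ j => hg _ j, fun γ => ?_⟩
    rw [← diamond_diamondSum]
    obtain ⟨g₀, hg₀⟩ := exists_dUnit_eq hMN hχ ε
    rw [diamond_apply hMN hχ hg₀,
      diamondAt_apply_apply hMN g₀ _ γ (δ := ⟨_, conj_mem_gammaH hMN g₀ γ.2⟩) rfl]
    exact hg' _
  let act : MulAction D S :=
    { smul := fun ε v => ⟨fun δ => v.1 (ε⁻¹ * δ), hshift ε v.1 v.2⟩
      one_smul := fun v => Subtype.ext (funext fun δ => by
        show v.1 (1⁻¹ * δ) = v.1 δ; rw [inv_one, one_mul])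
      mul_smul := fun ε ε' v => Subtype.ext (funext fun δ => by
        show v.1 ((ε * ε')⁻¹ * δ) = v.1 (ε'⁻¹ * (ε⁻¹ * δ)); rw [mul_inv_rev, mul_assoc]) }
  have hv : (fun δ j => residue O (f δ j)) ∈ S := ⟨f, fun _ _ => rfl, hf⟩
  set v₀ : S := ⟨_, hv⟩
  have hv₀ : v₀ ≠ 0 := fun h => hne0 ((residue_eq_zero_iff _).mp
    (congrFun (congrFun (congrArg Subtype.val h) δ) j))
  have hord : addOrderOf v₀ = p := addOrderOf_eq_prime (Subtype.ext (funext fun δ => funext fun j => by
    show p • residue O (f δ j) = 0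
    rw [nsmul_eq_mul, show (p : ResidueField O) = residue O p from (map_natCast _ p).symm,
      (residue_eq_zero_iff _).mpr hp, zero_mul])) hv₀
  have : Finite S := Subtype.finite
  obtain ⟨w, hw, hw0⟩ := hD.exists_fixed_point_of_prime_dvd_card_of_fixed_point S
    (hord ▸ addOrderOf_dvd_natCard v₀) (a := (0 : S)) (fun ε => Subtype.ext rfl)
  have hconst : ∀ δ, w.1 δ = w.1 1 := fun δ => by
    have := congrFun (congrArg Subtype.val (hw δ⁻¹)) 1
    show _ = _
    rw [← this]
    show w.1 δ = w.1 (δ⁻¹⁻¹ * 1)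
    rw [inv_inv, mul_one]
  obtain ⟨g, hg, hg'⟩ := (hSmem w.1).mp w.2
  have hc : ∀ γ : gammaH N χ, Φ (fun _ => g 1) (Additive.ofMul γ) ∈ maximalIdeal O := fun γ => by
    have h1 : ∀ δ j, ∃ y, g 1 j - g δ j = ϖ * y := fun δ j => by
      have : g 1 j - g δ j ∈ maximalIdeal O := by
        rw [← residue_eq_zero_iff, map_sub, hg, hg, hconst δ, sub_self]
      rwa [hϖ.maximalIdeal_eq, Ideal.mem_span_singleton] at this
    choose y hy using h1
    have e : (fun _ => g 1 : D → Fin d → O) = g + ϖ • y := by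
      funext δ j; simp [← hy δ j]
    rw [e, map_add, map_smul, AddMonoidHom.add_apply]
    exact add_mem (hg' γ) ((maximalIdeal O).mul_mem_right _
      (hϖ.maximalIdeal_eq ▸ Ideal.mem_span_singleton_self ϖ))
  set ψ₀ : cohPart trivChar (one_dvd N) hl a := ∑ j, g 1 j • b₀ j with hψ₀
  have hres : Φ (fun _ => g 1) = resC O (dvd_refl N) (fun _ h => h.toTriv) (ψ₀ : Coh N trivChar O) := by
    rw [diamondSum_apply, diamond_sum_eq, map_sum, hψ₀, AddSubmonoidClass.coe_finsetSum]
    congr 1
    exact Finset.sum_congr rfl fun j _ => by rw [map_smul, hb]; rfl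
  obtain ⟨ψ', hψ'⟩ := exists_eq_smul_of_forall_mem hϖ fun γ =>
    mem_maximalIdeal_of_restrict hMN hl hχ hne ψ₀.2 (fun δ hδ => by
      have := hc ⟨δ, hδ⟩
      rwa [hres, resC_apply_apply] at this) γ
  have hmem : (ψ₀ : Coh N trivChar O) = ϖ • cohProj trivChar (one_dvd N) hl a ψ' := by
    rw [← map_smul, ← hψ']
    exact ((mem_cohPart_iff _ hl a).mp ψ₀.2).symm
  set ψ₁ : cohPart trivChar (one_dvd N) hl a := ⟨_, cohProj_mem (one_dvd N) hl a ψ'⟩
  have hcoord : ∀ j, g 1 j = ϖ * b₀.repr ψ₁ j := fun j => by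
    have e : ψ₀ = ϖ • ψ₁ := Subtype.ext hmem
    have := congrArg (fun x => b₀.repr x j) e
    rw [map_smul, Finsupp.smul_apply, smul_eq_mul] at this
    rw [← this, hψ₀, map_sum, Finsupp.finsetSum_apply]
    simp [Finsupp.single_apply]
  refine hw0 (Subtype.ext (funext fun δ => funext fun j => ?_))
  show (0 : ResidueField O) = w.1 δ j
  rw [hconst, ← hg, hcoord, map_mul, (residue_eq_zero_iff ϖ).mpr
    (hϖ.maximalIdeal_eq ▸ Ideal.mem_span_singleton_self ϖ), zero_mul]

include hD hp in
theorem diamondSum_injective (hne : NonEis l a) {d : ℕ} (b : Fin d → Coh N χ O)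
    (b₀ : Module.Basis (Fin d) O (cohPart trivChar (one_dvd N) hl a))
    (hb : ∀ j, coresC O χ hMN hχ (b j) = (b₀ j : Coh N trivChar O)) :
    Function.Injective (diamondSum hMN hχ b) := by
  obtain ⟨ϖ, hϖ⟩ := IsDiscreteValuationRing.exists_irreducible O
  rw [injective_iff_map_eq_zero]
  have key : ∀ n (f : D → Fin d → O), diamondSum hMN hχ b f = 0 →
      ∀ δ j, f δ j ∈ maximalIdeal O ^ n := by
    intro n
    induction n with
    | zero => simp
    | succ n ih =>
      intro f hf
      have h1 : ∀ δ j, ∃ y, f δ j = ϖ * y := fun δ j => by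
        have := forall_mem_of_diamondSum_vals hMN hχ hl p hD hp hne b b₀ hb
          (f := f) (fun γ => by rw [hf]; exact Ideal.zero_mem _) δ j
        rwa [hϖ.maximalIdeal_eq, Ideal.mem_span_singleton] at this
      choose y hy using h1
      have hy0 : diamondSum hMN hχ b y = 0 := by
        have e : f = ϖ • y := by funext δ j; exact hy δ j
        rw [e, map_smul] at hf
        refine AddMonoidHom.ext fun x => ?_
        have := DFunLike.congr_fun hf x
        simpa [hϖ.ne_zero] using this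
      intro δ j
      rw [hy δ j, pow_succ', hϖ.maximalIdeal_eq]
      exact Ideal.mul_mem_mul (Ideal.mem_span_singleton_self ϖ) (hϖ.maximalIdeal_eq ▸ ih y hy0 δ j)
  intro f hf
  funext δ j
  have h : f δ j ∈ (⨅ n, maximalIdeal O ^ n : Ideal O) :=
    Submodule.mem_iInf _ |>.mpr fun n => key n f hf δ j
  rwa [Ideal.iInf_pow_eq_bot_of_isDomain _ (maximalIdeal.isMaximal O).ne_top] at h

include hD hp in
theorem cohPart_le_range_diamondSum (he : EllCond χ N) {d : ℕ}
    (b : Fin d → Coh N χ O) (hbmem : ∀ j, b j ∈ cohPart χ hMN hl a)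
    (b₀ : Module.Basis (Fin d) O (cohPart trivChar (one_dvd N) hl a))
    (hb : ∀ j, coresC O χ hMN hχ (b j) = (b₀ j : Coh N trivChar O)) :
    cohPart χ hMN hl a ≤ LinearMap.range (diamondSum hMN hχ b) := by
  classical
  have := moduleFinite_coh (χ := χ) O O hMN
  have := isNoetherian_of_isNoetherianRing_of_finite O (Coh N χ O)
  set P := cohPart χ hMN hl a
  set Q := LinearMap.range (diamondSum hMN hχ b)
  have hQP : Q ≤ P := by
    rintro _ ⟨f, rfl⟩
    rw [diamondSum_apply]
    exact sum_mem fun δ _ => diamond_mem_cohPart hMN hχ hl δ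
      (sum_mem fun j _ => P.smul_mem _ (hbmem j))
  refine Submodule.le_of_le_smul_of_le_jacobson_bot (IsNoetherian.noetherian _)
    (le_of_eq (jacobson_eq_maximalIdeal ⊥ bot_ne_top).symm) ?_
  set X : D → Module.End O (Coh N χ O) := fun δ => diamond O O χ hMN hχ δ - 1
  have hP : ∀ δ, P.map (X δ) ≤ P := fun δ => by
    rintro _ ⟨x, hx, rfl⟩
    exact P.sub_mem (diamond_mem_cohPart hMN hχ hl δ hx) hx
  refine le_of_le_sup_map X (fun δ ε => ?_) P hP Finset.univ _
    (sup_le hQP Submodule.smul_le_right) (fun δ => ?_) (fun δ _ => ?_) ?_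
  · have h := (Commute.all δ ε).map (diamond O O χ hMN hχ)
    exact ((h.sub_left (Commute.one_left _)).sub_right
      ((Commute.one_right _).sub_left (Commute.one_left _)))
  · rw [Submodule.map_sup, Submodule.map_smul'']
    refine sup_le_sup ?_ (Submodule.smul_mono le_rfl (hP δ))
    rintro _ ⟨_, ⟨f, rfl⟩, rfl⟩
    refine ⟨(fun ε => f (δ⁻¹ * ε)) - f, ?_⟩
    rw [map_sub, ← diamond_diamondSum]
    rfl
  · obtain ⟨k, hk⟩ := hD δ
    refine ⟨p ^ k, ?_⟩
    have e := (Commute.one_right (X δ)).add_pow_prime_pow_eq (Fact.out : p.Prime) k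
    rw [show X δ + 1 = diamond O O χ hMN hχ δ by simp [X], one_pow, ← map_pow, hk, map_one] at e
    set Z := X δ * 1 * ∑ i ∈ Finset.Ioo 0 (p ^ k), X δ ^ (i - 1) * 1 ^ (p ^ k - i - 1) *
      ((p ^ k).choose i / p : ℕ)
    have e' : X δ ^ p ^ k = -((p : Module.End O (Coh N χ O)) * Z) := by
      rw [eq_neg_iff_add_eq_zero]
      have e2 := e
      rw [mul_assoc (p : Module.End O (Coh N χ O)), mul_assoc (p : Module.End O (Coh N χ O))] at e2
      rw [← sub_eq_zero] at e2
      rw [← neg_eq_zero, ← e2]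
      simp only [Z]
      rw [mul_assoc]
      abel
    rintro _ ⟨x, hx, rfl⟩
    refine Submodule.mem_sup_right ?_
    have hZ : Z x ∈ P := by
      have hst : ∀ (m : ℕ) y, y ∈ P → (X δ ^ m) y ∈ P := fun m => by
        induction m with
        | zero => intro y hy; exact hy
        | succ m ih =>
          intro y hy
          rw [pow_succ, Module.End.mul_apply]
          exact ih _ (hP δ ⟨y, hy, rfl⟩)
      rw [show Z x = X δ ((∑ i ∈ Finset.Ioo 0 (p ^ k), X δ ^ (i - 1) * 1 ^ (p ^ k - i - 1) *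
          (((p ^ k).choose i / p : ℕ) : Module.End O (Coh N χ O))) x) by simp [Z]]
      refine hP δ ⟨_, ?_, rfl⟩
      rw [LinearMap.sum_apply]
      refine sum_mem fun i _ => ?_
      rw [one_pow, mul_one, Module.End.mul_apply, Module.End.natCast_apply, map_nsmul]
      exact nsmul_mem (hst _ x hx) _
    rw [e', LinearMap.neg_apply, Module.End.mul_apply, Module.End.natCast_apply,
      ← Nat.cast_smul_eq_nsmul O]
    exact neg_mem (Submodule.smul_mem_smul hp hZ)
  · intro φ hφ
    obtain ⟨c, hc⟩ : ∃ c : Fin d → O, coresC O χ hMN hχ φ = ∑ j, c j • (b₀ j : Coh N trivChar O) := by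
      refine ⟨fun j => b₀.repr ⟨_, coresC_mem_cohPart hMN hχ hl hφ⟩ j, ?_⟩
      have := congrArg Subtype.val (b₀.sum_repr ⟨_, coresC_mem_cohPart hMN hχ hl hφ⟩)
      rw [AddSubmonoidClass.coe_finsetSum] at this
      exact this.symm
    set ψ := φ - ∑ j, c j • b j
    have hψ : ψ ∈ P := P.sub_mem hφ (sum_mem fun j _ => P.smul_mem _ (hbmem j))
    obtain ⟨χ', hχ', hsum⟩ := (coresC_eq_zero_iff hMN hχ hl he hψ).mp (by
      rw [map_sub, map_sum, hc, sub_eq_zero]
      exact Finset.sum_congr rfl fun j _ => by rw [map_smul, hb])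
    rw [show φ = (∑ j, c j • b j) + ψ by simp [ψ], hsum]
    refine add_mem (Submodule.mem_sup_left (Submodule.mem_sup_left
      ⟨fun δ => if δ = 1 then c else 0, ?_⟩)) (Submodule.mem_sup_right (sum_mem fun δ _ => ?_))
    · rw [diamondSum_apply, Finset.sum_eq_single 1]
      · simp
      · intro δ _ hδ; simp [hδ]
      · simp
    · exact Submodule.mem_iSup_of_mem δ (Submodule.mem_iSup_of_mem (Finset.mem_univ δ)
        ⟨_, hχ' δ, rfl⟩)

include hD hp in
/-- The part is free over `O[D]`, on lifts of a basis of the part on `Γ₀(N)`. -/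
theorem exists_basis_cohPart (he : EllCond χ N) (hne : NonEis l a) :
    ∃ (d : ℕ) (b : Fin d → Coh N χ O)
      (b₀ : Module.Basis (Fin d) O (cohPart trivChar (one_dvd N) hl a)),
      (∀ j, b j ∈ cohPart χ hMN hl a) ∧
      (∀ j, coresC O χ hMN hχ (b j) = (b₀ j : Coh N trivChar O)) ∧
      Function.Injective (diamondSum hMN hχ b) ∧
      LinearMap.range (diamondSum hMN hχ b) = cohPart χ hMN hl a := by
  have := moduleFinite_coh (χ := trivChar) O O (one_dvd N)
  have := isNoetherian_of_isNoetherianRing_of_finite O (Coh N trivChar O)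
  have : Module.IsTorsionFree O (Coh N trivChar O) := Function.Injective.moduleIsTorsionFree
    (fun φ x => φ x) (fun _ _ h => DFunLike.ext' h) (fun _ _ => rfl)
  have : Module.Free O (cohPart trivChar (one_dvd N) hl a) := inferInstance
  let b₀ := Module.finBasis O (cohPart trivChar (one_dvd N) hl a)
  choose b hbmem hb using fun j =>
    exists_coresC_eq_of_mem_cohPart hMN hχ hl he (b₀ j).2
  refine ⟨_, b, b₀, hbmem, hb, diamondSum_injective hMN hχ hl p hD hp hne b b₀ hb,
    le_antisymm ?_ (cohPart_le_range_diamondSum hMN hχ hl p hD hp he b hbmem b₀ hb)⟩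
  rintro _ ⟨f, rfl⟩
  rw [diamondSum_apply]
  exact sum_mem fun δ _ => diamond_mem_cohPart hMN hχ hl δ
    (sum_mem fun j _ => Submodule.smul_mem _ _ (hbmem j))

end FLTAgent.RT
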