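import Fermat.Agent.RT.Coh.Untwist

/-!
# Untwisting commutes with the operators at all primes away from the character

`exists_untwist` for the operators `opP`: also the `U ℓ` of the primes `ℓ` of the level prime to the
character are carried along.
-/

set_option autoImplicit false

noncomputable section

namespace FLTAgent.RT

open LevelRaise CongruenceSubgroup
open scoped MatrixGroups

section Twist

variable {q M₂ L : ℕ} {D : Type*} [CommGroup D] {ψ : (ZMod q)ˣ →* D} {χ' : (ZMod M₂)ˣ →* D}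
  [Fact (Odd (Nat.card D))] [NeZero (L * q)] [NeZero (L * q ^ 2)] {R : Type*} [CommRing R]
  {A : Type*} [AddCommGroup A] [Module R A]

/-- The twist commutes with the operators of any family at a prime away from the character. -/
theorem twMap_opFam (h : TwistHyp q M₂ L) (e : ℤ) {ℓ : ℕ} [NeZero ℓ] (hℓ : ℓ.Prime)
    (hℓM : ¬ ℓ ∣ q * M₂) {κ κ' : Type*} [Fintype κ] [Fintype κ']
    (hcard : Fintype.card κ' = Fintype.card κ) {η : κ → Matrix (Fin 2) (Fin 2) ℤ}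
    {η' : κ' → Matrix (Fin 2) (Fin 2) ℤ} (hT : OpFam (L * q) (prodChar ψ χ') ℓ η)
    (hT' : OpFam (L * q ^ 2) χ' ℓ η') (φ : Coh (L * q) (prodChar ψ χ') A) :
    famTransfer (hT'.isFam hℓ) (twMap R h ψ χ' e φ) =
      twMap R h ψ χ' e (famTransfer (hT.isFam hℓ) φ) := by
  have := neZero_q (q := q) (L := L)
  have hℓq : ¬ ℓ ∣ q := fun hd => hℓM (hd.trans (dvd_mul_right q M₂))
  choose σ Z hZ hdet hZ0 hZc hbal hσ using fun x : (ZMod q)ˣ × κ' =>
    twFam_move (ψ := ψ) (χ' := χ') h e x.1 (Y := η' x.2)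
      (v := ZMod.unitOfCoprime ℓ ((hℓ.coprime_iff_not_dvd).mpr hℓM))
      (by rw [hT'.det_eq]; simp) (hT'.dvd x.2) (hT'.coprime x.2) (hT'.bal x.2)
  choose k δ hδ using fun x => hT.cover (Z x) (by rw [hdet, hT'.det_eq]) (hZ0 x) (hZc x) (hbal x)
  have hinj : Function.Injective fun x => (k x, σ x) := by
    rintro ⟨u, j⟩ ⟨u₂, j₂⟩ he
    obtain ⟨h1, h2⟩ := Prod.mk.injEq _ _ _ _ ▸ he
    have e1 : twFam h ψ e u * η' j =
        (matSL ((δ (u, j) * (δ (u₂, j₂))⁻¹ : gammaH (L * q) (prodChar ψ χ')) : SL(2, ℤ)) *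
          twFam h ψ e u₂) * η' j₂ := by
      rw [Matrix.mul_assoc (matSL _), hZ (u₂, j₂), hδ (u₂, j₂), hZ (u, j), hδ (u, j), h1, h2,
        Subgroup.coe_mul, Subgroup.coe_inv, matSL_mul]
      simp only [Matrix.mul_assoc, matSL_inv_mul_cancel]
    have e2 := congrArg ((twFam h ψ e u).adjugate * ·) e1
    simp only [← Matrix.mul_assoc, Matrix.adjugate_mul, det_twFam, Matrix.smul_mul, Matrix.one_mul]
      at e2
    obtain rfl : j = j₂ := hT'.eq_of_smul _ _ _ _ (fun hd => by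
      rcases (Nat.prime_iff_prime_int.mp hℓ).dvd_or_dvd hd with hd | hd <;>
        exact hℓq (Int.natCast_dvd_natCast.mp hd)) e2
    have hd : IsUnit ((η' j 1 1 : ℤ) : ZMod q) := by
      have hdet' := congrArg (fun z : ℤ => (z : ZMod q)) (hT'.det_eq j)
      obtain ⟨t, ht⟩ := hT'.dvd j
      rw [Matrix.det_fin_two, ht] at hdet'
      push_cast at hdet'
      simp at hdet'
      refine isUnit_of_mul_isUnit_right (x := ((η' j 0 0 : ℤ) : ZMod q)) ?_
      rw [hdet']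
      exact (ZMod.unitOfCoprime ℓ ((hℓ.coprime_iff_not_dvd).mpr hℓq)).isUnit
    have h3 : (u : ZMod q) * ((η' j 1 1 : ℤ) : ZMod q) =
        (u₂ : ZMod q) * ((η' j 1 1 : ℤ) : ZMod q) := by
      rw [← hσ (u, j), ← hσ (u₂, j)]
      show (σ (u, j) : ZMod q) * _ = (σ (u₂, j) : ZMod q) * _
      rw [h2]
    exact Prod.ext (Units.ext (hd.mul_right_cancel h3)) rfl
  let E := Equiv.ofBijective (fun x => (k x, σ x))
    ((Fintype.bijective_iff_injective_and_card _).mpr ⟨hinj, by simp [mul_comm, hcard]⟩)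
  simp only [twMap, famTransferL_apply, famTransfer_comp]
  refine (famTransfer_congr _ _ E (fun x => (δ x)⁻¹) (fun x => ?_) φ).symm
  show η (k x) * twFam h ψ e (σ x) =
    matSL (((δ x)⁻¹ : gammaH (L * q) (prodChar ψ χ')) : SL(2, ℤ)) *
      (twFam h ψ e x.1 * η' x.2)
  rw [hZ, hδ, Subgroup.coe_inv, Matrix.mul_assoc, matSL_inv_mul_cancel]


/-- The twist commutes with the operator at a prime away from the character. -/
theorem twMap_opP (h : TwistHyp q M₂ L) (e : ℤ) {ℓ : ℕ} (hℓ : ℓ.Prime) (hℓM : ¬ ℓ ∣ q * M₂)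
    (φ : Coh (L * q) (prodChar ψ χ') A) :
    opP R A χ' h.dvd_level' hℓ (twMap R h ψ χ' e φ) =
      twMap R h ψ χ' e (opP R A (prodChar ψ χ') h.dvd_level hℓ φ) := by
  have : NeZero ℓ := ⟨hℓ.ne_zero⟩
  have hiff : ℓ ∣ L * q ^ 2 ↔ ℓ ∣ L * q := by
    refine ⟨fun hd => ?_, fun hd => hd.trans (mul_dvd_mul_left L (dvd_pow_self q two_ne_zero))⟩
    rcases hℓ.dvd_mul.mp hd with h1 | h1
    · exact h1.trans (dvd_mul_right L q)
    · exact (hℓ.dvd_of_dvd_pow h1).trans (dvd_mul_left q L)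
  by_cases hd : ℓ ∣ L * q
  · rw [opP_of_dvd (χ := χ') R A _ hℓ (hiff.mpr hd),
      opP_of_dvd (χ := prodChar ψ χ') R A _ hℓ hd]
    exact twMap_opFam h e hℓ hℓM rfl (opFam_U h.dvd_level hℓ hd)
      (opFam_U h.dvd_level' hℓ (hiff.mpr hd)) φ
  · rw [opP_of_not_dvd (χ := χ') R A _ hℓ (fun h' => hd (hiff.mp h')),
      opP_of_not_dvd (χ := prodChar ψ χ') R A _ hℓ hd]
    exact twMap_opFam h e hℓ hℓM rfl (opFam_T h.dvd_level hℓ hd)
      (opFam_T h.dvd_level' hℓ fun h' => hd (hiff.mp h')) φ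

end Twist

variable {D : Type*} [CommGroup D] [Fact (Odd (Nat.card D))] {R : Type*} [CommRing R] {A : Type*}
  [AddCommGroup A] [Module R A]

/-- Diamonds commute with the operators. -/
theorem diamondAt_opP {M N : ℕ} [NeZero N] {χ : (ZMod M)ˣ →* D} (hMN : M ∣ N) {ℓ : ℕ}
    (hℓ : ℓ.Prime) (g : Gamma0 N) (φ : Coh N χ A) :
    opP R A χ hMN hℓ (diamondAt R A χ hMN g φ) = diamondAt R A χ hMN g (opP R A χ hMN hℓ φ) := by
  have : NeZero ℓ := ⟨hℓ.ne_zero⟩
  by_cases hd : ℓ ∣ N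
  · rw [opP_of_dvd (χ := χ) R A hMN hℓ hd]
    exact (opFam_U hMN hℓ hd).comm_diamondAt hℓ hMN g φ
  · rw [opP_of_not_dvd (χ := χ) R A hMN hℓ hd]
    exact (opFam_T hMN hℓ hd).comm_diamondAt hℓ hMN g φ

variable (R) [IsAddTorsionFree A]

/-- A homomorphism on `gammaH N χ` is determined by a family of homomorphisms on `Γ₀(N M)`,
compatibly with the operators at every prime `ℓ ∤ M`, whether or not it divides the level, and with
vanishing on parabolic and elliptic elements. -/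
theorem exists_untwistP : ∀ (M : ℕ), Squarefree M → ∀ (N N' : ℕ) [NeZero N] [NeZero N'], N' = N * M →
    ∀ (χ : (ZMod M)ˣ →* D) (hMN : M ∣ N), (∀ q : ℕ, q.Prime → q ∣ M → ¬ q ^ 2 ∣ N) →
      ∃ (ι : Type) (J : Coh N χ A →ₗ[R] (ι → Coh N' trivChar A)),
        Function.Injective J ∧
        (∀ φ, KillsEllPar φ → ∀ i, KillsEllPar (J φ i)) ∧
        ∀ (ℓ : ℕ) (hℓ : ℓ.Prime), ¬ ℓ ∣ M → ∀ (φ : Coh N χ A) (i : ι),
          J (opP R A χ hMN hℓ φ) i = opP R A trivChar (one_dvd N') hℓ (J φ i) := by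
  intro M
  induction M using Nat.strong_induction_on with
  | _ M ih =>
  intro hsq N N' _ _ hN' χ hMN hprime
  by_cases hM : M = 1
  · subst hM
    rw [mul_one] at hN'
    subst hN'
    have hb : ∀ X, Bal trivChar X → Bal χ X := fun X hX => bal_of_level_one χ hX.2.1
    refine ⟨Unit, LinearMap.pi fun _ => resC R (dvd_refl N') hb, ?_, ?_, ?_⟩
    · intro φ ψ e
      refine AddMonoidHom.ext fun x => ?_
      obtain ⟨γ, rfl⟩ := Additive.ofMul.surjective x
      have hγ : (γ : SL(2, ℤ)) ∈ gammaH N' trivChar := ⟨γ.2.1, γ.2.2.toTriv⟩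
      have := DFunLike.congr_fun (congrFun e ()) (Additive.ofMul ⟨(γ : SL(2, ℤ)), hγ⟩)
      rwa [LinearMap.pi_apply, LinearMap.pi_apply, resC_apply_apply, resC_apply_apply] at this
    · exact fun φ hφ _ => killsEllPar_famTransfer (isFam_one (gammaH_le_of (dvd_refl N') hb)) hφ
    · intro ℓ hℓ _ φ i
      have : NeZero ℓ := ⟨hℓ.ne_zero⟩
      by_cases hd : ℓ ∣ N'
      · rw [opP_of_dvd (χ := χ) R A hMN hℓ hd, opP_of_dvd (χ := trivChar) R A _ hℓ hd]
        exact ((opFam_U hMN hℓ hd).comm_resC (opFam_U (one_dvd N') hℓ hd) hℓ (dvd_refl N') hb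
          rfl φ).symm
      · rw [opP_of_not_dvd (χ := χ) R A hMN hℓ hd, opP_of_not_dvd (χ := trivChar) R A _ hℓ hd]
        exact ((opFam_T hMN hℓ hd).comm_resC (opFam_T (one_dvd N') hℓ hd) hℓ (dvd_refl N') hb
          rfl φ).symm
  obtain ⟨q, hq, M₂, rfl⟩ : ∃ q : ℕ, q.Prime ∧ ∃ M₂, M = q * M₂ :=
    ⟨M.minFac, Nat.minFac_prime hM, M.minFac_dvd⟩
  obtain ⟨L, rfl⟩ : ∃ L, N = L * q := ⟨N / q, (Nat.div_mul_cancel
    ((dvd_mul_right q M₂).trans hMN)).symm⟩
  have hqL : ¬ q ∣ L := fun hd => hprime q hq (dvd_mul_right q M₂)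
    (by rw [pow_two]; exact mul_dvd_mul_right hd q)
  have hcop : q.Coprime M₂ := Nat.coprime_of_squarefree_mul hsq
  have hML : M₂ ∣ L := hcop.symm.dvd_of_dvd_mul_right ((dvd_mul_left M₂ q).trans hMN)
  have h : TwistHyp q M₂ L := ⟨hq, hqL, hML⟩
  have hqne : NeZero q := ⟨hq.ne_zero⟩
  have : NeZero (L * q ^ 2) := ⟨by
    rw [pow_two, ← mul_assoc]; exact mul_ne_zero (NeZero.ne (L * q)) hq.ne_zero⟩
  have hM₂lt : M₂ < q * M₂ :=
    lt_mul_of_one_lt_left (Nat.pos_of_ne_zero (right_ne_zero_of_mul hsq.ne_zero)) hq.one_lt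
  obtain ⟨ψ, χ', rfl⟩ := exists_eq_prodChar hcop χ
  obtain ⟨ι, J, hJinj, hJpar, hJT⟩ := ih M₂ hM₂lt hsq.of_mul_right (L * q ^ 2) N'
    (by rw [hN']; ring) χ' h.dvd_level' (fun r hr hrM hd => by
      have hrq : ¬ r ∣ q := fun hd' =>
        hq.ne_one (Nat.dvd_one.mp (hcop ▸ Nat.dvd_gcd dvd_rfl
          (((Nat.prime_dvd_prime_iff_eq hr hq).mp hd') ▸ hrM)))
      have hr2 : r ^ 2 ∣ L :=
        (Nat.Coprime.pow 2 2 ((hr.coprime_iff_not_dvd).mpr hrq)).dvd_of_dvd_mul_right hd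
      exact hprime r hr (hrM.trans (dvd_mul_left M₂ q)) (hr2.trans (dvd_mul_right L q)))
  let W : Option (ZMod q)ˣ → Coh (L * q) (prodChar ψ χ') A →ₗ[R] Coh (L * q ^ 2) χ' A
    | none => twMap R h ψ χ' 0
    | some t => (twMap R h ψ χ' 1).comp
        (diamondAt R A (prodChar ψ χ') h.dvd_level (twGamma h ψ t)⁻¹)
  refine ⟨Option (ZMod q)ˣ × ι, LinearMap.pi fun x =>
    (LinearMap.proj x.2).comp (J.comp (W x.1)), ?_, ?_, ?_⟩
  · refine LinearMap.ker_eq_bot.mp (LinearMap.ker_eq_bot'.mpr fun φ hφ => ?_)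
    have hW : ∀ o, W o φ = 0 := fun o => hJinj (by
      rw [map_zero]; exact funext fun i => congrFun hφ (o, i))
    exact eq_zero_of_twMap h φ (hW none) fun t => hW (some t)
  · rintro φ hφ ⟨o, i⟩
    refine hJpar _ ?_ i
    rcases o with _ | t
    · exact killsEllPar_famTransfer (isFam_tw h 0) hφ
    · exact killsEllPar_famTransfer (isFam_tw h 1)
        (killsEllPar_famTransfer (isFam_gamma0 h.dvd_level (twGamma h ψ t)⁻¹) hφ)
  · rintro ℓ hℓ hℓM φ ⟨o, i⟩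
    have hW : W o (opP R A (prodChar ψ χ') hMN hℓ φ) = opP R A χ' h.dvd_level' hℓ (W o φ) := by
      rcases o with _ | t
      · exact (twMap_opP h 0 hℓ hℓM φ).symm
      · show twMap R h ψ χ' 1 (diamondAt R A (prodChar ψ χ') h.dvd_level (twGamma h ψ t)⁻¹ _) = _
        rw [show diamondAt R A (prodChar ψ χ') h.dvd_level (twGamma h ψ t)⁻¹
            (opP R A (prodChar ψ χ') hMN hℓ φ) = opP R A (prodChar ψ χ') h.dvd_level hℓ
              (diamondAt R A (prodChar ψ χ') h.dvd_level (twGamma h ψ t)⁻¹ φ) from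
          (diamondAt_opP h.dvd_level hℓ _ φ).symm]
        exact (twMap_opP h 1 hℓ hℓM _).symm
    show J (W o _) i = opP R A trivChar _ hℓ (J (W o φ) i)
    rw [hW, hJT ℓ hℓ (fun hd => hℓM (hd.trans (dvd_mul_left M₂ q)))]

end FLTAgent.RT
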