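import Fermat.Agent.RT.Coh.Theta
import Fermat.Agent.RT.Coh.UntwistP

/-!
# Hecke algebras with some `U q` acting on the part

If every prime of the level omitted from `S` is prime to the character, the Hecke algebra of level
`N M` away from `S`, `U q` included, acts on the part of `Coh N χ O`.
-/

set_option autoImplicit false

noncomputable section

namespace FLTAgent.RT

open LevelRaise CongruenceSubgroup IsLocalRing
open scoped MatrixGroups
open Periods GalRep

section Gamma0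

variable {N : ℕ} [NeZero N] {S : Set ℕ} {O : Type*} [CommRing O]

/-- The transfer formula for `U q` on homomorphisms with values in the ring. -/
theorem heckeActR_U_apply {q : ℕ} (hq : q.Prime) (hqN : q ∣ N) (hqS : q ∉ S) [NeZero q]
    (ψ : ParQuot N →+ O) (γ : Gamma0 N) (σ : Equiv.Perm (ZMod q))
    (δ : ZMod q → Gamma0 N)
    (h : IsTransfer (fun x : ZMod q => ModularForm.heckeMatrix q x.val) γ σ δ) :
    heckeActR O S N (CuspForm.heckeAlgebra.U hq hqN hqS) ψ (parProj N (Additive.ofMul γ)) =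
      ∑ x, ψ (parProj N (Additive.ofMul (δ x))) := by
  let ev : ParQuot N → ((ParQuot N →+ O) →ₗ[O] O) := fun z =>
    { toFun := fun ψ => ψ z, map_add' := fun _ _ => rfl, map_smul' := fun _ _ => rfl }
  have e := linearMap_ext_castPar O
    (f := (ev (parProj N (Additive.ofMul γ))).comp
      (heckeActR O S N (CuspForm.heckeAlgebra.U hq hqN hqS)))
    (g := ∑ x, ev (parProj N (Additive.ofMul (δ x)))) fun φ => by
      show parExtend O (heckeAct S (hdim N) _) (castPar O φ) _ = _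
      rw [parExtend_castPar, castPar_apply, heckeAct_U_apply (hdim N) hq hqN hqS φ γ σ δ h,
        Int.cast_sum, LinearMap.sum_apply]
      rfl
  have := LinearMap.congr_fun e ψ
  rw [LinearMap.sum_apply] at this
  exact this

/-- The operator `opU` is the Hecke operator. -/
theorem heckeActR_parLift_U {q : ℕ} (hq : q.Prime) (hqN : q ∣ N) (hqS : q ∉ S)
    (φ : Coh N trivChar O)
    (hφ : ∀ γ : Gamma0 N, IsEllPar γ → toGamma0 O N φ (Additive.ofMul γ) = 0)
    (hU : ∀ γ : Gamma0 N, IsEllPar γ →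
      toGamma0 O N (opU O O trivChar (one_dvd N) hq hqN φ) (Additive.ofMul γ) = 0) :
    heckeActR O S N (CuspForm.heckeAlgebra.U hq hqN hqS) (parLift _ hφ) = parLift _ hU := by
  have : NeZero q := ⟨hq.ne_zero⟩
  have : Fact q.Prime := ⟨hq⟩
  refine parQuot_hom_ext (AddMonoidHom.ext fun x => ?_)
  obtain ⟨γ, rfl⟩ := Additive.ofMul.surjective x
  have hU' := (opFam_U (χ := trivChar) (one_dvd N) hq hqN)
  choose g hg using fun j : ZMod q => exists_balRep (χ := trivChar) (one_dvd N) hq (some j)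
    (fun h => absurd h (Option.some_ne_none _))
  let g' : ZMod q → gammaH N trivChar := fun i =>
    ⟨((g i : Gamma0 N) : SL(2, ℤ))⁻¹, by rw [gammaH_trivChar]; exact (g i)⁻¹.2⟩
  have he : ∀ i, tRepZ q (some (Equiv.refl _ i)) =
      matSL (g' i : SL(2, ℤ)) * balRep N trivChar q (some i) :=
    fun i => by rw [(hg i).1, matSL_inv_mul_cancel]; rfl
  have hfam := (hU'.isFam hq).congr (η' := fun i => tRepZ q (some i)) (Equiv.refl _) g' he
  obtain ⟨σ, δ, hδ⟩ := hfam.exists_eq (γ : SL(2, ℤ))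
    (by rw [gammaH_trivChar]; exact γ.2)
  let δ₀ : ZMod q → Gamma0 N := fun i => ⟨δ i, gammaH_le (δ i).2⟩
  have htr : IsTransfer (fun x : ZMod q => ModularForm.heckeMatrix q x.val) γ σ δ₀ := fun i => by
    refine Units.ext ?_
    have e := congrArg (fun X : Matrix (Fin 2) (Fin 2) ℤ => X.map (Int.castRingHom ℝ)) (hδ i)
    simp only [Matrix.map_mul] at e
    rw [Units.val_mul, Units.val_mul]
    show (tRep q (some i) : Matrix (Fin 2) (Fin 2) ℝ) * _ =
      _ * (tRep q (some (σ i)) : Matrix (Fin 2) (Fin 2) ℝ)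
    rw [coe_tRep_eq hq.ne_zero, coe_tRep_eq hq.ne_zero]
    exact e
  rw [AddMonoidHom.comp_apply, AddMonoidHom.comp_apply, heckeActR_U_apply hq hqN hqS _ γ σ δ₀ htr,
    parLift_parProj]
  show _ = opU O O trivChar (one_dvd N) hq hqN φ
    (Additive.ofMul ⟨(γ : SL(2, ℤ)), (gammaH_trivChar N).ge γ.2⟩)
  rw [opU_apply, ← famTransfer_congr (hU'.isFam hq) hfam (Equiv.refl _) g' he φ,
    famTransfer_apply hfam φ _ hδ]
  exact Finset.sum_congr rfl fun i _ => parLift_parProj _ hφ _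

end Gamma0

variable {M N N' : ℕ} [NeZero N] [NeZero N'] {D : Type*} [CommGroup D] {χ : (ZMod M)ˣ →* D}
  [Fact (Odd (Nat.card D))] {O : Type*} [CommRing O] [IsLocalRing O] [IsNoetherianRing O]
  [IsAdicComplete (maximalIdeal O) O] [Finite (ResidueField O)] [IsAddTorsionFree O] {ι : Type*}
  {l : ι → ℕ}

/-- The operators at the primes outside `S` on the part come from the Hecke algebra of level
`N M` away from `S`. -/
theorem exists_thetaP (hMN : M ∣ N) (hl : ∀ i, (l i).Prime) (a : ι → O) (hne : NonEis l a)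
    (hsq : Squarefree M) (hex : ∀ q : ℕ, q.Prime → q ∣ M → ¬ q ^ 2 ∣ N) (hN' : N' = N * M)
    (S : Set ℕ) (hS : ∀ q : ℕ, q.Prime → q ∣ M → q ∈ S) :
    ∃ Θ : CuspForm.heckeAlgebra N' 2 S →+* Module.End O (cohPart χ hMN hl a),
      (∀ (ℓ : ℕ) (hℓ : ℓ.Prime) (hℓN : ¬ ℓ ∣ N') (hℓS : ℓ ∉ S) (v : cohPart χ hMN hl a),
        (Θ (CuspForm.heckeAlgebra.T hℓ hℓN hℓS) v : Coh N χ O) = opP O O χ hMN hℓ v) ∧
      ∀ (ℓ : ℕ) (hℓ : ℓ.Prime) (hℓN : ℓ ∣ N') (hℓS : ℓ ∉ S) (v : cohPart χ hMN hl a),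
        (Θ (CuspForm.heckeAlgebra.U hℓ hℓN hℓS) v : Coh N χ O) = opP O O χ hMN hℓ v := by
  classical
  obtain ⟨κ, J, hJinj, hJpar, hJP⟩ := exists_untwistP (D := D) O (A := O) M hsq N N' hN' χ hMN hex
  have hkill : ∀ (v : cohPart χ hMN hl a) (k : κ), ∀ γ : Gamma0 N', IsEllPar γ →
      toGamma0 O N' (J v k) (Additive.ofMul γ) = 0 := fun v k =>
    killsEllPar_toGamma0 (hJpar (v : Coh N χ O)
      (fun γ hγ => apply_eq_zero_of_mem_cohPart hMN hl hne v.2 hγ) k)
  let K : cohPart χ hMN hl a →ₗ[O] (κ → (ParQuot N' →+ O)) :=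
    { toFun := fun v k => parLift _ (hkill v k)
      map_add' := fun v w => funext fun k => parQuot_hom_ext (AddMonoidHom.ext fun x => by
        simp [parLift_parProj])
      map_smul' := fun c v => funext fun k => parQuot_hom_ext (AddMonoidHom.ext fun x => by
        simp [parLift_parProj]) }
  have hK : Function.Injective K := fun v w h => Subtype.ext <| hJinj <| funext fun k => by
    refine AddMonoidHom.ext fun x => ?_
    obtain ⟨γ, rfl⟩ := Additive.ofMul.surjective x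
    have := DFunLike.congr_fun (congrFun h k)
      (parProj N' (Additive.ofMul (⟨γ, gammaH_le γ.2⟩ : Gamma0 N')))
    exact this
  have hmem : ∀ (ℓ : ℕ) (hℓ : ℓ.Prime), ∀ v ∈ cohPart χ hMN hl a,
      opP O O χ hMN hℓ v ∈ cohPart χ hMN hl a := fun ℓ hℓ v hv =>
    mem_cohPart_of_commute hMN hl a (fun i => opP_comm (χ := χ) O O hMN hℓ (hl i)) hv
  have hparJ : ∀ (ℓ : ℕ) (hℓ : ℓ.Prime), ¬ ℓ ∣ M → ∀ (v : cohPart χ hMN hl a) (k : κ),
      ∀ γ : Gamma0 N', IsEllPar γ →
        toGamma0 O N' (opP O O trivChar (one_dvd N') hℓ (J v k)) (Additive.ofMul γ) = 0 :=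
    fun ℓ hℓ hℓM v k γ hγ => by
      rw [← hJP ℓ hℓ hℓM]; exact hkill ⟨_, hmem ℓ hℓ v v.2⟩ k γ hγ
  have hgenT : ∀ (ℓ : ℕ) (hℓ : ℓ.Prime) (hℓN : ¬ ℓ ∣ N') (hℓS : ℓ ∉ S)
      (v : cohPart χ hMN hl a) (k : κ),
      K ((opP O O χ hMN hℓ).restrict (hmem ℓ hℓ) v) k =
        heckeActR O S N' (CuspForm.heckeAlgebra.T hℓ hℓN hℓS) (K v k) := fun ℓ hℓ hℓN hℓS v k => by
    have hℓM : ¬ ℓ ∣ M := fun hd => hℓS (hS ℓ hℓ hd)
    have hT : ∀ γ : Gamma0 N', IsEllPar γ →
        toGamma0 O N' (opT O O trivChar (one_dvd N') hℓ hℓN (J v k)) (Additive.ofMul γ) = 0 :=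
      fun γ hγ => by
        have := hparJ ℓ hℓ hℓM v k γ hγ
        rwa [opP_of_not_dvd (χ := trivChar) O O _ hℓ hℓN] at this
    refine Eq.trans ?_ (heckeActR_parLift hℓ hℓN hℓS (J v k) (hkill v k) hT).symm
    refine parQuot_hom_ext (AddMonoidHom.ext fun x => ?_)
    show toGamma0 O N' (J (opP O O χ hMN hℓ (v : Coh N χ O)) k) x = _
    rw [hJP ℓ hℓ hℓM, opP_of_not_dvd (χ := trivChar) O O _ hℓ hℓN]
    rfl
  have hgenU : ∀ (ℓ : ℕ) (hℓ : ℓ.Prime) (hℓN : ℓ ∣ N') (hℓS : ℓ ∉ S)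
      (v : cohPart χ hMN hl a) (k : κ),
      K ((opP O O χ hMN hℓ).restrict (hmem ℓ hℓ) v) k =
        heckeActR O S N' (CuspForm.heckeAlgebra.U hℓ hℓN hℓS) (K v k) := fun ℓ hℓ hℓN hℓS v k => by
    have hℓM : ¬ ℓ ∣ M := fun hd => hℓS (hS ℓ hℓ hd)
    have hU : ∀ γ : Gamma0 N', IsEllPar γ →
        toGamma0 O N' (opU O O trivChar (one_dvd N') hℓ hℓN (J v k)) (Additive.ofMul γ) = 0 :=
      fun γ hγ => by
        have := hparJ ℓ hℓ hℓM v k γ hγ
        rwa [opP_of_dvd (χ := trivChar) O O _ hℓ hℓN] at this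
    refine Eq.trans ?_ (heckeActR_parLift_U hℓ hℓN hℓS (J v k) (hkill v k) hU).symm
    refine parQuot_hom_ext (AddMonoidHom.ext fun x => ?_)
    show toGamma0 O N' (J (opP O O χ hMN hℓ (v : Coh N χ O)) k) x = _
    rw [hJP ℓ hℓ hℓM, opP_of_dvd (χ := trivChar) O O _ hℓ hℓN]
    rfl
  have hex' : ∀ t : CuspForm.heckeAlgebra N' 2 S, ∃ f : Module.End O (cohPart χ hMN hl a),
      ∀ v k, K (f v) k = heckeActR O S N' t (K v k) := by
    rintro ⟨t, ht⟩
    induction ht using Algebra.adjoin_induction with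
    | mem x hx =>
      rcases hx with ⟨ℓ, hℓ, hℓN, hℓS, rfl⟩ | ⟨q, hqN, hq, hqS, rfl⟩
      · exact ⟨(opP O O χ hMN hℓ).restrict (hmem ℓ hℓ), hgenT ℓ hℓ hℓN hℓS⟩
      · exact ⟨(opP O O χ hMN hq).restrict (hmem q hq), hgenU q hq hqN hqS⟩
    | algebraMap z =>
      refine ⟨(z : Module.End O (cohPart χ hMN hl a)), fun v k => ?_⟩
      refine Eq.trans ?_ (congrArg (fun t => heckeActR O S N' t (K v k))
        (Subtype.ext (by simp) : (z : CuspForm.heckeAlgebra N' 2 S) = _))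
      rw [map_intCast, Module.End.intCast_apply, Module.End.intCast_apply, map_zsmul,
        Pi.smul_apply]
    | add x y hx hy ihx ihy =>
      obtain ⟨f, hf⟩ := ihx
      obtain ⟨g, hg⟩ := ihy
      refine ⟨f + g, fun v k => ?_⟩
      refine Eq.trans ?_ (congrArg (fun t => heckeActR O S N' t (K v k))
        (rfl : (⟨x, hx⟩ : CuspForm.heckeAlgebra N' 2 S) + ⟨y, hy⟩ = _))
      rw [map_add, LinearMap.add_apply, LinearMap.add_apply, map_add, Pi.add_apply, hf, hg]
    | mul x y hx hy ihx ihy =>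
      obtain ⟨f, hf⟩ := ihx
      obtain ⟨g, hg⟩ := ihy
      refine ⟨f * g, fun v k => ?_⟩
      refine Eq.trans ?_ (congrArg (fun t => heckeActR O S N' t (K v k))
        (rfl : (⟨x, hx⟩ : CuspForm.heckeAlgebra N' 2 S) * ⟨y, hy⟩ = _))
      rw [map_mul, Module.End.mul_apply, Module.End.mul_apply, hf, hg]
  choose Θ hΘ using hex'
  have huniq : ∀ (t : CuspForm.heckeAlgebra N' 2 S) (f : Module.End O (cohPart χ hMN hl a)),
      (∀ v k, K (f v) k = heckeActR O S N' t (K v k)) → Θ t = f := fun t f hf =>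
    LinearMap.ext fun v => hK (funext fun k => by rw [hΘ t v k, hf v k])
  refine ⟨{ toFun := Θ
            map_one' := huniq 1 1 fun v k => by rw [map_one]; rfl
            map_mul' := fun s t => huniq _ _ fun v k => by
              rw [map_mul, Module.End.mul_apply, Module.End.mul_apply, hΘ, hΘ]
            map_zero' := huniq 0 0 fun v k => by
              rw [map_zero, LinearMap.zero_apply, LinearMap.zero_apply, map_zero, Pi.zero_apply]
            map_add' := fun s t => huniq _ _ fun v k => by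
              rw [map_add, LinearMap.add_apply, LinearMap.add_apply, map_add, Pi.add_apply, hΘ,
                hΘ] }, fun ℓ hℓ hℓN hℓS v => ?_, fun ℓ hℓ hℓN hℓS v => ?_⟩
  · have hf := huniq _ _ (hgenT ℓ hℓ hℓN hℓS)
    show (Θ (CuspForm.heckeAlgebra.T hℓ hℓN hℓS) v : Coh N χ O) = _
    rw [hf]
    rfl
  · have hf := huniq _ _ (hgenU ℓ hℓ hℓN hℓS)
    show (Θ (CuspForm.heckeAlgebra.U hℓ hℓN hℓS) v : Coh N χ O) = _
    rw [hf]
    rfl

end FLTAgent.RT
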