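import Fermat.Agent.RT.Coh.Cover
import Mathlib.Data.ZMod.Units
import Mathlib.Data.Nat.Factorization.Induction

/-!
# The levels `Γ_H` and balanced matrices

`χ` is a character of `(ZMod M)ˣ` with values in a finite group of odd order. An integral matrix is
balanced if it is upper triangular modulo `M`, with invertible upper left entry `a` and
`χ a ^ 2 = detChar χ det` (so `χ a = χ d` when the determinant is prime to `M`). The balanced elements of `Γ₀(N)` form the group `gammaH N χ`.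
-/

set_option autoImplicit false

noncomputable section

namespace FLTAgent.RT

open LevelRaise CongruenceSubgroup
open scoped MatrixGroups

variable {M : ℕ} {D : Type*} [CommGroup D]

open Classical in
/-- The character at a prime, trivial at the primes dividing `M`. -/
def primeChar (χ : (ZMod M)ˣ →* D) (p : ℕ) : D :=
  if h : Nat.Coprime p M then χ (ZMod.unitOfCoprime p h) else 1

/-- The character of a determinant: multiplicative, equal to `χ` at the units modulo `M` and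
trivial at the primes dividing `M`. -/
def detChar (χ : (ZMod M)ˣ →* D) (m : ℤ) : D :=
  m.natAbs.factorization.prod fun p e => primeChar χ p ^ e

/-- Balanced matrices: upper triangular modulo `M`, upper left entry a unit with
`χ a ^ 2 = detChar χ det`. For a determinant prime to `M` this says `χ a = χ d`. -/
def Bal (χ : (ZMod M)ˣ →* D) (X : Matrix (Fin 2) (Fin 2) ℤ) : Prop :=
  (M : ℤ) ∣ X 1 0 ∧ X.det ≠ 0 ∧
    ∃ u : (ZMod M)ˣ, (u : ZMod M) = X 0 0 ∧ χ u * χ u = detChar χ X.det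

variable {χ : (ZMod M)ˣ →* D} {X Y : Matrix (Fin 2) (Fin 2) ℤ}

theorem detChar_one : detChar χ 1 = 1 := by simp [detChar]

theorem detChar_mul {a b : ℤ} (ha : a ≠ 0) (hb : b ≠ 0) :
    detChar χ (a * b) = detChar χ a * detChar χ b := by
  rw [detChar, Int.natAbs_mul, Nat.factorization_mul (Int.natAbs_ne_zero.mpr ha)
    (Int.natAbs_ne_zero.mpr hb), Finsupp.prod_add_index' (fun p => pow_zero _) (fun p => pow_add _)]
  rfl

theorem exists_detChar_eq (m : ℤ) : ∃ v : (ZMod M)ˣ, χ v = detChar χ m :=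
  (χ.range.prod_mem (t := m.natAbs.factorization.support)
    (f := fun p => primeChar χ p ^ m.natAbs.factorization p) fun p _ =>
    χ.range.pow_mem (show primeChar χ p ∈ χ.range by
      unfold primeChar
      split_ifs with h
      · exact ⟨_, rfl⟩
      · exact one_mem _) _ : detChar χ m ∈ χ.range)

theorem cast_mul_apply_zero_zero (hY : (M : ℤ) ∣ Y 1 0) :
    (((X * Y) 0 0 : ℤ) : ZMod M) = X 0 0 * Y 0 0 := by
  rw [Matrix.mul_apply, Fin.sum_univ_two]
  push_cast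
  rw [(ZMod.intCast_zmod_eq_zero_iff_dvd (Y 1 0) M).mpr hY, mul_zero, add_zero]

theorem cast_mul_apply_one_one (hX : (M : ℤ) ∣ X 1 0) :
    (((X * Y) 1 1 : ℤ) : ZMod M) = X 1 1 * Y 1 1 := by
  rw [Matrix.mul_apply, Fin.sum_univ_two]
  push_cast
  rw [(ZMod.intCast_zmod_eq_zero_iff_dvd (X 1 0) M).mpr hX, zero_mul, zero_add]

theorem dvd_mul_apply_one_zero {L : ℕ} (hX : (L : ℤ) ∣ X 1 0) (hY : (L : ℤ) ∣ Y 1 0) :
    (L : ℤ) ∣ (X * Y) 1 0 := by
  rw [Matrix.mul_apply, Fin.sum_univ_two]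
  exact dvd_add (dvd_mul_of_dvd_left hX _) (dvd_mul_of_dvd_right hY _)

theorem bal_one : Bal χ (1 : Matrix (Fin 2) (Fin 2) ℤ) :=
  ⟨by simp, by simp, 1, by simp, by simp [detChar_one]⟩

theorem Bal.mul (hX : Bal χ X) (hY : Bal χ Y) : Bal χ (X * Y) := by
  obtain ⟨hX0, hXd, u, hu, hu2⟩ := hX
  obtain ⟨hY0, hYd, u', hu', hu2'⟩ := hY
  refine ⟨dvd_mul_apply_one_zero hX0 hY0, by rw [Matrix.det_mul]; exact mul_ne_zero hXd hYd,
    u * u', ?_, ?_⟩
  · rw [cast_mul_apply_zero_zero hY0, Units.val_mul, hu, hu']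
  · rw [Matrix.det_mul, detChar_mul hXd hYd, ← hu2, ← hu2', map_mul, mul_mul_mul_comm]

/-- If `X * Y` and `Y` are balanced, so is `X`. -/
theorem Bal.of_mul_right (hXY : Bal χ (X * Y)) (hY : Bal χ Y) : Bal χ X := by
  obtain ⟨h0, hd, u, hu, hu2⟩ := hXY
  obtain ⟨hY0, hYd, u', hu', hu2'⟩ := hY
  rw [Matrix.det_mul] at hd hu2
  have hXd : X.det ≠ 0 := left_ne_zero_of_mul hd
  have hX0 : (M : ℤ) ∣ X 1 0 := by
    rw [Matrix.mul_apply, Fin.sum_univ_two, ← ZMod.intCast_zmod_eq_zero_iff_dvd] at h0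
    push_cast at h0
    rw [(ZMod.intCast_zmod_eq_zero_iff_dvd (Y 1 0) M).mpr hY0, mul_zero, add_zero, ← hu'] at h0
    exact (ZMod.intCast_zmod_eq_zero_iff_dvd _ _).mp ((Units.mul_left_eq_zero u').mp h0)
  refine ⟨hX0, hXd, u * u'⁻¹, ?_, ?_⟩
  · rw [Units.val_mul, hu, cast_mul_apply_zero_zero hY0, ← hu', Units.mul_inv_cancel_right]
  · rw [detChar_mul hXd hYd, ← hu2'] at hu2
    rw [map_mul, map_inv, mul_mul_mul_comm, hu2, ← mul_inv, mul_inv_cancel_right]

section Group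

variable [Finite D] [Fact (Odd (Nat.card D))]

omit [Finite D] in
theorem eq_one_of_sq_eq_one {x : D} (h : x * x = 1) : x = 1 := by
  obtain ⟨k, hk⟩ := (Fact.out : Odd (Nat.card D))
  have h' := pow_card_eq_one' (x := x)
  rwa [hk, pow_succ, pow_mul, pow_two, h, one_pow, one_mul] at h'

omit [Finite D] in
/-- A square root modulo the kernel of `χ`. -/
theorem exists_sq_unit (χ : (ZMod M)ˣ →* D) (u : (ZMod M)ˣ) :
    ∃ v : (ZMod M)ˣ, χ v * χ v = χ u := by
  obtain ⟨k, hk⟩ := (Fact.out : Odd (Nat.card D))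
  refine ⟨u ^ (k + 1), ?_⟩
  rw [map_pow, ← pow_add, show k + 1 + (k + 1) = Nat.card D + 1 by omega, pow_succ,
    pow_card_eq_one', one_mul]

omit [Finite D] in
theorem map_neg_one_eq_one (χ : (ZMod M)ˣ →* D) : χ (-1) = 1 :=
  eq_one_of_sq_eq_one (by rw [← map_mul, neg_one_mul, neg_neg, map_one])

omit [Finite D] [Fact (Odd (Nat.card D))] in
theorem detChar_natCast {χ : (ZMod M)ˣ →* D} (n : ℕ) :
    ∀ h : n.Coprime M, detChar χ n = χ (ZMod.unitOfCoprime n h) := by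
  induction n using Nat.recOnMul with
  | zero =>
    intro h
    obtain rfl : M = 1 := by simpa using h
    rw [show ZMod.unitOfCoprime 0 h = 1 from Subsingleton.elim _ _, map_one]
    simp [detChar]
  | one =>
    intro h
    rw [show ZMod.unitOfCoprime 1 h = 1 from Units.ext (by simp), map_one]
    exact detChar_one
  | prime p hp =>
    intro h
    simp [detChar, hp.factorization, primeChar]
    rw [dif_pos h]
  | mul a b iha ihb =>
    intro h
    obtain ⟨ha, hb⟩ := Nat.coprime_mul_iff_left.mp h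
    rw [show ZMod.unitOfCoprime (a * b) h = ZMod.unitOfCoprime a ha * ZMod.unitOfCoprime b hb from
      Units.ext (by simp), map_mul, ← iha ha, ← ihb hb]
    rcases eq_or_ne a 0 with rfl | ha0
    · obtain rfl : M = 1 := by simpa using ha
      have h1 : ∀ c : D, (∃ v, χ v = c) → c = 1 := fun c ⟨v, hv⟩ => by
        rw [← hv, show v = 1 from Subsingleton.elim _ _, map_one]
      rw [h1 _ (exists_detChar_eq _), h1 _ (exists_detChar_eq _), h1 _ (exists_detChar_eq _), one_mul]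
    rcases eq_or_ne b 0 with rfl | hb0
    · obtain rfl : M = 1 := by simpa using hb
      have h1 : ∀ c : D, (∃ v, χ v = c) → c = 1 := fun c ⟨v, hv⟩ => by
        rw [← hv, show v = 1 from Subsingleton.elim _ _, map_one]
      rw [h1 _ (exists_detChar_eq _), h1 _ (exists_detChar_eq _), h1 _ (exists_detChar_eq _), one_mul]
    rw [Nat.cast_mul, detChar_mul (Nat.cast_ne_zero.mpr ha0) (Nat.cast_ne_zero.mpr hb0)]

omit [Finite D] in
/-- On units modulo `M`, `detChar` is `χ`. -/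
theorem detChar_eq {χ : (ZMod M)ˣ →* D} {m : ℤ} {v : (ZMod M)ˣ} (hv : (v : ZMod M) = m) :
    detChar χ m = χ v := by
  obtain ⟨n, rfl | rfl⟩ := Int.eq_nat_or_neg m
  · have hc : n.Coprime M := by
      rw [← ZMod.isUnit_iff_coprime, show (n : ZMod M) = v by simpa using hv.symm]
      exact v.isUnit
    rw [detChar_natCast n hc]
    congr 1
    exact Units.ext (by simpa using hv.symm)
  · have hn : (n : ZMod M) = -(v : ZMod M) := by rw [hv]; simp
    have hc : n.Coprime M := by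
      rw [← ZMod.isUnit_iff_coprime, hn]
      exact v.isUnit.neg
    rw [show detChar χ (-(n : ℤ)) = detChar χ (n : ℤ) by simp [detChar], detChar_natCast n hc,
      show v = -1 * ZMod.unitOfCoprime n hc from Units.ext (by simp [hn]), map_mul,
      map_neg_one_eq_one, one_mul]

omit [Finite D] in
/-- A square root of a value of `detChar`, times a given unit. -/
theorem exists_balance_unit (χ : (ZMod M)ˣ →* D) (u : (ZMod M)ˣ) (m : ℤ) :
    ∃ w : (ZMod M)ˣ, χ (w⁻¹ * u) * χ (w⁻¹ * u) = detChar χ m := by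
  obtain ⟨v, hv⟩ := exists_detChar_eq (χ := χ) m
  obtain ⟨w, hw⟩ := exists_sq_unit χ (u * u * v⁻¹)
  refine ⟨w, ?_⟩
  rw [← hv, map_mul, map_inv, mul_mul_mul_comm, ← mul_inv, hw, map_mul, map_inv, map_mul]
  group

end Group

/-- The element of `Γ₀(N)` with prescribed lower right entry modulo `M`. -/
theorem exists_gamma0_of_unit {N : ℕ} [NeZero N] (hMN : M ∣ N) (u : (ZMod M)ˣ) :
    ∃ g : Gamma0 N, ((matSL (g : SL(2, ℤ)) 1 1 : ℤ) : ZMod M) = (u : ZMod M) ∧
      ((matSL (g : SL(2, ℤ)) 0 0 : ℤ) : ZMod M) = ((u⁻¹ : (ZMod M)ˣ) : ZMod M) := by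
  obtain ⟨U, hU⟩ := ZMod.unitsMap_surjective hMN u
  have hcop : IsCoprime ((U : ZMod N).val : ℤ) (N : ℤ) :=
    Nat.isCoprime_iff_coprime.mpr (ZMod.val_coe_unit_coprime U)
  obtain ⟨a, b, hab⟩ := hcop
  let g : Gamma0 N := ⟨slMk a (-b) N (U : ZMod N).val (by linear_combination hab),
    mem_gamma0_iff.mpr (by simp)⟩
  have hd : ((matSL (g : SL(2, ℤ)) 1 1 : ℤ) : ZMod M) = (u : ZMod M) := by
    rw [← hU, ZMod.unitsMap_val]
    simp [g]
  refine ⟨g, hd, ?_⟩
  have h1 : ((matSL (g : SL(2, ℤ)) 0 0 : ℤ) : ZMod M) * (u : ZMod M) = 1 := by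
    have hdet := congrArg (fun z : ℤ => (z : ZMod M)) (det_matSL (g : SL(2, ℤ)))
    push_cast at hdet
    rw [(ZMod.intCast_zmod_eq_zero_iff_dvd _ M).mpr
      ((Int.natCast_dvd_natCast.mpr hMN).trans (mem_gamma0_iff.mp g.2)), mul_zero, sub_zero, hd] at hdet
    exact hdet
  exact Units.eq_inv_of_mul_eq_one_left (by rw [mul_comm]; exact h1)

/-- The balanced elements of `Γ₀(N)`. -/
def gammaH (N : ℕ) (χ : (ZMod M)ˣ →* D) : Subgroup SL(2, ℤ) where
  carrier := {γ | γ ∈ Gamma0 N ∧ Bal χ (matSL γ)}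
  one_mem' := ⟨one_mem _, by rw [matSL_one]; exact bal_one⟩
  mul_mem' := fun {a b} ha hb => ⟨mul_mem ha.1 hb.1, by rw [matSL_mul]; exact ha.2.mul hb.2⟩
  inv_mem' := fun {a} ha => ⟨inv_mem ha.1,
    Bal.of_mul_right (by rw [← matSL_mul, inv_mul_cancel, matSL_one]; exact bal_one) ha.2⟩

variable {N : ℕ}

theorem mem_gammaH {γ : SL(2, ℤ)} : γ ∈ gammaH N χ ↔ γ ∈ Gamma0 N ∧ Bal χ (matSL γ) := Iff.rfl

theorem gammaH_le : gammaH N χ ≤ Gamma0 N := fun _ h => h.1

theorem gammaH_mono {N' : ℕ} (h : N ∣ N') : gammaH N' χ ≤ gammaH N χ :=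
  fun _ hγ => ⟨gamma0_le h hγ.1, hγ.2⟩

variable [Finite D] [Fact (Odd (Nat.card D))]

omit [Finite D] in
/-- Balancedness of elements of `Γ₀` in terms of the lower right entry. -/
theorem mem_gammaH_iff (hMN : M ∣ N) {γ : SL(2, ℤ)} (hγ : γ ∈ Gamma0 N) :
    γ ∈ gammaH N χ ↔ ∀ v : (ZMod M)ˣ, (v : ZMod M) = matSL γ 1 1 → χ v = 1 := by
  have hc : (M : ℤ) ∣ matSL γ 1 0 :=
    (Int.natCast_dvd_natCast.mpr hMN).trans (mem_gamma0_iff.mp hγ)
  have hdet := congrArg (fun z : ℤ => (z : ZMod M)) (det_matSL γ)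
  push_cast at hdet
  rw [(ZMod.intCast_zmod_eq_zero_iff_dvd _ M).mpr hc, mul_zero, sub_zero] at hdet
  constructor
  · rintro ⟨-, -, -, u, hu, hu2⟩ v hv
    have : v = u⁻¹ := eq_inv_of_mul_eq_one_right
      (Units.ext (by rw [Units.val_mul, Units.val_one, hu, hv]; exact hdet))
    rw [γ.det_coe, detChar_one] at hu2
    rw [this, map_inv, eq_one_of_sq_eq_one hu2, inv_one]
  · intro h
    let v : (ZMod M)ˣ := Units.mkOfMulEqOne _ _ (by rw [mul_comm]; exact hdet)
    refine ⟨hγ, hc, by rw [γ.det_coe]; exact one_ne_zero, v⁻¹, rfl, ?_⟩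
    rw [γ.det_coe, detChar_one, map_inv, h v rfl, inv_one, one_mul]

omit [Finite D] in
theorem neg_one_mem_gammaH (hMN : M ∣ N) : (-1 : SL(2, ℤ)) ∈ gammaH N χ := by
  rw [mem_gammaH_iff hMN (neg_one_mem_gamma0 N)]
  intro v hv
  apply eq_one_of_sq_eq_one
  rw [← map_mul, ← map_one χ]
  congr 1
  refine Units.ext ?_
  rw [Units.val_mul, hv, Units.val_one]
  simp [matSL]

omit [Finite D] in
theorem gammaH_one (hMN : M ∣ N) : gammaH N (1 : (ZMod M)ˣ →* D) = Gamma0 N :=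
  le_antisymm gammaH_le fun _ hγ => (mem_gammaH_iff hMN hγ).mpr fun _ _ => rfl

omit [Finite D] in
/-- A multiple `g * X` of a matrix, `g` in `Γ₀(N)`, is balanced. -/
theorem exists_balance [NeZero N] (hMN : M ∣ N) {X : Matrix (Fin 2) (Fin 2) ℤ}
    (h0 : (M : ℤ) ∣ X 1 0) (hdet : X.det ≠ 0) {u : (ZMod M)ˣ} (hu : (u : ZMod M) = X 0 0) :
    ∃ g : Gamma0 N, Bal χ (matSL (g : SL(2, ℤ)) * X) := by
  obtain ⟨w, hw⟩ := exists_balance_unit χ u X.det
  obtain ⟨g, -, hg'⟩ := exists_gamma0_of_unit hMN w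
  have hg0 : (M : ℤ) ∣ matSL (g : SL(2, ℤ)) 1 0 :=
    (Int.natCast_dvd_natCast.mpr hMN).trans (mem_gamma0_iff.mp g.2)
  refine ⟨g, dvd_mul_apply_one_zero hg0 h0, ?_, w⁻¹ * u, ?_, ?_⟩
  · rwa [Matrix.det_mul, (g : SL(2, ℤ)).det_coe, one_mul]
  · rw [cast_mul_apply_zero_zero h0, Units.val_mul, hg', hu]
  · rw [Matrix.det_mul, (g : SL(2, ℤ)).det_coe, one_mul, hw]

omit [Finite D] [Fact (Odd (Nat.card D))] in
/-- Left classes of balanced matrices are `gammaH` classes. -/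
theorem exists_gammaH_eq {X Y : Matrix (Fin 2) (Fin 2) ℤ} (hX : Bal χ X) (hY : Bal χ Y)
    {δ : Gamma0 N} (h : X = matSL (δ : SL(2, ℤ)) * Y) :
    ∃ δ' : gammaH N χ, X = matSL (δ' : SL(2, ℤ)) * Y :=
  ⟨⟨δ, δ.2, (h ▸ hX : Bal χ (matSL (δ : SL(2, ℤ)) * Y)).of_mul_right hY⟩, h⟩

end FLTAgent.RT
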