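import Fermat.Agent.RT.Coh.Part
import Mathlib.Algebra.Polynomial.AlgebraMap
import Mathlib.RingTheory.Nakayama

/-!
# Polynomials in an operator on the part where it is topologically nilpotent after a translation
-/

set_option autoImplicit false

noncomputable section

namespace FLTAgent.RT

open IsLocalRing Polynomial

variable {O : Type*} [CommRing O] [IsLocalRing O] {M : Type*} [AddCommGroup M] [Module O M]
  {X : Module.End O M} {e : Module.End O M} {a : O}
  (hnil : ∀ n, ∃ k, ∀ φ, e φ = φ →
    ((X - a • (1 : Module.End O M)) ^ k) φ ∈ maximalIdeal O ^ n • (⊤ : Submodule O M))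

include hnil in
/-- A polynomial vanishing residually at `a` is topologically nilpotent on the part. -/
theorem exists_aeval_pow_mem {p : O[X]} (hp : p.eval a ∈ maximalIdeal O) (n : ℕ) :
    ∃ k, ∀ φ, e φ = φ → (aeval X p ^ k) φ ∈ maximalIdeal O ^ n • (⊤ : Submodule O M) := by
  set J : Ideal O[X] :=
    { carrier := {q | ∀ φ, e φ = φ → aeval X q φ ∈ maximalIdeal O ^ n • (⊤ : Submodule O M)}
      add_mem' := fun {x y} hx hy φ h => by
        rw [map_add, LinearMap.add_apply]; exact add_mem (hx φ h) (hy φ h)
      zero_mem' := fun φ _ => by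
        rw [map_zero]; exact Submodule.zero_mem _
      smul_mem' := fun c x hx φ h => by
        rw [smul_eq_mul, map_mul, Module.End.mul_apply]
        exact map_mem_pow_smul_top _ (hx φ h) }
  have hC : C (p.eval a) ∈ J.radical := ⟨n, fun φ _ => by
    rw [← map_pow, aeval_C, Algebra.algebraMap_eq_smul_one, LinearMap.smul_apply,
      Module.End.one_apply]
    exact Submodule.smul_mem_smul (Ideal.pow_mem_pow hp n) (Submodule.mem_top (x := φ))⟩
  have hX : Polynomial.X - C a ∈ J.radical := by
    obtain ⟨k, hk⟩ := hnil n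
    refine ⟨k, fun φ h => ?_⟩
    rw [map_pow, map_sub, aeval_X, aeval_C, Algebra.algebraMap_eq_smul_one]
    exact hk φ h
  obtain ⟨g, hg⟩ := Polynomial.X_sub_C_dvd_sub_C_eval (a := a) (p := p)
  obtain ⟨k, hk⟩ : p ∈ J.radical := by
    rw [show p = (Polynomial.X - C a) * g + C (p.eval a) by rw [← hg, sub_add_cancel]]
    exact add_mem (J.radical.mul_mem_right g hX) hC
  exact ⟨k, fun φ h => by rw [← map_pow]; exact hk φ h⟩

variable [IsNoetherianRing O] [IsAdicComplete (maximalIdeal O) O] [Module.Finite O M]

include hnil in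
/-- A polynomial which is residually a unit at `a` is injective on the part. -/
theorem eq_zero_of_aeval_eq_zero {p : O[X]} (hp : IsUnit (p.eval a)) {v : M} (hv : e v = v)
    (h : aeval X p v = 0) : v = 0 := by
  refine eq_zero_of_forall_mem_pow (O := O) fun n => ?_
  obtain ⟨k, hk⟩ := exists_aeval_pow_mem hnil (p := C (p.eval a) - p) (by simp) n
  have hx : ∀ j, (aeval X (C (p.eval a) - p) ^ j) v = (p.eval a) ^ j • v := fun j => by
    induction j with
    | zero => simp
    | succ j ih =>
      rw [pow_succ', Module.End.mul_apply, ih, map_smul, map_sub, LinearMap.sub_apply, h, sub_zero,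
        aeval_C, Algebra.algebraMap_eq_smul_one, LinearMap.smul_apply, Module.End.one_apply,
        smul_smul, ← pow_succ]
  have h' := hk v hv
  rw [hx] at h'
  obtain ⟨u, hu⟩ := hp.pow k
  have h'' := Submodule.smul_mem _ (↑u⁻¹ : O) h'
  rwa [← hu, smul_smul, Units.inv_mul, one_smul] at h''

include hnil in
/-- A polynomial which is residually a unit at `a` is surjective on the part. -/
theorem exists_aeval_eq (he : IsIdempotentElem e) (hcomm : Commute e X) {p : O[X]}
    (hp : IsUnit (p.eval a)) {φ : M} (hφ : e φ = φ) : ∃ ψ, e ψ = ψ ∧ aeval X p ψ = φ := by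
  have := isNoetherian_of_isNoetherianRing_of_finite O M
  set P := LinearMap.range e
  have hmem : ∀ {x}, x ∈ P ↔ e x = x := fun {x} =>
    ⟨by rintro ⟨y, rfl⟩; exact LinearMap.congr_fun he.eq y, fun h => ⟨x, h⟩⟩
  have hpe : ∀ (q : O[X]) x, e (aeval X q x) = aeval X q (e x) := fun q x => by
    induction q using Polynomial.induction_on' generalizing x with
    | add p q hp hq => simp [hp, hq]
    | monomial j c =>
      rw [aeval_monomial, Algebra.algebraMap_eq_smul_one, smul_mul_assoc, one_mul,
        LinearMap.smul_apply, LinearMap.smul_apply, map_smul, ← Module.End.mul_apply,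
        (hcomm.pow_right j).eq, Module.End.mul_apply]
  have key : P ≤ P.map (aeval X p) := by
    refine Submodule.le_of_le_smul_of_le_jacobson_bot (IsNoetherian.noetherian _)
      (le_of_eq (jacobson_eq_maximalIdeal ⊥ bot_ne_top).symm) fun x hx => ?_
    obtain ⟨k, hk⟩ := exists_aeval_pow_mem hnil (p := C (p.eval a) - p) (by simp) 1
    have h1 := hk x (hmem.mp hx)
    obtain ⟨g, hg⟩ : p ∣ (C (p.eval a)) ^ k - (C (p.eval a) - p) ^ k := by
      simpa using sub_dvd_pow_sub_pow (C (p.eval a)) (C (p.eval a) - p) k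
    have hdec : (p.eval a) ^ k • x = aeval X p (aeval X g x) + (aeval X (C (p.eval a) - p) ^ k) x := by
      have e' : C (p.eval a) ^ k = p * g + (C (p.eval a) - p) ^ k := by rw [← hg, sub_add_cancel]
      have := congrArg (fun q => aeval X q x) e'
      simpa [Algebra.algebraMap_eq_smul_one, smul_pow] using this
    obtain ⟨u, hu⟩ := hp.pow k
    have hmaximal : (aeval X (C (p.eval a) - p) ^ k) x ∈ maximalIdeal O • P := by
      have h2 := Submodule.mem_map_of_mem (f := e) h1
      rw [← map_pow, hpe, hmem.mp hx, Submodule.map_smul'', pow_one, Submodule.map_top] at h2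
      rwa [map_pow] at h2
    have hgx : aeval X p (aeval X g x) ∈ P.map (aeval X p) :=
      ⟨_, hmem.mpr (by rw [hpe, hmem.mp hx]), rfl⟩
    have hall : (p.eval a) ^ k • x ∈ P.map (aeval X p) ⊔ maximalIdeal O • P :=
      hdec ▸ Submodule.add_mem_sup hgx hmaximal
    have := Submodule.smul_mem _ (↑u⁻¹ : O) hall
    rwa [← hu, smul_smul, Units.inv_mul, one_smul] at this
  obtain ⟨ψ, hψ, rfl⟩ := key (hmem.mpr hφ)
  exact ⟨ψ, hmem.mp hψ, rfl⟩

end FLTAgent.RT
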