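import Fermat.Agent.RT.Coh.Level

/-!
# Balanced families of prime determinant

Balanced representatives of the operators `T ℓ` and `U q`. Any two such operators commute.
-/

set_option autoImplicit false

noncomputable section

namespace FLTAgent.RT

open LevelRaise CongruenceSubgroup
open scoped MatrixGroups

variable {M N N' : ℕ} {D : Type*} [CommGroup D]
  {χ : (ZMod M)ˣ →* D} {ι : Type*}

/-- If `N` divides the lower left entries of `Y * Z` and `Z`, and `det Z` is prime to `N`, then `N`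
divides the lower left entry of `Y`. -/
theorem dvd_apply_one_zero_of_mul {L : ℕ} {Y Z : Matrix (Fin 2) (Fin 2) ℤ}
    (h : (L : ℤ) ∣ (Y * Z) 1 0) (hZ : (L : ℤ) ∣ Z 1 0) (hc : IsCoprime (L : ℤ) Z.det) :
    (L : ℤ) ∣ Y 1 0 := by
  refine hc.dvd_of_dvd_mul_right ?_
  have e : Y 1 0 * Z.det = (Y * Z) 1 0 * Z 1 1 - (Y * Z) 1 1 * Z 1 0 := by
    rw [Matrix.det_fin_two]
    simp only [Matrix.mul_apply, Fin.sum_univ_two]
    ring
  rw [e]
  exact dvd_sub (dvd_mul_of_dvd_left h _) (dvd_mul_of_dvd_right hZ _)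

/-- Modulo `N` the upper left entry of a product of upper triangular matrices is the product. -/
theorem isCoprime_mul_apply_zero_zero {X Y : Matrix (Fin 2) (Fin 2) ℤ}
    (hY : (N : ℤ) ∣ Y 1 0) :
    IsCoprime ((X * Y) 0 0) (N : ℤ) ↔ IsCoprime (X 0 0) (N : ℤ) ∧ IsCoprime (Y 0 0) (N : ℤ) := by
  obtain ⟨t, ht⟩ := hY
  rw [Matrix.mul_apply, Fin.sum_univ_two, ht, show X 0 0 * Y 0 0 + X 0 1 * ((N : ℤ) * t)
    = X 0 0 * Y 0 0 + (N : ℤ) * (X 0 1 * t) by ring, IsCoprime.add_mul_left_left_iff,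
    IsCoprime.mul_left_iff]

theorem isCoprime_gamma0_zero_zero {γ : SL(2, ℤ)} (hγ : γ ∈ Gamma0 N) :
    IsCoprime (matSL γ 0 0) (N : ℤ) := by
  obtain ⟨t, ht⟩ := mem_gamma0_iff.mp hγ
  have hd := det_matSL γ
  rw [ht] at hd
  exact ⟨matSL γ 1 1, -(matSL γ 0 1 * t), by linear_combination hd⟩

/-- A complete family of classes of balanced matrices of determinant `m` with upper left entry
prime to `N`. -/
structure OpFam (N : ℕ) (χ : (ZMod M)ˣ →* D) (m : ℕ)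
    (η : ι → Matrix (Fin 2) (Fin 2) ℤ) : Prop where
  det_eq : ∀ i, (η i).det = m
  dvd : ∀ i, (N : ℤ) ∣ η i 1 0
  coprime : ∀ i, IsCoprime (η i 0 0) (N : ℤ)
  bal : ∀ i, Bal χ (η i)
  cover : ∀ X : Matrix (Fin 2) (Fin 2) ℤ, X.det = m → (N : ℤ) ∣ X 1 0 →
    IsCoprime (X 0 0) (N : ℤ) → Bal χ X →
    ∃ (i : ι) (δ : gammaH N χ), X = matSL (δ : SL(2, ℤ)) * η i
  split : ∀ X : Matrix (Fin 2) (Fin 2) ℤ, (m : ℤ) ∣ X.det → IsCoprime (X 0 0) (N : ℤ) →
    ∃ (k : ι) (Y : Matrix (Fin 2) (Fin 2) ℤ), X = Y * η k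
  eq_of_smul : ∀ (c : ℤ) (i j : ι) (Z : Matrix (Fin 2) (Fin 2) ℤ), ¬ (m : ℤ) ∣ c →
    c • η i = Z * η j → i = j

variable {m : ℕ} {η : ι → Matrix (Fin 2) (Fin 2) ℤ}

theorem OpFam.distinct (h : OpFam N χ m η) (hm : m.Prime) : DistinctFam η := fun i j δ e =>
  h.eq_of_smul 1 i j (matSL δ) (fun hd =>
    hm.ne_one (Nat.dvd_one.mp (Int.natCast_dvd_natCast.mp (by rw [Nat.cast_one]; exact hd))))
    (by rw [one_smul, e])

theorem OpFam.det_ne (h : OpFam N χ m η) (hm : m.Prime) (i : ι) : (η i).det ≠ 0 := by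
  rw [h.det_eq]; exact_mod_cast hm.ne_zero

theorem OpFam.isFam [Finite ι] (h : OpFam N χ m η) (hm : m.Prime) :
    IsFam (gammaH N χ) (gammaH N χ) η :=
  isFam_of_complete (h.det_ne hm) (distinctIn_of_distinctFam (h.distinct hm)) fun i γ hγ =>
    h.cover _ (by rw [Matrix.det_mul, h.det_eq, γ.det_coe, mul_one])
      (dvd_mul_apply_one_zero (h.dvd i) (mem_gamma0_iff.mp hγ.1))
      ((isCoprime_mul_apply_zero_zero (mem_gamma0_iff.mp hγ.1)).mpr
        ⟨h.coprime i, isCoprime_gamma0_zero_zero hγ.1⟩)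
      ((h.bal i).mul hγ.2)

/-- The same classes serve at a level dividing a multiple. -/
theorem OpFam.isFam_of_le [Finite ι] (h : OpFam N χ m η) (hm : m.Prime) (hN : N ∣ N') :
    IsFam (gammaH N χ) (gammaH N' χ) η :=
  ⟨h.det_ne hm, fun γ hγ => (h.isFam hm).exists_eq γ (gammaH_mono hN hγ)⟩

variable {A : Type*} [AddCommGroup A]

/-- Operators of distinct prime determinants commute. -/
theorem OpFam.comm {κ : Type*} [Fintype ι] [Fintype κ] {m' : ℕ}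
    {η' : κ → Matrix (Fin 2) (Fin 2) ℤ} (h : OpFam N χ m η) (h' : OpFam N χ m' η') (hm : m.Prime)
    (hm' : m'.Prime) (hne : m ≠ m') (φ : Additive (gammaH N χ) →+ A) :
    famTransfer (h.isFam hm) (famTransfer (h'.isFam hm') φ) =
      famTransfer (h'.isFam hm') (famTransfer (h.isFam hm) φ) := by
  have hndvd : ¬ (m : ℤ) ∣ (m' : ℤ) := fun hd =>
    hne ((Nat.prime_dvd_prime_iff_eq hm hm').mp (Int.natCast_dvd_natCast.mp hd))
  refine famTransfer_comm_of_cover _ _ _ _ ?_ ?_ (fun k i => ?_) φ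
  · rintro ⟨k, i⟩ ⟨k', i'⟩ δ e
    have e2 := congrArg ((η' k).adjugate * ·) e
    simp only [famMul, ← Matrix.mul_assoc, Matrix.adjugate_mul, Matrix.smul_mul, Matrix.one_mul,
      h'.det_eq] at e2
    obtain rfl : i = i' := h.eq_of_smul _ _ _ _ hndvd e2
    have e3 : η' k * η i = matSL δ * η' k' * η i := by
      rw [Matrix.mul_assoc]; exact e
    exact Prod.ext (h'.distinct hm' k k' δ (mul_right_cancel_of_det_ne_zero (h.det_ne hm i) e3)) rfl
  · simp [mul_comm]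
  · have hX0 : (N : ℤ) ∣ (η' k * η i) 1 0 := dvd_mul_apply_one_zero (h'.dvd k) (h.dvd i)
    have hX1 : IsCoprime ((η' k * η i) 0 0) (N : ℤ) :=
      (isCoprime_mul_apply_zero_zero (h.dvd i)).mpr ⟨h'.coprime k, h.coprime i⟩
    obtain ⟨k', Y, hY⟩ := h'.split (η' k * η i)
      (by rw [Matrix.det_mul, h'.det_eq]; exact dvd_mul_right _ _) hX1
    have hYdet : Y.det = m := by
      have := congrArg Matrix.det hY
      rw [Matrix.det_mul, Matrix.det_mul, h'.det_eq, h.det_eq, h'.det_eq, mul_comm] at this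
      exact (mul_right_cancel₀ (by exact_mod_cast hm'.ne_zero) this).symm
    have hY0 : (N : ℤ) ∣ Y 1 0 := by
      have e : (N : ℤ) ∣ Y 1 0 * η' k' 0 0 := by
        have := hY ▸ hX0
        rw [Matrix.mul_apply, Fin.sum_univ_two] at this
        exact (dvd_add_left (dvd_mul_of_dvd_right (h'.dvd k') _)).mp this
      exact (h'.coprime k').symm.dvd_of_dvd_mul_right e
    obtain ⟨i', δ, hδ⟩ := h.cover Y hYdet hY0
      ((isCoprime_mul_apply_zero_zero (h'.dvd k')).mp (hY ▸ hX1)).1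
      ((hY ▸ (h'.bal k).mul (h.bal i)).of_mul_right (h'.bal k'))
    exact ⟨i', k', δ, by rw [hY, hδ, Matrix.mul_assoc]⟩

section Standard

variable [Fact (Odd (Nat.card D))] [NeZero N]

open Classical in
/-- The balanced representatives. -/
def balRep (N : ℕ) (χ : (ZMod M)ˣ →* D) (ℓ : ℕ) (i : Option (ZMod ℓ)) :
    Matrix (Fin 2) (Fin 2) ℤ :=
  if h : ∃ g : Gamma0 N, Bal χ (matSL (g : SL(2, ℤ)) * tRepZ ℓ i) then
    matSL (h.choose : SL(2, ℤ)) * tRepZ ℓ i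
  else tRepZ ℓ i

theorem exists_balRep (hMN : M ∣ N) {ℓ : ℕ} (hℓ : ℓ.Prime) (i : Option (ZMod ℓ))
    (hℓM : i = none → ¬ ℓ ∣ M) :
    ∃ g : Gamma0 N, balRep N χ ℓ i = matSL (g : SL(2, ℤ)) * tRepZ ℓ i ∧
      Bal χ (balRep N χ ℓ i) := by
  have hdet : (tRepZ ℓ i).det ≠ 0 := by rw [det_tRepZ]; exact_mod_cast hℓ.ne_zero
  have h : ∃ g : Gamma0 N, Bal χ (matSL (g : SL(2, ℤ)) * tRepZ ℓ i) := by
    rcases i with _ | j
    · exact exists_balance hMN (by simp [tRepZ]) hdet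
        (u := ZMod.unitOfCoprime ℓ ((hℓ.coprime_iff_not_dvd).mpr (hℓM rfl)))
        (by simp [tRepZ, ZMod.coe_unitOfCoprime])
    · exact exists_balance hMN (by simp [tRepZ]) hdet (u := 1) (by simp [tRepZ])
  rw [balRep, dif_pos h]
  exact ⟨_, rfl, h.choose_spec⟩

variable (hMN : M ∣ N) {ℓ : ℕ} (hℓ : ℓ.Prime)

include hMN hℓ

theorem balRep_det (i : Option (ZMod ℓ)) (hℓM : i = none → ¬ ℓ ∣ M) : (balRep N χ ℓ i).det = ℓ := by
  obtain ⟨g, hg, -⟩ := exists_balRep (χ := χ) hMN hℓ i hℓM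
  rw [hg, Matrix.det_mul, (g : SL(2, ℤ)).det_coe, one_mul, det_tRepZ]

theorem balRep_dvd (i : Option (ZMod ℓ)) (hℓM : i = none → ¬ ℓ ∣ M) : (N : ℤ) ∣ balRep N χ ℓ i 1 0 := by
  obtain ⟨g, hg, -⟩ := exists_balRep (χ := χ) hMN hℓ i hℓM
  rw [hg]
  exact dvd_mul_apply_one_zero (mem_gamma0_iff.mp g.2) (by rw [tRepZ_apply_one_zero]; exact dvd_zero _)

theorem balRep_cover {X : Matrix (Fin 2) (Fin 2) ℤ} (hX : Bal χ X)
    {k : Option (ZMod ℓ)} (hℓM : k = none → ¬ ℓ ∣ M) {δ : Gamma0 N} (h : X = matSL (δ : SL(2, ℤ)) * tRepZ ℓ k) :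
    ∃ δ' : gammaH N χ, X = matSL (δ' : SL(2, ℤ)) * balRep N χ ℓ k := by
  obtain ⟨g, hg, hbal⟩ := exists_balRep (χ := χ) hMN hℓ k hℓM
  refine exists_gammaH_eq hX hbal (δ := δ * g⁻¹) ?_
  rw [h, hg, Subgroup.coe_mul, Subgroup.coe_inv, matSL_mul, Matrix.mul_assoc, matSL_inv_mul_cancel]

theorem balRep_split {X Y : Matrix (Fin 2) (Fin 2) ℤ} {k : Option (ZMod ℓ)}
    (hℓM : k = none → ¬ ℓ ∣ M) (h : X = Y * tRepZ ℓ k) : ∃ Y', X = Y' * balRep N χ ℓ k := by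
  obtain ⟨g, hg, -⟩ := exists_balRep (χ := χ) hMN hℓ k hℓM
  exact ⟨Y * matSL ((g : SL(2, ℤ))⁻¹), by
    rw [h, hg, Matrix.mul_assoc, matSL_inv_mul_cancel]⟩

theorem balRep_eq_of_smul {c : ℤ} (hc : ¬ (ℓ : ℤ) ∣ c) {i j : Option (ZMod ℓ)}
    (hi : i = none → ¬ ℓ ∣ M) (hj : j = none → ¬ ℓ ∣ M) {Z : Matrix (Fin 2) (Fin 2) ℤ} (h : c • balRep N χ ℓ i = Z * balRep N χ ℓ j) : i = j := by
  have : Fact ℓ.Prime := ⟨hℓ⟩
  obtain ⟨g, hg, -⟩ := exists_balRep (χ := χ) hMN hℓ i hi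
  obtain ⟨g', hg', -⟩ := exists_balRep (χ := χ) hMN hℓ j hj
  refine tRepZ_eq_of_smul (Z := matSL ((g : SL(2, ℤ))⁻¹) * (Z * matSL (g' : SL(2, ℤ)))) hc ?_
  rw [hg, hg', ← Matrix.mul_assoc] at h
  rw [Matrix.mul_assoc, ← h, Matrix.mul_smul, matSL_inv_mul_cancel]

omit hℓ in
/-- The representatives of `T ℓ`. -/
theorem opFam_T (hℓ : ℓ.Prime) (hℓN : ¬ ℓ ∣ N) : OpFam N χ ℓ (balRep N χ ℓ) := by
  have hℓM : ¬ ℓ ∣ M := fun h => hℓN (h.trans hMN)
  have : Fact ℓ.Prime := ⟨hℓ⟩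
  refine ⟨fun i => balRep_det hMN hℓ i fun _ => hℓM, fun i => balRep_dvd hMN hℓ i fun _ => hℓM, ?_,
    fun i => (exists_balRep hMN hℓ i fun _ => hℓM).choose_spec.2, ?_, ?_,
    fun c i j Z hc h => balRep_eq_of_smul hMN hℓ hc (fun _ => hℓM) (fun _ => hℓM) h⟩
  · intro i
    obtain ⟨g, hg, -⟩ := exists_balRep (χ := χ) hMN hℓ i fun _ => hℓM
    rw [hg, isCoprime_mul_apply_zero_zero (by rw [tRepZ_apply_one_zero]; exact dvd_zero _)]
    refine ⟨isCoprime_gamma0_zero_zero g.2, ?_⟩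
    rcases i with _ | j
    · exact Nat.isCoprime_iff_coprime.mpr ((hℓ.coprime_iff_not_dvd).mpr hℓN)
    · exact isCoprime_one_left
  · intro X hdet hX0 _ hX
    obtain ⟨k, δ, h⟩ := exists_eq_mul_tRepZ hℓ hℓN X hdet hX0
    exact ⟨k, balRep_cover hMN hℓ hX (fun _ => hℓM) h⟩
  · intro X hdet _
    obtain ⟨k, Y, h, -⟩ := exists_eq_mul_tRepZ_right X hdet
    exact ⟨k, balRep_split hMN hℓ (fun _ => hℓM) h⟩

omit hℓ in
/-- The representatives of `U q`. -/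
theorem opFam_U {q : ℕ} (hq : q.Prime) (hqN : q ∣ N) :
    OpFam N χ q (fun j : ZMod q => balRep N χ q (some j)) := by
  have : Fact q.Prime := ⟨hq⟩
  have hP : ∀ X : Matrix (Fin 2) (Fin 2) ℤ, IsCoprime (X 0 0) (N : ℤ) → ¬ (q : ℤ) ∣ X 0 0 :=
    fun X hX hd => (Nat.prime_iff_prime_int.mp hq).not_isUnit
      (hX.isUnit_of_dvd' hd (Int.natCast_dvd_natCast.mpr hqN))
  have hs : ∀ j : ZMod q, some j = none → ¬ q ∣ M := fun _ h => absurd h (Option.some_ne_none _)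
  refine ⟨fun j => balRep_det hMN hq _ (hs j), fun j => balRep_dvd hMN hq _ (hs j), ?_,
    fun j => (exists_balRep hMN hq _ (hs j)).choose_spec.2, ?_, ?_,
    fun c i j Z hc h => Option.some_injective _ (balRep_eq_of_smul hMN hq hc (hs i) (hs j) h)⟩
  · intro j
    obtain ⟨g, hg, -⟩ := exists_balRep (χ := χ) hMN hq (some j) (hs j)
    rw [hg, isCoprime_mul_apply_zero_zero (by rw [tRepZ_apply_one_zero]; exact dvd_zero _)]
    exact ⟨isCoprime_gamma0_zero_zero g.2, isCoprime_one_left⟩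
  · intro X hdet hX0 hP' hX
    obtain ⟨k, Y, h, hk⟩ := exists_eq_mul_tRepZ_right X ⟨1, by rw [hdet, mul_one]⟩
    rcases k with _ | j
    · exact absurd (hk rfl) (hP X hP')
    have hY : Y.det = 1 := by
      have := congrArg Matrix.det h
      rw [Matrix.det_mul, det_tRepZ, hdet] at this
      exact (mul_eq_right₀ (by exact_mod_cast hq.ne_zero)).mp this.symm
    have hY0 : Y 1 0 = X 1 0 := by
      rw [h]; simp [tRepZ, Matrix.mul_apply, Fin.sum_univ_two]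
    exact ⟨j, balRep_cover hMN hq hX (hs j) (δ := ⟨⟨Y, hY⟩, mem_gamma0_iff.mpr
      (by show (N : ℤ) ∣ Y 1 0; rw [hY0]; exact hX0)⟩) h⟩
  · intro X hdet hP'
    obtain ⟨k, Y, h, hk⟩ := exists_eq_mul_tRepZ_right X hdet
    rcases k with _ | j
    · exact absurd (hk rfl) (hP X hP')
    exact ⟨j, balRep_split hMN hq (hs j) h⟩

end Standard

end FLTAgent.RT
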