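import Fermat.Agent.RT.Coh.Eisenstein
import Fermat.Agent.RT.Coh.Degeneracy

/-!
# The operator at a prime, whether or not it divides the level

`opP` is `T ℓ` for a prime `ℓ` not dividing the level and `U ℓ` otherwise. All `opP` commute with
one another, with the diamonds, and with the maps between levels which keep the kind of the prime.
-/

set_option autoImplicit false

noncomputable section

namespace FLTAgent.RT

open LevelRaise CongruenceSubgroup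
open scoped MatrixGroups

variable {M N : ℕ} {D : Type*} [CommGroup D] {χ : (ZMod M)ˣ →* D} (R : Type*) [CommRing R]
  (A : Type*) [AddCommGroup A] [Module R A] [Fact (Odd (Nat.card D))] [NeZero N]

/-- The operator at the prime `ℓ`. -/
def opP (χ : (ZMod M)ˣ →* D) (hMN : M ∣ N) {ℓ : ℕ} (hℓ : ℓ.Prime) :
    Module.End R (Coh N χ A) :=
  if h : ℓ ∣ N then opU R A χ hMN hℓ h else opT R A χ hMN hℓ h

theorem opP_of_dvd (hMN : M ∣ N) {ℓ : ℕ} (hℓ : ℓ.Prime) (h : ℓ ∣ N) :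
    opP R A χ hMN hℓ = opU R A χ hMN hℓ h := dif_pos h

theorem opP_of_not_dvd (hMN : M ∣ N) {ℓ : ℕ} (hℓ : ℓ.Prime) (h : ¬ ℓ ∣ N) :
    opP R A χ hMN hℓ = opT R A χ hMN hℓ h := dif_neg h

theorem opP_comm (hMN : M ∣ N) {ℓ m : ℕ} (hℓ : ℓ.Prime) (hm : m.Prime) :
    Commute (opP R A χ hMN hℓ) (opP R A χ hMN hm) := by
  by_cases h : ℓ ∣ N <;> by_cases h' : m ∣ N
  · rw [opP_of_dvd (χ := χ) R A hMN hℓ h, opP_of_dvd (χ := χ) R A hMN hm h']; exact opU_comm (χ := χ) (R := R) (A := A) hMN hℓ h hm h'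
  · rw [opP_of_dvd (χ := χ) R A hMN hℓ h, opP_of_not_dvd (χ := χ) R A hMN hm h']
    exact (opT_opU_comm (χ := χ) (R := R) (A := A) hMN hm h' hℓ h).symm
  · rw [opP_of_not_dvd (χ := χ) R A hMN hℓ h, opP_of_dvd (χ := χ) R A hMN hm h']
    exact opT_opU_comm (χ := χ) (R := R) (A := A) hMN hℓ h hm h'
  · rw [opP_of_not_dvd (χ := χ) R A hMN hℓ h, opP_of_not_dvd (χ := χ) R A hMN hm h']
    exact opT_comm (χ := χ) (R := R) (A := A) hMN hℓ h hm h'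

theorem diamond_opP_comm (hMN : M ∣ N) (hχ : Function.Surjective χ) (δ : D) {ℓ : ℕ}
    (hℓ : ℓ.Prime) : Commute (diamond R A χ hMN hχ δ) (opP R A χ hMN hℓ) := by
  by_cases h : ℓ ∣ N
  · rw [opP_of_dvd (χ := χ) R A hMN hℓ h]; exact diamond_opU_comm (χ := χ) (R := R) (A := A) hMN hχ δ hℓ h
  · rw [opP_of_not_dvd (χ := χ) R A hMN hℓ h]; exact diamond_opT_comm (χ := χ) (R := R) (A := A) hMN hχ δ hℓ h

variable {R A}

theorem resB_opP {N' : ℕ} [NeZero N'] (hMN : M ∣ N) (hN : N ∣ N') {ℓ : ℕ} (hℓ : ℓ.Prime)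
    (hkind : ℓ ∣ N' → ℓ ∣ N) (φ : Coh N χ A) :
    opP R A χ (hMN.trans hN) hℓ (resB R χ hN φ) = resB R χ hN (opP R A χ hMN hℓ φ) := by
  by_cases h : ℓ ∣ N
  · rw [opP_of_dvd (χ := χ) R A _ hℓ h, opP_of_dvd (χ := χ) R A _ hℓ (h.trans hN)]
    exact resB_opU R hMN hN hℓ h φ
  · rw [opP_of_not_dvd (χ := χ) R A _ hℓ h, opP_of_not_dvd (χ := χ) R A _ hℓ fun h' => h (hkind h')]
    exact resB_opT R hMN hN hℓ (fun h' => h (hkind h')) φ

section Degeneracy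

variable {q : ℕ} [NeZero q] (W : WData N q)

theorem coresB_opP [NeZero (N * q)] (hMN : M ∣ N) {ℓ : ℕ} (hℓ : ℓ.Prime) (hℓq : ℓ ≠ q)
    (φ : Coh (N * q) χ A) :
    coresB R W χ hMN (opP R A χ (hMN.trans (dvd_mul_right N q)) hℓ φ) =
      opP R A χ hMN hℓ (coresB R W χ hMN φ) := by
  by_cases h : ℓ ∣ N
  · rw [opP_of_dvd (χ := χ) R A hMN hℓ h, opP_of_dvd (χ := χ) R A _ hℓ (h.trans (dvd_mul_right N q))]
    exact coresB_opU R W hMN hℓ h φ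
  · have h' : ¬ ℓ ∣ N * q := fun h' => (hℓ.dvd_mul.mp h').elim h
      fun hq => hℓq ((Nat.prime_dvd_prime_iff_eq hℓ W.prime).mp hq)
    rw [opP_of_not_dvd (χ := χ) R A hMN hℓ h, opP_of_not_dvd (χ := χ) R A _ hℓ h']
    exact coresB_opT R W hMN hℓ h' φ

theorem opW_opP [NeZero (N * q)] (hMN : M ∣ N) {ℓ : ℕ} (hℓ : ℓ.Prime) (hℓq : ℓ ≠ q) :
    Commute (opW (A := A) R W χ hMN) (opP R A χ (hMN.trans (dvd_mul_right N q)) hℓ) := by
  by_cases h : ℓ ∣ N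
  · rw [opP_of_dvd (χ := χ) R A _ hℓ (h.trans (dvd_mul_right N q))]
    exact opW_opU R W hMN hℓ h
  · have h' : ¬ ℓ ∣ N * q := fun h' => (hℓ.dvd_mul.mp h').elim h
      fun hq => hℓq ((Nat.prime_dvd_prime_iff_eq hℓ W.prime).mp hq)
    rw [opP_of_not_dvd (χ := χ) R A _ hℓ h']
    exact opW_opT R W hMN hℓ h'

end Degeneracy

section Triv

theorem resC_opP (hMN : M ∣ N) {ℓ : ℕ} (hℓ : ℓ.Prime) (φ : Coh N trivChar A) :
    opP R A χ hMN hℓ (resC R (dvd_refl N) (fun _ h => h.toTriv) φ) =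
      resC R (dvd_refl N) (fun _ h => h.toTriv) (opP R A trivChar (one_dvd N) hℓ φ) := by
  have : NeZero ℓ := ⟨hℓ.ne_zero⟩
  by_cases h : ℓ ∣ N
  · rw [opP_of_dvd R A _ hℓ h, opP_of_dvd R A _ hℓ h]
    exact (opFam_U (one_dvd N) hℓ h).comm_resC (opFam_U hMN hℓ h) hℓ (dvd_refl N)
      (fun _ h => h.toTriv) rfl φ
  · rw [opP_of_not_dvd R A _ hℓ h, opP_of_not_dvd R A _ hℓ h]
    exact (opFam_T (one_dvd N) hℓ h).comm_resC (opFam_T hMN hℓ h) hℓ (dvd_refl N)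
      (fun _ h => h.toTriv) rfl φ

theorem coresC_opP [Fintype D] (hMN : M ∣ N) (hχ : Function.Surjective χ) {ℓ : ℕ} (hℓ : ℓ.Prime)
    (φ : Coh N χ A) :
    opP R A trivChar (one_dvd N) hℓ (coresC R χ hMN hχ φ) =
      coresC R χ hMN hχ (opP R A χ hMN hℓ φ) := by
  have : NeZero ℓ := ⟨hℓ.ne_zero⟩
  by_cases h : ℓ ∣ N
  · rw [opP_of_dvd R A _ hℓ h, opP_of_dvd R A _ hℓ h]
    exact (opFam_U (one_dvd N) hℓ h).comm_coresC (opFam_U hMN hℓ h) hℓ hMN hχ rfl φ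
  · rw [opP_of_not_dvd R A _ hℓ h, opP_of_not_dvd R A _ hℓ h]
    exact (opFam_T (one_dvd N) hℓ h).comm_coresC (opFam_T hMN hℓ h) hℓ hMN hχ rfl φ

end Triv

end FLTAgent.RT
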