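import Fermat.Agent.RT.Coh.OpFam

/-!
# The operators `T ℓ`, `U q` and the diamonds on homomorphisms of `gammaH N χ`
-/

set_option autoImplicit false

noncomputable section

namespace FLTAgent.RT

open LevelRaise CongruenceSubgroup
open scoped MatrixGroups

variable {M N : ℕ} {D : Type*} [CommGroup D] {χ : (ZMod M)ˣ →* D}

/-- Homomorphisms on `gammaH N χ`. -/
abbrev Coh (N : ℕ) (χ : (ZMod M)ˣ →* D) (A : Type*) [AddCommGroup A] : Type _ :=
  Additive (gammaH N χ) →+ A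

variable (R : Type*) [CommRing R] (A : Type*) [AddCommGroup A] [Module R A]
  [Fact (Odd (Nat.card D))] [NeZero N]

/-- The normalised operator `T ℓ`. -/
def opT (χ : (ZMod M)ˣ →* D) (hMN : M ∣ N) {ℓ : ℕ} (hℓ : ℓ.Prime) (hℓN : ¬ ℓ ∣ N) :
    Module.End R (Coh N χ A) :=
  haveI : NeZero ℓ := ⟨hℓ.ne_zero⟩
  famTransferL R ((opFam_T hMN hℓ hℓN).isFam hℓ)

/-- The normalised operator `U q`. -/
def opU (χ : (ZMod M)ˣ →* D) (hMN : M ∣ N) {q : ℕ} (hq : q.Prime) (hqN : q ∣ N) :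
    Module.End R (Coh N χ A) :=
  haveI : NeZero q := ⟨hq.ne_zero⟩
  famTransferL R ((opFam_U hMN hq hqN).isFam hq)

variable {R A}

theorem opT_apply (hMN : M ∣ N) {ℓ : ℕ} [NeZero ℓ] (hℓ : ℓ.Prime) (hℓN : ¬ ℓ ∣ N)
    (φ : Coh N χ A) :
    opT R A χ hMN hℓ hℓN φ = famTransfer ((opFam_T hMN hℓ hℓN).isFam hℓ) φ := rfl

theorem opU_apply (hMN : M ∣ N) {q : ℕ} [NeZero q] (hq : q.Prime) (hqN : q ∣ N)
    (φ : Coh N χ A) :
    opU R A χ hMN hq hqN φ = famTransfer ((opFam_U hMN hq hqN).isFam hq) φ := rfl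

theorem opT_comm (hMN : M ∣ N) {ℓ m : ℕ} (hℓ : ℓ.Prime) (hℓN : ¬ ℓ ∣ N) (hm : m.Prime)
    (hmN : ¬ m ∣ N) : Commute (opT R A χ hMN hℓ hℓN) (opT R A χ hMN hm hmN) := by
  by_cases h : ℓ = m
  · subst h; exact Commute.refl _
  have : NeZero ℓ := ⟨hℓ.ne_zero⟩
  have : NeZero m := ⟨hm.ne_zero⟩
  exact LinearMap.ext fun φ => (opFam_T hMN hℓ hℓN).comm (opFam_T hMN hm hmN) hℓ hm h φ

theorem opT_opU_comm (hMN : M ∣ N) {ℓ q : ℕ} (hℓ : ℓ.Prime) (hℓN : ¬ ℓ ∣ N) (hq : q.Prime)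
    (hqN : q ∣ N) :
    Commute (opT R A χ hMN hℓ hℓN) (opU R A χ hMN hq hqN) := by
  have : NeZero ℓ := ⟨hℓ.ne_zero⟩
  have : NeZero q := ⟨hq.ne_zero⟩
  exact LinearMap.ext fun φ => (opFam_T hMN hℓ hℓN).comm (opFam_U hMN hq hqN) hℓ hq
    (fun h => hℓN (h ▸ hqN)) φ

theorem opU_comm (hMN : M ∣ N) {q r : ℕ} (hq : q.Prime) (hqN : q ∣ N)
    (hr : r.Prime) (hrN : r ∣ N) :
    Commute (opU R A χ hMN hq hqN) (opU R A χ hMN hr hrN) := by
  by_cases h : q = r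
  · subst h; exact Commute.refl _
  have : NeZero q := ⟨hq.ne_zero⟩
  have : NeZero r := ⟨hr.ne_zero⟩
  exact LinearMap.ext fun φ => (opFam_U hMN hq hqN).comm (opFam_U hMN hr hrN) hq hr h φ

/-- The lower right entry modulo `M` of an element of `Γ₀(N)`. -/
def dUnit (hMN : M ∣ N) : Gamma0 N →* (ZMod M)ˣ :=
  MonoidHom.toHomUnits
    { toFun := fun γ => ((matSL (γ : SL(2, ℤ)) 1 1 : ℤ) : ZMod M)
      map_one' := by simp [matSL]
      map_mul' := fun γ δ => by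
        rw [Subgroup.coe_mul, matSL_mul]
        exact cast_mul_apply_one_one
          ((Int.natCast_dvd_natCast.mpr hMN).trans (mem_gamma0_iff.mp γ.2)) }

omit [Fact (Odd (Nat.card D))] [NeZero N] in
theorem coe_dUnit (hMN : M ∣ N) (γ : Gamma0 N) :
    (dUnit hMN γ : ZMod M) = matSL (γ : SL(2, ℤ)) 1 1 := rfl

omit [Fact (Odd (Nat.card D))] [NeZero N] in
theorem coe_dUnit_inv (hMN : M ∣ N) (γ : Gamma0 N) :
    (((dUnit hMN γ)⁻¹ : (ZMod M)ˣ) : ZMod M) = matSL (γ : SL(2, ℤ)) 0 0 := by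
  refine (Units.eq_inv_of_mul_eq_one_left ?_).symm
  have hdet := congrArg (fun z : ℤ => (z : ZMod M)) (det_matSL (γ : SL(2, ℤ)))
  push_cast at hdet
  rw [(ZMod.intCast_zmod_eq_zero_iff_dvd _ M).mpr
    ((Int.natCast_dvd_natCast.mpr hMN).trans (mem_gamma0_iff.mp γ.2)), mul_zero, sub_zero] at hdet
  rw [coe_dUnit, mul_comm]
  exact hdet

omit [NeZero N] in
theorem mem_gammaH_iff_dUnit (hMN : M ∣ N) (γ : Gamma0 N) :
    (γ : SL(2, ℤ)) ∈ gammaH N χ ↔ χ (dUnit hMN γ) = 1 := by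
  rw [mem_gammaH_iff hMN γ.2]
  refine ⟨fun h => h _ rfl, fun h v hv => ?_⟩
  rw [show v = dUnit hMN γ from Units.ext hv]; exact h

omit [NeZero N] in
/-- `gammaH N χ` is normal in `Γ₀(N)`. -/
theorem conj_mem_gammaH (hMN : M ∣ N) (g : Gamma0 N) {γ : SL(2, ℤ)} (hγ : γ ∈ gammaH N χ) :
    (g : SL(2, ℤ)) * γ * (g : SL(2, ℤ))⁻¹ ∈ gammaH N χ := by
  have h : ((g * ⟨γ, hγ.1⟩ * g⁻¹ : Gamma0 N) : SL(2, ℤ)) ∈ gammaH N χ := by
    rw [mem_gammaH_iff_dUnit hMN, map_mul, map_mul, map_inv, map_mul, map_mul, map_inv,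
      mul_inv_eq_one, mul_eq_left]
    exact (mem_gammaH_iff_dUnit hMN ⟨γ, hγ.1⟩).mp hγ
  exact h

omit [NeZero N] in
theorem isFam_gamma0 (hMN : M ∣ N) (g : Gamma0 N) :
    IsFam (gammaH N χ) (gammaH N χ) (fun _ : Unit => matSL (g : SL(2, ℤ))) := by
  refine ⟨fun _ => by rw [(g : SL(2, ℤ)).det_coe]; exact one_ne_zero, fun γ hγ => ?_⟩
  have h : ((g * ⟨γ, hγ.1⟩ * g⁻¹ : Gamma0 N) : SL(2, ℤ)) ∈ gammaH N χ := by
    rw [mem_gammaH_iff_dUnit hMN, map_mul, map_mul, map_inv, map_mul, map_mul, map_inv,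
      mul_inv_eq_one, mul_eq_left]
    exact (mem_gammaH_iff_dUnit hMN ⟨γ, hγ.1⟩).mp hγ
  refine ⟨1, fun _ => ⟨_, h⟩, fun _ => ?_⟩
  simp only [Subgroup.coe_mul, Subgroup.coe_inv]
  rw [← matSL_mul, ← matSL_mul, inv_mul_cancel_right]

variable (R A) in
/-- The diamond of an element of `Γ₀(N)`. -/
def diamondAt (χ : (ZMod M)ˣ →* D) (hMN : M ∣ N) (g : Gamma0 N) : Module.End R (Coh N χ A) :=
  famTransferL R (isFam_gamma0 hMN g)

omit [NeZero N] in
theorem diamondAt_apply_apply (hMN : M ∣ N) (g : Gamma0 N) (φ : Coh N χ A) (γ : gammaH N χ)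
    {δ : gammaH N χ} (h : (δ : SL(2, ℤ)) = g * γ * (g : SL(2, ℤ))⁻¹) :
    diamondAt R A χ hMN g φ (Additive.ofMul γ) = φ (Additive.ofMul δ) := by
  rw [diamondAt, famTransferL_apply, famTransfer_apply _ φ γ (σ := 1) (δ := fun _ => δ)]
  · simp
  · intro _
    rw [Equiv.Perm.one_apply, h, ← matSL_mul, ← matSL_mul, inv_mul_cancel_right]

omit [NeZero N] in
theorem diamondAt_eq (hMN : M ∣ N) {g g' : Gamma0 N}
    (h : χ (dUnit hMN g) = χ (dUnit hMN g')) :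
    diamondAt R A χ hMN g = diamondAt R A χ hMN g' := by
  refine LinearMap.ext fun φ => ?_
  refine famTransfer_congr (isFam_gamma0 hMN g') (isFam_gamma0 hMN g) (Equiv.refl Unit)
    (fun _ => ⟨((g * g'⁻¹ : Gamma0 N) : SL(2, ℤ)), ?_⟩) (fun _ => ?_) φ
  · rw [mem_gammaH_iff_dUnit hMN, map_mul, map_mul, map_inv, map_inv, h, mul_inv_cancel]
  · show matSL (g : SL(2, ℤ)) = matSL _ * matSL (g' : SL(2, ℤ))
    rw [← matSL_mul, Subgroup.coe_mul, Subgroup.coe_inv, inv_mul_cancel_right]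

omit [NeZero N] in
theorem diamondAt_one (hMN : M ∣ N) : diamondAt R A χ hMN 1 = 1 := by
  refine LinearMap.ext fun φ => AddMonoidHom.ext fun γ => ?_
  obtain ⟨γ, rfl⟩ := Additive.ofMul.surjective γ
  rw [diamondAt_apply_apply hMN 1 φ γ (δ := γ) (by simp)]
  rfl

omit [NeZero N] in
theorem diamondAt_mul (hMN : M ∣ N) (g h : Gamma0 N) :
    diamondAt R A χ hMN (g * h) = diamondAt R A χ hMN h * diamondAt R A χ hMN g := by
  refine LinearMap.ext fun φ => ?_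
  refine Eq.trans ?_ (famTransfer_comp (isFam_gamma0 hMN g) (isFam_gamma0 hMN h) φ).symm
  exact famTransfer_congr ((isFam_gamma0 hMN g).mul (isFam_gamma0 hMN h)) (isFam_gamma0 hMN (g * h))
    (Equiv.punitProd Unit) (fun _ => 1) (fun _ => by
    show matSL ((g * h : Gamma0 N) : SL(2, ℤ)) = _
    rw [Subgroup.coe_one, matSL_one, Matrix.one_mul, Subgroup.coe_mul, matSL_mul]
    rfl) φ

omit [Fact (Odd (Nat.card D))] in
theorem exists_dUnit_eq (hMN : M ∣ N) (hχ : Function.Surjective χ) (δ : D) :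
    ∃ g : Gamma0 N, χ (dUnit hMN g) = δ := by
  obtain ⟨u, rfl⟩ := hχ δ
  obtain ⟨g, hg, -⟩ := exists_gamma0_of_unit hMN u
  exact ⟨g, congrArg χ (Units.ext (by rw [coe_dUnit]; exact hg))⟩

variable (R A) in
/-- The diamond action of `D`. -/
def diamond (χ : (ZMod M)ˣ →* D) (hMN : M ∣ N) (hχ : Function.Surjective χ) :
    D →* Module.End R (Coh N χ A) where
  toFun δ := diamondAt R A χ hMN (exists_dUnit_eq hMN hχ δ).choose
  map_one' := by
    rw [← diamondAt_one hMN]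
    refine diamondAt_eq hMN ?_
    rw [(exists_dUnit_eq hMN hχ 1).choose_spec, map_one, map_one]
  map_mul' δ ε := by
    rw [← diamondAt_mul]
    refine diamondAt_eq hMN ?_
    rw [(exists_dUnit_eq hMN hχ (δ * ε)).choose_spec, map_mul, map_mul,
      (exists_dUnit_eq hMN hχ ε).choose_spec, (exists_dUnit_eq hMN hχ δ).choose_spec, mul_comm]

theorem diamond_apply (hMN : M ∣ N) (hχ : Function.Surjective χ) {g : Gamma0 N} {δ : D}
    (h : χ (dUnit hMN g) = δ) : diamond R A χ hMN hχ δ = diamondAt R A χ hMN g :=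
  diamondAt_eq hMN ((exists_dUnit_eq hMN hχ δ).choose_spec.trans h.symm)

omit [NeZero N] in
/-- Diamonds commute with the operators. -/
theorem OpFam.comm_diamondAt {m : ℕ} {ι : Type*} [Fintype ι] {η : ι → Matrix (Fin 2) (Fin 2) ℤ}
    (hη : OpFam N χ m η) (hm : m.Prime) (hMN : M ∣ N) (g : Gamma0 N) (φ : Coh N χ A) :
    famTransfer (hη.isFam hm) (famTransfer (isFam_gamma0 hMN g) φ) =
      famTransfer (isFam_gamma0 hMN g) (famTransfer (hη.isFam hm) φ) := by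
  refine famTransfer_comm_of_cover _ _ _ _ ?_ (by simp) (fun _ i => ?_) φ
  · rintro ⟨_, i⟩ ⟨_, j⟩ δ h
    refine Prod.ext rfl (hη.distinct hm i j
      (((g : SL(2, ℤ)))⁻¹ * (δ * (g : SL(2, ℤ)))) ?_)
    have h2 := congrArg (matSL ((g : SL(2, ℤ))⁻¹) * ·) h
    simp only [famMul, matSL_inv_mul_cancel] at h2
    rw [h2, matSL_mul, matSL_mul]
    simp only [Matrix.mul_assoc]
  · set X := matSL (g : SL(2, ℤ)) * η i * matSL ((g : SL(2, ℤ))⁻¹) with hX
    have hg : ∀ x : Gamma0 N, (M : ℤ) ∣ matSL (x : SL(2, ℤ)) 1 0 := fun x =>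
      (Int.natCast_dvd_natCast.mpr hMN).trans (mem_gamma0_iff.mp x.2)
    have hg' : (N : ℤ) ∣ matSL ((g : SL(2, ℤ))⁻¹) 1 0 := mem_gamma0_iff.mp (g⁻¹).2
    have hgi : (N : ℤ) ∣ (matSL (g : SL(2, ℤ)) * η i) 1 0 :=
      dvd_mul_apply_one_zero (mem_gamma0_iff.mp g.2) (hη.dvd i)
    have hgiM := (Int.natCast_dvd_natCast.mpr hMN).trans hgi
    have hbal : Bal χ X := by
      obtain ⟨h0, -, u, hu, hu2⟩ := hη.bal i
      refine ⟨(Int.natCast_dvd_natCast.mpr hMN).trans (dvd_mul_apply_one_zero hgi hg'),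
        by rw [hX, Matrix.det_mul, Matrix.det_mul, Matrix.SpecialLinearGroup.det_coe,
          Matrix.SpecialLinearGroup.det_coe, one_mul, mul_one, hη.det_eq]
           exact_mod_cast hm.ne_zero, u, ?_, ?_⟩
      · have e1 := coe_dUnit_inv hMN g
        have e2 : ((matSL ((g : SL(2, ℤ))⁻¹) 0 0 : ℤ) : ZMod M) = (dUnit hMN g : ZMod M) := by
          have := coe_dUnit_inv hMN g⁻¹
          rw [map_inv, inv_inv] at this
          rw [Subgroup.coe_inv] at this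
          exact this.symm
        rw [hX, cast_mul_apply_zero_zero ((Int.natCast_dvd_natCast.mpr hMN).trans hg'), cast_mul_apply_zero_zero h0, ← e1, e2, ← hu,
          mul_right_comm, Units.inv_mul, one_mul]
      · rw [hu2, hX, Matrix.det_mul, Matrix.det_mul, Matrix.SpecialLinearGroup.det_coe,
          Matrix.SpecialLinearGroup.det_coe, one_mul, mul_one]
    have hdet : X.det = m := by
      rw [hX, Matrix.det_mul, Matrix.det_mul, Matrix.SpecialLinearGroup.det_coe,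
        Matrix.SpecialLinearGroup.det_coe, hη.det_eq, one_mul, mul_one]
    obtain ⟨j, δ, hj⟩ := hη.cover X hdet (dvd_mul_apply_one_zero hgi hg')
      ((isCoprime_mul_apply_zero_zero hg').mpr
        ⟨(isCoprime_mul_apply_zero_zero (hη.dvd i)).mpr
          ⟨isCoprime_gamma0_zero_zero g.2, hη.coprime i⟩, isCoprime_gamma0_zero_zero (g⁻¹).2⟩) hbal
    refine ⟨j, (), δ, ?_⟩
    rw [← Matrix.mul_assoc, ← hj, hX, Matrix.mul_assoc _ (matSL ((g : SL(2, ℤ))⁻¹)), ← matSL_mul,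
      inv_mul_cancel, matSL_one, Matrix.mul_one]

theorem diamond_opT_comm (hMN : M ∣ N) (hχ : Function.Surjective χ) (δ : D) {ℓ : ℕ} (hℓ : ℓ.Prime)
    (hℓN : ¬ ℓ ∣ N) : Commute (diamond R A χ hMN hχ δ) (opT R A χ hMN hℓ hℓN) := by
  have : NeZero ℓ := ⟨hℓ.ne_zero⟩
  exact LinearMap.ext fun φ => ((opFam_T hMN hℓ hℓN).comm_diamondAt hℓ hMN _ φ).symm

theorem diamond_opU_comm (hMN : M ∣ N) (hχ : Function.Surjective χ) (δ : D) {q : ℕ} (hq : q.Prime)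
    (hqN : q ∣ N) :
    Commute (diamond R A χ hMN hχ δ) (opU R A χ hMN hq hqN) := by
  have : NeZero q := ⟨hq.ne_zero⟩
  exact LinearMap.ext fun φ => ((opFam_U hMN hq hqN).comm_diamondAt hq hMN _ φ).symm

end FLTAgent.RT
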