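import Fermat.Agent.RT.Coh.CohPart
import Fermat.Agent.RT.Coh.Nilp

/-!
# Raising the level at a Taylor–Wiles prime

For `q ≡ 1` modulo the maximal ideal and residually distinct roots `α, β` of `X² - a_q X + 1`,
corestriction is an isomorphism from the part at level `L q` where `U q - α` is nilpotent onto the
part at level `L`, and the part at level `L q` consists of classes `res x + W res y`.
-/

set_option autoImplicit false

noncomputable section

namespace FLTAgent.RT

open LevelRaise CongruenceSubgroup IsLocalRing Polynomial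
open scoped MatrixGroups

variable {M L q : ℕ} {D : Type*} [CommGroup D] {χ : (ZMod M)ˣ →* D} [Fact (Odd (Nat.card D))]
  [NeZero L] [NeZero q] (W : WData L q) (hML : M ∣ L)

theorem commute_aeval {S : Type*} [CommRing S] {E : Type*} [AddCommGroup E] [Module S E]
    {e X : Module.End S E} (h : Commute e X) (p : S[X]) : Commute e (aeval X p) := by
  induction p using Polynomial.induction_on' with
  | add p q hp hq => rw [map_add]; exact hp.add_right hq
  | monomial n c =>
    rw [aeval_monomial, Algebra.algebraMap_eq_smul_one, smul_mul_assoc, one_mul]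
    exact (h.pow_right n).smul_right c

section Identities

variable {R : Type*} [CommRing R] {A : Type*} [AddCommGroup A] [Module R A]

/-- `U q` at the level `L q`. -/
abbrev opUq (R : Type*) [CommRing R] (A : Type*) [AddCommGroup A] [Module R A]
    (χ : (ZMod M)ˣ →* D) : Module.End R (Coh (L * q) χ A) :=
  opU R A χ (hML.trans (dvd_mul_right L q)) W.prime (dvd_mul_left q L)

/-- `T q` at the level `L`. -/
abbrev opTq (R : Type*) [CommRing R] (A : Type*) [AddCommGroup A] [Module R A]
    (χ : (ZMod M)ˣ →* D) : Module.End R (Coh L χ A) :=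
  opT R A χ hML W.prime W.not_dvd

theorem opUq_eq (φ : Coh (L * q) χ A) :
    opUq W hML R A χ φ =
      resB R χ (dvd_mul_right L q) (coresB R W χ hML (opW R W χ hML φ)) - opW R W χ hML φ := by
  rw [resB_coresB_opW R W hML φ, add_sub_cancel_left]

theorem coresB_opUq (φ : Coh (L * q) χ A) :
    coresB R W χ hML (opUq W hML R A χ φ) =
      (q : R) • coresB R W χ hML (opW R W χ hML φ) := by
  rw [opUq_eq, map_sub, coresB_resB R W hML, ← Nat.cast_smul_eq_nsmul R, Nat.cast_add,
    Nat.cast_one, add_smul, one_smul, add_sub_cancel_right]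

theorem coresB_opW_opUq (φ : Coh (L * q) χ A) :
    coresB R W χ hML (opW R W χ hML (opUq W hML R A χ φ)) =
      opTq W hML R A χ (coresB R W χ hML (opW R W χ hML φ)) - coresB R W χ hML φ := by
  rw [opUq_eq, map_sub, map_sub, coresB_opW_resB R W hML, opW_opW R W hML]

theorem opUq_resB (φ : Coh L χ A) :
    opUq W hML R A χ (resB R χ (dvd_mul_right L q) φ) =
      resB R χ (dvd_mul_right L q) (opTq W hML R A χ φ) -
        opW R W χ hML (resB R χ (dvd_mul_right L q) φ) := by
  rw [opUq_eq, coresB_opW_resB R W hML]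

theorem opUq_opW_resB (φ : Coh L χ A) :
    opUq W hML R A χ (opW R W χ hML (resB R χ (dvd_mul_right L q) φ)) =
      (q : R) • resB R χ (dvd_mul_right L q) φ := by
  rw [opUq_eq, opW_opW R W hML, coresB_resB R W hML, ← Nat.cast_smul_eq_nsmul R, map_smul,
    Nat.cast_add, Nat.cast_one, add_smul, one_smul, add_sub_cancel_right]

theorem opTq_coresB_opUq (φ : Coh (L * q) χ A) :
    opTq W hML R A χ (coresB R W χ hML (opUq W hML R A χ φ)) =
      coresB R W χ hML (opUq W hML R A χ (opUq W hML R A χ φ) + (q : R) • φ) := by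
  rw [coresB_opUq, map_smul, map_add, map_smul, coresB_opUq W hML (opUq W hML R A χ φ),
    coresB_opW_opUq, smul_sub, sub_add_cancel]

end Identities

variable {O : Type*} [CommRing O] [IsLocalRing O] [IsNoetherianRing O]
  [IsAdicComplete (maximalIdeal O) O] [Finite (ResidueField O)] {ι : Type*} {l : ι → ℕ}

/-- The hypotheses of the step at `q`: the index `i₀` of `q`, and the two residual roots. -/
structure TWHyp (l : ι → ℕ) (q : ℕ) (i₀ : ι) (a a' : ι → O) (α β : O) : Prop where
  eq_q : l i₀ = q
  uniq : ∀ i, l i = q → i = i₀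
  of_ne : ∀ i, i ≠ i₀ → a' i = a i
  eq_alpha : a' i₀ = α
  q_one : (q : O) - 1 ∈ maximalIdeal O
  add_mem : a i₀ - (α + β) ∈ maximalIdeal O
  mul_mem : α * β - 1 ∈ maximalIdeal O
  sep : IsUnit (α - β)

variable (hl : ∀ i, (l i).Prime) {i₀ : ι} {a a' : ι → O} {α β : O}
  (h : TWHyp l q i₀ a a' α β)

omit [IsNoetherianRing O] [IsAdicComplete (maximalIdeal O) O] [Finite (ResidueField O)] in
include W h in
theorem opP_eq_opUq :
    opP O O χ (hML.trans (dvd_mul_right L q)) (hl i₀) = opUq W hML O O χ := by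
  obtain rfl := h.eq_q
  exact opP_of_dvd (χ := χ) O O _ (hl i₀) (dvd_mul_left _ L)

omit [IsNoetherianRing O] [IsAdicComplete (maximalIdeal O) O] [Finite (ResidueField O)] in
include W h in
theorem opP_eq_opTq : opP O O χ hML (hl i₀) = opTq W hML O O χ := by
  obtain rfl := h.eq_q
  exact opP_of_not_dvd (χ := χ) O O _ (hl i₀) W.not_dvd

omit [IsNoetherianRing O] [IsAdicComplete (maximalIdeal O) O] [Finite (ResidueField O)] [NeZero q] in
include h in
theorem TWHyp.isUnit_alpha : IsUnit α := by
  have := h.mul_mem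
  by_contra hn
  have h1 : α * β ∈ maximalIdeal O := Ideal.mul_mem_right _ _ hn
  exact (maximalIdeal.isMaximal O).ne_top ((Ideal.eq_top_iff_one _).mpr
    (by simpa using sub_mem h1 this))

include h in
/-- The nilpotence of `U q - α` on the part at level `L q`. -/
theorem TWHyp.nil_U (n : ℕ) :
    ∃ k, ∀ φ, cohProj χ (hML.trans (dvd_mul_right L q)) hl a' φ = φ →
      ((opUq W hML O O χ - α • (1 : Module.End O (Coh (L * q) χ O))) ^ k) φ ∈
        maximalIdeal O ^ n • (⊤ : Submodule O (Coh (L * q) χ O)) := by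
  obtain ⟨k, hk⟩ := exists_pow_sub_mem_cohPart (χ := χ) (hML.trans (dvd_mul_right L q)) hl a' i₀ n
  rw [opP_eq_opUq W hML hl h, h.eq_alpha] at hk
  exact ⟨k, fun φ hφ => hk φ ((mem_cohPart_iff _ hl a').mpr hφ)⟩

include h in
/-- The nilpotence of `T q - a_q` on the part at level `L`. -/
theorem TWHyp.nil_T (n : ℕ) :
    ∃ k, ∀ φ, cohProj χ hML hl a φ = φ →
      ((opTq W hML O O χ - a i₀ • (1 : Module.End O (Coh L χ O))) ^ k) φ ∈
        maximalIdeal O ^ n • (⊤ : Submodule O (Coh L χ O)) := by
  obtain ⟨k, hk⟩ := exists_pow_sub_mem_cohPart (χ := χ) hML hl a i₀ n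
  rw [opP_eq_opTq W hML hl h] at hk
  exact ⟨k, fun φ hφ => hk φ ((mem_cohPart_iff _ hl a).mpr hφ)⟩

include h in
theorem TWHyp.commute_U :
    Commute (cohProj χ (hML.trans (dvd_mul_right L q)) hl a') (opUq W hML O O χ) := by
  rw [← opP_eq_opUq W hML hl h]
  exact (commute_cohProj _ hl a' fun i => opP_comm (χ := χ) O O _ (hl i₀) (hl i)).symm

include h in
theorem TWHyp.commute_T : Commute (cohProj χ hML hl a) (opTq W hML O O χ) := by
  rw [← opP_eq_opTq W hML hl h]
  exact (commute_cohProj _ hl a fun i => opP_comm (χ := χ) O O _ (hl i₀) (hl i)).symm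

include h in
/-- `cores` maps the part at level `L q` into the part at level `L`. -/
theorem coresB_mem_cohPart {y : Coh (L * q) χ O}
    (hy : y ∈ cohPart χ (hML.trans (dvd_mul_right L q)) hl a') :
    coresB O W χ hML y ∈ cohPart χ hML hl a := by
  set hMN := hML.trans (dvd_mul_right L q)
  have := moduleFinite_coh (χ := χ) O O hML
  have := moduleFinite_coh (χ := χ) O O hMN
  rw [mem_cohPart_iff]
  refine partProj_apply_of_nil _ _ fun n i => ?_
  rcases eq_or_ne i i₀ with e | hi
  · rw [e, opP_eq_opTq W hML hl h]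
    set E := opUq W hML O O χ
    set p : O[X] := Polynomial.X ^ 2 - C (a i₀) * Polynomial.X + C (q : O)
    have hp : p.eval α ∈ maximalIdeal O := by
      have : p.eval α = (α + β - a i₀) * α - (α * β - 1) + ((q : O) - 1) := by simp [p]; ring
      rw [this]
      refine add_mem (sub_mem (Ideal.mul_mem_right _ _ ?_) h.mul_mem) h.q_one
      rw [← neg_sub]; exact neg_mem h.add_mem
    obtain ⟨k, hk⟩ := exists_aeval_pow_mem (h.nil_U (χ := χ) W hML hl) hp n
    have hrec : ∀ j z, ((opTq W hML O O χ - a i₀ • (1 : Module.End O (Coh L χ O))) ^ j)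
        (coresB O W χ hML ((E ^ j) z)) = coresB O W χ hML ((aeval E p ^ j) z) := fun j => by
      induction j with
      | zero => simp
      | succ j ih =>
        intro z
        have e : aeval E p = E ^ 2 - a i₀ • E + (q : O) • 1 := by
          simp [p, Algebra.smul_def]
        have h1 : ∀ x, (opTq W hML O O χ - a i₀ • (1 : Module.End O (Coh L χ O)))
            (coresB O W χ hML (E x)) = coresB O W χ hML (aeval E p x) := fun x => by
          rw [LinearMap.sub_apply, LinearMap.smul_apply, Module.End.one_apply, opTq_coresB_opUq,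
            ← map_smul, ← map_sub, e]
          simp only [LinearMap.add_apply, LinearMap.sub_apply, LinearMap.smul_apply,
            Module.End.one_apply, pow_two, Module.End.mul_apply]
          congr 1
          abel
        have hEp : Commute (E ^ j) (aeval E p) := by
          simpa using (Commute.all (Polynomial.X ^ j : O[X]) p).map (aeval E)
        rw [pow_succ, Module.End.mul_apply, pow_succ' E, Module.End.mul_apply, h1,
          ← Module.End.mul_apply (aeval E p), ← hEp.eq, Module.End.mul_apply, ih,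
          pow_succ, Module.End.mul_apply]
    obtain ⟨z, hz, rfl⟩ := exists_aeval_eq (h.nil_U (χ := χ) W hML hl) (LinearMap.ext (cohProj_idem hMN hl a'))
      (h.commute_U (χ := χ) W hML hl) (p := Polynomial.X ^ k) (by simpa using h.isUnit_alpha.pow k)
      ((mem_cohPart_iff hMN hl a').mp hy)
    refine ⟨k, ?_⟩
    rw [map_pow, aeval_X, hrec]
    exact map_mem_pow_smul_top _ (hk z hz)
  · obtain ⟨k, hk⟩ := exists_pow_sub_mem_cohPart (χ := χ) hMN hl a' i n
    refine ⟨k, ?_⟩
    have hne : l i ≠ q := fun e => hi (h.uniq i e)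
    have hpow : ∀ j z, ((opP O O χ hML (hl i) - a i • (1 : Module.End O (Coh L χ O))) ^ j)
        (coresB O W χ hML z) =
          coresB O W χ hML (((opP O O χ hMN (hl i) - a' i • (1 : Module.End O (Coh (L * q) χ O))) ^ j) z) := by
      intro j
      induction j with
      | zero => simp
      | succ j ih =>
        intro z
        rw [pow_succ, Module.End.mul_apply, pow_succ, Module.End.mul_apply, ← ih]
        congr 1
        rw [LinearMap.sub_apply, LinearMap.sub_apply, LinearMap.smul_apply, LinearMap.smul_apply,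
          Module.End.one_apply, Module.End.one_apply, map_sub, map_smul,
          coresB_opP W hML (hl i) hne, h.of_ne i hi]
    rw [hpow]
    exact map_mem_pow_smul_top _ (hk y hy)

omit [IsNoetherianRing O] [IsAdicComplete (maximalIdeal O) O] [Finite (ResidueField O)] in
/-- The effect of a polynomial in `U q` on the two corestrictions of a class. -/
theorem exists_coords (f : O[X]) {U V : O[X]} {s t : O} (h : TWHyp l q i₀ a a' α β)
    (hU' : U.eval (a i₀) - (s + t) ∈ maximalIdeal O)
    (hV' : V.eval (a i₀) - (s * α + t * β) ∈ maximalIdeal O) :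
    ∃ U' V' : O[X],
      (∀ (y : Coh (L * q) χ O) (φ : Coh L χ O),
        coresB O W χ hML y = aeval (opTq W hML O O χ) U φ →
        coresB O W χ hML (opW O W χ hML y) = aeval (opTq W hML O O χ) V φ →
        coresB O W χ hML (aeval (opUq W hML O O χ) f y) = aeval (opTq W hML O O χ) U' φ ∧
        coresB O W χ hML (opW O W χ hML (aeval (opUq W hML O O χ) f y)) =
          aeval (opTq W hML O O χ) V' φ) ∧
      U'.eval (a i₀) - (s * f.eval α + t * f.eval β) ∈ maximalIdeal O ∧
      V'.eval (a i₀) - (s * α * f.eval α + t * β * f.eval β) ∈ maximalIdeal O := by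
  induction f using Polynomial.induction_on generalizing U V s t with
  | C c =>
    refine ⟨C c * U, C c * V, fun y φ hU hV => ⟨?_, ?_⟩, ?_, ?_⟩
    · rw [map_mul, aeval_C, aeval_C, Module.End.mul_apply, ← hU]
      simp [Algebra.algebraMap_eq_smul_one]
    · rw [map_mul, aeval_C, aeval_C, Module.End.mul_apply, ← hV]
      simp [Algebra.algebraMap_eq_smul_one]
    · rw [eval_mul, eval_C, eval_C, eval_C, show c * U.eval (a i₀) - (s * c + t * c) =
        c * (U.eval (a i₀) - (s + t)) by ring]
      exact Ideal.mul_mem_left _ c hU'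
    · rw [eval_mul, eval_C, eval_C, eval_C, show c * V.eval (a i₀) - (s * α * c + t * β * c) =
        c * (V.eval (a i₀) - (s * α + t * β)) by ring]
      exact Ideal.mul_mem_left _ c hV'
  | add f g hf hg =>
    obtain ⟨U₁, V₁, e₁, c₁, d₁⟩ := hf hU' hV'
    obtain ⟨U₂, V₂, e₂, c₂, d₂⟩ := hg hU' hV'
    refine ⟨U₁ + U₂, V₁ + V₂, fun y φ hU hV => ?_, ?_, ?_⟩
    · simp [(e₁ y φ hU hV).1, (e₂ y φ hU hV).1, (e₁ y φ hU hV).2, (e₂ y φ hU hV).2]
    · convert add_mem c₁ c₂ using 1; simp only [eval_add]; ring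
    · convert add_mem d₁ d₂ using 1; simp only [eval_add]; ring
  | monomial n c ih =>
    obtain ⟨U₁, V₁, e₁, c₁, d₁⟩ := ih (U := C (q : O) * V)
      (V := Polynomial.X * V - U) (s := s * α) (t := t * β)
      (by
        rw [eval_mul, eval_C, show (q : O) * V.eval (a i₀) - (s * α + t * β) =
          ((q : O) - 1) * V.eval (a i₀) + (V.eval (a i₀) - (s * α + t * β)) by ring]
        exact add_mem (Ideal.mul_mem_right _ _ h.q_one) hV')
      (by
        rw [eval_sub, eval_mul, eval_X, show a i₀ * V.eval (a i₀) - U.eval (a i₀) -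
          (s * α * α + t * β * β) = a i₀ * (V.eval (a i₀) - (s * α + t * β)) -
            (U.eval (a i₀) - (s + t)) + (a i₀ - (α + β)) * (s * α + t * β) +
              (α * β - 1) * (s + t) by ring]
        exact add_mem (add_mem (sub_mem (Ideal.mul_mem_left _ _ hV') hU')
          (Ideal.mul_mem_right _ _ h.add_mem)) (Ideal.mul_mem_right _ _ h.mul_mem))
    refine ⟨U₁, V₁, fun y φ hU hV => ?_, ?_, ?_⟩
    · have e := e₁ (opUq W hML O O χ y) φ
        (by
          rw [coresB_opUq, hV, map_mul, aeval_C, Module.End.mul_apply]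
          simp [Nat.cast_smul_eq_nsmul])
        (by
          rw [coresB_opW_opUq, hV, hU, map_sub, map_mul, aeval_X, LinearMap.sub_apply,
            Module.End.mul_apply])
      rw [← e.1, ← e.2]
      simp [pow_succ, Module.End.mul_apply]
    · convert c₁ using 1; simp only [eval_mul, eval_C, eval_pow, eval_X, pow_succ]; ring
    · convert d₁ using 1; simp only [eval_mul, eval_C, eval_pow, eval_X, pow_succ]; ring

include h in
/-- `cores` is injective on the part at level `L q`. -/
theorem coresB_injOn_cohPart {y : Coh (L * q) χ O}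
    (hy : y ∈ cohPart χ (hML.trans (dvd_mul_right L q)) hl a') (h0 : coresB O W χ hML y = 0) :
    y = 0 := by
  set hMN := hML.trans (dvd_mul_right L q)
  have := moduleFinite_coh (χ := χ) O O hML
  have := moduleFinite_coh (χ := χ) O O hMN
  set E := opUq W hML O O χ
  set T := opTq W hML O O χ
  have hey := (mem_cohPart_iff hMN hl a').mp hy
  have hqu : IsUnit (q : O) := by
    by_contra hn
    exact (maximalIdeal.isMaximal O).ne_top ((Ideal.eq_top_iff_one _).mpr
      (by simpa using sub_mem (show (q : O) ∈ maximalIdeal O from hn) h.q_one))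
  set v := coresB O W χ hML (opW O W χ hML y) with hv
  have hv' : cohProj χ hML hl a v = v := by
    have hEy : E y ∈ cohPart χ hMN hl a' := by
      show opUq W hML O O χ y ∈ _
      rw [← opP_eq_opUq W hML hl h]
      exact mem_cohPart_of_commute hMN hl a' (fun i => opP_comm (χ := χ) O O _ (hl i₀) (hl i)) hy
    have h1 := (mem_cohPart_iff hML hl a).mp (coresB_mem_cohPart W hML hl h hEy)
    rw [coresB_opUq, map_smul] at h1
    exact hqu.smul_left_cancel.mp h1
  obtain ⟨u, hu⟩ := h.sep
  set w : O := ↑u⁻¹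
  have hvz : v = 0 := by
    refine eq_zero_of_forall_mem_pow (O := O) fun n => ?_
    obtain ⟨k, hk⟩ := h.nil_U (χ := χ) W hML hl n
    obtain ⟨U', V', hco, hU2, -⟩ := exists_coords W hML (χ := χ) ((Polynomial.X - C α) ^ (k + 1))
      (U := 0) (V := 1) (s := w) (t := -w) h (by simp)
      (by
        rw [eval_one, show (1 : O) - (w * α + -w * β) = 1 - w * (α - β) by ring, ← hu,
          Units.inv_mul, sub_self]
        exact Ideal.zero_mem _)
    have hU1 := (hco y v (by simp [h0]) (by simp [hv])).1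
    have hpu : IsUnit (U'.eval (a i₀)) := by
      by_contra hn
      have h3 : w * ((Polynomial.X - C α) ^ (k + 1)).eval α
          + -w * ((Polynomial.X - C α) ^ (k + 1)).eval β ∈ maximalIdeal O := by
        have := sub_mem (show U'.eval (a i₀) ∈ maximalIdeal O from hn) hU2
        rwa [sub_sub_cancel] at this
      simp only [eval_pow, eval_sub, eval_X, eval_C, sub_self, zero_pow (Nat.succ_ne_zero k),
        mul_zero, zero_add] at h3
      refine (maximalIdeal.isMaximal O).ne_top (Ideal.eq_top_of_isUnit_mem _ h3 ?_)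
      refine IsUnit.mul (u⁻¹).isUnit.neg (IsUnit.pow _ ?_)
      rw [← neg_sub]; exact h.sep.neg
    have hcn : aeval T U' v ∈ maximalIdeal O ^ n • (⊤ : Submodule O (Coh L χ O)) := by
      rw [← hU1]
      refine map_mem_pow_smul_top _ ?_
      rw [map_pow, map_sub, aeval_X, aeval_C, Algebra.algebraMap_eq_smul_one, pow_succ',
        Module.End.mul_apply]
      exact map_mem_pow_smul_top _ (hk y hey)
    -- invert `U'` on the part modulo `m ^ n`
    obtain ⟨k', hk'⟩ := exists_aeval_pow_mem (h.nil_T (χ := χ) W hML hl) (p := C (U'.eval (a i₀)) - U')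
      (by simp) n
    obtain ⟨g, hg⟩ : U' ∣ (C (U'.eval (a i₀))) ^ k' - (C (U'.eval (a i₀)) - U') ^ k' := by
      simpa using sub_dvd_pow_sub_pow (C (U'.eval (a i₀))) (C (U'.eval (a i₀)) - U') k'
    have e' : C (U'.eval (a i₀)) ^ k' = g * U' + (C (U'.eval (a i₀)) - U') ^ k' := by
      rw [mul_comm, ← hg, sub_add_cancel]
    have hdec := congrArg (fun p => aeval T p v) e'
    simp only [map_add, map_mul, map_pow, LinearMap.add_apply, Module.End.mul_apply, aeval_C,
      Algebra.algebraMap_eq_smul_one, _root_.smul_pow, one_pow, LinearMap.smul_apply,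
      Module.End.one_apply] at hdec
    have hmem : (U'.eval (a i₀)) ^ k' • v ∈
        maximalIdeal O ^ n • (⊤ : Submodule O (Coh L χ O)) := by
      rw [hdec]
      refine add_mem (map_mem_pow_smul_top _ hcn) ?_
      exact hk' v hv' 
    obtain ⟨z, hz⟩ := hpu.pow k'
    have h'' := Submodule.smul_mem _ (↑z⁻¹ : O) hmem
    rwa [← hz, smul_smul, Units.inv_mul, one_smul] at h''
  -- both corestrictions vanish, so `U q` is minus the involution
  have hEy : ∀ z, coresB O W χ hML (opW O W χ hML z) = 0 → E z = -opW O W χ hML z := fun z hz => by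
    simp only [E]; rw [opUq_eq, hz, map_zero, zero_sub]
  have h2 : aeval E (Polynomial.X ^ 2 - 1 : O[X]) y = 0 := by
    rw [map_sub, map_pow, aeval_X, map_one, LinearMap.sub_apply, Module.End.one_apply, pow_two,
      Module.End.mul_apply, hEy y hvz, map_neg, hEy _ (by rw [opW_opW O W hML]; exact h0),
      neg_neg, opW_opW O W hML, sub_self]
  refine eq_zero_of_aeval_eq_zero (h.nil_U (χ := χ) W hML hl) (p := Polynomial.X ^ 2 - 1) ?_ hey h2
  rw [eval_sub, eval_pow, eval_X, eval_one]
  by_contra hn
  have h3 : α * (α - β) ∈ maximalIdeal O := by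
    rw [show α * (α - β) = (α ^ 2 - 1) - (α * β - 1) by ring]
    exact sub_mem hn h.mul_mem
  exact (maximalIdeal.isMaximal O).ne_top
    (Ideal.eq_top_of_isUnit_mem _ h3 (h.isUnit_alpha.mul h.sep))

include h in
/-- `cores` maps the part at level `L q` onto the part at level `L`. -/
theorem exists_coresB_eq {φ : Coh L χ O} (hφ : φ ∈ cohPart χ hML hl a) :
    ∃ y ∈ cohPart χ (hML.trans (dvd_mul_right L q)) hl a', coresB O W χ hML y = φ := by
  classical
  set hMN := hML.trans (dvd_mul_right L q)
  have := moduleFinite_coh (χ := χ) O O hML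
  have := moduleFinite_coh (χ := χ) O O hMN
  have := isNoetherian_of_isNoetherianRing_of_finite O (Coh L χ O)
  set E := opUq W hML O O χ
  set T := opTq W hML O O χ
  suffices key : cohPart χ hML hl a ≤ (cohPart χ hMN hl a').map (coresB O W χ hML) by
    obtain ⟨y, hy, hy'⟩ := key hφ
    exact ⟨y, hy, hy'⟩
  refine Submodule.le_of_le_smul_of_le_jacobson_bot (IsNoetherian.noetherian _)
    (le_of_eq (jacobson_eq_maximalIdeal ⊥ bot_ne_top).symm) fun φ₁ hφ₁ => ?_
  -- a polynomial separating the two roots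
  set p₂ : O[X] := Polynomial.X ^ 2 - C (a i₀) * Polynomial.X + C (q : O)
  have hQ : ∀ z, aeval E p₂ (resB O χ (dvd_mul_right L q) z) =
      E (resB O χ (dvd_mul_right L q) (T z - a i₀ • z)) := fun z => by
    simp only [p₂, map_add, map_sub, map_mul, aeval_X, aeval_C,
      Algebra.algebraMap_eq_smul_one, LinearMap.add_apply, LinearMap.sub_apply,
      Module.End.mul_apply, LinearMap.smul_apply, Module.End.one_apply, pow_two, map_smul, E, T]
    rw [opUq_resB, map_sub, opUq_opW_resB, opUq_resB]
    abel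
  obtain ⟨k, hk⟩ := h.nil_T (χ := χ) W hML hl 1
  have hcop : IsCoprime ((Polynomial.X - C α) ^ (k + 1)) ((Polynomial.X - C β) ^ (k + 1)) :=
    (Polynomial.isCoprime_X_sub_C_of_isUnit_sub h.sep).pow
  obtain ⟨A, B, hAB⟩ := hcop
  set f := B * (Polynomial.X - C β) ^ (k + 1)
  obtain ⟨U', V', hco, hU2, -⟩ := exists_coords W hML (χ := χ) f (U := C ((q : O) + 1))
    (V := Polynomial.X) (s := 1) (t := 1) h
    (by rw [eval_C, show (q : O) + 1 - (1 + 1) = (q : O) - 1 by ring]; exact h.q_one)
    (by rw [eval_X, one_mul, one_mul]; exact h.add_mem)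
  have hf1 : f.eval β = 0 := by simp [f]
  have hfα : f.eval α = 1 := by
    have := congrArg (fun p => p.eval α) hAB
    simpa [f, zero_pow (Nat.succ_ne_zero k)] using this
  rw [one_mul, one_mul, hf1, hfα, add_zero] at hU2
  have hu1 : IsUnit (U'.eval (a i₀)) := by
    by_contra hn
    exact (maximalIdeal.isMaximal O).ne_top ((Ideal.eq_top_iff_one _).mpr
      (by simpa using sub_mem (show U'.eval (a i₀) ∈ maximalIdeal O from hn) hU2))
  obtain ⟨φ₀, hφ₀', rfl⟩ := exists_aeval_eq (h.nil_T (χ := χ) W hML hl)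
    (LinearMap.ext (cohProj_idem hML hl a)) (h.commute_T (χ := χ) W hML hl) hu1
    ((mem_cohPart_iff _ hl a).mp hφ₁)
  have hφ₀ := (mem_cohPart_iff hML hl a).mpr hφ₀'
  have hQk : ∀ j z, (aeval E p₂ ^ j) (resB O χ (dvd_mul_right L q) z) =
      (E ^ j) (resB O χ (dvd_mul_right L q) (((T - a i₀ • 1) ^ j) z)) := fun j => by
    induction j with
    | zero => simp
    | succ j ih =>
      intro z
      have hc : Commute (E ^ j) (aeval E p₂) := by
        simpa using (Commute.all (Polynomial.X ^ j : O[X]) p₂).map (aeval E)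
      rw [pow_succ', Module.End.mul_apply, ih, ← Module.End.mul_apply (aeval E p₂), ← hc.eq,
        Module.End.mul_apply, hQ, pow_succ E, Module.End.mul_apply, pow_succ' (T - a i₀ • 1),
        Module.End.mul_apply, LinearMap.sub_apply, LinearMap.smul_apply, Module.End.one_apply]
  have hQm : (aeval E p₂ ^ k) (resB O χ (dvd_mul_right L q) φ₀) ∈
      maximalIdeal O ^ 1 • (⊤ : Submodule O (Coh (L * q) χ O)) := by
    rw [hQk]
    exact map_mem_pow_smul_top _ (map_mem_pow_smul_top _ (hk φ₀ ((mem_cohPart_iff _ hl a).mp hφ₀)))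
  set r₀ := resB O χ (dvd_mul_right L q) φ₀
  set y₀ := aeval E f r₀
  have hnilE : ((E - α • (1 : Module.End O (Coh (L * q) χ O))) ^ (k + 1)) y₀ ∈
      maximalIdeal O ^ 1 • (⊤ : Submodule O (Coh (L * q) χ O)) := by
    have hprod : (Polynomial.X - C α) * (Polynomial.X - C β) - p₂ =
        C (a i₀ - (α + β)) * Polynomial.X + C ((α * β - 1) - ((q : O) - 1)) := by
      simp [p₂]; ring
    have hmem : ∀ g : O[X], aeval E (((Polynomial.X - C α) * (Polynomial.X - C β) - p₂) * g) r₀ ∈
        maximalIdeal O ^ 1 • (⊤ : Submodule O (Coh (L * q) χ O)) := fun g => by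
      rw [hprod, map_mul, Module.End.mul_apply, map_add, map_mul, aeval_X, aeval_C, aeval_C,
        Algebra.algebraMap_eq_smul_one, Algebra.algebraMap_eq_smul_one, LinearMap.add_apply,
        Module.End.mul_apply, LinearMap.smul_apply, LinearMap.smul_apply, pow_one]
      exact add_mem (Submodule.smul_mem_smul h.add_mem Submodule.mem_top)
        (Submodule.smul_mem_smul (sub_mem h.mul_mem h.q_one) Submodule.mem_top)
    obtain ⟨g, hg⟩ := sub_dvd_pow_sub_pow ((Polynomial.X - C α) * (Polynomial.X - C β)) p₂ (k + 1)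
    have e1 : (Polynomial.X - C α) ^ (k + 1) * f =
        B * p₂ * p₂ ^ k + ((Polynomial.X - C α) * (Polynomial.X - C β) - p₂) * (g * B) := by
      have e2 : (Polynomial.X - C α) ^ (k + 1) * f =
          B * ((Polynomial.X - C α) * (Polynomial.X - C β)) ^ (k + 1) := by
        simp only [f]; rw [mul_pow]; ring
      rw [e2, show ((Polynomial.X - C α) * (Polynomial.X - C β)) ^ (k + 1) =
        p₂ ^ (k + 1) + ((Polynomial.X - C α) * (Polynomial.X - C β) - p₂) * g by
          rw [← hg, add_sub_cancel]]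
      ring
    have e3 := congrArg (fun p => aeval E p r₀) e1
    rw [show aeval E ((Polynomial.X - C α) ^ (k + 1) * f) r₀ =
      ((E - α • (1 : Module.End O (Coh (L * q) χ O))) ^ (k + 1)) y₀ by
        simp [y₀, Algebra.algebraMap_eq_smul_one]] at e3
    rw [e3, map_add, LinearMap.add_apply, map_mul, map_pow, Module.End.mul_apply]
    exact add_mem (map_mem_pow_smul_top _ hQm) (hmem _)
  -- the other operators
  have hoth : ∀ i, i ≠ i₀ → ∃ j, ((opP O O χ hMN (hl i) - a' i • (1 : Module.End O (Coh (L * q) χ O))) ^ j) y₀ ∈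
      maximalIdeal O ^ 1 • (⊤ : Submodule O (Coh (L * q) χ O)) := fun i hi => by
    obtain ⟨j, hj⟩ := exists_pow_sub_mem_cohPart (χ := χ) hML hl a i 1
    refine ⟨j, ?_⟩
    have hkind : l i ∣ L * q → l i ∣ L := fun hd =>
      ((hl i).dvd_mul.mp hd).resolve_right fun hq =>
        hi (h.uniq i ((Nat.prime_dvd_prime_iff_eq (hl i) W.prime).mp hq))
    have hr : ∀ z, ((opP O O χ hMN (hl i) - a' i • 1) ^ j) (resB O χ (dvd_mul_right L q) z) =
        resB O χ (dvd_mul_right L q) (((opP O O χ hML (hl i) - a i • 1) ^ j) z) := by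
      clear hj
      induction j with
      | zero => simp
      | succ j ih =>
        intro z
        rw [pow_succ, Module.End.mul_apply, pow_succ, Module.End.mul_apply, ← ih]
        congr 1
        rw [LinearMap.sub_apply, LinearMap.sub_apply, LinearMap.smul_apply, LinearMap.smul_apply,
          Module.End.one_apply, Module.End.one_apply, map_sub, map_smul,
          resB_opP hML (dvd_mul_right L q) (hl i) hkind, h.of_ne i hi]
    have hc : Commute ((opP O O χ hMN (hl i) - a' i • 1) ^ j) (aeval E f) := by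
      have h1 : Commute (opP O O χ hMN (hl i)) E := by
        simp only [E]; rw [← opP_eq_opUq W hML hl h]; exact opP_comm (χ := χ) O O _ (hl i) (hl i₀)
      have h2 : Commute (opP O O χ hMN (hl i) - a' i • 1) E :=
        h1.sub_left ((Commute.one_left E).smul_left (a' i))
      exact (commute_aeval h2 f).pow_left j
    simp only [y₀]
    rw [← Module.End.mul_apply, hc.eq, Module.End.mul_apply, hr]
    exact map_mem_pow_smul_top _ (map_mem_pow_smul_top _ (hj φ₀ hφ₀))
  have hsub : y₀ - cohProj χ hMN hl a' y₀ ∈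
      maximalIdeal O ^ 1 • (⊤ : Submodule O (Coh (L * q) χ O)) :=
    sub_partProj_mem _ a' fun i => by
      rcases eq_or_ne i i₀ with e | hi
      · rw [e, opP_eq_opUq W hML hl h, h.eq_alpha]
        exact ⟨k + 1, hnilE⟩
      · exact hoth i hi
  have hU1 := (hco r₀ φ₀
    (by
      simp only [r₀]
      rw [coresB_resB O W hML, ← Nat.cast_smul_eq_nsmul O, aeval_C,
        Algebra.algebraMap_eq_smul_one, LinearMap.smul_apply, Module.End.one_apply, Nat.cast_add,
        Nat.cast_one])
    (by simp only [r₀]; rw [coresB_opW_resB O W hML, aeval_X])).1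
  -- compare
  have hcφ : aeval T U' φ₀ ∈ (cohPart χ hMN hl a').map (coresB O W χ hML) ⊔
      maximalIdeal O • cohPart χ hML hl a := by
    have h1 : cohProj χ hML hl a (aeval T U' φ₀) = aeval T U' φ₀ := by
      have hc : Commute (cohProj χ hML hl a) (aeval T U') :=
        commute_aeval (h.commute_T (χ := χ) W hML hl) U'
      rw [← Module.End.mul_apply, hc.eq, Module.End.mul_apply,
        (mem_cohPart_iff _ hl a).mp hφ₀]
    have hy1 := coresB_mem_cohPart W hML hl h (cohProj_mem hMN hl a' y₀)
    have h2 : coresB O W χ hML (y₀ - cohProj χ hMN hl a' y₀) ∈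
        maximalIdeal O • (⊤ : Submodule O (Coh L χ O)) := by
      have := map_mem_pow_smul_top (coresB O W χ hML) hsub
      rwa [pow_one] at this
    have h3 : cohProj χ hML hl a (coresB O W χ hML (y₀ - cohProj χ hMN hl a' y₀)) ∈
        maximalIdeal O • cohPart χ hML hl a := by
      have := Submodule.mem_map_of_mem (f := cohProj χ hML hl a) h2
      rwa [Submodule.map_smul'', Submodule.map_top] at this
    rw [map_sub, map_sub, (mem_cohPart_iff _ hl a).mp hy1, hU1, h1] at h3
    rw [← add_sub_cancel (coresB O W χ hML (cohProj χ hMN hl a' y₀)) (aeval T U' φ₀)]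
    exact Submodule.add_mem_sup ⟨_, cohProj_mem hMN hl a' y₀, rfl⟩ h3
  exact hcφ

include h in
/-- The part at level `L q` consists of classes `res x + W res y` with `x, y` in the part. -/
theorem exists_eq_resB_add (y : Coh (L * q) χ O)
    (hy : y ∈ cohPart χ (hML.trans (dvd_mul_right L q)) hl a') :
    ∃ x₁ ∈ cohPart χ hML hl a, ∃ x₂ ∈ cohPart χ hML hl a,
      y = resB O χ (dvd_mul_right L q) x₁ +
        opW O W χ hML (resB O χ (dvd_mul_right L q) x₂) := by
  set hMN := hML.trans (dvd_mul_right L q)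
  have := moduleFinite_coh (χ := χ) O O hML
  have := moduleFinite_coh (χ := χ) O O hMN
  set T := opTq W hML O O χ
  set P := cohPart χ hML hl a
  set u := coresB O W χ hML y
  set v := coresB O W χ hML (opW O W χ hML y)
  have hqu : IsUnit (q : O) := by
    by_contra hn
    exact (maximalIdeal.isMaximal O).ne_top ((Ideal.eq_top_iff_one _).mpr
      (by simpa using sub_mem (show (q : O) ∈ maximalIdeal O from hn) h.q_one))
  have huP : u ∈ P := coresB_mem_cohPart W hML hl h hy
  have hTP : ∀ x ∈ P, T x ∈ P := fun x hx => by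
    simp only [T]
    rw [← opP_eq_opTq W hML hl h]
    exact mem_cohPart_of_commute hML hl a (fun i => opP_comm (χ := χ) O O hML (hl i₀) (hl i)) hx
  have hvP : v ∈ P := by
    have hEy : opUq W hML O O χ y ∈ cohPart χ hMN hl a' := by
      rw [← opP_eq_opUq W hML hl h]
      exact mem_cohPart_of_commute hMN hl a' (fun i => opP_comm (χ := χ) O O _ (hl i₀) (hl i)) hy
    have h1 := coresB_mem_cohPart W hML hl h hEy
    rw [coresB_opUq] at h1
    obtain ⟨z, hz⟩ := hqu
    have := P.smul_mem (↑z⁻¹ : O) h1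
    rwa [← hz, smul_smul, Units.inv_mul, one_smul] at this
  -- solve the two by two system
  set d : O[X] := C ((q : O) + 1) ^ 2 - Polynomial.X ^ 2
  have hd : IsUnit (d.eval (a i₀)) := by
    by_contra hn
    have h3 : (α - β) ^ 2 ∈ maximalIdeal O := by
      rw [show (α - β) ^ 2 = -(d.eval (a i₀)) - (a i₀ - (α + β)) * (a i₀ + (α + β)) -
        4 * (α * β - 1) + ((q : O) - 1) * ((q : O) + 3) by simp [d]; ring]
      exact add_mem (sub_mem (sub_mem (neg_mem hn) (Ideal.mul_mem_right _ _ h.add_mem))
        (Ideal.mul_mem_left _ _ h.mul_mem)) (Ideal.mul_mem_right _ _ h.q_one)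
    exact (maximalIdeal.isMaximal O).ne_top (Ideal.eq_top_of_isUnit_mem _ h3 (h.sep.pow 2))
  have hsolve : ∀ z ∈ P, ∃ x ∈ P, aeval T d x = z := fun z hz => by
    obtain ⟨x, hx, hxz⟩ := exists_aeval_eq (h.nil_T (χ := χ) W hML hl)
      (LinearMap.ext (cohProj_idem hML hl a)) (h.commute_T (χ := χ) W hML hl) hd
      ((mem_cohPart_iff _ hl a).mp hz)
    exact ⟨x, (mem_cohPart_iff _ hl a).mpr hx, hxz⟩
  obtain ⟨x₁, hx₁, e₁⟩ := hsolve _ (P.sub_mem (P.smul_mem ((q : O) + 1) huP) (hTP v hvP))
  obtain ⟨x₂, hx₂, e₂⟩ := hsolve _ (P.sub_mem (P.smul_mem ((q : O) + 1) hvP) (hTP u huP))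
  set r := resB (A := O) O χ (dvd_mul_right L q)
  set w := opW (A := O) O W χ hML
  have hinj : ∀ z ∈ P, aeval T d z = 0 → z = 0 := fun z hz hz0 =>
    eq_zero_of_aeval_eq_zero (h.nil_T (χ := χ) W hML hl) hd ((mem_cohPart_iff _ hl a).mp hz) hz0
  have hdT : ∀ x, aeval T d x = ((q : O) + 1) ^ 2 • x - T (T x) := fun x => by
    simp [d, Algebra.algebraMap_eq_smul_one, pow_two, -map_natCast]
    module
  have hdc : ∀ x, aeval T d (T x) = T (aeval T d x) := fun x =>
    (LinearMap.congr_fun (commute_aeval (Commute.refl T) d).eq x).symm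
  have hG₁ : ((q : O) + 1) • x₁ + T x₂ = u := by
    refine sub_eq_zero.mp (hinj _ (P.sub_mem (P.add_mem (P.smul_mem _ hx₁) (hTP _ hx₂)) huP) ?_)
    rw [map_sub, map_add, map_smul, hdc, e₁, e₂, hdT, map_sub, map_smul]
    module
  have hG₂ : T x₁ + ((q : O) + 1) • x₂ = v := by
    refine sub_eq_zero.mp (hinj _ (P.sub_mem (P.add_mem (hTP _ hx₁) (P.smul_mem _ hx₂)) hvP) ?_)
    rw [map_sub, map_add, map_smul, hdc, e₁, e₂, hdT, map_sub, map_smul]
    module
  set z := r x₁ + w (r x₂)
  have hcres : ∀ x, coresB O W χ hML (r x) = ((q : O) + 1) • x := fun x => by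
    simp only [r]
    rw [coresB_resB O W hML, ← Nat.cast_smul_eq_nsmul O, Nat.cast_add, Nat.cast_one]
  have hz1 : coresB O W χ hML z = u := by
    rw [← hG₁, map_add, hcres]; simp only [w, r, T]; rw [coresB_opW_resB O W hML]
  have hz2 : coresB O W χ hML (w z) = v := by
    rw [← hG₂, map_add, map_add]; simp only [w, r, T]
    rw [opW_opW O W hML, coresB_opW_resB O W hML, ← hcres]
  -- the image of the part is stable under the operators
  set S : Submodule O (Coh (L * q) χ O) := P.map r ⊔ P.map (w.comp r)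
  have hS : ∀ i, ∀ x ∈ S, opP O O χ hMN (hl i) x ∈ S := by
    intro i
    suffices hs : S.map (opP O O χ hMN (hl i)) ≤ S from fun x hx => hs ⟨x, hx, rfl⟩
    rw [Submodule.map_sup]
    refine sup_le ?_ ?_
    · rintro _ ⟨_, ⟨x, hx, rfl⟩, rfl⟩
      rcases eq_or_ne i i₀ with e | hi
      · rw [e, opP_eq_opUq W hML hl h]
        simp only [r]
        rw [opUq_resB]
        exact sub_mem (Submodule.mem_sup_left ⟨_, hTP x hx, rfl⟩)
          (Submodule.mem_sup_right ⟨x, hx, rfl⟩)
      · have hkind : l i ∣ L * q → l i ∣ L := fun hd =>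
          ((hl i).dvd_mul.mp hd).resolve_right fun hq =>
            hi (h.uniq i ((Nat.prime_dvd_prime_iff_eq (hl i) W.prime).mp hq))
        simp only [r]
        rw [resB_opP hML (dvd_mul_right L q) (hl i) hkind]
        exact Submodule.mem_sup_left
          ⟨_, mem_cohPart_of_commute hML hl a (fun j => opP_comm (χ := χ) O O hML (hl i) (hl j)) hx, rfl⟩
    · rintro _ ⟨_, ⟨x, hx, rfl⟩, rfl⟩
      rcases eq_or_ne i i₀ with e | hi
      · rw [e, opP_eq_opUq W hML hl h]
        simp only [LinearMap.comp_apply, w, r]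
        rw [opUq_opW_resB]
        exact Submodule.mem_sup_left ⟨(q : O) • x, P.smul_mem _ hx, map_smul _ _ _⟩
      · have hkind : l i ∣ L * q → l i ∣ L := fun hd =>
          ((hl i).dvd_mul.mp hd).resolve_right fun hq =>
            hi (h.uniq i ((Nat.prime_dvd_prime_iff_eq (hl i) W.prime).mp hq))
        have hne : l i ≠ q := fun e => hi (h.uniq i e)
        simp only [LinearMap.comp_apply, w, r]
        rw [← Module.End.mul_apply, (opW_opP W hML (hl i) hne).symm.eq, Module.End.mul_apply,
          resB_opP hML (dvd_mul_right L q) (hl i) hkind]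
        exact Submodule.mem_sup_right
          ⟨_, mem_cohPart_of_commute hML hl a (fun j => opP_comm (χ := χ) O O hML (hl i) (hl j)) hx, rfl⟩
  -- the difference is killed
  set K : Submodule O (Coh (L * q) χ O) :=
    LinearMap.ker (coresB O W χ hML) ⊓ LinearMap.ker ((coresB O W χ hML).comp w)
  have hK : ∀ i, ∀ x ∈ K, opP O O χ hMN (hl i) x ∈ K := by
    intro i x hx
    obtain ⟨hx1, hx2⟩ := Submodule.mem_inf.mp hx
    rw [LinearMap.mem_ker] at hx1 hx2
    simp only [LinearMap.comp_apply, w] at hx2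
    refine Submodule.mem_inf.mpr ⟨LinearMap.mem_ker.mpr ?_, LinearMap.mem_ker.mpr ?_⟩ <;>
      (try simp only [LinearMap.comp_apply, w]) <;> rcases eq_or_ne i i₀ with e | hi
    · rw [e, opP_eq_opUq W hML hl h, coresB_opUq, hx2, smul_zero]
    · rw [coresB_opP W hML (hl i) fun e => hi (h.uniq i e), hx1, map_zero]
    · rw [e, opP_eq_opUq W hML hl h, coresB_opW_opUq, hx1, hx2, map_zero, sub_zero]
    · rw [← Module.End.mul_apply, (opW_opP W hML (hl i) fun e => hi (h.uniq i e)).eq,
        Module.End.mul_apply, coresB_opP W hML (hl i) fun e => hi (h.uniq i e), hx2, map_zero]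
  have hyzK : y - z ∈ K := Submodule.mem_inf.mpr
    ⟨LinearMap.mem_ker.mpr (by rw [map_sub, hz1, sub_self]),
      LinearMap.mem_ker.mpr (by rw [LinearMap.comp_apply, map_sub, map_sub, hz2, sub_self])⟩
  have h0 := coresB_injOn_cohPart W hML hl h (cohProj_mem hMN hl a' (y - z))
    (LinearMap.mem_ker.mp (Submodule.mem_inf.mp (partProj_mem_of_stable _ a' hK hyzK)).1)
  rw [map_sub, (mem_cohPart_iff hMN hl a').mp hy, sub_eq_zero] at h0
  have hzS : z ∈ S := add_mem (Submodule.mem_sup_left ⟨x₁, hx₁, rfl⟩)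
    (Submodule.mem_sup_right ⟨x₂, hx₂, rfl⟩)
  have hyS : y ∈ S := h0 ▸ partProj_mem_of_stable _ a' hS hzS
  obtain ⟨s₁, ⟨t₁, ht₁, rfl⟩, s₂, ⟨t₂, ht₂, rfl⟩, hst⟩ := Submodule.mem_sup.mp hyS
  exact ⟨t₁, ht₁, t₂, ht₂, hst.symm⟩

end FLTAgent.RT
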