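import Fermat.Agent.RT.Coh.CharChange
import Fermat.Agent.RT.Coh.OpP

/-!
# Twisting away the character at one prime

For a character `prodChar ψ χ'` of level `L q` with `ψ` at the prime `q` and `χ'` at a level dividing
`L`, the maps `twMap e` to the level `L q²` and the character `χ'` commute with `T ℓ`, and all their
compositions with diamonds are jointly injective.
-/

set_option autoImplicit false

noncomputable section

namespace FLTAgent.RT

open LevelRaise CongruenceSubgroup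
open scoped MatrixGroups
open ModularGroup

variable {q M₂ L : ℕ} {D : Type*} [CommGroup D] {ψ : (ZMod q)ˣ →* D} {χ' : (ZMod M₂)ˣ →* D}

/-- The product of a character modulo `q` and one modulo `M₂`. -/
def prodChar (ψ : (ZMod q)ˣ →* D) (χ' : (ZMod M₂)ˣ →* D) : (ZMod (q * M₂))ˣ →* D :=
  ψ.comp (ZMod.unitsMap (dvd_mul_right q M₂)) * χ'.comp (ZMod.unitsMap (dvd_mul_left M₂ q))

/-- The data of the twist at the prime `q`. -/
structure TwistHyp (q M₂ L : ℕ) : Prop where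
  prime : q.Prime
  not_dvd : ¬ q ∣ L
  dvd : M₂ ∣ L

theorem TwistHyp.dvd_level (h : TwistHyp q M₂ L) : q * M₂ ∣ L * q := by
  rw [mul_comm L q]; exact mul_dvd_mul_left q h.dvd

theorem TwistHyp.dvd_level' (h : TwistHyp q M₂ L) : M₂ ∣ L * q ^ 2 := h.dvd.trans (dvd_mul_right _ _)

theorem TwistHyp.coprime (h : TwistHyp q M₂ L) : q.Coprime M₂ :=
  (h.prime.coprime_iff_not_dvd).mpr fun hd => h.not_dvd (hd.trans h.dvd)

theorem prodChar_apply (v : (ZMod (q * M₂))ˣ) :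
    prodChar ψ χ' v = ψ (ZMod.unitsMap (dvd_mul_right q M₂) v) *
      χ' (ZMod.unitsMap (dvd_mul_left M₂ q) v) := rfl

theorem coe_unitsMap_eq {n m : ℕ} (h : n ∣ m) {v : (ZMod m)ˣ} {z : ℤ} (hv : (v : ZMod m) = z) :
    (ZMod.unitsMap h v : ZMod n) = z := by
  rw [ZMod.unitsMap_val, hv, ZMod.cast_intCast h]

/-- An integral matrix of the form `(q, x; 0, q)`. -/
def twShift (q : ℕ) (x : ℤ) : Matrix (Fin 2) (Fin 2) ℤ := !![(q : ℤ), x; 0, (q : ℤ)]

theorem det_twShift (q : ℕ) (x : ℤ) : (twShift q x).det = (q : ℤ) * q := by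
  simp [twShift, Matrix.det_fin_two_of]

theorem twShift_mul (q : ℕ) (x y : ℤ) :
    twShift q x * twShift q y = (q : ℤ) • twShift q (x + y) := by
  ext i j
  fin_cases i <;> fin_cases j <;> simp [twShift, Matrix.mul_apply, Fin.sum_univ_two] <;> ring

/-- The shift `e u` as an integer. -/
def twArg [NeZero q] (e : ℤ) (u : (ZMod q)ˣ) : ℤ := e * ((u : ZMod q).val : ℤ)

theorem neZero_q [NeZero (L * q)] : NeZero q := ⟨(mul_ne_zero_iff.mp (NeZero.ne (L * q))).2⟩

variable [Fact (Odd (Nat.card D))] [NeZero (L * q)]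

omit [Fact (Odd (Nat.card D))] in
theorem exists_gamma0_split (h : TwistHyp q M₂ L) (v : (ZMod q)ˣ) :
    ∃ g : Gamma0 (L * q),
      ZMod.unitsMap (dvd_mul_right q M₂) (dUnit h.dvd_level g) = v ∧
      ZMod.unitsMap (dvd_mul_left M₂ q) (dUnit h.dvd_level g) = 1 := by
  set U : (ZMod (q * M₂))ˣ :=
    (Units.mapEquiv (ZMod.chineseRemainder h.coprime).toMulEquiv).symm
      (MulEquiv.prodUnits.symm (v, 1)) with hU
  obtain ⟨g, hg, -⟩ := exists_gamma0_of_unit h.dvd_level U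
  have hd : dUnit h.dvd_level g = U := Units.ext (by rw [coe_dUnit]; exact hg)
  have e : (ZMod.chineseRemainder h.coprime) (U : ZMod (q * M₂)) = ((v : ZMod q), (1 : ZMod M₂)) := by
    simp [hU]
    rfl
  refine ⟨g, Units.ext ?_, Units.ext ?_⟩
  · rw [hd, ZMod.unitsMap_val]
    exact (Prod.fst_zmod_cast _).symm.trans (congrArg Prod.fst e)
  · rw [hd, ZMod.unitsMap_val]
    exact (Prod.snd_zmod_cast _).symm.trans (congrArg Prod.snd e)

/-- A square root of a value of `ψ`. -/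
def twRoot (ψ : (ZMod q)ˣ →* D) (u : (ZMod q)ˣ) : (ZMod q)ˣ := (exists_sq_unit ψ u).choose

omit [NeZero (L * q)] in
theorem twRoot_spec (u : (ZMod q)ˣ) : ψ (twRoot ψ u) * ψ (twRoot ψ u) = ψ u :=
  (exists_sq_unit ψ u).choose_spec

/-- The element of `Γ₀(L q)` carrying the square root. -/
def twGamma (h : TwistHyp q M₂ L) (ψ : (ZMod q)ˣ →* D) (u : (ZMod q)ˣ) : Gamma0 (L * q) :=
  (exists_gamma0_split h (twRoot ψ u)).choose

theorem prodChar_twGamma (h : TwistHyp q M₂ L) (u : (ZMod q)ˣ) :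
    prodChar ψ χ' (dUnit h.dvd_level (twGamma h ψ u)) = ψ (twRoot ψ u) := by
  rw [prodChar_apply, twGamma, (exists_gamma0_split h (twRoot ψ u)).choose_spec.1,
    (exists_gamma0_split h (twRoot ψ u)).choose_spec.2, map_one, mul_one]

/-- The representatives of the twist. -/
def twFam (h : TwistHyp q M₂ L) (ψ : (ZMod q)ˣ →* D) (e : ℤ) (u : (ZMod q)ˣ) :
    Matrix (Fin 2) (Fin 2) ℤ :=
  haveI := neZero_q (q := q) (L := L)
  matSL (twGamma h ψ u : SL(2, ℤ)) * twShift q (twArg e u)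

theorem det_twFam (h : TwistHyp q M₂ L) (e : ℤ) (u : (ZMod q)ˣ) :
    (twFam h ψ e u).det = (q : ℤ) * q := by
  rw [twFam, Matrix.det_mul, (twGamma h ψ u : SL(2, ℤ)).det_coe, one_mul, det_twShift]

/-- Right multiplication by a matrix of the target level moves the index. -/
theorem twFam_move (h : TwistHyp q M₂ L) (e : ℤ) (u : (ZMod q)ˣ)
    {Y : Matrix (Fin 2) (Fin 2) ℤ} {v : (ZMod (q * M₂))ˣ} (hv : (v : ZMod (q * M₂)) = Y.det)
    (h0 : ((L * q ^ 2 : ℕ) : ℤ) ∣ Y 1 0) (hc : IsCoprime (Y 0 0) ((L * q ^ 2 : ℕ) : ℤ))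
    (hY : Bal χ' Y) :
    ∃ (u' : (ZMod q)ˣ) (Z : Matrix (Fin 2) (Fin 2) ℤ),
      twFam h ψ e u * Y = Z * twFam h ψ e u' ∧ Z.det = Y.det ∧ ((L * q : ℕ) : ℤ) ∣ Z 1 0 ∧
      IsCoprime (Z 0 0) ((L * q : ℕ) : ℤ) ∧ Bal (prodChar ψ χ') Z ∧
      ((u' : ZMod q) * (Y 0 0 : ℤ)) = (u : ZMod q) * (Y 1 1 : ℤ) := by
  have := neZero_q (q := q) (L := L)
  obtain ⟨t, ht⟩ := h0
  push_cast at ht
  -- units modulo `q`
  have hqN : (q : ℤ) ∣ ((L * q ^ 2 : ℕ) : ℤ) :=
    Int.natCast_dvd_natCast.mpr (dvd_mul_of_dvd_right (dvd_pow_self q two_ne_zero) L)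
  obtain ⟨A, hA⟩ : IsUnit ((Y 0 0 : ℤ) : ZMod q) := by
    obtain ⟨r, s, hrs⟩ := hc.of_isCoprime_of_dvd_right hqN
    refine IsUnit.of_mul_eq_one (r : ZMod q) ?_
    have := congrArg (fun z : ℤ => (z : ZMod q)) hrs
    simpa [mul_comm] using this
  set w : (ZMod q)ˣ := ZMod.unitsMap (dvd_mul_right q M₂) v with hwdef
  have hw : (w : ZMod q) = Y.det := coe_unitsMap_eq _ hv
  have hwd : (w : ZMod q) = (A : ZMod q) * ((Y 1 1 : ℤ) : ZMod q) := by
    rw [hw, Matrix.det_fin_two, ht, hA]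
    push_cast
    simp
  set u' : (ZMod q)ˣ := u * w * A⁻¹ * A⁻¹ with hu'
  have hu'A : (u' : ZMod q) * (A : ZMod q) = (u : ZMod q) * ((Y 1 1 : ℤ) : ZMod q) := by
    simp only [hu', Units.val_mul]
    rw [mul_assoc ((u : ZMod q) * w * (A⁻¹ : (ZMod q)ˣ)), Units.inv_mul, mul_one, hwd,
      mul_assoc (u : ZMod q), mul_comm (A : ZMod q), mul_assoc ((Y 1 1 : ℤ) : ZMod q),
      Units.mul_inv, mul_one]
  set x := twArg e u
  set x' := twArg e u'
  set a' := Y 0 0 + x * ((L : ℤ) * q * t) with ha'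
  obtain ⟨s, hs⟩ : (q : ℤ) ∣ x * Y 1 1 - x' * a' := by
    rw [← ZMod.intCast_zmod_eq_zero_iff_dvd]
    simp only [x, x', a', twArg]
    push_cast
    simp only [ZMod.natCast_val, ZMod.cast_id', id_eq, ZMod.natCast_self]
    rw [← hA]
    linear_combination (-(e : ZMod q)) * hu'A
  set Y' : Matrix (Fin 2) (Fin 2) ℤ :=
    !![a', Y 0 1 + s; Y 1 0, Y 1 1 - x' * ((L : ℤ) * q * t)] with hY'
  have hmove : twShift q x * Y = Y' * twShift q x' := by
    ext i j
    fin_cases i <;> fin_cases j <;> simp [twShift, hY', Matrix.mul_apply, Fin.sum_univ_two]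
    · rw [ha', ht]; ring
    · linear_combination hs
    · ring
    · rw [ht]; ring
  have hdetY' : Y'.det = Y.det := by
    have := congrArg Matrix.det hmove
    rw [Matrix.det_mul, Matrix.det_mul, det_twShift, det_twShift, mul_comm] at this
    exact (mul_right_cancel₀ (mul_ne_zero (Nat.cast_ne_zero.mpr h.prime.ne_zero)
      (Nat.cast_ne_zero.mpr h.prime.ne_zero)) this).symm
  set g := twGamma h ψ u
  set g' := twGamma h ψ u'
  refine ⟨u', matSL (g : SL(2, ℤ)) * Y' * matSL ((g' : SL(2, ℤ))⁻¹), ?_, ?_, ?_, ?_, ?_,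
    by rw [← hA]; exact hu'A⟩
  · rw [twFam, twFam, Matrix.mul_assoc, hmove, Matrix.mul_assoc (matSL (g : SL(2, ℤ)) * Y'),
      matSL_inv_mul_cancel, Matrix.mul_assoc]
  · rw [Matrix.det_mul, Matrix.det_mul, Matrix.SpecialLinearGroup.det_coe,
      Matrix.SpecialLinearGroup.det_coe, one_mul, mul_one, hdetY']
  all_goals have hN : ((L * q : ℕ) : ℤ) ∣ ((L * q ^ 2 : ℕ) : ℤ) :=
    Int.natCast_dvd_natCast.mpr (mul_dvd_mul_left L (dvd_pow_self q two_ne_zero))
  all_goals have hY'0 : ((L * q : ℕ) : ℤ) ∣ Y' 1 0 :=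
    hN.trans ⟨t, by simp [hY', ht]⟩
  all_goals have hgi : ((L * q : ℕ) : ℤ) ∣ matSL ((g' : SL(2, ℤ))⁻¹) 1 0 :=
    mem_gamma0_iff.mp (g'⁻¹).2
  all_goals have hgY : ((L * q : ℕ) : ℤ) ∣ (matSL (g : SL(2, ℤ)) * Y') 1 0 :=
    dvd_mul_apply_one_zero (mem_gamma0_iff.mp g.2) hY'0
  · exact dvd_mul_apply_one_zero hgY hgi
  · refine (isCoprime_mul_apply_zero_zero hgi).mpr ⟨(isCoprime_mul_apply_zero_zero hY'0).mpr
      ⟨isCoprime_gamma0_zero_zero g.2, ?_⟩, isCoprime_gamma0_zero_zero (g'⁻¹).2⟩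
    have e1 : Y' 0 0 = Y 0 0 + ((L * q : ℕ) : ℤ) * (x * t) := by
      simp [hY', a']; ring
    rw [e1, IsCoprime.add_mul_left_left_iff]
    exact hc.of_isCoprime_of_dvd_right hN
  · obtain ⟨-, hYd, A₂, hA₂, hA₂2⟩ := hY
    have hM : ((q * M₂ : ℕ) : ℤ) ∣ ((L * q : ℕ) : ℤ) := Int.natCast_dvd_natCast.mpr h.dvd_level
    obtain ⟨U, hU⟩ : IsUnit ((Y' 0 0 : ℤ) : ZMod (q * M₂)) := by
      have e1 : Y' 0 0 = Y 0 0 + ((L * q : ℕ) : ℤ) * (x * t) := by
        simp [hY', a']; ring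
      obtain ⟨r, s', hrs⟩ := ((IsCoprime.add_mul_left_left_iff).mpr
        (hc.of_isCoprime_of_dvd_right hN) : IsCoprime (Y 0 0 + ((L * q : ℕ) : ℤ) * (x * t))
          ((L * q : ℕ) : ℤ)).of_isCoprime_of_dvd_right hM
      rw [e1]
      refine IsUnit.of_mul_eq_one (r : ZMod (q * M₂)) ?_
      have := congrArg (fun z : ℤ => (z : ZMod (q * M₂))) hrs
      simp only [Int.cast_add, Int.cast_mul, Int.cast_one, Int.cast_natCast, ZMod.natCast_self,
        mul_zero, add_zero] at this ⊢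
      exact (mul_comm _ _).trans this
    have hUq : ZMod.unitsMap (dvd_mul_right q M₂) U = A := Units.ext (by
      rw [coe_unitsMap_eq _ hU, hA]
      simp [hY', a'])
    have hU2 : ZMod.unitsMap (dvd_mul_left M₂ q) U = A₂ := Units.ext (by
      rw [coe_unitsMap_eq _ hU, hA₂]
      have hM₂ : ((L : ℤ) : ZMod M₂) = 0 :=
        (ZMod.intCast_zmod_eq_zero_iff_dvd _ _).mpr (Int.natCast_dvd_natCast.mpr h.dvd)
      rw [Int.cast_natCast] at hM₂
      simp [hY', a', hM₂])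
    refine ⟨hM.trans (dvd_mul_apply_one_zero hgY hgi), ?_,
      (dUnit h.dvd_level g)⁻¹ * U * dUnit h.dvd_level g', ?_, ?_⟩
    · rw [Matrix.det_mul, Matrix.det_mul, Matrix.SpecialLinearGroup.det_coe,
        Matrix.SpecialLinearGroup.det_coe, one_mul, mul_one, hdetY']
      exact hYd
    · rw [cast_mul_apply_zero_zero (hM.trans hgi), cast_mul_apply_zero_zero (hM.trans hY'0),
        Units.val_mul, Units.val_mul, coe_dUnit_inv, hU]
      congr 1
      have := coe_dUnit_inv h.dvd_level g'⁻¹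
      rw [map_inv, inv_inv, Subgroup.coe_inv] at this
      exact this
    · rw [Matrix.det_mul, Matrix.det_mul, Matrix.SpecialLinearGroup.det_coe,
        Matrix.SpecialLinearGroup.det_coe, one_mul, mul_one, hdetY',
        detChar_eq (χ := prodChar ψ χ') hv, map_mul, map_mul, map_inv, prodChar_twGamma,
        prodChar_twGamma, prodChar_apply, hUq, hU2, prodChar_apply]
      have h2 : χ' (ZMod.unitsMap (dvd_mul_left M₂ q) v) = χ' A₂ * χ' A₂ := by
        rw [hA₂2, detChar_eq (v := ZMod.unitsMap (dvd_mul_left M₂ q) v)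
          (coe_unitsMap_eq _ hv)]
      rw [h2]
      have r1 := twRoot_spec (ψ := ψ) u
      have r2 := twRoot_spec (ψ := ψ) u'
      set a := ψ (twRoot ψ u)
      set b := ψ (twRoot ψ u')
      calc a⁻¹ * (ψ A * χ' A₂) * b * (a⁻¹ * (ψ A * χ' A₂) * b)
          = (a * a)⁻¹ * (b * b) * (ψ A * ψ A) * (χ' A₂ * χ' A₂) := by
            rw [mul_inv]; ac_rfl
        _ = (ψ u)⁻¹ * ψ u' * (ψ A * ψ A) * (χ' A₂ * χ' A₂) := by rw [r1, r2]
        _ = ψ w * (χ' A₂ * χ' A₂) := by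
            rw [← map_inv, ← map_mul, ← map_mul, ← map_mul, hu']
            congr 2
            group

variable [NeZero (L * q ^ 2)]

omit [NeZero (L * q ^ 2)] in
/-- The representatives form a family between the two groups. -/
theorem isFam_tw (h : TwistHyp q M₂ L) (e : ℤ) :
    haveI := neZero_q (q := q) (L := L)
    IsFam (gammaH (L * q) (prodChar ψ χ')) (gammaH (L * q ^ 2) χ') (twFam h ψ e) := by
  have := neZero_q (q := q) (L := L)
  refine ⟨fun u => by
    rw [det_twFam]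
    exact mul_ne_zero (Nat.cast_ne_zero.mpr h.prime.ne_zero) (Nat.cast_ne_zero.mpr h.prime.ne_zero),
    fun γ hγ => ?_⟩
  choose σ Z hZ hdet hZ0 hZc hbal hσ using fun u => twFam_move (ψ := ψ) (χ' := χ') h e u
    (Y := matSL γ) (v := 1) (by rw [γ.det_coe]; simp) (mem_gamma0_iff.mp hγ.1)
    (isCoprime_gamma0_zero_zero hγ.1) hγ.2
  have hinj : Function.Injective σ := fun u u₂ e' => by
    have h1 := hσ u
    rw [e', hσ u₂] at h1
    have hd : IsUnit ((matSL γ 1 1 : ℤ) : ZMod q) := by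
      have hdet' := congrArg (fun z : ℤ => (z : ZMod q)) (det_matSL γ)
      obtain ⟨t, ht⟩ := mem_gamma0_iff.mp hγ.1
      rw [ht] at hdet'
      push_cast at hdet'
      simp at hdet'
      exact IsUnit.of_mul_eq_one _ (by rw [mul_comm]; exact hdet')
    exact Units.ext (hd.mul_right_cancel h1).symm
  let δ : (ZMod q)ˣ → SL(2, ℤ) := fun u => ⟨Z u, by rw [hdet]; exact γ.det_coe⟩
  refine ⟨Equiv.ofBijective σ (Finite.injective_iff_bijective.mp hinj),
    fun u => ⟨δ u, mem_gamma0_iff.mpr (hZ0 u), hbal u⟩, fun u => hZ u⟩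

variable (R : Type*) [CommRing R] {A : Type*} [AddCommGroup A] [Module R A]

/-- The twist. -/
def twMap (h : TwistHyp q M₂ L) (ψ : (ZMod q)ˣ →* D) (χ' : (ZMod M₂)ˣ →* D) (e : ℤ) :
    Coh (L * q) (prodChar ψ χ') A →ₗ[R] Coh (L * q ^ 2) χ' A :=
  haveI := neZero_q (q := q) (L := L)
  famTransferL R (isFam_tw h e)

variable {R}

/-- The twist commutes with `T ℓ`. -/
theorem twMap_opT (h : TwistHyp q M₂ L) (e : ℤ) {ℓ : ℕ} (hℓ : ℓ.Prime) (hℓN : ¬ ℓ ∣ L * q ^ 2)
    (φ : Coh (L * q) (prodChar ψ χ') A) :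
    opT R A χ' h.dvd_level' hℓ hℓN (twMap R h ψ χ' e φ) =
      twMap R h ψ χ' e (opT R A (prodChar ψ χ') h.dvd_level hℓ
        (fun hd => hℓN (hd.trans (mul_dvd_mul_left L (dvd_pow_self q two_ne_zero)))) φ) := by
  have := neZero_q (q := q) (L := L)
  have : NeZero ℓ := ⟨hℓ.ne_zero⟩
  have hℓL : ¬ ℓ ∣ L * q := fun hd =>
    hℓN (hd.trans (mul_dvd_mul_left L (dvd_pow_self q two_ne_zero)))
  have hℓq : ¬ ℓ ∣ q := fun hd => hℓN (hd.trans (dvd_mul_of_dvd_right (dvd_pow_self q two_ne_zero) L))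
  have hT := opFam_T (χ := prodChar ψ χ') h.dvd_level hℓ hℓL
  have hT' := opFam_T (χ := χ') h.dvd_level' hℓ hℓN
  have hℓM : ¬ ℓ ∣ q * M₂ := fun hd => hℓL (hd.trans h.dvd_level)
  choose σ Z hZ hdet hZ0 hZc hbal hσ using fun x : (ZMod q)ˣ × Option (ZMod ℓ) =>
    twFam_move (ψ := ψ) (χ' := χ') h e x.1 (Y := balRep (L * q ^ 2) χ' ℓ x.2)
      (v := ZMod.unitOfCoprime ℓ ((hℓ.coprime_iff_not_dvd).mpr hℓM))
      (by rw [hT'.det_eq]; simp) (hT'.dvd x.2) (hT'.coprime x.2) (hT'.bal x.2)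
  choose k δ hδ using fun x => hT.cover (Z x) (by rw [hdet, hT'.det_eq]) (hZ0 x) (hZc x) (hbal x)
  have hinj : Function.Injective fun x => (k x, σ x) := by
    rintro ⟨u, j⟩ ⟨u₂, j₂⟩ he
    obtain ⟨h1, h2⟩ := Prod.mk.injEq _ _ _ _ ▸ he
    have e1 : twFam h ψ e u * balRep (L * q ^ 2) χ' ℓ j =
        (matSL ((δ (u, j) * (δ (u₂, j₂))⁻¹ : gammaH (L * q) (prodChar ψ χ')) : SL(2, ℤ)) *
          twFam h ψ e u₂) * balRep (L * q ^ 2) χ' ℓ j₂ := by
      rw [Matrix.mul_assoc (matSL _), hZ (u₂, j₂), hδ (u₂, j₂), hZ (u, j), hδ (u, j), h1, h2,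
        Subgroup.coe_mul, Subgroup.coe_inv, matSL_mul]
      simp only [Matrix.mul_assoc, matSL_inv_mul_cancel]
    have e2 := congrArg ((twFam h ψ e u).adjugate * ·) e1
    simp only [← Matrix.mul_assoc, Matrix.adjugate_mul, det_twFam, Matrix.smul_mul, Matrix.one_mul]
      at e2
    obtain rfl : j = j₂ := hT'.eq_of_smul _ _ _ _ (fun hd => by
      rcases (Nat.prime_iff_prime_int.mp hℓ).dvd_or_dvd hd with hd | hd <;>
        exact hℓq (Int.natCast_dvd_natCast.mp hd)) e2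
    have hd : IsUnit ((balRep (L * q ^ 2) χ' ℓ j 1 1 : ℤ) : ZMod q) := by
      have hdet' := congrArg (fun z : ℤ => (z : ZMod q)) (hT'.det_eq j)
      obtain ⟨t, ht⟩ := hT'.dvd j
      rw [Matrix.det_fin_two, ht] at hdet'
      push_cast at hdet'
      simp at hdet'
      refine isUnit_of_mul_isUnit_right (x := ((balRep (L * q ^ 2) χ' ℓ j 0 0 : ℤ) : ZMod q)) ?_
      rw [hdet']
      exact (ZMod.unitOfCoprime ℓ ((hℓ.coprime_iff_not_dvd).mpr hℓq)).isUnit
    have h3 : (u : ZMod q) * ((balRep (L * q ^ 2) χ' ℓ j 1 1 : ℤ) : ZMod q) =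
        (u₂ : ZMod q) * ((balRep (L * q ^ 2) χ' ℓ j 1 1 : ℤ) : ZMod q) := by
      rw [← hσ (u, j), ← hσ (u₂, j)]
      show (σ (u, j) : ZMod q) * _ = (σ (u₂, j) : ZMod q) * _
      rw [h2]
    exact Prod.ext (Units.ext (hd.mul_right_cancel h3)) rfl
  let E := Equiv.ofBijective (fun x => (k x, σ x))
    ((Fintype.bijective_iff_injective_and_card _).mpr ⟨hinj, by simp [mul_comm]⟩)
  simp only [twMap, famTransferL_apply, opT_apply, famTransfer_comp]
  refine (famTransfer_congr _ _ E (fun x => (δ x)⁻¹) (fun x => ?_) φ).symm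
  show balRep (L * q) (prodChar ψ χ') ℓ (k x) * twFam h ψ e (σ x) =
    matSL (((δ x)⁻¹ : gammaH (L * q) (prodChar ψ χ')) : SL(2, ℤ)) *
      (twFam h ψ e x.1 * balRep (L * q ^ 2) χ' ℓ x.2)
  rw [hZ, hδ, Subgroup.coe_inv, Matrix.mul_assoc, matSL_inv_mul_cancel]

section Injective

/-- `γ ≡ 1` modulo `L q ^ k`. -/
def IsDeep (q L k : ℕ) (γ : SL(2, ℤ)) : Prop :=
  ∃ E : Matrix (Fin 2) (Fin 2) ℤ, matSL γ = 1 + ((L * q ^ k : ℕ) : ℤ) • E

omit [Fact (Odd (Nat.card D))] [NeZero (L * q)] [NeZero (L * q ^ 2)] in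
theorem exists_twConj (hq : q ≠ 0) {k : ℕ} {γ : SL(2, ℤ)} (hγ : IsDeep q L (k + 2) γ) (x : ℤ) :
    ∃ δ : SL(2, ℤ), IsDeep q L k δ ∧ twShift q x * matSL γ = matSL δ * twShift q x := by
  obtain ⟨E, hE⟩ := hγ
  set X := twShift q x
  have hqq : ((q : ℤ) * q) ≠ 0 :=
    mul_ne_zero (Nat.cast_ne_zero.mpr hq) (Nat.cast_ne_zero.mpr hq)
  set Z : Matrix (Fin 2) (Fin 2) ℤ := 1 + ((L * q ^ k : ℕ) : ℤ) • (X * E * X.adjugate)
  have hZ : X * matSL γ = Z * X := by
    simp only [Z, hE, X, Matrix.mul_add, Matrix.add_mul, Matrix.mul_one, Matrix.one_mul,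
      Matrix.smul_mul, Matrix.mul_smul, Matrix.mul_assoc, Matrix.adjugate_mul, det_twShift,
      smul_smul]
    congr 2
    push_cast
    ring
  have hdet : Z.det = 1 := by
    have := congrArg Matrix.det hZ
    rw [Matrix.det_mul, Matrix.det_mul, γ.det_coe, mul_one, det_twShift] at this
    exact (mul_eq_right₀ hqq).mp this.symm
  exact ⟨⟨Z, hdet⟩, ⟨_, rfl⟩, hZ⟩

omit [Fact (Odd (Nat.card D))] [NeZero (L * q)] [NeZero (L * q ^ 2)] in
theorem IsDeep.mono {k k' : ℕ} {γ : SL(2, ℤ)} (hγ : IsDeep q L k γ) (hk : k' ≤ k) :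
    IsDeep q L k' γ := by
  obtain ⟨E, hE⟩ := hγ
  refine ⟨((q ^ (k - k') : ℕ) : ℤ) • E, ?_⟩
  rw [hE, smul_smul]
  congr 2
  rw [← Nat.cast_mul, mul_assoc, ← pow_add, Nat.add_sub_cancel' hk]

omit [Fact (Odd (Nat.card D))] [NeZero (L * q)] [NeZero (L * q ^ 2)] in
theorem IsDeep.conj {k : ℕ} {γ : SL(2, ℤ)} (hγ : IsDeep q L k γ) (g : SL(2, ℤ)) :
    IsDeep q L k (g * γ * g⁻¹) := by
  obtain ⟨E, hE⟩ := hγ
  refine ⟨matSL g * E * matSL g⁻¹, ?_⟩
  rw [matSL_mul, matSL_mul, hE, Matrix.mul_add, Matrix.add_mul, Matrix.mul_one, Matrix.mul_smul,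
    Matrix.smul_mul, ← matSL_mul, mul_inv_cancel, matSL_one]

omit [NeZero (L * q)] [NeZero (L * q ^ 2)] in
theorem IsDeep.mem (h : TwistHyp q M₂ L) {k : ℕ} (hk : 1 ≤ k) {γ : SL(2, ℤ)}
    (hγ : IsDeep q L k γ) : γ ∈ gammaH (L * q) (prodChar ψ χ') := by
  obtain ⟨E, hE⟩ := hγ.mono hk
  have hr : ∀ r s, matSL γ r s =
      (1 : Matrix (Fin 2) (Fin 2) ℤ) r s + ((L * q : ℕ) : ℤ) * E r s := fun r s => by
    rw [hE, pow_one]; rfl
  rw [mem_gammaH_iff h.dvd_level (mem_gamma0_iff.mpr ⟨E 1 0, by rw [hr]; simp⟩)]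
  intro v hv
  rw [show v = 1 from Units.ext (by
    rw [hv, hr, Units.val_one]
    have h0 : (((L * q : ℕ) : ℤ) : ZMod (q * M₂)) = 0 :=
      (ZMod.intCast_zmod_eq_zero_iff_dvd _ _).mpr (Int.natCast_dvd_natCast.mpr h.dvd_level)
    rw [Int.cast_add, Int.cast_mul, h0]
    simp), map_one]

omit [Fact (Odd (Nat.card D))] [NeZero (L * q)] [NeZero (L * q ^ 2)] in
theorem eq_of_twShift (hq : q ≠ 0) {x : ℤ} {a b : SL(2, ℤ)}
    (e : matSL a * twShift q x = matSL b * twShift q x) : a = b :=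
  eq_of_matSL_mul ((det_twShift q x).trans_ne
    (mul_ne_zero (Nat.cast_ne_zero.mpr hq) (Nat.cast_ne_zero.mpr hq))) e

variable [IsAddTorsionFree A]

omit [Fact (Odd (Nat.card D))] [NeZero (L * q ^ 2)] in
/-- A homomorphism killing a deep congruence subgroup is zero. -/
theorem eq_zero_of_deep (k : ℕ) (φ : Coh (L * q) (prodChar ψ χ') A)
    (hφ : ∀ γ : gammaH (L * q) (prodChar ψ χ'), IsDeep q L k (γ : SL(2, ℤ)) →
      φ (Additive.ofMul γ) = 0) : φ = 0 := by
  have := neZero_q (q := q) (L := L)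
  have hL : NeZero L := ⟨(mul_ne_zero_iff.mp (NeZero.ne (L * q))).1⟩
  have : NeZero (L * q ^ k) := ⟨mul_ne_zero hL.out (pow_ne_zero _ (NeZero.ne q))⟩
  have := CongruenceSubgroup.Gamma_normal (L * q ^ k)
  refine AddMonoidHom.ext fun x => ?_
  obtain ⟨γ, rfl⟩ := Additive.ofMul.surjective x
  set n := (CongruenceSubgroup.Gamma (L * q ^ k)).index
  have hn : n ≠ 0 := Subgroup.FiniteIndex.index_ne_zero
  have hmem : ((γ ^ n : gammaH (L * q) (prodChar ψ χ')) : SL(2, ℤ)) ∈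
      CongruenceSubgroup.Gamma (L * q ^ k) := by
    rw [SubgroupClass.coe_pow]; exact Subgroup.pow_index_mem _ _
  have hdeep : IsDeep q L k ((γ ^ n : gammaH (L * q) (prodChar ψ χ')) : SL(2, ℤ)) := by
    obtain ⟨h00, h01, h10, h11⟩ := Gamma_mem.mp hmem
    have d00 := (ZMod.intCast_eq_intCast_iff_dvd_sub (b := (1 : ℤ)) (c := L * q ^ k) _).mp
      (show (((matSL ((γ ^ n : gammaH (L * q) (prodChar ψ χ')) : SL(2, ℤ))) 0 0 : ℤ) :
        ZMod (L * q ^ k)) = ((1 : ℤ) : ZMod (L * q ^ k)) by simpa using h00)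
    have d11 := (ZMod.intCast_eq_intCast_iff_dvd_sub (b := (1 : ℤ)) (c := L * q ^ k) _).mp
      (show (((matSL ((γ ^ n : gammaH (L * q) (prodChar ψ χ')) : SL(2, ℤ))) 1 1 : ℤ) :
        ZMod (L * q ^ k)) = ((1 : ℤ) : ZMod (L * q ^ k)) by simpa using h11)
    obtain ⟨a, ha⟩ := d00
    obtain ⟨d, hd⟩ := d11
    obtain ⟨b, hb⟩ := (ZMod.intCast_zmod_eq_zero_iff_dvd _ _).mp h01
    obtain ⟨c, hc⟩ := (ZMod.intCast_zmod_eq_zero_iff_dvd _ _).mp h10
    refine ⟨!![-a, b; c, -d], ?_⟩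
    ext r s
    fin_cases r <;> fin_cases s <;> simp
    · push_cast at ha; linear_combination -ha
    · simpa using hb
    · simpa using hc
    · push_cast at hd; linear_combination -hd
  have h0 := hφ _ hdeep
  rw [ofMul_pow, map_nsmul] at h0
  exact (smul_eq_zero_iff_right hn).mp h0

omit [NeZero (L * q ^ 2)] in
/-- The twists of the translates by the diamonds are jointly injective. -/
theorem eq_zero_of_twMap (h : TwistHyp q M₂ L) (φ : Coh (L * q) (prodChar ψ χ') A)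
    (h0 : twMap R h ψ χ' 0 φ = 0)
    (h1 : ∀ t : (ZMod q)ˣ, twMap R h ψ χ' 1
      (diamondAt R A (prodChar ψ χ') h.dvd_level (twGamma h ψ t)⁻¹ φ) = 0) : φ = 0 := by
  classical
  have := neZero_q (q := q) (L := L)
  have hq0 := h.prime.ne_zero
  set Γ := gammaH (L * q) (prodChar ψ χ')
  -- the two transfers on deep elements
  have hrel : ∀ (e : ℤ) (φ' : Coh (L * q) (prodChar ψ χ') A) (γ : Γ) (δ : (ZMod q)ˣ → Γ),
      IsDeep q L 3 (γ : SL(2, ℤ)) →
      (∀ u, twShift q (twArg e u) * matSL (γ : SL(2, ℤ)) =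
        matSL (δ u : SL(2, ℤ)) * twShift q (twArg e u)) →
      twMap R h ψ χ' e φ' = 0 →
      ∑ u, diamondAt R A (prodChar ψ χ') h.dvd_level (twGamma h ψ u) φ' (Additive.ofMul (δ u)) = 0 := by
    intro e φ' γ δ hγ hδ hz
    have hmem : (γ : SL(2, ℤ)) ∈ gammaH (L * q ^ 2) χ' := by
      obtain ⟨E, hE⟩ := hγ.mono (show 2 ≤ 3 by norm_num)
      have hr : ∀ r s, matSL (γ : SL(2, ℤ)) r s =
          (1 : Matrix (Fin 2) (Fin 2) ℤ) r s + ((L * q ^ 2 : ℕ) : ℤ) * E r s := fun r s => by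
        rw [hE]; rfl
      rw [mem_gammaH_iff h.dvd_level' (mem_gamma0_iff.mpr ⟨E 1 0, by rw [hr]; simp⟩)]
      intro v hv
      rw [show v = 1 from Units.ext (by
        rw [hv, hr, Units.val_one]
        have h0 : (((L * q ^ 2 : ℕ) : ℤ) : ZMod M₂) = 0 :=
          (ZMod.intCast_zmod_eq_zero_iff_dvd _ _).mpr (Int.natCast_dvd_natCast.mpr h.dvd_level')
        rw [Int.cast_add, Int.cast_mul, h0]
        simp), map_one]
    have hz' := DFunLike.congr_fun hz (Additive.ofMul (⟨γ, hmem⟩ : gammaH (L * q ^ 2) χ'))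
    rw [twMap, famTransferL_apply, famTransfer_apply (isFam_tw h e) φ' ⟨γ, hmem⟩ (σ := 1)
      (δ := fun u => ⟨_, conj_mem_gammaH h.dvd_level (twGamma h ψ u) (δ u).2⟩) (fun u => by
        show twFam h ψ e u * matSL (γ : SL(2, ℤ)) = matSL _ * twFam h ψ e u
        rw [twFam, Matrix.mul_assoc, hδ, matSL_mul, matSL_mul, Matrix.mul_assoc,
          Matrix.mul_assoc, matSL_inv_mul_cancel, ← Matrix.mul_assoc])] at hz'
    refine Eq.trans (Finset.sum_congr rfl fun u _ => ?_) hz'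
    exact diamondAt_apply_apply h.dvd_level (twGamma h ψ u) φ' (δ u) rfl
  -- the sum of the translates vanishes
  have hS : ∑ u, diamondAt R A (prodChar ψ χ') h.dvd_level (twGamma h ψ u) φ = 0 := by
    refine eq_zero_of_deep 3 _ fun γ hγ => ?_
    rw [AddMonoidHom.finsetSum_apply]
    refine hrel 0 φ γ (fun _ => γ) hγ (fun u => ?_) h0
    simp only [twArg, zero_mul]
    ext r s
    fin_cases r <;> fin_cases s <;> simp [twShift, Matrix.mul_apply, Fin.sum_univ_two] <;> ring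
  -- the translates along the shifts
  have hF : ∀ γ : {γ : SL(2, ℤ) // IsDeep q L 5 γ}, ∀ x : ℤ, ∃ δ : Γ, IsDeep q L 3 (δ : SL(2, ℤ)) ∧
      twShift q x * matSL γ.1 = matSL (δ : SL(2, ℤ)) * twShift q x := fun γ x => by
    obtain ⟨δ, hd, hδ⟩ := exists_twConj hq0 γ.2 x
    exact ⟨⟨δ, hd.mem h (by norm_num)⟩, hd, hδ⟩
  choose F hF3 hFeq using hF
  have hFper : ∀ γ (x y : ℤ) (ψ' : Coh (L * q) (prodChar ψ χ') A),
      (x : ZMod q) = y → ψ' (Additive.ofMul (F γ x)) = ψ' (Additive.ofMul (F γ y)) := by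
    intro γ x y ψ' hxy
    obtain ⟨m, hm⟩ := (ZMod.intCast_eq_intCast_iff_dvd_sub x y q).mp hxy
    have hT : (T : SL(2, ℤ)) ^ m ∈ Γ := by
      rw [mem_gammaH_iff h.dvd_level (mem_gamma0_iff.mpr (by simp [matSL, coe_T_zpow]))]
      intro v hv
      rw [show v = 1 from Units.ext (by rw [hv, Units.val_one]; simp [matSL, coe_T_zpow]), map_one]
    have hsh : matSL ((T : SL(2, ℤ)) ^ m) * twShift q x = twShift q y := by
      rw [show y = x + q * m by linarith]
      ext r s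
      fin_cases r <;> fin_cases s <;>
        simp [twShift, matSL, coe_T_zpow, Matrix.mul_apply, Fin.sum_univ_two]
      ring
    have e1 : F γ y = ⟨_, hT⟩ * F γ x * (⟨_, hT⟩ : Γ)⁻¹ := Subtype.ext <| eq_of_twShift hq0 (x := y) <| by
      rw [← hFeq γ y, ← hsh]
      simp only [Subgroup.coe_mul, Subgroup.coe_inv, matSL_mul, Matrix.mul_assoc,
        matSL_inv_mul_cancel]
      rw [hFeq γ x]
    rw [e1, ofMul_mul, ofMul_mul, ofMul_inv, map_add, map_add, map_neg, add_neg_cancel_comm]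
  -- `h1` on the shifted elements
  have hrel1 : ∀ (γ : {γ : SL(2, ℤ) // IsDeep q L 7 γ}) (t : (ZMod q)ˣ) (z : ℤ),
      ∑ u, diamondAt R A (prodChar ψ χ') h.dvd_level (twGamma h ψ u)
        (diamondAt R A (prodChar ψ χ') h.dvd_level (twGamma h ψ t)⁻¹ φ)
        (Additive.ofMul (F ⟨γ.1, γ.2.mono (by norm_num)⟩ (twArg 1 u + z))) = 0 := by
    intro γ t z
    obtain ⟨γz, hz5, hzeq⟩ := exists_twConj hq0 γ.2 z
    refine hrel 1 _ ⟨γz, hz5.mem h (by norm_num)⟩ _ (hz5.mono (by norm_num)) (fun u => ?_)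
      (h1 t)
    set X := twShift q (twArg 1 u)
    set Y := matSL ((F ⟨γ.1, γ.2.mono (by norm_num)⟩ (twArg 1 u + z) : Γ) : SL(2, ℤ))
    refine mul_right_cancel_of_det_ne_zero (g := twShift q z) (by
      rw [det_twShift]; exact mul_ne_zero (Nat.cast_ne_zero.mpr hq0) (Nat.cast_ne_zero.mpr hq0)) ?_
    rw [Matrix.mul_assoc, ← hzeq, ← Matrix.mul_assoc, twShift_mul, Matrix.smul_mul,
      hFeq ⟨γ.1, γ.2.mono (by norm_num)⟩, Matrix.mul_assoc, twShift_mul, Matrix.mul_smul]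
  -- the classes of the square roots
  set r : (ZMod q)ˣ → D := fun u => ψ (twRoot ψ u)
  have hrinj : ∀ {a b : D}, a * a = b * b → a = b := fun {a b} hab =>
    div_eq_one.mp (eq_one_of_sq_eq_one (by rw [div_mul_div_comm, hab, div_self']))
  have hrmul : ∀ u v, r (u * v) = r u * r v := fun u v => hrinj (by
    simp only [r]; rw [twRoot_spec, mul_mul_mul_comm, twRoot_spec, twRoot_spec, map_mul])
  have hclass : ∀ u t, diamondAt R A (prodChar ψ χ') h.dvd_level (twGamma h ψ u)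
      (diamondAt R A (prodChar ψ χ') h.dvd_level (twGamma h ψ t)⁻¹ φ) =
      diamondAt R A (prodChar ψ χ') h.dvd_level (twGamma h ψ (u * t⁻¹)) φ := by
    intro u t
    rw [← Module.End.mul_apply, ← diamondAt_mul,
      diamondAt_eq h.dvd_level (g' := twGamma h ψ (u * t⁻¹)) ?_]
    rw [map_mul, map_inv, map_mul, map_inv, prodChar_twGamma, prodChar_twGamma, prodChar_twGamma]
    have := hrmul (u * t⁻¹) t
    rw [inv_mul_cancel_right] at this
    show (r t)⁻¹ * r u = r (u * t⁻¹)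
    rw [this, mul_comm (r (u * t⁻¹)), inv_mul_cancel_left]
  have hneg1 : diamondAt R A (prodChar ψ χ') h.dvd_level (twGamma h ψ (-1)) φ = φ := by
    rw [diamondAt_eq h.dvd_level (g' := 1) ?_, diamondAt_one]
    · rfl
    rw [prodChar_twGamma, map_one, map_one]
    refine eq_one_of_sq_eq_one ?_
    rw [twRoot_spec, map_neg_one_eq_one]
  -- invariance along the shifts
  have hinv : ∀ (γ : {γ : SL(2, ℤ) // IsDeep q L 7 γ}) (x : ℤ),
      φ (Additive.ofMul (F ⟨γ.1, γ.2.mono (by norm_num)⟩ x)) =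
        φ (Additive.ofMul ⟨γ.1, γ.2.mem h (by norm_num)⟩) := by
    intro γ x
    set G : ZMod q → Coh (L * q) (prodChar ψ χ') A →+ A := fun w =>
      { toFun := fun ψ' => ψ' (Additive.ofMul (F ⟨γ.1, γ.2.mono (by norm_num)⟩ (w.val : ℤ)))
        map_zero' := rfl
        map_add' := fun _ _ => rfl }
    have hG : ∀ (w : ℤ) ψ', ψ' (Additive.ofMul (F ⟨γ.1, γ.2.mono (by norm_num)⟩ w)) =
        G (w : ZMod q) ψ' := fun w ψ' => hFper _ _ _ _ (by simp)
    set c : ZMod q → A := fun w => G w φ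
    have main : ∀ z : ZMod q, (q : ℤ) • c z = ∑ w, c w := by
      intro z
      have hz : ∀ t u : (ZMod q)ˣ,
          (((twArg 1 u + ((t : ZMod q).val + (z.val : ℤ)) : ℤ)) : ZMod q) = u + t + z := fun t u => by
        simp [twArg, add_assoc]
      have hdouble : ∑ t : (ZMod q)ˣ, ∑ u : (ZMod q)ˣ, G ((u : ZMod q) + t + z)
          (diamondAt R A (prodChar ψ χ') h.dvd_level (twGamma h ψ (u * t⁻¹)) φ) = 0 :=
        Finset.sum_eq_zero fun t _ => by
          have := hrel1 γ t ((t : ZMod q).val + (z.val : ℤ))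
          simp only [hclass, hG, hz] at this
          exact this
      -- reindex by the ratio
      have hre : ∀ t : (ZMod q)ˣ, ∑ u : (ZMod q)ˣ, G ((u : ZMod q) + t + z)
          (diamondAt R A (prodChar ψ χ') h.dvd_level (twGamma h ψ (u * t⁻¹)) φ) =
          ∑ s : (ZMod q)ˣ, G (((s : ZMod q) + 1) * t + z)
            (diamondAt R A (prodChar ψ χ') h.dvd_level (twGamma h ψ s) φ) := fun t => by
        refine Fintype.sum_equiv (Equiv.mulRight t⁻¹) _ _ fun u => ?_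
        simp [add_mul, mul_assoc]
      simp only [hre] at hdouble
      rw [Finset.sum_comm] at hdouble
      have : Fact q.Prime := ⟨h.prime⟩
      have hrow : ∀ s : (ZMod q)ˣ, s ≠ -1 → ∀ ψ', ∑ t : (ZMod q)ˣ,
          G (((s : ZMod q) + 1) * t + z) ψ' = ∑ t : (ZMod q)ˣ, G ((t : ZMod q) + z) ψ' := by
        intro s hs ψ'
        have hne : (s : ZMod q) + 1 ≠ 0 := fun e0 =>
          hs (Units.ext (by rw [Units.val_neg, Units.val_one]; exact eq_neg_of_add_eq_zero_left e0))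
        refine Fintype.sum_equiv (Equiv.mulLeft (Units.mk0 _ hne)) _ _ fun t => ?_
        simp
      rw [← Finset.add_sum_erase _ _ (Finset.mem_univ (-1 : (ZMod q)ˣ)),
        Finset.sum_congr rfl (fun s hs => hrow s (Finset.ne_of_mem_erase hs) _)] at hdouble
      have herase : ∑ s ∈ Finset.univ.erase (-1 : (ZMod q)ˣ),
          ∑ t : (ZMod q)ˣ, G ((t : ZMod q) + z)
            (diamondAt R A (prodChar ψ χ') h.dvd_level (twGamma h ψ s) φ) =
          -∑ t : (ZMod q)ˣ, c ((t : ZMod q) + z) := by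
        rw [Finset.sum_comm, ← Finset.sum_neg_distrib]
        refine Finset.sum_congr rfl fun t _ => ?_
        rw [← map_sum, Finset.sum_erase_eq_sub (Finset.mem_univ _), hS, hneg1, zero_sub, map_neg]
      rw [herase, hneg1] at hdouble
      simp only [Units.val_neg, Units.val_one, neg_add_cancel, zero_mul, zero_add] at hdouble
      rw [Finset.sum_const, Finset.card_univ, ZMod.card_units] at hdouble
      have hsum : ∑ w, c w = c z + ∑ t : (ZMod q)ˣ, c ((t : ZMod q) + z) := by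
        rw [← Equiv.sum_comp (Equiv.addRight z) c,
          ← Finset.add_sum_erase _ _ (Finset.mem_univ (0 : ZMod q))]
        congr 1
        · simp
        · refine Finset.sum_bij' (fun w hw => Units.mk0 w (Finset.ne_of_mem_erase hw))
            (fun t _ => (t : ZMod q)) (fun _ _ => Finset.mem_univ _)
            (fun t _ => by simp [t.ne_zero]) (fun _ _ => rfl) (fun _ _ => Units.ext rfl)
            (fun w hw => by simp)
      rw [add_neg_eq_zero] at hdouble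
      rw [hsum, ← hdouble, natCast_zsmul]
      show q • c z = c z + (q - 1) • c z
      rw [← succ_nsmul', Nat.sub_add_cancel h.prime.one_le]
    have hc : ∀ z, c z = c 0 := fun z =>
      smul_right_injective A (show (q : ℤ) ≠ 0 by exact_mod_cast hq0) ((main z).trans (main 0).symm)
    have h00 : F ⟨γ.1, γ.2.mono (by norm_num)⟩ 0 = ⟨γ.1, γ.2.mem h (by norm_num)⟩ :=
      Subtype.ext <| eq_of_twShift hq0 (x := 0) <| by
        rw [← hFeq]
        ext r s
        fin_cases r <;> fin_cases s <;> simp [twShift, Matrix.mul_apply, Fin.sum_univ_two] <;> ring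
    calc φ (Additive.ofMul (F ⟨γ.1, γ.2.mono (by norm_num)⟩ x)) = c (x : ZMod q) := hG x φ
      _ = c ((0 : ℤ) : ZMod q) := by rw [hc, Int.cast_zero]
      _ = φ (Additive.ofMul (F ⟨γ.1, γ.2.mono (by norm_num)⟩ 0)) := (hG 0 φ).symm
      _ = _ := by rw [h00]
  -- every diamond fixes `φ`
  have hfix : ∀ u, diamondAt R A (prodChar ψ χ') h.dvd_level (twGamma h ψ u) φ = φ := by
    intro u
    have : Fact q.Prime := ⟨h.prime⟩
    set v := twRoot ψ u
    obtain ⟨y, hy⟩ : ∃ y : ℤ, (1 + (L : ZMod q) * y) * (v : ZMod q) = 1 := by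
      have hL : (L : ZMod q) ≠ 0 := by
        rw [Ne, ZMod.natCast_eq_zero_iff]; exact h.not_dvd
      refine ⟨((((v⁻¹ : (ZMod q)ˣ) : ZMod q) - 1) / (L : ZMod q)).val, ?_⟩
      rw [Int.cast_natCast, ZMod.natCast_val, ZMod.cast_id', id, mul_div_cancel₀ _ hL,
        add_sub_cancel, Units.inv_mul]
    set x' : ℤ := -((v : ZMod q).val : ℤ)
    obtain ⟨b, hb⟩ : (q : ℤ) ∣ 1 + x' + x' * ((L : ℤ) * y) := by
      rw [← ZMod.intCast_zmod_eq_zero_iff_dvd]
      simp only [x']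
      push_cast
      simp only [ZMod.natCast_val, ZMod.cast_id', id_eq]
      linear_combination -hy
    set g₁ : SL(2, ℤ) := slMk (1 + (L : ℤ) * y) b ((L : ℤ) * q * y) (1 + (L : ℤ) * x' * y)
      (by linear_combination ((L : ℤ) * y) * hb)
    have hg₁ : g₁ ∈ Gamma0 (L * q) := mem_gamma0_iff.mpr ⟨y, by simp [g₁]⟩
    have hM₂ : ((L : ℤ) : ZMod M₂) = 0 :=
      (ZMod.intCast_zmod_eq_zero_iff_dvd _ _).mpr (Int.natCast_dvd_natCast.mpr h.dvd)
    have hgc : prodChar ψ χ' (dUnit h.dvd_level ⟨g₁, hg₁⟩) = ψ v := by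
      have hd := coe_dUnit h.dvd_level (⟨g₁, hg₁⟩ : Gamma0 (L * q))
      rw [prodChar_apply, show ZMod.unitsMap (dvd_mul_right q M₂) (dUnit h.dvd_level ⟨g₁, hg₁⟩) = v
        from Units.ext (by
          rw [coe_unitsMap_eq _ hd]
          simp [g₁, x']
          linear_combination -hy),
        show ZMod.unitsMap (dvd_mul_left M₂ q) (dUnit h.dvd_level ⟨g₁, hg₁⟩) = 1
        from Units.ext (by
          rw [coe_unitsMap_eq _ hd]
          rw [Int.cast_natCast] at hM₂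
          simp [g₁, hM₂]), map_one, mul_one]
    rw [diamondAt_eq h.dvd_level (g' := ⟨g₁, hg₁⟩) (by rw [prodChar_twGamma, hgc])]
    refine sub_eq_zero.mp (eq_zero_of_deep 9 _ fun γ hγ => ?_)
    rw [AddMonoidHom.sub_apply, diamondAt_apply_apply h.dvd_level ⟨g₁, hg₁⟩ φ γ
      (δ := ⟨_, conj_mem_gammaH h.dvd_level ⟨g₁, hg₁⟩ γ.2⟩) rfl, sub_eq_zero]
    -- conjugation by `g₁` is shift, lower unipotent, shift
    set C : SL(2, ℤ) := slMk 1 0 ((L : ℤ) * q * y) 1 (by ring)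
    have hC : C ∈ Γ := by
      rw [mem_gammaH_iff h.dvd_level (mem_gamma0_iff.mpr ⟨y, by simp [C]⟩)]
      intro w hw
      rw [show w = 1 from Units.ext (by rw [hw, Units.val_one]; simp [C]), map_one]
    have hfac : twShift q 1 * matSL C * twShift q x' = ((q : ℤ) * q) • matSL g₁ := by
      ext r s
      fin_cases r <;> fin_cases s <;>
        simp [twShift, g₁, C, Matrix.mul_apply, Fin.sum_univ_two] <;>
        first | ring1 | linear_combination (q : ℤ) * hb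
    obtain ⟨γ', hγ'7, hγ'⟩ := exists_twConj hq0 (k := 7) hγ x'
    set γ₂ : {γ : SL(2, ℤ) // IsDeep q L 7 γ} := ⟨C * γ' * C⁻¹, hγ'7.conj C⟩
    have hF1 : F ⟨γ₂.1, γ₂.2.mono (by norm_num)⟩ 1 = ⟨_, conj_mem_gammaH h.dvd_level ⟨g₁, hg₁⟩ γ.2⟩ := by
      refine Subtype.ext <| eq_of_twShift hq0 (x := 1) <| ?_
      rw [← hFeq]
      refine mul_right_cancel_of_det_ne_zero (g := matSL C * twShift q x') (by
        rw [Matrix.det_mul, C.det_coe, one_mul, det_twShift]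
        exact mul_ne_zero (Nat.cast_ne_zero.mpr hq0) (Nat.cast_ne_zero.mpr hq0)) ?_
      simp only [γ₂, matSL_mul, Matrix.mul_assoc, matSL_inv_mul_cancel]
      rw [← hγ', ← Matrix.mul_assoc (matSL C), ← Matrix.mul_assoc (twShift q 1),
        ← Matrix.mul_assoc (twShift q 1), hfac]
      simp only [Matrix.mul_smul, Matrix.smul_mul, ← matSL_mul, inv_mul_cancel, mul_one]
    rw [← hF1, hinv γ₂ 1]
    have hγ'mem : γ' ∈ Γ := hγ'7.mem h (by norm_num)
    rw [show (⟨γ₂.1, γ₂.2.mem h (by norm_num)⟩ : Γ) = ⟨C, hC⟩ * ⟨γ', hγ'mem⟩ * (⟨C, hC⟩ : Γ)⁻¹ from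
      Subtype.ext rfl, ofMul_mul, ofMul_mul, ofMul_inv, map_add, map_add, map_neg, add_neg_cancel_comm]
    have h5 : IsDeep q L 7 (γ : SL(2, ℤ)) := hγ.mono (by norm_num)
    have e5 : F ⟨(γ : SL(2, ℤ)), h5.mono (by norm_num)⟩ x' = ⟨γ', hγ'mem⟩ :=
      Subtype.ext <| eq_of_twShift hq0 (x := x') <| by rw [← hFeq, hγ']
    rw [← e5, hinv ⟨(γ : SL(2, ℤ)), h5⟩ x']
  refine AddMonoidHom.ext fun x => ?_
  have hx := DFunLike.congr_fun hS x
  rw [AddMonoidHom.finsetSum_apply, Finset.sum_congr rfl (fun u _ => by rw [hfix u]), Finset.sum_const,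
    Finset.card_univ, AddMonoidHom.zero_apply] at hx
  exact (smul_eq_zero_iff_right Fintype.card_ne_zero).mp hx

end Injective

end FLTAgent.RT
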